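/-
PROJECT S52 (3–5 switch), package [DET] (helper3), part 1: abstract Tate module lemmas.

For a frame `F : TmodFrame J p` (S58 [TMOD]) and an additive endomorphism `f` of `J` whose action
on the level-`k` basis `(F.x.1 k, F.y.1 k)` is given by the integer matrix `[[a, b], [c, d]]`
(columns = images), the transport `F.endo f` has matrix `≡ [[a, b], [c, d]]` modulo `p ^ k`; in
particular `det (F.endo f) ≡ a d - b c` and `trace (F.endo f) ≡ a + d` modulo `p ^ k`.

Also: a frame with prescribed level-one components (any two independent `p`-torsion points).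
-/
import Mathlib
import Fermat.Agent.S58.TMOD_helper4_Main

set_option autoImplicit false
set_option linter.style.haveILetI false
set_option linter.unusedSectionVars false
set_option linter.unusedVariables false

namespace Fermat.Agent.S52x

open Fermat.Agent.S58 Fermat.Agent.GR

section Abstract

variable {J : Type*} [AddCommGroup J] {p : ℕ} [hp : Fact p.Prime]

/-- the value of `Ψ` on an integer vector -/
theorem psi_intCast_apply (F : TmodFrame J p) (a c : ℤ) (k : ℕ) :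
    (F.psi ![(a : ℤ_[p]), (c : ℤ_[p])]).1 k = a • F.x.1 k + c • F.y.1 k := by
  rw [TmodFrame.psi_apply]
  show ((((a : ℤ_[p])).appr k : ℕ) : ℤ) • F.x.1 k + ((((c : ℤ_[p])).appr k : ℕ) : ℤ) • F.y.1 k = _
  rw [tmod_zsmul_congr (TateSeq.pow_smul F.x k) (tmod_dvd_appr_sub (a := a) (by rw [map_intCast])),
    tmod_zsmul_congr (TateSeq.pow_smul F.y k) (tmod_dvd_appr_sub (a := c) (by rw [map_intCast]))]

/-- the first column of the transported endomorphism modulo `p ^ k` -/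
theorem endo_single_zero_congr (F : TmodFrame J p) (f : AddMonoid.End J) (k : ℕ) (a c : ℤ)
    (h : f (F.x.1 k) = a • F.x.1 k + c • F.y.1 k) :
    ∃ v' : Fin 2 → ℤ_[p], F.endo f ![1, 0] - ![(a : ℤ_[p]), (c : ℤ_[p])] = (p : ℤ_[p]) ^ k • v' := by
  apply F.exists_eq_smul_of_psi_comp_eq_zero
  rw [map_sub]
  show (F.psi (F.endo f ![1, 0])).1 k - (F.psi ![(a : ℤ_[p]), (c : ℤ_[p])]).1 k = 0
  rw [TmodFrame.psi_endo_apply, psi_intCast_apply, TmodFrame.psi_single_zero,
    TmodFrame.one_appr_smul, h, sub_self]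

/-- the second column of the transported endomorphism modulo `p ^ k` -/
theorem endo_single_one_congr (F : TmodFrame J p) (f : AddMonoid.End J) (k : ℕ) (b d : ℤ)
    (h : f (F.y.1 k) = b • F.x.1 k + d • F.y.1 k) :
    ∃ v' : Fin 2 → ℤ_[p], F.endo f ![0, 1] - ![(b : ℤ_[p]), (d : ℤ_[p])] = (p : ℤ_[p]) ^ k • v' := by
  apply F.exists_eq_smul_of_psi_comp_eq_zero
  rw [map_sub]
  show (F.psi (F.endo f ![0, 1])).1 k - (F.psi ![(b : ℤ_[p]), (d : ℤ_[p])]).1 k = 0
  rw [TmodFrame.psi_endo_apply, psi_intCast_apply, TmodFrame.psi_single_one,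
    TmodFrame.one_appr_smul, h, sub_self]

/-- **the matrix of the transported endomorphism modulo `p ^ k`** -/
theorem toMatrix_endo_congr (F : TmodFrame J p) (f : AddMonoid.End J) (k : ℕ) (a b c d : ℤ)
    (hx : f (F.x.1 k) = a • F.x.1 k + c • F.y.1 k)
    (hy : f (F.y.1 k) = b • F.x.1 k + d • F.y.1 k) :
    ∃ r00 r01 r10 r11 : ℤ_[p],
      LinearMap.toMatrix' (F.endo f) 0 0 = (a : ℤ_[p]) + (p : ℤ_[p]) ^ k * r00 ∧
      LinearMap.toMatrix' (F.endo f) 0 1 = (b : ℤ_[p]) + (p : ℤ_[p]) ^ k * r01 ∧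
      LinearMap.toMatrix' (F.endo f) 1 0 = (c : ℤ_[p]) + (p : ℤ_[p]) ^ k * r10 ∧
      LinearMap.toMatrix' (F.endo f) 1 1 = (d : ℤ_[p]) + (p : ℤ_[p]) ^ k * r11 := by
  obtain ⟨v, hv⟩ := endo_single_zero_congr F f k a c hx
  obtain ⟨w, hw⟩ := endo_single_one_congr F f k b d hy
  have e0 : (Pi.single 0 1 : Fin 2 → ℤ_[p]) = ![1, 0] := by
    funext i; fin_cases i <;> simp
  have e1 : (Pi.single 1 1 : Fin 2 → ℤ_[p]) = ![0, 1] := by
    funext i; fin_cases i <;> simp
  refine ⟨v 0, w 0, v 1, w 1, ?_, ?_, ?_, ?_⟩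
  · rw [LinearMap.toMatrix'_apply, e0]
    have := congrFun hv 0
    simp only [Pi.sub_apply, Pi.smul_apply, smul_eq_mul, Matrix.cons_val_zero] at this
    linear_combination this
  · rw [LinearMap.toMatrix'_apply, e1]
    have := congrFun hw 0
    simp only [Pi.sub_apply, Pi.smul_apply, smul_eq_mul, Matrix.cons_val_zero] at this
    linear_combination this
  · rw [LinearMap.toMatrix'_apply, e0]
    have := congrFun hv 1
    simp only [Pi.sub_apply, Pi.smul_apply, smul_eq_mul, Matrix.cons_val_one, Matrix.cons_val_zero] at this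
    linear_combination this
  · rw [LinearMap.toMatrix'_apply, e1]
    have := congrFun hw 1
    simp only [Pi.sub_apply, Pi.smul_apply, smul_eq_mul, Matrix.cons_val_one, Matrix.cons_val_zero] at this
    linear_combination this

/-- **the determinant of the transported endomorphism modulo `p ^ k`** -/
theorem det_endo_congr (F : TmodFrame J p) (f : AddMonoid.End J) (k : ℕ) (a b c d : ℤ)
    (hx : f (F.x.1 k) = a • F.x.1 k + c • F.y.1 k)
    (hy : f (F.y.1 k) = b • F.x.1 k + d • F.y.1 k) :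
    ∃ r : ℤ_[p], LinearMap.det (F.endo f) = ((a * d - b * c : ℤ) : ℤ_[p]) + (p : ℤ_[p]) ^ k * r := by
  obtain ⟨r00, r01, r10, r11, h00, h01, h10, h11⟩ := toMatrix_endo_congr F f k a b c d hx hy
  refine ⟨(a : ℤ_[p]) * r11 + r00 * d + (p : ℤ_[p]) ^ k * r00 * r11 - (b : ℤ_[p]) * r10 - r01 * c -
    (p : ℤ_[p]) ^ k * r01 * r10, ?_⟩
  rw [← LinearMap.det_toMatrix', Matrix.det_fin_two, h00, h01, h10, h11]
  push_cast
  ring

/-- **the trace of the transported endomorphism modulo `p ^ k`** -/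
theorem trace_endo_congr (F : TmodFrame J p) (f : AddMonoid.End J) (k : ℕ) (a b c d : ℤ)
    (hx : f (F.x.1 k) = a • F.x.1 k + c • F.y.1 k)
    (hy : f (F.y.1 k) = b • F.x.1 k + d • F.y.1 k) :
    ∃ r : ℤ_[p], (LinearMap.toMatrix' (F.endo f)).trace =
      ((a + d : ℤ) : ℤ_[p]) + (p : ℤ_[p]) ^ k * r := by
  obtain ⟨r00, r01, r10, r11, h00, h01, h10, h11⟩ := toMatrix_endo_congr F f k a b c d hx hy
  refine ⟨r00 + r11, ?_⟩
  rw [Matrix.trace_fin_two, h00, h11]
  push_cast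
  ring

/-- an integer which is `≡ 0` modulo `p ^ k` in `ℤ_[p]` is divisible by `p ^ k` -/
theorem dvd_of_intCast_eq_pow_mul {n : ℤ} {k : ℕ} {r : ℤ_[p]}
    (h : (n : ℤ_[p]) = (p : ℤ_[p]) ^ k * r) : ((p : ℤ) ^ k) ∣ n := by
  have h2 : (p : ℤ_[p]) ^ k ∣ ((n : ℤ) : ℤ_[p]) := by
    rw [h]; exact dvd_mul_right _ _
  have := (PadicInt.pow_p_dvd_int_iff k n).mp h2
  exact_mod_cast this

/-- **a frame with prescribed level-one components**: two independent `p`-torsion points of a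
group whose `p`-torsion has `p²` elements and whose `p`-power torsion is `p`-divisible are the
level-one components of a frame. -/
theorem exists_frame_of_indep (hcard : Nat.card {P : J // p • P = 0} = p ^ 2)
    (hdiv : ∀ P : J, (∃ n : ℕ, p ^ n • P = 0) → ∃ Q : J, p • Q = P)
    (P Q : J) (hP : p • P = 0) (hQ : p • Q = 0)
    (hind : ∀ x y : ℤ, x • P + y • Q = 0 → (p : ℤ) ∣ x ∧ (p : ℤ) ∣ y) :
    ∃ F : TmodFrame J p, F.x.1 1 = P ∧ F.y.1 1 = Q := by
  classical
  obtain ⟨x, hx⟩ := tmod_exists_tateSeq hdiv P hP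
  obtain ⟨y, hy⟩ := tmod_exists_tateSeq hdiv Q hQ
  have hp0 : p ≠ 0 := hp.out.ne_zero
  haveI : Finite {R : J // p • R = 0} :=
    Nat.finite_of_card_ne_zero (by rw [hcard]; exact pow_ne_zero _ hp0)
  -- the map `(i, j) ↦ i P + j Q`
  let g : Fin p × Fin p → {R : J // p • R = 0} := fun ij =>
    ⟨(ij.1 : ℕ) • P + (ij.2 : ℕ) • Q, by
      rw [smul_add, smul_comm p, smul_comm p (ij.2 : ℕ), hP, hQ, smul_zero, smul_zero, add_zero]⟩
  have hg : Function.Injective g := by
    rintro ⟨i, j⟩ ⟨i', j'⟩ h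
    have h1 : ((i : ℕ) : ℤ) • P + ((j : ℕ) : ℤ) • Q = ((i' : ℕ) : ℤ) • P + ((j' : ℕ) : ℤ) • Q := by
      have := congrArg Subtype.val h
      simpa only [natCast_zsmul] using this
    have h2 : (((i : ℕ) : ℤ) - ((i' : ℕ) : ℤ)) • P + (((j : ℕ) : ℤ) - ((j' : ℕ) : ℤ)) • Q = 0 := by
      rw [sub_smul, sub_smul]
      have : ((i : ℕ) : ℤ) • P - ((i' : ℕ) : ℤ) • P + (((j : ℕ) : ℤ) • Q - ((j' : ℕ) : ℤ) • Q) =
          (((i : ℕ) : ℤ) • P + ((j : ℕ) : ℤ) • Q) - (((i' : ℕ) : ℤ) • P + ((j' : ℕ) : ℤ) • Q) := by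
        abel
      rw [this, h1, sub_self]
    obtain ⟨d1, d2⟩ := hind _ _ h2
    have key : ∀ u v : Fin p, (p : ℤ) ∣ ((u : ℕ) : ℤ) - ((v : ℕ) : ℤ) → u = v := by
      intro u v huv
      have hu := u.2
      have hv := v.2
      have habs : |((u : ℕ) : ℤ) - ((v : ℕ) : ℤ)| < (p : ℤ) := by
        rw [abs_lt]; constructor <;> omega
      have h0 := Int.eq_zero_of_abs_lt_dvd huv habs
      apply Fin.ext
      omega
    rw [key i i' d1, key j j' d2]
  have hbij : Function.Bijective g := by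
    apply hg.bijective_of_nat_card_le
    rw [hcard, Nat.card_prod, Nat.card_eq_fintype_card, Fintype.card_fin, sq]
  refine ⟨⟨x, y, ?_, ?_⟩, hx, hy⟩
  · rw [hx, hy]; exact hind
  · intro z hz
    obtain ⟨⟨i, j⟩, hij⟩ := hbij.2 ⟨z, hz⟩
    refine ⟨((i : ℕ) : ℤ), ((j : ℕ) : ℤ), ?_⟩
    rw [hx, hy, natCast_zsmul, natCast_zsmul]
    exact (congrArg Subtype.val hij).symm

end Abstract

end Fermat.Agent.S52x
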