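/-
PROJECT S52 (3–5 switch), package [DET] (helper3), part 2: the `p`-adic Tate module of an integral
Weierstrass model `W` (nonzero discriminant, `p` odd) has cyclotomic determinant, and the
characteristic polynomial of EVERY Frobenius element at a good prime `q ≠ p` is `X² - a_q X + q`.

* `galAct W`, `galAct_cont W` — the Galois action on `E(ℚ̄)` in the shape consumed by S58 [TMOD];
* `tate_frobeniusQuadraticOutside`, `tate_exists_not_isScalarEnd` — the two inputs of the lead's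
  `GR.detIsCyclotomic_of_frobeniusQuadratic`;
* `tate_detIsCyclotomic`, `tate_charpoly_frobenius`.
-/
import Mathlib
import Fermat.Agent.S52x.DET_helper3_Abstract
import Fermat.Agent.S58.ECTATE_helper9_Fin
import Fermat.Agent.GR.DET_lead_Main

set_option autoImplicit false
set_option linter.style.haveILetI false
set_option linter.unusedSectionVars false
set_option linter.unusedVariables false

namespace Fermat.Agent.S52x

open Polynomial Fermat.Agent.S58 Fermat.Agent.GR Fermat.Agent.TW.Kill IsLocalRing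
open WeierstrassCurve WeierstrassCurve.Affine
open scoped WeierstrassCurve.Affine

/-- `Ω = AlgebraicClosure ℚ`. -/
local notation "Ω" => AlgebraicClosure ℚ
/-- `GQ = Gal(Ω/ℚ)`. -/
local notation "GQ" => (AlgebraicClosure ℚ ≃ₐ[ℚ] AlgebraicClosure ℚ)

section Tate

variable (W : WeierstrassCurve ℤ)

/-- the Galois action on `E(ℚ̄)` as a monoid homomorphism into the additive endomorphisms -/
noncomputable def galAct : GQ →* AddMonoid.End (W⁄Ω).Point :=
  DistribMulAction.toAddMonoidEnd GQ (W⁄Ω).Point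

@[simp] theorem galAct_apply (σ : GQ) (P : (W⁄Ω).Point) : galAct W σ P = σ • P := rfl

theorem galAct_cont (p : ℕ) : TmodCont p (galAct W) :=
  fun P _ => asm58_exists_fixingField W P

/-- the exceptional set of primes: `p` and the primes of bad reduction -/
def detBadSet (p : ℕ) : Finset ℕ := insert p W.Δ.natAbs.primeFactors

theorem mem_detBadSet_self (p : ℕ) : p ∈ detBadSet W p := Finset.mem_insert_self _ _

theorem good_of_notMem_detBadSet (hΔ : W.Δ ≠ 0) {p q : ℕ} (hq : q.Prime)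
    (h : q ∉ detBadSet W p) : q ≠ p ∧ W.IsGoodPrimeFor q := by
  unfold detBadSet at h
  rw [Finset.mem_insert, not_or] at h
  refine ⟨h.1, fun hdvd => h.2 ?_⟩
  rw [Nat.mem_primeFactors]
  refine ⟨hq, ?_, Int.natAbs_ne_zero.2 hΔ⟩
  exact Int.natCast_dvd.1 hdvd

theorem notMem_detBadSet {p q : ℕ} (hqp : q ≠ p) (hgood : W.IsGoodPrimeFor q) :
    q ∉ detBadSet W p := by
  unfold detBadSet
  rw [Finset.mem_insert, not_or]
  refine ⟨hqp, fun h => hgood ?_⟩
  exact Int.natCast_dvd.2 (Nat.dvd_of_mem_primeFactors h)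

theorem baseChange_Δ_ne_zero (hΔ : W.Δ ≠ 0) : (W⁄Ω).Δ ≠ 0 := by
  have h1 : (W⁄Ω).Δ = ((W.Δ : ℤ) : Ω) := by
    simp [WeierstrassCurve.baseChange, WeierstrassCurve.map_Δ]
  rw [h1]
  exact_mod_cast hΔ

variable {p : ℕ} [Fact p.Prime]

theorem natCast_mem_maximalIdeal_padicInt : (p : ℤ_[p]) ∈ maximalIdeal ℤ_[p] := by
  rw [PadicInt.maximalIdeal_eq_span_p]
  exact Ideal.subset_span rfl

/-- the Frobenius relation on the `p`-power torsion -/
theorem galAct_frobenius_relation (hp2 : p ≠ 2) {ℓ : ℕ} (hℓ : ℓ.Prime) (hℓp : ℓ ≠ p)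
    (hgood : W.IsGoodPrimeFor ℓ) (A : ValuationSubring Ω) (hA : A.LiesOverPrime ℓ) (σ : GQ)
    (hσ : A.IsFrobeniusAt σ ℓ) (P : (W⁄Ω).Point) (hP : ∃ n : ℕ, p ^ n • P = 0) :
    galAct W σ (galAct W σ P) - (W.apOfModel ℓ) • galAct W σ P + (ℓ : ℤ) • P = 0 := by
  have hp : p.Prime := Fact.out
  obtain ⟨n, hP⟩ := hP
  have hodd : Odd (p ^ n) := (hp.odd_of_ne_two hp2).pow
  have hndvd : ¬ ℓ ∣ p ^ n := fun h =>
    hℓp ((Nat.prime_dvd_prime_iff_eq hℓ hp).mp (hℓ.dvd_of_dvd_pow h))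
  exact e2_frobenius_relation_Qbar W hℓ hgood (asm58_e2FrobRel W hℓ hgood) A hA hσ hodd hndvd hP

theorem tate_frobeniusQuadraticOutside (hΔ : W.Δ ≠ 0) (hp2 : p ≠ 2)
    (F : TmodFrame (W⁄Ω).Point p) :
    FrobeniusQuadraticOutside (F.rep (galAct W) (galAct_cont W p)) (detBadSet W p)
      (fun q => ((W.apOfModel q : ℤ) : ℤ_[p])) := by
  intro q hq hqT A hA φ hφ
  obtain ⟨hqp, hgood⟩ := good_of_notMem_detBadSet W hΔ hq hqT
  have := F.rep_quadratic (galAct W) (galAct_cont W p) φ (W.apOfModel q) (q : ℤ)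
    (fun P hP => galAct_frobenius_relation W hp2 hq hqp hgood A hA φ hφ P hP)
  rw [Int.cast_natCast] at this
  exact this

/-- Frobenius elements at good primes `ℓ ≠ p` never act as scalars on the Tate module -/
theorem tate_frobenius_not_isScalarEnd (hΔ : W.Δ ≠ 0) (hp2 : p ≠ 2)
    (F : TmodFrame (W⁄Ω).Point p) {ℓ : ℕ} (hℓ : ℓ.Prime) (hℓp : ℓ ≠ p)
    (hgood : W.IsGoodPrimeFor ℓ) (A : ValuationSubring Ω) (hA : A.LiesOverPrime ℓ) (σ : GQ)
    (hσ : A.IsFrobeniusAt σ ℓ) :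
    ¬ IsScalarEnd ((F.rep (galAct W) (galAct_cont W p)).ρ σ) := by
  classical
  have hp : p.Prime := Fact.out
  have hcard1 : Nat.card {P : (W⁄Ω).Point // p • P = 0} = p ^ 2 :=
    Fermat.Agent.EC.card_torsion_eq (baseChange_Δ_ne_zero W hΔ) hp hp2
  have hdiv : ∀ P : (W⁄Ω).Point, ∃ Q : (W⁄Ω).Point, p • Q = P :=
    fun P => Fermat.Agent.EC.qbar_divisible W hΔ hp hp2 P
  intro hs
  exact e2_frobenius_not_scalar_Qbar' W hℓ hgood (e2KerBound_of_good W hℓ hgood) A hA hσ hp hp2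
    (Ne.symm hℓp) hcard1 hdiv (F.rep_scalar (galAct W) (galAct_cont W p) σ hs)

theorem tate_exists_not_isScalarEnd (hΔ : W.Δ ≠ 0) (hp2 : p ≠ 2)
    (F : TmodFrame (W⁄Ω).Point p) :
    ∃ c : GQ, ¬ IsScalarEnd ((F.rep (galAct W) (galAct_cont W p)).ρ c) := by
  obtain ⟨q, hqge, hq⟩ := Nat.exists_infinite_primes ((detBadSet W p).sup id + 1)
  have hqT : q ∉ detBadSet W p := by
    intro hmem
    have : q ≤ (detBadSet W p).sup id := Finset.le_sup (f := id) hmem
    omega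
  obtain ⟨hqp, hgood⟩ := good_of_notMem_detBadSet W hΔ hq hqT
  haveI : Fact q.Prime := ⟨hq⟩
  have hP₀ : (padicPlace q).LiesOverPrime q := padicPlace_liesOverPrime q
  obtain ⟨φ₀, hφ₀⟩ := exists_isFrobeniusAt (padicPlace q) hq hP₀
  exact ⟨φ₀, tate_frobenius_not_isScalarEnd W hΔ hp2 F hq hqp hgood _ hP₀ φ₀ hφ₀⟩

/-- **the determinant of the `p`-adic Tate module is the `p`-adic cyclotomic character** -/
theorem tate_detIsCyclotomic (hΔ : W.Δ ≠ 0) (hp2 : p ≠ 2) (F : TmodFrame (W⁄Ω).Point p) :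
    (F.rep (galAct W) (galAct_cont W p)).DetIsCyclotomic p := by
  obtain ⟨c, hc⟩ := tate_exists_not_isScalarEnd W hΔ hp2 F
  exact detIsCyclotomic_of_frobeniusQuadratic natCast_mem_maximalIdeal_padicInt
    (mem_detBadSet_self W p) (tate_frobeniusQuadraticOutside W hΔ hp2 F) hc

/-- **the characteristic polynomial of every Frobenius element at a good prime `q ≠ p`** -/
theorem tate_charpoly_frobenius (hΔ : W.Δ ≠ 0) (hp2 : p ≠ 2) (F : TmodFrame (W⁄Ω).Point p)
    {q : ℕ} (hq : q.Prime) (hqp : q ≠ p) (hgood : W.IsGoodPrimeFor q)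
    {A : ValuationSubring Ω} (hA : A.LiesOverPrime q) {φ : GQ} (hφ : A.IsFrobeniusAt φ q) :
    ((F.rep (galAct W) (galAct_cont W p)).ρ φ).charpoly =
      X ^ 2 - C ((W.apOfModel q : ℤ) : ℤ_[p]) * X + C ((q : ℕ) : ℤ_[p]) :=
  charpoly_eq_of_quadratic (F.rep (galAct W) (galAct_cont W p)).finrank_eq
    (tate_frobeniusQuadraticOutside W hΔ hp2 F q hq (notMem_detBadSet W hqp hgood) A hA φ hφ)
    (tate_frobenius_not_isScalarEnd W hΔ hp2 F hq hqp hgood A hA φ hφ)

end Tate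

end Fermat.Agent.S52x
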