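/-
PROJECT S52 (3–5 switch), packages [DET] + [TRACE] (helper3), part 3: the statements modulo `p`,
in terms of an arbitrary basis `(P, Q)` of `E[p](ℚ̄)` (`W` an integral Weierstrass model with
`Δ ≠ 0`, `p` an odd prime; "basis" = two independent `p`-torsion points).

If `σ P = a P + c Q` and `σ Q = b P + d Q` (integers `a b c d`) then

* `det_mod_eq_cyclotomic` : `a d - b c ≡ e mod p` whenever `σ μ = μ ^ e` for all `p`-th roots of
  unity `μ` (`det ρ̄_{E,p} = ε̄_p`); `det_mod_eq_cyclotomic_of_primitiveRoot` : same with one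
  primitive `p`-th root of unity;
* `trace_det_frobenius_mod` : for a Frobenius element `σ` at a good prime `ℓ ≠ p`,
  `a + d ≡ a_ℓ` and `a d - b c ≡ ℓ mod p`;
* `apOfModel_congr_of_same_matrix` ([TRACE]): two models whose `p`-torsion carries the same
  matrices have `a_ℓ ≡ a'_ℓ mod p` at every common good prime `ℓ ≠ p`.
-/
import Mathlib
import Fermat.Agent.S52x.DET_helper3_Tate

set_option autoImplicit false
set_option linter.style.haveILetI false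
set_option linter.unusedSectionVars false
set_option linter.unusedVariables false

namespace Fermat.Agent.S52x

open Polynomial Fermat.Agent.S58 Fermat.Agent.GR Fermat.Agent.TW.Kill IsLocalRing
open WeierstrassCurve WeierstrassCurve.Affine
open scoped WeierstrassCurve.Affine

/-- `Ω = AlgebraicClosure ℚ`. -/
local notation "Ω" => AlgebraicClosure ℚ
/-- `GQ = Gal(Ω/ℚ)`. -/
local notation "GQ" => (AlgebraicClosure ℚ ≃ₐ[ℚ] AlgebraicClosure ℚ)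

section ModP

variable (W : WeierstrassCurve ℤ) {p : ℕ} [Fact p.Prime]

/-- a frame of the Tate module with prescribed level-one components -/
theorem exists_tate_frame (hΔ : W.Δ ≠ 0) (hp2 : p ≠ 2) (P Q : (W⁄Ω).Point)
    (hP : p • P = 0) (hQ : p • Q = 0)
    (hind : ∀ x y : ℤ, x • P + y • Q = 0 → (p : ℤ) ∣ x ∧ (p : ℤ) ∣ y) :
    ∃ F : TmodFrame (W⁄Ω).Point p, F.x.1 1 = P ∧ F.y.1 1 = Q := by
  classical
  have hp : p.Prime := Fact.out
  have hcard1 : Nat.card {P : (W⁄Ω).Point // p • P = 0} = p ^ 2 :=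
    Fermat.Agent.EC.card_torsion_eq (baseChange_Δ_ne_zero W hΔ) hp hp2
  have hdiv : ∀ P : (W⁄Ω).Point, ∃ Q : (W⁄Ω).Point, p • Q = P :=
    fun P => Fermat.Agent.EC.qbar_divisible W hΔ hp hp2 P
  exact exists_frame_of_indep hcard1 (fun P _ => hdiv P) P Q hP hQ hind

/-- every pair of independent `p`-torsion points spans the `p`-torsion -/
theorem span_of_indep (hΔ : W.Δ ≠ 0) (hp2 : p ≠ 2) (P Q : (W⁄Ω).Point)
    (hP : p • P = 0) (hQ : p • Q = 0)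
    (hind : ∀ x y : ℤ, x • P + y • Q = 0 → (p : ℤ) ∣ x ∧ (p : ℤ) ∣ y)
    (R : (W⁄Ω).Point) (hR : p • R = 0) : ∃ x y : ℤ, R = x • P + y • Q := by
  obtain ⟨F, hx, hy⟩ := exists_tate_frame W hΔ hp2 P Q hP hQ hind
  obtain ⟨x, y, h⟩ := F.span R hR
  exact ⟨x, y, by rw [h, hx, hy]⟩

/-- **`det ρ̄_{E,p} = ε̄_p`**, basis form. -/
theorem det_mod_eq_cyclotomic (hΔ : W.Δ ≠ 0) (hp2 : p ≠ 2) (P Q : (W⁄Ω).Point)
    (hP : p • P = 0) (hQ : p • Q = 0)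
    (hind : ∀ x y : ℤ, x • P + y • Q = 0 → (p : ℤ) ∣ x ∧ (p : ℤ) ∣ y)
    (σ : GQ) (a b c d : ℤ) (hσP : σ • P = a • P + c • Q) (hσQ : σ • Q = b • P + d • Q)
    (e : ℕ) (he : ∀ μ : Ω, μ ^ p = 1 → σ μ = μ ^ e) :
    (p : ℤ) ∣ a * d - b * c - e := by
  obtain ⟨F, hx, hy⟩ := exists_tate_frame W hΔ hp2 P Q hP hQ hind
  have hdet0 := (tate_detIsCyclotomic W hΔ hp2 F).2 1 σ e (by simpa using he)
  have hdet : LinearMap.det (F.endo (galAct W σ)) - ((e : ℕ) : ℤ_[p]) ∈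
      Ideal.span {((p ^ 1 : ℕ) : ℤ_[p])} := hdet0
  obtain ⟨r, hr⟩ := det_endo_congr F (galAct W σ) 1 a b c d
    (by rw [hx, hy]; exact hσP) (by rw [hx, hy]; exact hσQ)
  rw [hr, pow_one, Ideal.mem_span_singleton'] at hdet
  obtain ⟨s, hs⟩ := hdet
  have h1 : ((a * d - b * c - e : ℤ) : ℤ_[p]) = (p : ℤ_[p]) ^ 1 * (s - r) := by
    push_cast at hs ⊢
    rw [pow_one] at hs ⊢
    linear_combination -hs
  have := dvd_of_intCast_eq_pow_mul h1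
  simpa using this

/-- **`det ρ̄_{E,p} = ε̄_p`**, basis form, with one primitive `p`-th root of unity. -/
theorem det_mod_eq_cyclotomic_of_primitiveRoot (hΔ : W.Δ ≠ 0) (hp2 : p ≠ 2)
    (P Q : (W⁄Ω).Point) (hP : p • P = 0) (hQ : p • Q = 0)
    (hind : ∀ x y : ℤ, x • P + y • Q = 0 → (p : ℤ) ∣ x ∧ (p : ℤ) ∣ y)
    (σ : GQ) (a b c d : ℤ) (hσP : σ • P = a • P + c • Q) (hσQ : σ • Q = b • P + d • Q)
    (ζ : Ω) (hζ : IsPrimitiveRoot ζ p) (e : ℕ) (he : σ ζ = ζ ^ e) :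
    (p : ℤ) ∣ a * d - b * c - e := by
  have hp : p.Prime := Fact.out
  haveI : NeZero p := ⟨hp.ne_zero⟩
  refine det_mod_eq_cyclotomic W hΔ hp2 P Q hP hQ hind σ a b c d hσP hσQ e fun μ hμ => ?_
  obtain ⟨i, -, rfl⟩ := hζ.eq_pow_of_pow_eq_one hμ
  rw [map_pow, he, ← pow_mul, ← pow_mul, mul_comm]

/-- **trace and determinant of Frobenius modulo `p`**, basis form. -/
theorem trace_det_frobenius_mod (hΔ : W.Δ ≠ 0) (hp2 : p ≠ 2) (P Q : (W⁄Ω).Point)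
    (hP : p • P = 0) (hQ : p • Q = 0)
    (hind : ∀ x y : ℤ, x • P + y • Q = 0 → (p : ℤ) ∣ x ∧ (p : ℤ) ∣ y)
    {ℓ : ℕ} (hℓ : ℓ.Prime) (hℓp : ℓ ≠ p) (hgood : W.IsGoodPrimeFor ℓ)
    (A : ValuationSubring Ω) (hA : A.LiesOverPrime ℓ) (σ : GQ) (hσ : A.IsFrobeniusAt σ ℓ)
    (a b c d : ℤ) (hσP : σ • P = a • P + c • Q) (hσQ : σ • Q = b • P + d • Q) :
    (p : ℤ) ∣ a + d - W.apOfModel ℓ ∧ (p : ℤ) ∣ a * d - b * c - ℓ := by
  obtain ⟨F, hx, hy⟩ := exists_tate_frame W hΔ hp2 P Q hP hQ hind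
  have hchar0 := tate_charpoly_frobenius W hΔ hp2 F hℓ hℓp hgood hA hσ
  have hchar : LinearMap.charpoly (F.endo (galAct W σ)) =
      X ^ 2 - C ((W.apOfModel ℓ : ℤ) : ℤ_[p]) * X + C ((ℓ : ℕ) : ℤ_[p]) := hchar0
  set M : Matrix (Fin 2) (Fin 2) ℤ_[p] := LinearMap.toMatrix' (F.endo (galAct W σ)) with hM
  have hMchar : M.charpoly =
      X ^ 2 - C ((W.apOfModel ℓ : ℤ) : ℤ_[p]) * X + C ((ℓ : ℕ) : ℤ_[p]) := by
    rw [hM, ← LinearMap.toMatrix_eq_toMatrix', LinearMap.charpoly_toMatrix]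
    exact hchar
  rw [Matrix.charpoly_fin_two] at hMchar
  have htr : M.trace = ((W.apOfModel ℓ : ℤ) : ℤ_[p]) := by
    have := congrArg (fun P : ℤ_[p][X] => P.coeff 1) hMchar
    simp only [coeff_add, coeff_sub, coeff_X_pow, coeff_C_mul, coeff_X_one, coeff_C] at this
    simpa using this
  have hdet : M.det = ((ℓ : ℕ) : ℤ_[p]) := by
    have := congrArg (fun P : ℤ_[p][X] => P.coeff 0) hMchar
    simp only [coeff_add, coeff_sub, coeff_X_pow, coeff_C_mul, coeff_X_zero, coeff_C_zero] at this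
    simpa using this
  have hxk : galAct W σ (F.x.1 1) = a • F.x.1 1 + c • F.y.1 1 := by rw [hx, hy]; exact hσP
  have hyk : galAct W σ (F.y.1 1) = b • F.x.1 1 + d • F.y.1 1 := by rw [hx, hy]; exact hσQ
  constructor
  · obtain ⟨r, hr⟩ := trace_endo_congr F (galAct W σ) 1 a b c d hxk hyk
    rw [← hM, htr] at hr
    have h1 : ((a + d - W.apOfModel ℓ : ℤ) : ℤ_[p]) = (p : ℤ_[p]) ^ 1 * (-r) := by
      push_cast at hr ⊢
      linear_combination -hr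
    have := dvd_of_intCast_eq_pow_mul h1
    simpa using this
  · obtain ⟨r, hr⟩ := det_endo_congr F (galAct W σ) 1 a b c d hxk hyk
    rw [← LinearMap.det_toMatrix', ← hM, hdet] at hr
    have h1 : ((a * d - b * c - (ℓ : ℤ) : ℤ) : ℤ_[p]) = (p : ℤ_[p]) ^ 1 * (-r) := by
      push_cast at hr ⊢
      linear_combination -hr
    have := dvd_of_intCast_eq_pow_mul h1
    simpa using this

/-- **[TRACE]**: two integral models whose `p`-torsion modules carry the same matrices (in two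
chosen bases) for a Frobenius element at a common good prime `ℓ ≠ p` have congruent `a_ℓ`. -/
theorem apOfModel_congr_of_same_matrix_frobenius (W' : WeierstrassCurve ℤ)
    (hΔ : W.Δ ≠ 0) (hΔ' : W'.Δ ≠ 0) (hp2 : p ≠ 2)
    (P Q : (W⁄Ω).Point) (hP : p • P = 0) (hQ : p • Q = 0)
    (hind : ∀ x y : ℤ, x • P + y • Q = 0 → (p : ℤ) ∣ x ∧ (p : ℤ) ∣ y)
    (P' Q' : (W'⁄Ω).Point) (hP' : p • P' = 0) (hQ' : p • Q' = 0)
    (hind' : ∀ x y : ℤ, x • P' + y • Q' = 0 → (p : ℤ) ∣ x ∧ (p : ℤ) ∣ y)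
    {ℓ : ℕ} (hℓ : ℓ.Prime) (hℓp : ℓ ≠ p) (hgood : W.IsGoodPrimeFor ℓ)
    (hgood' : W'.IsGoodPrimeFor ℓ)
    (A : ValuationSubring Ω) (hA : A.LiesOverPrime ℓ) (σ : GQ) (hσ : A.IsFrobeniusAt σ ℓ)
    (a b c d : ℤ) (hσP : σ • P = a • P + c • Q) (hσQ : σ • Q = b • P + d • Q)
    (hσP' : σ • P' = a • P' + c • Q') (hσQ' : σ • Q' = b • P' + d • Q') :
    (p : ℤ) ∣ W'.apOfModel ℓ - W.apOfModel ℓ := by
  have h1 := (trace_det_frobenius_mod W hΔ hp2 P Q hP hQ hind hℓ hℓp hgood A hA σ hσ a b c d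
    hσP hσQ).1
  have h2 := (trace_det_frobenius_mod W' hΔ' hp2 P' Q' hP' hQ' hind' hℓ hℓp hgood' A hA σ hσ
    a b c d hσP' hσQ').1
  have : W'.apOfModel ℓ - W.apOfModel ℓ =
      (a + d - W.apOfModel ℓ) - (a + d - W'.apOfModel ℓ) := by ring
  rw [this]
  exact dvd_sub h1 h2

/-- **[TRACE]**: two integral models whose `p`-torsion modules carry the same Galois matrices (in
two chosen bases) have `a_ℓ ≡ a'_ℓ mod p` at every common good prime `ℓ ≠ p`. -/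
theorem apOfModel_congr_of_same_matrix (W' : WeierstrassCurve ℤ)
    (hΔ : W.Δ ≠ 0) (hΔ' : W'.Δ ≠ 0) (hp2 : p ≠ 2)
    (P Q : (W⁄Ω).Point) (hP : p • P = 0) (hQ : p • Q = 0)
    (hind : ∀ x y : ℤ, x • P + y • Q = 0 → (p : ℤ) ∣ x ∧ (p : ℤ) ∣ y)
    (P' Q' : (W'⁄Ω).Point) (hP' : p • P' = 0) (hQ' : p • Q' = 0)
    (hind' : ∀ x y : ℤ, x • P' + y • Q' = 0 → (p : ℤ) ∣ x ∧ (p : ℤ) ∣ y)
    (hsame : ∀ σ : GQ, ∃ a b c d : ℤ, σ • P = a • P + c • Q ∧ σ • Q = b • P + d • Q ∧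
      σ • P' = a • P' + c • Q' ∧ σ • Q' = b • P' + d • Q')
    {ℓ : ℕ} (hℓ : ℓ.Prime) (hℓp : ℓ ≠ p) (hgood : W.IsGoodPrimeFor ℓ)
    (hgood' : W'.IsGoodPrimeFor ℓ) :
    (p : ℤ) ∣ W'.apOfModel ℓ - W.apOfModel ℓ := by
  haveI : Fact ℓ.Prime := ⟨hℓ⟩
  have hP₀ : (padicPlace ℓ).LiesOverPrime ℓ := padicPlace_liesOverPrime ℓ
  obtain ⟨φ₀, hφ₀⟩ := exists_isFrobeniusAt (padicPlace ℓ) hℓ hP₀
  obtain ⟨a, b, c, d, h1, h2, h3, h4⟩ := hsame φ₀
  exact apOfModel_congr_of_same_matrix_frobenius W W' hΔ hΔ' hp2 P Q hP hQ hind P' Q' hP' hQ'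
    hind' hℓ hℓp hgood hgood' _ hP₀ φ₀ hφ₀ a b c d h1 h2 h3 h4

end ModP

end Fermat.Agent.S52x
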