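import Mathlib

/-!
# Klein's icosahedral forms (definitions for the S52x project)

Plain functions on a commutative ring / field `K`.  The fifth root of unity is an explicit
argument `ζ : K`; the lemmas assume `ζ ^ 4 + ζ ^ 3 + ζ ^ 2 + ζ + 1 = 0`.

* `kleinF`, `kleinH`, `kleinT` : the invariants of degrees 12, 20, 30 (`T² + H³ = 1728 f⁵`);
* `kleinFu`, `kleinFv` : the partial derivatives of `f`; the covariant is `Φ = (f_v, −f_u)`;
* `kleinSu`, `kleinSv`, `kleinTu`, `kleinTv` : the generators `S = diag(ζ³, ζ²)` and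
  `Tm = (1/√5) [[−a, b], [b, a]]` of the binary icosahedral group, as coordinate functions;
* `kleinR ζ = √5`, `kleinA ζ = ζ − ζ⁴`, `kleinB ζ = ζ² − ζ³`;
* `kleinXs ζ`, `kleinYs ζ` : coordinates of the section `s₀` (forms of degree 10, 15 in `(u,v)`,
  i.e. of degree 2, 3 in `(u⁵, v⁵)`);
* `kleinXt`, `kleinYt` : coordinates of the section `t₀` (integer coefficients).

The curve is `ℰ_w : Y² = X³ + 27·H(w)·X + 54·T(w)`.
-/

namespace Fermat.Agent.S52x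

section ring

variable {K : Type*} [CommRing K]

/-- Klein's invariant of degree 12. -/
def kleinF (u v : K) : K := u * v * (u ^ 10 + 11 * u ^ 5 * v ^ 5 - v ^ 10)

/-- Klein's invariant of degree 20 (`c₄ = −H`). -/
def kleinH (u v : K) : K :=
  -(u ^ 20 + v ^ 20) + 228 * (u ^ 15 * v ^ 5 - u ^ 5 * v ^ 15) - 494 * u ^ 10 * v ^ 10

/-- Klein's invariant of degree 30 (`c₆ = −T`). -/
def kleinT (u v : K) : K :=
  (u ^ 30 + v ^ 30) + 522 * (u ^ 25 * v ^ 5 - u ^ 5 * v ^ 25) -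
    10005 * (u ^ 20 * v ^ 10 + u ^ 10 * v ^ 20)

/-- `∂f/∂u`.  The covariant is `Φ = (f_v, −f_u) = (kleinFv, −kleinFu)`. -/
def kleinFu (u v : K) : K := 11 * u ^ 10 * v + 66 * u ^ 5 * v ^ 6 - v ^ 11

/-- `∂f/∂v`.  The covariant is `Φ = (f_v, −f_u) = (kleinFv, −kleinFu)`. -/
def kleinFv (u v : K) : K := u ^ 11 + 66 * u ^ 6 * v ^ 5 - 11 * u * v ^ 10

/-- `√5 = ζ + ζ⁴ − ζ² − ζ³`. -/
def kleinR (ζ : K) : K := ζ + ζ ^ 4 - ζ ^ 2 - ζ ^ 3

/-- `a = ζ − ζ⁴`. -/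
def kleinA (ζ : K) : K := ζ - ζ ^ 4

/-- `b = ζ² − ζ³`. -/
def kleinB (ζ : K) : K := ζ ^ 2 - ζ ^ 3

/-- `X`-coordinate of the section `t₀ = s₀ ∘ Tm` (integer coefficients). -/
def kleinXt (u v : K) : K :=
  3 * u ^ 10 + 36 * u ^ 8 * v ^ 2 - 36 * u ^ 7 * v ^ 3 + 72 * u ^ 6 * v ^ 4 + 90 * u ^ 5 * v ^ 5 +
    180 * u ^ 4 * v ^ 6 + 108 * u ^ 3 * v ^ 7 + 72 * u ^ 2 * v ^ 8 + 36 * u * v ^ 9 + 3 * v ^ 10

/-- `Y`-coordinate of the section `t₀ = s₀ ∘ Tm` (integer coefficients). -/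
def kleinYt (u v : K) : K :=
  108 * u ^ 13 * v ^ 2 + 108 * u ^ 12 * v ^ 3 + 432 * u ^ 11 * v ^ 4 + 540 * u ^ 9 * v ^ 6 +
    648 * u ^ 8 * v ^ 7 + 2268 * u ^ 7 * v ^ 8 + 3132 * u ^ 6 * v ^ 9 + 2700 * u ^ 5 * v ^ 10 +
    1620 * u ^ 4 * v ^ 11 + 972 * u ^ 3 * v ^ 12 + 432 * u ^ 2 * v ^ 13 + 108 * u * v ^ 14

theorem klein_syzygy (u v : K) : kleinT u v ^ 2 + kleinH u v ^ 3 = 1728 * kleinF u v ^ 5 := by
  unfold kleinT kleinH kleinF
  ring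

/-- Euler: `u f_u + v f_v = 12 f`, i.e. `det (w | Φ(w)) = −12 f(w)` for `Φ = (f_v, −f_u)`. -/
theorem klein_euler (u v : K) : u * kleinFu u v + v * kleinFv u v = 12 * kleinF u v := by
  unfold kleinFu kleinFv kleinF
  ring

/-- The generator `S = diag(ζ³, ζ²)` of the binary icosahedral group: first coordinate of `S w`. -/
def kleinSu (ζ u _v : K) : K := ζ ^ 3 * u

/-- Second coordinate of `S w`. -/
def kleinSv (ζ _u v : K) : K := ζ ^ 2 * v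

theorem kleinR_sq (ζ : K) (hζ : ζ ^ 4 + ζ ^ 3 + ζ ^ 2 + ζ + 1 = 0) : kleinR ζ ^ 2 = 5 := by
  unfold kleinR
  linear_combination (ζ ^ 4 - 3 * ζ ^ 3 + ζ ^ 2 + 5 * ζ - 5) * hζ

theorem kleinA_mul_kleinB (ζ : K) (hζ : ζ ^ 4 + ζ ^ 3 + ζ ^ 2 + ζ + 1 = 0) :
    kleinA ζ * kleinB ζ = -kleinR ζ := by
  unfold kleinA kleinB kleinR
  linear_combination (ζ ^ 3 - 2 * ζ ^ 2 + ζ) * hζ

end ring

section field

variable {K : Type*} [Field K]

/-- `X`-coordinate of the section `s₀` (the `μ₅`-point). -/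
def kleinXs (ζ u v : K) : K :=
  ((-75 + 18 * kleinR ζ) * u ^ 10 + 198 * kleinR ζ * u ^ 5 * v ^ 5 +
    (-75 - 18 * kleinR ζ) * v ^ 10) / 5

/-- `Y`-coordinate of the section `s₀` (the `μ₅`-point). -/
def kleinYs (ζ u v : K) : K :=
  108 / 5 * ((kleinA ζ - 2 * kleinB ζ) * u ^ 15 + (9 * kleinA ζ - 23 * kleinB ζ) * u ^ 10 * v ^ 5 -
    (23 * kleinA ζ + 9 * kleinB ζ) * u ^ 5 * v ^ 10 + (2 * kleinA ζ + kleinB ζ) * v ^ 15)

/-- The generator `Tm = (1/√5) [[−a, b], [b, a]]`: first coordinate of `Tm w`. -/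
def kleinTu (ζ u v : K) : K := (-(kleinA ζ) * u + kleinB ζ * v) / kleinR ζ

/-- Second coordinate of `Tm w`. -/
def kleinTv (ζ u v : K) : K := (kleinB ζ * u + kleinA ζ * v) / kleinR ζ

end field

end Fermat.Agent.S52x
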