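/-
PROJECT S52 (3–5 switch), package [ABS] (helper7), part 1: elementary algebra of Klein's forms
needed to instantiate helper9's abstract interface `KleinAbs` — equivariance under ring
homomorphisms, homogeneity, polynomiality along lines, Euler's relation for the covariant
`Φ = (f_v, −f_u)`, absence of common zeros of `H` and `T`, `T(i, 1) = 0`, and the group-theoretic
form of the change of the fifth root of unity.
-/
import Mathlib
import Fermat.Agent.S52x.KALG_helper4_Defs
import Fermat.Agent.S52x.UNIV_helper4_Main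

set_option autoImplicit false

namespace Fermat.Agent.S52x

section maps

variable {K L F : Type*} [CommRing K] [CommRing L] [FunLike F K L] [RingHomClass F K L] (f : F)

theorem map_kleinF (u v : K) : f (kleinF u v) = kleinF (f u) (f v) := by
  unfold kleinF
  simp only [map_add, map_sub, map_mul, map_pow, map_ofNat]

theorem map_kleinH (u v : K) : f (kleinH u v) = kleinH (f u) (f v) := by
  unfold kleinH
  simp only [map_add, map_sub, map_mul, map_pow, map_neg, map_ofNat]

theorem map_kleinT (u v : K) : f (kleinT u v) = kleinT (f u) (f v) := by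
  unfold kleinT
  simp only [map_add, map_sub, map_mul, map_pow, map_ofNat]

theorem map_kleinFu (u v : K) : f (kleinFu u v) = kleinFu (f u) (f v) := by
  unfold kleinFu
  simp only [map_add, map_sub, map_mul, map_pow, map_ofNat]

theorem map_kleinFv (u v : K) : f (kleinFv u v) = kleinFv (f u) (f v) := by
  unfold kleinFv
  simp only [map_add, map_sub, map_mul, map_pow, map_ofNat]

theorem map_kleinXt (u v : K) : f (kleinXt u v) = kleinXt (f u) (f v) := by
  unfold kleinXt
  simp only [map_add, map_sub, map_mul, map_pow, map_ofNat]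

theorem map_kleinYt (u v : K) : f (kleinYt u v) = kleinYt (f u) (f v) := by
  unfold kleinYt
  simp only [map_add, map_mul, map_pow, map_ofNat]

theorem map_kleinR (ζ : K) : f (kleinR ζ) = kleinR (f ζ) := by
  unfold kleinR
  simp only [map_add, map_sub, map_pow]

theorem map_kleinA (ζ : K) : f (kleinA ζ) = kleinA (f ζ) := by
  unfold kleinA
  simp only [map_sub, map_pow]

theorem map_kleinB (ζ : K) : f (kleinB ζ) = kleinB (f ζ) := by
  unfold kleinB
  simp only [map_sub, map_pow]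

end maps

section fieldmaps

variable {K L F : Type*} [Field K] [Field L] [FunLike F K L] [RingHomClass F K L] (f : F)

theorem map_kleinXs (ζ u v : K) : f (kleinXs ζ u v) = kleinXs (f ζ) (f u) (f v) := by
  unfold kleinXs
  simp only [map_div₀, map_add, map_sub, map_mul, map_pow, map_neg, map_ofNat, map_kleinR]

theorem map_kleinYs (ζ u v : K) : f (kleinYs ζ u v) = kleinYs (f ζ) (f u) (f v) := by
  unfold kleinYs
  simp only [map_div₀, map_add, map_sub, map_mul, map_pow, map_ofNat, map_kleinA, map_kleinB]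

end fieldmaps

section homogeneity

variable {K : Type*} [CommRing K]

theorem kleinF_scale (l u v : K) : kleinF (l * u) (l * v) = l ^ 12 * kleinF u v := by
  unfold kleinF
  ring

theorem kleinH_scale (l u v : K) : kleinH (l * u) (l * v) = l ^ 20 * kleinH u v := by
  unfold kleinH
  ring

theorem kleinT_scale (l u v : K) : kleinT (l * u) (l * v) = l ^ 30 * kleinT u v := by
  unfold kleinT
  ring

theorem kleinFu_scale (l u v : K) : kleinFu (l * u) (l * v) = l ^ 11 * kleinFu u v := by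
  unfold kleinFu
  ring

theorem kleinFv_scale (l u v : K) : kleinFv (l * u) (l * v) = l ^ 11 * kleinFv u v := by
  unfold kleinFv
  ring

theorem kleinXt_scale (l u v : K) : kleinXt (l * u) (l * v) = l ^ 10 * kleinXt u v := by
  unfold kleinXt
  ring

theorem kleinYt_scale (l u v : K) : kleinYt (l * u) (l * v) = l ^ 15 * kleinYt u v := by
  unfold kleinYt
  ring

/-- Euler's relation for the covariant `Φ = (f_v, −f_u)`: `det (w | Φ(w)) = −12 f(w)`. -/
theorem klein_euler_cov (u v : K) : u * (-kleinFu u v) - v * kleinFv u v = -12 * kleinF u v := by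
  linear_combination (-1 : K) * klein_euler u v

/-- `T(i, 1) = 0` for `i² = −1`. -/
theorem kleinT_cm (i : K) (hi : i ^ 2 = -1) : kleinT i 1 = 0 := by
  unfold kleinT
  have h4 : i ^ 4 = 1 := by
    have : i ^ 4 = (i ^ 2) ^ 2 := by ring
    rw [this, hi]; ring
  have e30 : i ^ 30 = -1 := by
    have : i ^ 30 = (i ^ 4) ^ 7 * i ^ 2 := by ring
    rw [this, h4, hi]; ring
  have e25 : i ^ 25 = i := by
    have : i ^ 25 = (i ^ 4) ^ 6 * i := by ring
    rw [this, h4]; ring
  have e5 : i ^ 5 = i := by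
    have : i ^ 5 = i ^ 4 * i := by ring
    rw [this, h4]; ring
  have e20 : i ^ 20 = 1 := by
    have : i ^ 20 = (i ^ 4) ^ 5 := by ring
    rw [this, h4]; ring
  have e10 : i ^ 10 = -1 := by
    have : i ^ 10 = (i ^ 4) ^ 2 * i ^ 2 := by ring
    rw [this, h4, hi]; ring
  rw [e30, e25, e5, e20, e10]
  ring

end homogeneity

section fieldhom

variable {K : Type*} [Field K]

theorem kleinXs_scale (ζ l u v : K) : kleinXs ζ (l * u) (l * v) = l ^ 10 * kleinXs ζ u v := by
  unfold kleinXs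
  ring

theorem kleinYs_scale (ζ l u v : K) : kleinYs ζ (l * u) (l * v) = l ^ 15 * kleinYs ζ u v := by
  unfold kleinYs
  ring

/-- `H` and `T` have no common zero besides the origin (characteristic zero). -/
theorem klein_nozero [CharZero K] (u v : K) (hH : kleinH u v = 0) (hT : kleinT u v = 0) :
    u = 0 ∧ v = 0 := by
  have hF : kleinF u v = 0 := by
    have h := klein_syzygy u v
    rw [hH, hT] at h
    have h5 : kleinF u v ^ 5 = 0 := by
      have h1728 : (1728 : K) ≠ 0 := by norm_num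
      have : (1728 : K) * kleinF u v ^ 5 = 0 := by rw [← h]; ring
      exact (mul_eq_zero.mp this).resolve_left h1728
    exact pow_eq_zero_iff (by norm_num) |>.mp h5
  by_cases hv : v = 0
  · subst hv
    refine ⟨?_, rfl⟩
    have : kleinH u 0 = -(u ^ 20) := by unfold kleinH; ring
    rw [this, neg_eq_zero] at hH
    exact pow_eq_zero_iff (by norm_num) |>.mp hH
  · exfalso
    have h1 : kleinF (u / v) 1 = 0 := by
      have := kleinF_scale v (u / v) 1
      rw [mul_div_cancel₀ u hv, mul_one, hF] at this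
      exact (mul_eq_zero.mp this.symm).resolve_left (pow_ne_zero _ hv)
    have h2 : kleinH (u / v) 1 = 0 := by
      have := kleinH_scale v (u / v) 1
      rw [mul_div_cancel₀ u hv, mul_one, hH] at this
      exact (mul_eq_zero.mp this.symm).resolve_left (pow_ne_zero _ hv)
    exact kleinH_ne_zero_of_kleinF_eq_zero (u / v) h1 h2

end fieldhom

section poly

open Polynomial

variable {K : Type*} [CommRing K]

/-- `t ↦ H(u + t a, v + t b)` is a polynomial function. -/
theorem exists_poly_kleinH (u v a b : K) :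
    ∃ p : K[X], ∀ t : K, p.eval t = kleinH (u + t * a) (v + t * b) :=
  ⟨kleinH (C u + X * C a) (C v + X * C b), fun t => by
    rw [← coe_evalRingHom, map_kleinH]
    simp only [coe_evalRingHom, eval_add, eval_mul, eval_C, eval_X]⟩

/-- `t ↦ T(u + t a, v + t b)` is a polynomial function. -/
theorem exists_poly_kleinT (u v a b : K) :
    ∃ p : K[X], ∀ t : K, p.eval t = kleinT (u + t * a) (v + t * b) :=
  ⟨kleinT (C u + X * C a) (C v + X * C b), fun t => by
    rw [← coe_evalRingHom, map_kleinT]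
    simp only [coe_evalRingHom, eval_add, eval_mul, eval_C, eval_X]⟩

end poly

section root

variable {k : Type*} [CommRing k]

/-- the fifth cyclotomic relation passes to the square -/
theorem phi5_sq {ζ : k} (hζ : ζ ^ 4 + ζ ^ 3 + ζ ^ 2 + ζ + 1 = 0) :
    (ζ ^ 2) ^ 4 + (ζ ^ 2) ^ 3 + (ζ ^ 2) ^ 2 + ζ ^ 2 + 1 = 0 := by
  linear_combination (ζ ^ 4 - ζ ^ 3 + ζ ^ 2 - ζ + 1) * hζ

theorem pow_five_eq_one_of_phi5 {ζ : k} (hζ : ζ ^ 4 + ζ ^ 3 + ζ ^ 2 + ζ + 1 = 0) : ζ ^ 5 = 1 := by
  linear_combination (ζ - 1) * hζ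

/-- a primitive fifth root of unity satisfies the fifth cyclotomic relation -/
theorem phi5_of_isPrimitiveRoot {k : Type*} [CommRing k] [IsDomain k] {ζ : k}
    (hζ : IsPrimitiveRoot ζ 5) : ζ ^ 4 + ζ ^ 3 + ζ ^ 2 + ζ + 1 = 0 := by
  have h1 : ζ ^ 5 = 1 := hζ.pow_eq_one
  have hne : ζ - 1 ≠ 0 := sub_ne_zero.mpr (hζ.ne_one (by norm_num))
  have : (ζ - 1) * (ζ ^ 4 + ζ ^ 3 + ζ ^ 2 + ζ + 1) = 0 := by
    linear_combination h1
  exact (mul_eq_zero.mp this).resolve_left hne

/-- the fifth cyclotomic relation passes to the powers prime to `5` (characteristic `≠ 5`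
not needed) -/
theorem phi5_pow {ζ : k} (hζ : ζ ^ 4 + ζ ^ 3 + ζ ^ 2 + ζ + 1 = 0) (e : ℕ) (he : ¬ 5 ∣ e) :
    (ζ ^ e) ^ 4 + (ζ ^ e) ^ 3 + (ζ ^ e) ^ 2 + ζ ^ e + 1 = 0 := by
  have h1 : ζ ^ 5 = 1 := pow_five_eq_one_of_phi5 hζ
  have hpow : ζ ^ e = ζ ^ (e % 5) := by
    conv_lhs => rw [← Nat.div_add_mod e 5, pow_add, pow_mul, h1, one_pow, one_mul]
  rw [hpow]
  have hlt : e % 5 < 5 := Nat.mod_lt _ (by norm_num)
  have hne : e % 5 ≠ 0 := fun h => he (Nat.dvd_of_mod_eq_zero h)
  interval_cases (e % 5)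
  · exact absurd rfl hne
  · linear_combination hζ
  · exact phi5_sq hζ
  · linear_combination (ζ ^ 8 - ζ ^ 7 + ζ ^ 5 - ζ ^ 4 + ζ ^ 3 - ζ + 1) * hζ
  · linear_combination (ζ ^ 12 - ζ ^ 11 + ζ ^ 8 - ζ ^ 6 + ζ ^ 4 - ζ + 1) * hζ

/-- (K5a), abstract form: a family `S ξ` of `5`-torsion elements indexed by the roots of the fifth
cyclotomic polynomial with `2 • S ξ = S (ξ²)` satisfies `S (ζ^e) = e • S ζ` for `5 ∤ e`. -/
theorem nsmul_eq_of_two_nsmul {M : Type*} [AddCommGroup M] (S : k → M)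
    (h2 : ∀ ξ : k, ξ ^ 4 + ξ ^ 3 + ξ ^ 2 + ξ + 1 = 0 → 2 • S ξ = S (ξ ^ 2))
    (h5 : ∀ ξ : k, ξ ^ 4 + ξ ^ 3 + ξ ^ 2 + ξ + 1 = 0 → 5 • S ξ = 0)
    {ζ : k} (hζ : ζ ^ 4 + ζ ^ 3 + ζ ^ 2 + ζ + 1 = 0) (e : ℕ) (he : ¬ 5 ∣ e) :
    S (ζ ^ e) = e • S ζ := by
  have h1 : ζ ^ 5 = 1 := pow_five_eq_one_of_phi5 hζ
  have hζ2 := phi5_sq hζ
  have hζ4 := phi5_sq hζ2
  have e2 : S (ζ ^ 2) = 2 • S ζ := (h2 ζ hζ).symm
  have e4 : S (ζ ^ 4) = 4 • S ζ := by
    have : ζ ^ 4 = (ζ ^ 2) ^ 2 := by ring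
    rw [this, ← h2 _ hζ2, e2, ← mul_nsmul]
  have e3 : S (ζ ^ 3) = 3 • S ζ := by
    have h3 : ζ ^ 3 = ((ζ ^ 2) ^ 2) ^ 2 := by
      have : ((ζ ^ 2) ^ 2) ^ 2 = ζ ^ 5 * ζ ^ 3 := by ring
      rw [this, h1, one_mul]
    have h8 : (2 * 2 * 2) • S ζ = 3 • S ζ := by
      rw [show (2 * 2 * 2 : ℕ) = 5 + 3 from rfl, add_nsmul, h5 ζ hζ, zero_add]
    calc S (ζ ^ 3) = 2 • (2 • (2 • S ζ)) := by rw [h3, ← h2 _ hζ4, ← h2 _ hζ2, e2]
      _ = (2 * 2 * 2) • S ζ := by rw [smul_smul, smul_smul]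
      _ = 3 • S ζ := h8
  -- reduce `e` modulo `5`
  have hpow : ζ ^ e = ζ ^ (e % 5) := by
    conv_lhs => rw [← Nat.div_add_mod e 5, pow_add, pow_mul, h1, one_pow, one_mul]
  have hsm : e • S ζ = (e % 5) • S ζ := by
    conv_lhs => rw [← Nat.div_add_mod e 5, add_nsmul, mul_nsmul, h5 ζ hζ, nsmul_zero, zero_add]
  rw [hpow, hsm]
  have hlt : e % 5 < 5 := Nat.mod_lt _ (by norm_num)
  have hne : e % 5 ≠ 0 := fun h => he (Nat.dvd_of_mod_eq_zero h)
  interval_cases (e % 5)
  · exact absurd rfl hne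
  · simp
  · exact e2
  · exact e3
  · exact e4

/-- an exponent `e` with `σ ζ = ζ ^ e` for an injective ring endomorphism `σ` and a root `ζ` of
the fifth cyclotomic polynomial is prime to `5` (characteristic zero) -/
theorem not_five_dvd_of_map_eq_pow {L F : Type*} [Field L] [CharZero L] [FunLike F L L]
    [RingHomClass F L L] (σ : F) {ζ : L} (hζ : ζ ^ 4 + ζ ^ 3 + ζ ^ 2 + ζ + 1 = 0) {e : ℕ}
    (he : σ ζ = ζ ^ e) : ¬ 5 ∣ e := by
  rintro ⟨m, rfl⟩
  rw [pow_mul, pow_five_eq_one_of_phi5 hζ, one_pow] at he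
  have h1 : ζ = 1 := by
    have hinj : Function.Injective σ := RingHom.injective (σ : L →+* L)
    apply hinj
    rw [he, map_one]
  rw [h1] at hζ
  norm_num at hζ

end root

end Fermat.Agent.S52x
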