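/-
PROJECT S52 (3–5 switch), package [ABS] (helper7), part 1c: covariance of `Φ = (f_v, −f_u)` under
the generator `Tm = (1/√5) [[−a, b], [b, a]]` (certificates from an exact `ℚ[ζ,u,v]` tool).
-/
import Mathlib
import Fermat.Agent.S52x.KALG_helper4_Defs
import Fermat.Agent.S52x.ABS_helper7_Alg

set_option autoImplicit false
set_option maxRecDepth 100000

namespace Fermat.Agent.S52x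

section num

variable {K : Type*} [CommRing K]

/-- numerator form of `f_v ∘ Tm` -/
theorem abs_kleinFv_Tm_num (ζ u v : K) (hζ : ζ ^ 4 + ζ ^ 3 + ζ ^ 2 + ζ + 1 = 0) :
    kleinFv (-(kleinA ζ) * u + kleinB ζ * v) (kleinB ζ * u + kleinA ζ * v) =
      3125 * (-(kleinA ζ) * kleinFv u v - kleinB ζ * kleinFu u v) := by
  unfold kleinFv kleinFu kleinA kleinB
  linear_combination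
    (
      1 * ζ ^ 40 * u ^ 11 + (-66) * ζ ^ 40 * u ^ 6 * v ^ 5 + (-11) * ζ ^ 40 * u * v ^ 10
      + (-1) * ζ ^ 39 * u ^ 11 + (-11) * ζ ^ 39 * u ^ 10 * v + (-330) * ζ ^ 39 * u ^ 7 * v ^ 4
      + 66 * ζ ^ 39 * u ^ 6 * v ^ 5 + 396 * ζ ^ 39 * u ^ 5 * v ^ 6
      + (-110) * ζ ^ 39 * u ^ 2 * v ^ 9 + 11 * ζ ^ 39 * u * v ^ 10 + 11 * ζ ^ 39 * v ^ 11
      + 22 * ζ ^ 38 * u ^ 10 * v + 55 * ζ ^ 38 * u ^ 9 * v ^ 2 + (-660) * ζ ^ 38 * u ^ 8 * v ^ 3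
      + 660 * ζ ^ 38 * u ^ 7 * v ^ 4 + 1980 * ζ ^ 38 * u ^ 6 * v ^ 5
      + (-792) * ζ ^ 38 * u ^ 5 * v ^ 6 + (-990) * ζ ^ 38 * u ^ 4 * v ^ 7
      + (-495) * ζ ^ 38 * u ^ 3 * v ^ 8 + 220 * ζ ^ 38 * u ^ 2 * v ^ 9 + 110 * ζ ^ 38 * u * v ^ 10
      + (-22) * ζ ^ 38 * v ^ 11 + (-11) * ζ ^ 37 * u ^ 11 + (-11) * ζ ^ 37 * u ^ 10 * v
      + (-825) * ζ ^ 37 * u ^ 9 * v ^ 2 + 1815 * ζ ^ 37 * u ^ 8 * v ^ 3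
      + 3630 * ζ ^ 37 * u ^ 7 * v ^ 4 + (-5214) * ζ ^ 37 * u ^ 6 * v ^ 5
      + (-4554) * ζ ^ 37 * u ^ 5 * v ^ 6 + 1650 * ζ ^ 37 * u ^ 4 * v ^ 7
      + 2805 * ζ ^ 37 * u ^ 3 * v ^ 8 + 385 * ζ ^ 37 * u ^ 2 * v ^ 9 + (-209) * ζ ^ 37 * u * v ^ 10
      + 11 * ζ ^ 37 * v ^ 11 + 11 * ζ ^ 36 * u ^ 11 + (-220) * ζ ^ 36 * u ^ 10 * v
      + 2805 * ζ ^ 36 * u ^ 9 * v ^ 2 + 2640 * ζ ^ 36 * u ^ 8 * v ^ 3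
      + (-12210) * ζ ^ 36 * u ^ 7 * v ^ 4 + (-4686) * ζ ^ 36 * u ^ 6 * v ^ 5
      + 13530 * ζ ^ 36 * u ^ 5 * v ^ 6 + 8910 * ζ ^ 36 * u ^ 4 * v ^ 7
      + (-5445) * ζ ^ 36 * u ^ 3 * v ^ 8 + (-1870) * ζ ^ 36 * u ^ 2 * v ^ 9
      + 209 * ζ ^ 36 * u * v ^ 10 + (-110) * ζ ^ 36 * v ^ 11 + (-65) * ζ ^ 35 * u ^ 11
      + 1430 * ζ ^ 35 * u ^ 10 * v + (-2530) * ζ ^ 35 * u ^ 9 * v ^ 2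
      + (-14190) * ζ ^ 35 * u ^ 8 * v ^ 3 + 5610 * ζ ^ 35 * u ^ 7 * v ^ 4
      + 26400 * ζ ^ 35 * u ^ 6 * v ^ 5 + 2970 * ζ ^ 35 * u ^ 5 * v ^ 6
      + (-28710) * ζ ^ 35 * u ^ 4 * v ^ 7 + 1320 * ζ ^ 35 * u ^ 3 * v ^ 8
      + 5720 * ζ ^ 35 * u ^ 2 * v ^ 9 + (-715) * ζ ^ 35 * u * v ^ 10 + 220 * ζ ^ 35 * v ^ 11
      + 450 * ζ ^ 34 * u ^ 11 + (-2805) * ζ ^ 34 * u ^ 10 * v + (-2475) * ζ ^ 34 * u ^ 9 * v ^ 2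
      + 18810 * ζ ^ 34 * u ^ 8 * v ^ 3 + 15840 * ζ ^ 34 * u ^ 7 * v ^ 4
      + (-16500) * ζ ^ 34 * u ^ 6 * v ^ 5 + (-43230) * ζ ^ 34 * u ^ 5 * v ^ 6
      + 31350 * ζ ^ 34 * u ^ 4 * v ^ 7 + 13695 * ζ ^ 34 * u ^ 3 * v ^ 8
      + (-12870) * ζ ^ 34 * u ^ 2 * v ^ 9 + (-165) * ζ ^ 34 * v ^ 11 + (-1045) * ζ ^ 33 * u ^ 11
      + 2365 * ζ ^ 33 * u ^ 10 * v + 5500 * ζ ^ 33 * u ^ 9 * v ^ 2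
      + (-22275) * ζ ^ 33 * u ^ 8 * v ^ 3 + (-14850) * ζ ^ 33 * u ^ 7 * v ^ 4
      + (-18150) * ζ ^ 33 * u ^ 6 * v ^ 5 + 58410 * ζ ^ 33 * u ^ 5 * v ^ 6
      + (-26400) * ζ ^ 33 * u ^ 4 * v ^ 7 + (-36300) * ζ ^ 33 * u ^ 3 * v ^ 8
      + 14575 * ζ ^ 33 * u ^ 2 * v ^ 9 + 3355 * ζ ^ 33 * u * v ^ 10 + 935 * ζ ^ 33 * v ^ 11
      + 1705 * ζ ^ 32 * u ^ 11 + (-3905) * ζ ^ 32 * u ^ 10 * v + (-10725) * ζ ^ 32 * u ^ 9 * v ^ 2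
      + 46365 * ζ ^ 32 * u ^ 8 * v ^ 3 + 13860 * ζ ^ 32 * u ^ 7 * v ^ 4
      + 25740 * ζ ^ 32 * u ^ 6 * v ^ 5 + (-91080) * ζ ^ 32 * u ^ 5 * v ^ 6
      + 23100 * ζ ^ 32 * u ^ 4 * v ^ 7 + 67155 * ζ ^ 32 * u ^ 3 * v ^ 8
      + (-12155) * ζ ^ 32 * u ^ 2 * v ^ 9 + (-2915) * ζ ^ 32 * u * v ^ 10
      + (-2365) * ζ ^ 32 * v ^ 11 + (-3520) * ζ ^ 31 * u ^ 11 + 6765 * ζ ^ 31 * u ^ 10 * v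
      + 34980 * ζ ^ 31 * u ^ 9 * v ^ 2 + (-67485) * ζ ^ 31 * u ^ 8 * v ^ 3
      + (-53460) * ζ ^ 31 * u ^ 7 * v ^ 4 + (-88440) * ζ ^ 31 * u ^ 6 * v ^ 5
      + 166980 * ζ ^ 31 * u ^ 5 * v ^ 6 + 36960 * ζ ^ 31 * u ^ 4 * v ^ 7
      + (-110220) * ζ ^ 31 * u ^ 3 * v ^ 8 + 19855 * ζ ^ 31 * u ^ 2 * v ^ 9
      + 1100 * ζ ^ 31 * u * v ^ 10 + 3025 * ζ ^ 31 * v ^ 11 + 6425 * ζ ^ 30 * u ^ 11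
      + 1540 * ζ ^ 30 * u ^ 10 * v + (-65780) * ζ ^ 30 * u ^ 9 * v ^ 2
      + 69960 * ζ ^ 30 * u ^ 8 * v ^ 3 + 50160 * ζ ^ 30 * u ^ 7 * v ^ 4
      + 246510 * ζ ^ 30 * u ^ 6 * v ^ 5 + (-127380) * ζ ^ 30 * u ^ 5 * v ^ 6
      + (-129360) * ζ ^ 30 * u ^ 4 * v ^ 7 + 159720 * ζ ^ 30 * u ^ 3 * v ^ 8
      + (-15180) * ζ ^ 30 * u ^ 2 * v ^ 9 + (-8855) * ζ ^ 30 * u * v ^ 10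
      + (-5720) * ζ ^ 30 * v ^ 11 + (-8405) * ζ ^ 29 * u ^ 11 + (-14080) * ζ ^ 29 * u ^ 10 * v
      + 90200 * ζ ^ 29 * u ^ 9 * v ^ 2 + (-87615) * ζ ^ 29 * u ^ 8 * v ^ 3
      + 14190 * ζ ^ 29 * u ^ 7 * v ^ 4 + (-309210) * ζ ^ 29 * u ^ 6 * v ^ 5
      + 10560 * ζ ^ 29 * u ^ 5 * v ^ 6 + 191400 * ζ ^ 29 * u ^ 4 * v ^ 7
      + (-203280) * ζ ^ 29 * u ^ 3 * v ^ 8 + (-12045) * ζ ^ 29 * u ^ 2 * v ^ 9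
      + 6875 * ζ ^ 29 * u * v ^ 10 + 10790 * ζ ^ 29 * v ^ 11 + 10560 * ζ ^ 28 * u ^ 11
      + 21395 * ζ ^ 28 * u ^ 10 * v + (-129525) * ζ ^ 28 * u ^ 9 * v ^ 2
      + 111375 * ζ ^ 28 * u ^ 8 * v ^ 3 + (-16500) * ζ ^ 28 * u ^ 7 * v ^ 4
      + 303600 * ζ ^ 28 * u ^ 6 * v ^ 5 + 8580 * ζ ^ 28 * u ^ 5 * v ^ 6
      + (-295350) * ζ ^ 28 * u ^ 4 * v ^ 7 + 235125 * ζ ^ 28 * u ^ 3 * v ^ 8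
      + 15675 * ζ ^ 28 * u ^ 2 * v ^ 9 + 12210 * ζ ^ 28 * u * v ^ 10 + (-13045) * ζ ^ 28 * v ^ 11
      + (-14025) * ζ ^ 27 * u ^ 11 + (-47355) * ζ ^ 27 * u ^ 10 * v
      + 168025 * ζ ^ 27 * u ^ 9 * v ^ 2 + (-116985) * ζ ^ 27 * u ^ 8 * v ^ 3
      + 12210 * ζ ^ 27 * u ^ 7 * v ^ 4 + (-428670) * ζ ^ 27 * u ^ 6 * v ^ 5
      + (-142890) * ζ ^ 27 * u ^ 5 * v ^ 6 + 404250 * ζ ^ 27 * u ^ 4 * v ^ 7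
      + (-259545) * ζ ^ 27 * u ^ 3 * v ^ 8 + (-13255) * ζ ^ 27 * u ^ 2 * v ^ 9
      + (-10615) * ζ ^ 27 * u * v ^ 10 + 16115 * ζ ^ 27 * v ^ 11 + 14245 * ζ ^ 26 * u ^ 11
      + 78925 * ζ ^ 26 * u ^ 10 * v + (-174845) * ζ ^ 26 * u ^ 9 * v ^ 2
      + 120615 * ζ ^ 26 * u ^ 8 * v ^ 3 + (-84810) * ζ ^ 26 * u ^ 7 * v ^ 4
      + 448470 * ζ ^ 26 * u ^ 6 * v ^ 5 + 396330 * ζ ^ 26 * u ^ 5 * v ^ 6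
      + (-410190) * ζ ^ 26 * u ^ 4 * v ^ 7 + 276705 * ζ ^ 26 * u ^ 3 * v ^ 8
      + 41305 * ζ ^ 26 * u ^ 2 * v ^ 9 + 9735 * ζ ^ 26 * u * v ^ 10 + (-22165) * ζ ^ 26 * v ^ 11
      + (-11120) * ζ ^ 25 * u ^ 11 + (-78925) * ζ ^ 25 * u ^ 10 * v
      + 174845 * ζ ^ 25 * u ^ 9 * v ^ 2 + (-120615) * ζ ^ 25 * u ^ 8 * v ^ 3
      + 84810 * ζ ^ 25 * u ^ 7 * v ^ 4 + (-242220) * ζ ^ 25 * u ^ 6 * v ^ 5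
      + (-396330) * ζ ^ 25 * u ^ 5 * v ^ 6 + 410190 * ζ ^ 25 * u ^ 4 * v ^ 7
      + (-276705) * ζ ^ 25 * u ^ 3 * v ^ 8 + (-41305) * ζ ^ 25 * u ^ 2 * v ^ 9
      + (-44110) * ζ ^ 25 * u * v ^ 10 + 22165 * ζ ^ 25 * v ^ 11 + 10900 * ζ ^ 24 * u ^ 11
      + 81730 * ζ ^ 24 * u ^ 10 * v + (-168025) * ζ ^ 24 * u ^ 9 * v ^ 2
      + 116985 * ζ ^ 24 * u ^ 8 * v ^ 3 + (-12210) * ζ ^ 24 * u ^ 7 * v ^ 4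
      + 222420 * ζ ^ 24 * u ^ 6 * v ^ 5 + 349140 * ζ ^ 24 * u ^ 5 * v ^ 6
      + (-404250) * ζ ^ 24 * u ^ 4 * v ^ 7 + 259545 * ζ ^ 24 * u ^ 3 * v ^ 8
      + 13255 * ζ ^ 24 * u ^ 2 * v ^ 9 + 44990 * ζ ^ 24 * u * v ^ 10 + (-19240) * ζ ^ 24 * v ^ 11
      + (-10560) * ζ ^ 23 * u ^ 11 + (-90145) * ζ ^ 23 * u ^ 10 * v
      + 129525 * ζ ^ 23 * u ^ 9 * v ^ 2 + (-111375) * ζ ^ 23 * u ^ 8 * v ^ 3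
      + 16500 * ζ ^ 23 * u ^ 7 * v ^ 4 + (-303600) * ζ ^ 23 * u ^ 6 * v ^ 5
      + (-421080) * ζ ^ 23 * u ^ 5 * v ^ 6 + 295350 * ζ ^ 23 * u ^ 4 * v ^ 7
      + (-235125) * ζ ^ 23 * u ^ 3 * v ^ 8 + (-15675) * ζ ^ 23 * u ^ 2 * v ^ 9
      + (-12210) * ζ ^ 23 * u * v ^ 10 + 19295 * ζ ^ 23 * v ^ 11 + 5280 * ζ ^ 22 * u ^ 11
      + 48455 * ζ ^ 22 * u ^ 10 * v + (-90200) * ζ ^ 22 * u ^ 9 * v ^ 2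
      + 87615 * ζ ^ 22 * u ^ 8 * v ^ 3 + (-14190) * ζ ^ 22 * u ^ 7 * v ^ 4
      + 102960 * ζ ^ 22 * u ^ 6 * v ^ 5 + 195690 * ζ ^ 22 * u ^ 5 * v ^ 6
      + (-191400) * ζ ^ 22 * u ^ 4 * v ^ 7 + 203280 * ζ ^ 22 * u ^ 3 * v ^ 8
      + 12045 * ζ ^ 22 * u ^ 2 * v ^ 9 + 27500 * ζ ^ 22 * u * v ^ 10 + (-13915) * ζ ^ 22 * v ^ 11
      + (-3300) * ζ ^ 21 * u ^ 11 + (-1540) * ζ ^ 21 * u ^ 10 * v + 65780 * ζ ^ 21 * u ^ 9 * v ^ 2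
      + (-69960) * ζ ^ 21 * u ^ 8 * v ^ 3 + (-50160) * ζ ^ 21 * u ^ 7 * v ^ 4
      + (-40260) * ζ ^ 21 * u ^ 6 * v ^ 5 + 127380 * ζ ^ 21 * u ^ 5 * v ^ 6
      + 129360 * ζ ^ 21 * u ^ 4 * v ^ 7 + (-159720) * ζ ^ 21 * u ^ 3 * v ^ 8
      + 15180 * ζ ^ 21 * u ^ 2 * v ^ 9 + (-25520) * ζ ^ 21 * u * v ^ 10 + 5720 * ζ ^ 21 * v ^ 11
      + 6645 * ζ ^ 20 * u ^ 11 + (-6765) * ζ ^ 20 * u ^ 10 * v + (-34980) * ζ ^ 20 * u ^ 9 * v ^ 2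
      + 67485 * ζ ^ 20 * u ^ 8 * v ^ 3 + 53460 * ζ ^ 20 * u ^ 7 * v ^ 4
      + 294690 * ζ ^ 20 * u ^ 6 * v ^ 5 + (-166980) * ζ ^ 20 * u ^ 5 * v ^ 6
      + (-36960) * ζ ^ 20 * u ^ 4 * v ^ 7 + 110220 * ζ ^ 20 * u ^ 3 * v ^ 8
      + (-19855) * ζ ^ 20 * u ^ 2 * v ^ 9 + (-35475) * ζ ^ 20 * u * v ^ 10
      + (-3025) * ζ ^ 20 * v ^ 11 + (-4830) * ζ ^ 19 * u ^ 11 + 38280 * ζ ^ 19 * u ^ 10 * v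
      + 10725 * ζ ^ 19 * u ^ 9 * v ^ 2 + (-46365) * ζ ^ 19 * u ^ 8 * v ^ 3
      + (-13860) * ζ ^ 19 * u ^ 7 * v ^ 4 + (-231990) * ζ ^ 19 * u ^ 6 * v ^ 5
      + 297330 * ζ ^ 19 * u ^ 5 * v ^ 6 + (-23100) * ζ ^ 19 * u ^ 4 * v ^ 7
      + (-67155) * ζ ^ 19 * u ^ 3 * v ^ 8 + 12155 * ζ ^ 19 * u ^ 2 * v ^ 9
      + 37290 * ζ ^ 19 * u * v ^ 10 + (-760) * ζ ^ 19 * v ^ 11 + 1045 * ζ ^ 18 * u ^ 11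
      + (-71115) * ζ ^ 18 * u ^ 10 * v + (-5500) * ζ ^ 18 * u ^ 9 * v ^ 2
      + 22275 * ζ ^ 18 * u ^ 8 * v ^ 3 + 14850 * ζ ^ 18 * u ^ 7 * v ^ 4
      + 18150 * ζ ^ 18 * u ^ 6 * v ^ 5 + (-470910) * ζ ^ 18 * u ^ 5 * v ^ 6
      + 26400 * ζ ^ 18 * u ^ 4 * v ^ 7 + 36300 * ζ ^ 18 * u ^ 3 * v ^ 8
      + (-14575) * ζ ^ 18 * u ^ 2 * v ^ 9 + (-3355) * ζ ^ 18 * u * v ^ 10 + 5315 * ζ ^ 18 * v ^ 11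
      + (-3575) * ζ ^ 17 * u ^ 11 + 37180 * ζ ^ 17 * u ^ 10 * v + 2475 * ζ ^ 17 * u ^ 9 * v ^ 2
      + (-18810) * ζ ^ 17 * u ^ 8 * v ^ 3 + (-15840) * ζ ^ 17 * u ^ 7 * v ^ 4
      + (-189750) * ζ ^ 17 * u ^ 6 * v ^ 5 + 249480 * ζ ^ 17 * u ^ 5 * v ^ 6
      + (-31350) * ζ ^ 17 * u ^ 4 * v ^ 7 + (-13695) * ζ ^ 17 * u ^ 3 * v ^ 8
      + 12870 * ζ ^ 17 * u ^ 2 * v ^ 9 + 34375 * ζ ^ 17 * u * v ^ 10 + (-2960) * ζ ^ 17 * v ^ 11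
      + 3190 * ζ ^ 16 * u ^ 11 + (-1430) * ζ ^ 16 * u ^ 10 * v + 2530 * ζ ^ 16 * u ^ 9 * v ^ 2
      + 14190 * ζ ^ 16 * u ^ 8 * v ^ 3 + (-5610) * ζ ^ 16 * u ^ 7 * v ^ 4
      + 179850 * ζ ^ 16 * u ^ 6 * v ^ 5 + (-2970) * ζ ^ 16 * u ^ 5 * v ^ 6
      + 28710 * ζ ^ 16 * u ^ 4 * v ^ 7 + (-1320) * ζ ^ 16 * u ^ 3 * v ^ 8
      + (-5720) * ζ ^ 16 * u ^ 2 * v ^ 9 + (-33660) * ζ ^ 16 * u * v ^ 10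
      + (-220) * ζ ^ 16 * v ^ 11 + 3114 * ζ ^ 15 * u ^ 11 + 220 * ζ ^ 15 * u ^ 10 * v
      + (-2805) * ζ ^ 15 * u ^ 9 * v ^ 2 + (-2640) * ζ ^ 15 * u ^ 8 * v ^ 3
      + 12210 * ζ ^ 15 * u ^ 7 * v ^ 4 + 210936 * ζ ^ 15 * u ^ 6 * v ^ 5
      + (-13530) * ζ ^ 15 * u ^ 5 * v ^ 6 + (-8910) * ζ ^ 15 * u ^ 4 * v ^ 7
      + 5445 * ζ ^ 15 * u ^ 3 * v ^ 8 + 1870 * ζ ^ 15 * u ^ 2 * v ^ 9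
      + (-34584) * ζ ^ 15 * u * v ^ 10 + 110 * ζ ^ 15 * v ^ 11 + (-3114) * ζ ^ 14 * u ^ 11
      + 34386 * ζ ^ 14 * u ^ 10 * v + 825 * ζ ^ 14 * u ^ 9 * v ^ 2
      + (-1815) * ζ ^ 14 * u ^ 8 * v ^ 3 + (-3630) * ζ ^ 14 * u ^ 7 * v ^ 4
      + (-201036) * ζ ^ 14 * u ^ 6 * v ^ 5 + 210804 * ζ ^ 14 * u ^ 5 * v ^ 6
      + (-1650) * ζ ^ 14 * u ^ 4 * v ^ 7 + (-2805) * ζ ^ 14 * u ^ 3 * v ^ 8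
      + (-385) * ζ ^ 14 * u ^ 2 * v ^ 9 + 34584 * ζ ^ 14 * u * v ^ 10 + (-3136) * ζ ^ 14 * v ^ 11
      + (-68772) * ζ ^ 13 * u ^ 10 * v + (-55) * ζ ^ 13 * u ^ 9 * v ^ 2
      + 660 * ζ ^ 13 * u ^ 8 * v ^ 3 + (-660) * ζ ^ 13 * u ^ 7 * v ^ 4
      + (-1980) * ζ ^ 13 * u ^ 6 * v ^ 5 + (-411708) * ζ ^ 13 * u ^ 5 * v ^ 6
      + 990 * ζ ^ 13 * u ^ 4 * v ^ 7 + 495 * ζ ^ 13 * u ^ 3 * v ^ 8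
      + (-220) * ζ ^ 13 * u ^ 2 * v ^ 9 + (-110) * ζ ^ 13 * u * v ^ 10 + 6272 * ζ ^ 13 * v ^ 11
      + (-3124) * ζ ^ 12 * u ^ 11 + 34386 * ζ ^ 12 * u ^ 10 * v + 330 * ζ ^ 12 * u ^ 7 * v ^ 4
      + (-206316) * ζ ^ 12 * u ^ 6 * v ^ 5 + 205854 * ζ ^ 12 * u ^ 5 * v ^ 6
      + 110 * ζ ^ 12 * u ^ 2 * v ^ 9 + 34364 * ζ ^ 12 * u * v ^ 10 + (-3136) * ζ ^ 12 * v ^ 11
      + 3124 * ζ ^ 11 * u ^ 11 + 206316 * ζ ^ 11 * u ^ 6 * v ^ 5 + (-34364) * ζ ^ 11 * u * v ^ 10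
      + 3125 * ζ ^ 10 * u ^ 11 + 206250 * ζ ^ 10 * u ^ 6 * v ^ 5 + (-34375) * ζ ^ 10 * u * v ^ 10
      + (-3125) * ζ ^ 9 * u ^ 11 + 34375 * ζ ^ 9 * u ^ 10 * v + (-206250) * ζ ^ 9 * u ^ 6 * v ^ 5
      + 206250 * ζ ^ 9 * u ^ 5 * v ^ 6 + 34375 * ζ ^ 9 * u * v ^ 10 + (-3125) * ζ ^ 9 * v ^ 11
      + (-68750) * ζ ^ 8 * u ^ 10 * v + (-412500) * ζ ^ 8 * u ^ 5 * v ^ 6 + 6250 * ζ ^ 8 * v ^ 11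
      + (-3125) * ζ ^ 7 * u ^ 11 + 34375 * ζ ^ 7 * u ^ 10 * v + (-206250) * ζ ^ 7 * u ^ 6 * v ^ 5
      + 206250 * ζ ^ 7 * u ^ 5 * v ^ 6 + 34375 * ζ ^ 7 * u * v ^ 10 + (-3125) * ζ ^ 7 * v ^ 11
      + 3125 * ζ ^ 6 * u ^ 11 + 206250 * ζ ^ 6 * u ^ 6 * v ^ 5 + (-34375) * ζ ^ 6 * u * v ^ 10
      + 3125 * ζ ^ 5 * u ^ 11 + 206250 * ζ ^ 5 * u ^ 6 * v ^ 5 + (-34375) * ζ ^ 5 * u * v ^ 10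
      + (-3125) * ζ ^ 4 * u ^ 11 + 34375 * ζ ^ 4 * u ^ 10 * v + (-206250) * ζ ^ 4 * u ^ 6 * v ^ 5
      + 206250 * ζ ^ 4 * u ^ 5 * v ^ 6 + 34375 * ζ ^ 4 * u * v ^ 10 + (-3125) * ζ ^ 4 * v ^ 11
      + (-68750) * ζ ^ 3 * u ^ 10 * v + (-412500) * ζ ^ 3 * u ^ 5 * v ^ 6 + 6250 * ζ ^ 3 * v ^ 11
      + (-3125) * ζ ^ 2 * u ^ 11 + 34375 * ζ ^ 2 * u ^ 10 * v + (-206250) * ζ ^ 2 * u ^ 6 * v ^ 5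
      + 206250 * ζ ^ 2 * u ^ 5 * v ^ 6 + 34375 * ζ ^ 2 * u * v ^ 10 + (-3125) * ζ ^ 2 * v ^ 11
      + 3125 * ζ * u ^ 11 + 206250 * ζ * u ^ 6 * v ^ 5 + (-34375) * ζ * u * v ^ 10) * hζ

/-- numerator form of `f_u ∘ Tm` -/
theorem abs_kleinFu_Tm_num (ζ u v : K) (hζ : ζ ^ 4 + ζ ^ 3 + ζ ^ 2 + ζ + 1 = 0) :
    kleinFu (-(kleinA ζ) * u + kleinB ζ * v) (kleinB ζ * u + kleinA ζ * v) =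
      3125 * (-(kleinB ζ) * kleinFv u v + kleinA ζ * kleinFu u v) := by
  unfold kleinFv kleinFu kleinA kleinB
  linear_combination
    (
      (-11) * ζ ^ 40 * u ^ 10 * v + 66 * ζ ^ 40 * u ^ 5 * v ^ 6 + 1 * ζ ^ 40 * v ^ 11
      + (-11) * ζ ^ 39 * u ^ 11 + 11 * ζ ^ 39 * u ^ 10 * v + 110 * ζ ^ 39 * u ^ 9 * v ^ 2
      + 396 * ζ ^ 39 * u ^ 6 * v ^ 5 + (-66) * ζ ^ 39 * u ^ 5 * v ^ 6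
      + (-330) * ζ ^ 39 * u ^ 4 * v ^ 7 + 11 * ζ ^ 39 * u * v ^ 10 + (-1) * ζ ^ 39 * v ^ 11
      + 22 * ζ ^ 38 * u ^ 11 + 110 * ζ ^ 38 * u ^ 10 * v + (-220) * ζ ^ 38 * u ^ 9 * v ^ 2
      + (-495) * ζ ^ 38 * u ^ 8 * v ^ 3 + 990 * ζ ^ 38 * u ^ 7 * v ^ 4
      + (-792) * ζ ^ 38 * u ^ 6 * v ^ 5 + (-1980) * ζ ^ 38 * u ^ 5 * v ^ 6
      + 660 * ζ ^ 38 * u ^ 4 * v ^ 7 + 660 * ζ ^ 38 * u ^ 3 * v ^ 8 + 55 * ζ ^ 38 * u ^ 2 * v ^ 9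
      + (-22) * ζ ^ 38 * u * v ^ 10 + (-11) * ζ ^ 37 * u ^ 11 + (-209) * ζ ^ 37 * u ^ 10 * v
      + (-385) * ζ ^ 37 * u ^ 9 * v ^ 2 + 2805 * ζ ^ 37 * u ^ 8 * v ^ 3
      + (-1650) * ζ ^ 37 * u ^ 7 * v ^ 4 + (-4554) * ζ ^ 37 * u ^ 6 * v ^ 5
      + 5214 * ζ ^ 37 * u ^ 5 * v ^ 6 + 3630 * ζ ^ 37 * u ^ 4 * v ^ 7
      + (-1815) * ζ ^ 37 * u ^ 3 * v ^ 8 + (-825) * ζ ^ 37 * u ^ 2 * v ^ 9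
      + 11 * ζ ^ 37 * u * v ^ 10 + (-11) * ζ ^ 37 * v ^ 11 + 110 * ζ ^ 36 * u ^ 11
      + 209 * ζ ^ 36 * u ^ 10 * v + 1870 * ζ ^ 36 * u ^ 9 * v ^ 2
      + (-5445) * ζ ^ 36 * u ^ 8 * v ^ 3 + (-8910) * ζ ^ 36 * u ^ 7 * v ^ 4
      + 13530 * ζ ^ 36 * u ^ 6 * v ^ 5 + 4686 * ζ ^ 36 * u ^ 5 * v ^ 6
      + (-12210) * ζ ^ 36 * u ^ 4 * v ^ 7 + (-2640) * ζ ^ 36 * u ^ 3 * v ^ 8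
      + 2805 * ζ ^ 36 * u ^ 2 * v ^ 9 + 220 * ζ ^ 36 * u * v ^ 10 + 11 * ζ ^ 36 * v ^ 11
      + (-220) * ζ ^ 35 * u ^ 11 + (-715) * ζ ^ 35 * u ^ 10 * v + (-5720) * ζ ^ 35 * u ^ 9 * v ^ 2
      + 1320 * ζ ^ 35 * u ^ 8 * v ^ 3 + 28710 * ζ ^ 35 * u ^ 7 * v ^ 4
      + 2970 * ζ ^ 35 * u ^ 6 * v ^ 5 + (-26400) * ζ ^ 35 * u ^ 5 * v ^ 6
      + 5610 * ζ ^ 35 * u ^ 4 * v ^ 7 + 14190 * ζ ^ 35 * u ^ 3 * v ^ 8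
      + (-2530) * ζ ^ 35 * u ^ 2 * v ^ 9 + (-1430) * ζ ^ 35 * u * v ^ 10 + (-65) * ζ ^ 35 * v ^ 11
      + 165 * ζ ^ 34 * u ^ 11 + 12870 * ζ ^ 34 * u ^ 9 * v ^ 2 + 13695 * ζ ^ 34 * u ^ 8 * v ^ 3
      + (-31350) * ζ ^ 34 * u ^ 7 * v ^ 4 + (-43230) * ζ ^ 34 * u ^ 6 * v ^ 5
      + 16500 * ζ ^ 34 * u ^ 5 * v ^ 6 + 15840 * ζ ^ 34 * u ^ 4 * v ^ 7
      + (-18810) * ζ ^ 34 * u ^ 3 * v ^ 8 + (-2475) * ζ ^ 34 * u ^ 2 * v ^ 9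
      + 2805 * ζ ^ 34 * u * v ^ 10 + 450 * ζ ^ 34 * v ^ 11 + (-935) * ζ ^ 33 * u ^ 11
      + 3355 * ζ ^ 33 * u ^ 10 * v + (-14575) * ζ ^ 33 * u ^ 9 * v ^ 2
      + (-36300) * ζ ^ 33 * u ^ 8 * v ^ 3 + 26400 * ζ ^ 33 * u ^ 7 * v ^ 4
      + 58410 * ζ ^ 33 * u ^ 6 * v ^ 5 + 18150 * ζ ^ 33 * u ^ 5 * v ^ 6
      + (-14850) * ζ ^ 33 * u ^ 4 * v ^ 7 + 22275 * ζ ^ 33 * u ^ 3 * v ^ 8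
      + 5500 * ζ ^ 33 * u ^ 2 * v ^ 9 + (-2365) * ζ ^ 33 * u * v ^ 10 + (-1045) * ζ ^ 33 * v ^ 11
      + 2365 * ζ ^ 32 * u ^ 11 + (-2915) * ζ ^ 32 * u ^ 10 * v + 12155 * ζ ^ 32 * u ^ 9 * v ^ 2
      + 67155 * ζ ^ 32 * u ^ 8 * v ^ 3 + (-23100) * ζ ^ 32 * u ^ 7 * v ^ 4
      + (-91080) * ζ ^ 32 * u ^ 6 * v ^ 5 + (-25740) * ζ ^ 32 * u ^ 5 * v ^ 6
      + 13860 * ζ ^ 32 * u ^ 4 * v ^ 7 + (-46365) * ζ ^ 32 * u ^ 3 * v ^ 8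
      + (-10725) * ζ ^ 32 * u ^ 2 * v ^ 9 + 3905 * ζ ^ 32 * u * v ^ 10 + 1705 * ζ ^ 32 * v ^ 11
      + (-3025) * ζ ^ 31 * u ^ 11 + 1100 * ζ ^ 31 * u ^ 10 * v + (-19855) * ζ ^ 31 * u ^ 9 * v ^ 2
      + (-110220) * ζ ^ 31 * u ^ 8 * v ^ 3 + (-36960) * ζ ^ 31 * u ^ 7 * v ^ 4
      + 166980 * ζ ^ 31 * u ^ 6 * v ^ 5 + 88440 * ζ ^ 31 * u ^ 5 * v ^ 6
      + (-53460) * ζ ^ 31 * u ^ 4 * v ^ 7 + 67485 * ζ ^ 31 * u ^ 3 * v ^ 8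
      + 34980 * ζ ^ 31 * u ^ 2 * v ^ 9 + (-6765) * ζ ^ 31 * u * v ^ 10 + (-3520) * ζ ^ 31 * v ^ 11
      + 5720 * ζ ^ 30 * u ^ 11 + (-8855) * ζ ^ 30 * u ^ 10 * v + 15180 * ζ ^ 30 * u ^ 9 * v ^ 2
      + 159720 * ζ ^ 30 * u ^ 8 * v ^ 3 + 129360 * ζ ^ 30 * u ^ 7 * v ^ 4
      + (-127380) * ζ ^ 30 * u ^ 6 * v ^ 5 + (-246510) * ζ ^ 30 * u ^ 5 * v ^ 6
      + 50160 * ζ ^ 30 * u ^ 4 * v ^ 7 + (-69960) * ζ ^ 30 * u ^ 3 * v ^ 8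
      + (-65780) * ζ ^ 30 * u ^ 2 * v ^ 9 + (-1540) * ζ ^ 30 * u * v ^ 10 + 6425 * ζ ^ 30 * v ^ 11
      + (-10790) * ζ ^ 29 * u ^ 11 + 6875 * ζ ^ 29 * u ^ 10 * v + 12045 * ζ ^ 29 * u ^ 9 * v ^ 2
      + (-203280) * ζ ^ 29 * u ^ 8 * v ^ 3 + (-191400) * ζ ^ 29 * u ^ 7 * v ^ 4
      + 10560 * ζ ^ 29 * u ^ 6 * v ^ 5 + 309210 * ζ ^ 29 * u ^ 5 * v ^ 6
      + 14190 * ζ ^ 29 * u ^ 4 * v ^ 7 + 87615 * ζ ^ 29 * u ^ 3 * v ^ 8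
      + 90200 * ζ ^ 29 * u ^ 2 * v ^ 9 + 14080 * ζ ^ 29 * u * v ^ 10 + (-8405) * ζ ^ 29 * v ^ 11
      + 13045 * ζ ^ 28 * u ^ 11 + 12210 * ζ ^ 28 * u ^ 10 * v + (-15675) * ζ ^ 28 * u ^ 9 * v ^ 2
      + 235125 * ζ ^ 28 * u ^ 8 * v ^ 3 + 295350 * ζ ^ 28 * u ^ 7 * v ^ 4
      + 8580 * ζ ^ 28 * u ^ 6 * v ^ 5 + (-303600) * ζ ^ 28 * u ^ 5 * v ^ 6
      + (-16500) * ζ ^ 28 * u ^ 4 * v ^ 7 + (-111375) * ζ ^ 28 * u ^ 3 * v ^ 8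
      + (-129525) * ζ ^ 28 * u ^ 2 * v ^ 9 + (-21395) * ζ ^ 28 * u * v ^ 10
      + 10560 * ζ ^ 28 * v ^ 11 + (-16115) * ζ ^ 27 * u ^ 11 + (-10615) * ζ ^ 27 * u ^ 10 * v
      + 13255 * ζ ^ 27 * u ^ 9 * v ^ 2 + (-259545) * ζ ^ 27 * u ^ 8 * v ^ 3
      + (-404250) * ζ ^ 27 * u ^ 7 * v ^ 4 + (-142890) * ζ ^ 27 * u ^ 6 * v ^ 5
      + 428670 * ζ ^ 27 * u ^ 5 * v ^ 6 + 12210 * ζ ^ 27 * u ^ 4 * v ^ 7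
      + 116985 * ζ ^ 27 * u ^ 3 * v ^ 8 + 168025 * ζ ^ 27 * u ^ 2 * v ^ 9
      + 47355 * ζ ^ 27 * u * v ^ 10 + (-14025) * ζ ^ 27 * v ^ 11 + 22165 * ζ ^ 26 * u ^ 11
      + 9735 * ζ ^ 26 * u ^ 10 * v + (-41305) * ζ ^ 26 * u ^ 9 * v ^ 2
      + 276705 * ζ ^ 26 * u ^ 8 * v ^ 3 + 410190 * ζ ^ 26 * u ^ 7 * v ^ 4
      + 396330 * ζ ^ 26 * u ^ 6 * v ^ 5 + (-448470) * ζ ^ 26 * u ^ 5 * v ^ 6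
      + (-84810) * ζ ^ 26 * u ^ 4 * v ^ 7 + (-120615) * ζ ^ 26 * u ^ 3 * v ^ 8
      + (-174845) * ζ ^ 26 * u ^ 2 * v ^ 9 + (-78925) * ζ ^ 26 * u * v ^ 10
      + 14245 * ζ ^ 26 * v ^ 11 + (-22165) * ζ ^ 25 * u ^ 11 + (-44110) * ζ ^ 25 * u ^ 10 * v
      + 41305 * ζ ^ 25 * u ^ 9 * v ^ 2 + (-276705) * ζ ^ 25 * u ^ 8 * v ^ 3
      + (-410190) * ζ ^ 25 * u ^ 7 * v ^ 4 + (-396330) * ζ ^ 25 * u ^ 6 * v ^ 5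
      + 242220 * ζ ^ 25 * u ^ 5 * v ^ 6 + 84810 * ζ ^ 25 * u ^ 4 * v ^ 7
      + 120615 * ζ ^ 25 * u ^ 3 * v ^ 8 + 174845 * ζ ^ 25 * u ^ 2 * v ^ 9
      + 78925 * ζ ^ 25 * u * v ^ 10 + (-11120) * ζ ^ 25 * v ^ 11 + 19240 * ζ ^ 24 * u ^ 11
      + 44990 * ζ ^ 24 * u ^ 10 * v + (-13255) * ζ ^ 24 * u ^ 9 * v ^ 2
      + 259545 * ζ ^ 24 * u ^ 8 * v ^ 3 + 404250 * ζ ^ 24 * u ^ 7 * v ^ 4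
      + 349140 * ζ ^ 24 * u ^ 6 * v ^ 5 + (-222420) * ζ ^ 24 * u ^ 5 * v ^ 6
      + (-12210) * ζ ^ 24 * u ^ 4 * v ^ 7 + (-116985) * ζ ^ 24 * u ^ 3 * v ^ 8
      + (-168025) * ζ ^ 24 * u ^ 2 * v ^ 9 + (-81730) * ζ ^ 24 * u * v ^ 10
      + 10900 * ζ ^ 24 * v ^ 11 + (-19295) * ζ ^ 23 * u ^ 11 + (-12210) * ζ ^ 23 * u ^ 10 * v
      + 15675 * ζ ^ 23 * u ^ 9 * v ^ 2 + (-235125) * ζ ^ 23 * u ^ 8 * v ^ 3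
      + (-295350) * ζ ^ 23 * u ^ 7 * v ^ 4 + (-421080) * ζ ^ 23 * u ^ 6 * v ^ 5
      + 303600 * ζ ^ 23 * u ^ 5 * v ^ 6 + 16500 * ζ ^ 23 * u ^ 4 * v ^ 7
      + 111375 * ζ ^ 23 * u ^ 3 * v ^ 8 + 129525 * ζ ^ 23 * u ^ 2 * v ^ 9
      + 90145 * ζ ^ 23 * u * v ^ 10 + (-10560) * ζ ^ 23 * v ^ 11 + 13915 * ζ ^ 22 * u ^ 11
      + 27500 * ζ ^ 22 * u ^ 10 * v + (-12045) * ζ ^ 22 * u ^ 9 * v ^ 2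
      + 203280 * ζ ^ 22 * u ^ 8 * v ^ 3 + 191400 * ζ ^ 22 * u ^ 7 * v ^ 4
      + 195690 * ζ ^ 22 * u ^ 6 * v ^ 5 + (-102960) * ζ ^ 22 * u ^ 5 * v ^ 6
      + (-14190) * ζ ^ 22 * u ^ 4 * v ^ 7 + (-87615) * ζ ^ 22 * u ^ 3 * v ^ 8
      + (-90200) * ζ ^ 22 * u ^ 2 * v ^ 9 + (-48455) * ζ ^ 22 * u * v ^ 10 + 5280 * ζ ^ 22 * v ^ 11
      + (-5720) * ζ ^ 21 * u ^ 11 + (-25520) * ζ ^ 21 * u ^ 10 * v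
      + (-15180) * ζ ^ 21 * u ^ 9 * v ^ 2 + (-159720) * ζ ^ 21 * u ^ 8 * v ^ 3
      + (-129360) * ζ ^ 21 * u ^ 7 * v ^ 4 + 127380 * ζ ^ 21 * u ^ 6 * v ^ 5
      + 40260 * ζ ^ 21 * u ^ 5 * v ^ 6 + (-50160) * ζ ^ 21 * u ^ 4 * v ^ 7
      + 69960 * ζ ^ 21 * u ^ 3 * v ^ 8 + 65780 * ζ ^ 21 * u ^ 2 * v ^ 9
      + 1540 * ζ ^ 21 * u * v ^ 10 + (-3300) * ζ ^ 21 * v ^ 11 + 3025 * ζ ^ 20 * u ^ 11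
      + (-35475) * ζ ^ 20 * u ^ 10 * v + 19855 * ζ ^ 20 * u ^ 9 * v ^ 2
      + 110220 * ζ ^ 20 * u ^ 8 * v ^ 3 + 36960 * ζ ^ 20 * u ^ 7 * v ^ 4
      + (-166980) * ζ ^ 20 * u ^ 6 * v ^ 5 + (-294690) * ζ ^ 20 * u ^ 5 * v ^ 6
      + 53460 * ζ ^ 20 * u ^ 4 * v ^ 7 + (-67485) * ζ ^ 20 * u ^ 3 * v ^ 8
      + (-34980) * ζ ^ 20 * u ^ 2 * v ^ 9 + 6765 * ζ ^ 20 * u * v ^ 10 + 6645 * ζ ^ 20 * v ^ 11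
      + 760 * ζ ^ 19 * u ^ 11 + 37290 * ζ ^ 19 * u ^ 10 * v + (-12155) * ζ ^ 19 * u ^ 9 * v ^ 2
      + (-67155) * ζ ^ 19 * u ^ 8 * v ^ 3 + 23100 * ζ ^ 19 * u ^ 7 * v ^ 4
      + 297330 * ζ ^ 19 * u ^ 6 * v ^ 5 + 231990 * ζ ^ 19 * u ^ 5 * v ^ 6
      + (-13860) * ζ ^ 19 * u ^ 4 * v ^ 7 + 46365 * ζ ^ 19 * u ^ 3 * v ^ 8
      + 10725 * ζ ^ 19 * u ^ 2 * v ^ 9 + (-38280) * ζ ^ 19 * u * v ^ 10 + (-4830) * ζ ^ 19 * v ^ 11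
      + (-5315) * ζ ^ 18 * u ^ 11 + (-3355) * ζ ^ 18 * u ^ 10 * v + 14575 * ζ ^ 18 * u ^ 9 * v ^ 2
      + 36300 * ζ ^ 18 * u ^ 8 * v ^ 3 + (-26400) * ζ ^ 18 * u ^ 7 * v ^ 4
      + (-470910) * ζ ^ 18 * u ^ 6 * v ^ 5 + (-18150) * ζ ^ 18 * u ^ 5 * v ^ 6
      + 14850 * ζ ^ 18 * u ^ 4 * v ^ 7 + (-22275) * ζ ^ 18 * u ^ 3 * v ^ 8
      + (-5500) * ζ ^ 18 * u ^ 2 * v ^ 9 + 71115 * ζ ^ 18 * u * v ^ 10 + 1045 * ζ ^ 18 * v ^ 11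
      + 2960 * ζ ^ 17 * u ^ 11 + 34375 * ζ ^ 17 * u ^ 10 * v + (-12870) * ζ ^ 17 * u ^ 9 * v ^ 2
      + (-13695) * ζ ^ 17 * u ^ 8 * v ^ 3 + 31350 * ζ ^ 17 * u ^ 7 * v ^ 4
      + 249480 * ζ ^ 17 * u ^ 6 * v ^ 5 + 189750 * ζ ^ 17 * u ^ 5 * v ^ 6
      + (-15840) * ζ ^ 17 * u ^ 4 * v ^ 7 + 18810 * ζ ^ 17 * u ^ 3 * v ^ 8
      + 2475 * ζ ^ 17 * u ^ 2 * v ^ 9 + (-37180) * ζ ^ 17 * u * v ^ 10 + (-3575) * ζ ^ 17 * v ^ 11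
      + 220 * ζ ^ 16 * u ^ 11 + (-33660) * ζ ^ 16 * u ^ 10 * v + 5720 * ζ ^ 16 * u ^ 9 * v ^ 2
      + (-1320) * ζ ^ 16 * u ^ 8 * v ^ 3 + (-28710) * ζ ^ 16 * u ^ 7 * v ^ 4
      + (-2970) * ζ ^ 16 * u ^ 6 * v ^ 5 + (-179850) * ζ ^ 16 * u ^ 5 * v ^ 6
      + (-5610) * ζ ^ 16 * u ^ 4 * v ^ 7 + (-14190) * ζ ^ 16 * u ^ 3 * v ^ 8
      + 2530 * ζ ^ 16 * u ^ 2 * v ^ 9 + 1430 * ζ ^ 16 * u * v ^ 10 + 3190 * ζ ^ 16 * v ^ 11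
      + (-110) * ζ ^ 15 * u ^ 11 + (-34584) * ζ ^ 15 * u ^ 10 * v
      + (-1870) * ζ ^ 15 * u ^ 9 * v ^ 2 + 5445 * ζ ^ 15 * u ^ 8 * v ^ 3
      + 8910 * ζ ^ 15 * u ^ 7 * v ^ 4 + (-13530) * ζ ^ 15 * u ^ 6 * v ^ 5
      + (-210936) * ζ ^ 15 * u ^ 5 * v ^ 6 + 12210 * ζ ^ 15 * u ^ 4 * v ^ 7
      + 2640 * ζ ^ 15 * u ^ 3 * v ^ 8 + (-2805) * ζ ^ 15 * u ^ 2 * v ^ 9
      + (-220) * ζ ^ 15 * u * v ^ 10 + 3114 * ζ ^ 15 * v ^ 11 + 3136 * ζ ^ 14 * u ^ 11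
      + 34584 * ζ ^ 14 * u ^ 10 * v + 385 * ζ ^ 14 * u ^ 9 * v ^ 2
      + (-2805) * ζ ^ 14 * u ^ 8 * v ^ 3 + 1650 * ζ ^ 14 * u ^ 7 * v ^ 4
      + 210804 * ζ ^ 14 * u ^ 6 * v ^ 5 + 201036 * ζ ^ 14 * u ^ 5 * v ^ 6
      + (-3630) * ζ ^ 14 * u ^ 4 * v ^ 7 + 1815 * ζ ^ 14 * u ^ 3 * v ^ 8
      + 825 * ζ ^ 14 * u ^ 2 * v ^ 9 + (-34386) * ζ ^ 14 * u * v ^ 10 + (-3114) * ζ ^ 14 * v ^ 11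
      + (-6272) * ζ ^ 13 * u ^ 11 + (-110) * ζ ^ 13 * u ^ 10 * v + 220 * ζ ^ 13 * u ^ 9 * v ^ 2
      + 495 * ζ ^ 13 * u ^ 8 * v ^ 3 + (-990) * ζ ^ 13 * u ^ 7 * v ^ 4
      + (-411708) * ζ ^ 13 * u ^ 6 * v ^ 5 + 1980 * ζ ^ 13 * u ^ 5 * v ^ 6
      + (-660) * ζ ^ 13 * u ^ 4 * v ^ 7 + (-660) * ζ ^ 13 * u ^ 3 * v ^ 8
      + (-55) * ζ ^ 13 * u ^ 2 * v ^ 9 + 68772 * ζ ^ 13 * u * v ^ 10 + 3136 * ζ ^ 12 * u ^ 11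
      + 34364 * ζ ^ 12 * u ^ 10 * v + (-110) * ζ ^ 12 * u ^ 9 * v ^ 2
      + 205854 * ζ ^ 12 * u ^ 6 * v ^ 5 + 206316 * ζ ^ 12 * u ^ 5 * v ^ 6
      + 330 * ζ ^ 12 * u ^ 4 * v ^ 7 + (-34386) * ζ ^ 12 * u * v ^ 10 + (-3124) * ζ ^ 12 * v ^ 11
      + (-34364) * ζ ^ 11 * u ^ 10 * v + (-206316) * ζ ^ 11 * u ^ 5 * v ^ 6
      + 3124 * ζ ^ 11 * v ^ 11 + (-34375) * ζ ^ 10 * u ^ 10 * v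
      + (-206250) * ζ ^ 10 * u ^ 5 * v ^ 6 + 3125 * ζ ^ 10 * v ^ 11 + 3125 * ζ ^ 9 * u ^ 11
      + 34375 * ζ ^ 9 * u ^ 10 * v + 206250 * ζ ^ 9 * u ^ 6 * v ^ 5
      + 206250 * ζ ^ 9 * u ^ 5 * v ^ 6 + (-34375) * ζ ^ 9 * u * v ^ 10 + (-3125) * ζ ^ 9 * v ^ 11
      + (-6250) * ζ ^ 8 * u ^ 11 + (-412500) * ζ ^ 8 * u ^ 6 * v ^ 5 + 68750 * ζ ^ 8 * u * v ^ 10
      + 3125 * ζ ^ 7 * u ^ 11 + 34375 * ζ ^ 7 * u ^ 10 * v + 206250 * ζ ^ 7 * u ^ 6 * v ^ 5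
      + 206250 * ζ ^ 7 * u ^ 5 * v ^ 6 + (-34375) * ζ ^ 7 * u * v ^ 10 + (-3125) * ζ ^ 7 * v ^ 11
      + (-34375) * ζ ^ 6 * u ^ 10 * v + (-206250) * ζ ^ 6 * u ^ 5 * v ^ 6 + 3125 * ζ ^ 6 * v ^ 11
      + (-34375) * ζ ^ 5 * u ^ 10 * v + (-206250) * ζ ^ 5 * u ^ 5 * v ^ 6 + 3125 * ζ ^ 5 * v ^ 11
      + 3125 * ζ ^ 4 * u ^ 11 + 34375 * ζ ^ 4 * u ^ 10 * v + 206250 * ζ ^ 4 * u ^ 6 * v ^ 5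
      + 206250 * ζ ^ 4 * u ^ 5 * v ^ 6 + (-34375) * ζ ^ 4 * u * v ^ 10 + (-3125) * ζ ^ 4 * v ^ 11
      + (-6250) * ζ ^ 3 * u ^ 11 + (-412500) * ζ ^ 3 * u ^ 6 * v ^ 5 + 68750 * ζ ^ 3 * u * v ^ 10
      + 3125 * ζ ^ 2 * u ^ 11 + 34375 * ζ ^ 2 * u ^ 10 * v + 206250 * ζ ^ 2 * u ^ 6 * v ^ 5
      + 206250 * ζ ^ 2 * u ^ 5 * v ^ 6 + (-34375) * ζ ^ 2 * u * v ^ 10 + (-3125) * ζ ^ 2 * v ^ 11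
      + (-34375) * ζ * u ^ 10 * v + (-206250) * ζ * u ^ 5 * v ^ 6 + 3125 * ζ * v ^ 11) * hζ

end num

section field

variable {K : Type*} [Field K] [CharZero K]

theorem abs_kleinR_ne_zero (ζ : K) (hζ : ζ ^ 4 + ζ ^ 3 + ζ ^ 2 + ζ + 1 = 0) : kleinR ζ ≠ 0 := by
  intro h0
  have h := kleinR_sq ζ hζ
  rw [h0] at h
  norm_num at h

omit [CharZero K] in
theorem abs_kleinR_pow_eleven (ζ : K) (hζ : ζ ^ 4 + ζ ^ 3 + ζ ^ 2 + ζ + 1 = 0) :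
    kleinR ζ ^ 11 = 3125 * kleinR ζ := by
  have h := kleinR_sq ζ hζ
  have : kleinR ζ ^ 11 = (kleinR ζ ^ 2) ^ 5 * kleinR ζ := by ring
  rw [this, h]
  norm_num

/-- `Φ₁ ∘ Tm = m₁₁ Φ₁ + m₁₂ Φ₂` for `Φ = (f_v, −f_u)`. -/
theorem abs_kleinFv_Tm (ζ u v : K) (hζ : ζ ^ 4 + ζ ^ 3 + ζ ^ 2 + ζ + 1 = 0) :
    kleinFv (kleinTu ζ u v) (kleinTv ζ u v) =
      -kleinA ζ / kleinR ζ * kleinFv u v + kleinB ζ / kleinR ζ * (-kleinFu u v) := by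
  have hr := abs_kleinR_ne_zero ζ hζ
  have h1 : kleinTu ζ u v = (kleinR ζ)⁻¹ * (-(kleinA ζ) * u + kleinB ζ * v) := by
    unfold kleinTu; ring
  have h2 : kleinTv ζ u v = (kleinR ζ)⁻¹ * (kleinB ζ * u + kleinA ζ * v) := by
    unfold kleinTv; ring
  rw [h1, h2, kleinFv_scale, abs_kleinFv_Tm_num ζ u v hζ, inv_pow, abs_kleinR_pow_eleven ζ hζ]
  field_simp
  ring

/-- `Φ₂ ∘ Tm = m₂₁ Φ₁ + m₂₂ Φ₂` for `Φ = (f_v, −f_u)`. -/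
theorem abs_kleinFu_Tm (ζ u v : K) (hζ : ζ ^ 4 + ζ ^ 3 + ζ ^ 2 + ζ + 1 = 0) :
    -kleinFu (kleinTu ζ u v) (kleinTv ζ u v) =
      kleinB ζ / kleinR ζ * kleinFv u v + kleinA ζ / kleinR ζ * (-kleinFu u v) := by
  have hr := abs_kleinR_ne_zero ζ hζ
  have h1 : kleinTu ζ u v = (kleinR ζ)⁻¹ * (-(kleinA ζ) * u + kleinB ζ * v) := by
    unfold kleinTu; ring
  have h2 : kleinTv ζ u v = (kleinR ζ)⁻¹ * (kleinB ζ * u + kleinA ζ * v) := by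
    unfold kleinTv; ring
  rw [h1, h2, kleinFu_scale, abs_kleinFu_Tm_num ζ u v hζ, inv_pow, abs_kleinR_pow_eleven ζ hζ]
  field_simp
  ring

end field

end Fermat.Agent.S52x
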