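/-
PROJECT S52 (3–5 switch), package [ABS] (helper7), part 1b: invariance of Klein's forms under the
generator `S = diag(ζ³, ζ²)` (only `ζ⁵ = 1` is used).
-/
import Mathlib
import Fermat.Agent.S52x.KALG_helper4_Defs

set_option autoImplicit false

namespace Fermat.Agent.S52x

variable {K : Type*} [CommRing K]

theorem abs_kleinH_S (ζ u v : K) (h1 : ζ ^ 5 = 1) :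
    kleinH (kleinSu ζ u v) (kleinSv ζ u v) = kleinH u v := by
  unfold kleinH kleinSu kleinSv
  linear_combination
    ((-1) * u ^ 20 * (1 + ζ ^ 5 + ζ ^ 10 + ζ ^ 15 + ζ ^ 20 + ζ ^ 25 + ζ ^ 30 + ζ ^ 35 + ζ ^ 40 + ζ ^ 45 + ζ ^ 50 + ζ ^ 55) + (-1) * v ^ 20 * (1 + ζ ^ 5 + ζ ^ 10 + ζ ^ 15 + ζ ^ 20 + ζ ^ 25 + ζ ^ 30 + ζ ^ 35) + (228) * u ^ 15 * v ^ 5 * (1 + ζ ^ 5 + ζ ^ 10 + ζ ^ 15 + ζ ^ 20 + ζ ^ 25 + ζ ^ 30 + ζ ^ 35 + ζ ^ 40 + ζ ^ 45 + ζ ^ 50) + (-228) * u ^ 5 * v ^ 15 * (1 + ζ ^ 5 + ζ ^ 10 + ζ ^ 15 + ζ ^ 20 + ζ ^ 25 + ζ ^ 30 + ζ ^ 35 + ζ ^ 40) + (-494) * u ^ 10 * v ^ 10 * (1 + ζ ^ 5 + ζ ^ 10 + ζ ^ 15 + ζ ^ 20 + ζ ^ 25 + ζ ^ 30 + ζ ^ 35 + ζ ^ 40 + ζ ^ 45)) * h1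

theorem abs_kleinT_S (ζ u v : K) (h1 : ζ ^ 5 = 1) :
    kleinT (kleinSu ζ u v) (kleinSv ζ u v) = kleinT u v := by
  unfold kleinT kleinSu kleinSv
  linear_combination
    ((1) * u ^ 30 * (1 + ζ ^ 5 + ζ ^ 10 + ζ ^ 15 + ζ ^ 20 + ζ ^ 25 + ζ ^ 30 + ζ ^ 35 + ζ ^ 40 + ζ ^ 45 + ζ ^ 50 + ζ ^ 55 + ζ ^ 60 + ζ ^ 65 + ζ ^ 70 + ζ ^ 75 + ζ ^ 80 + ζ ^ 85) + (1) * v ^ 30 * (1 + ζ ^ 5 + ζ ^ 10 + ζ ^ 15 + ζ ^ 20 + ζ ^ 25 + ζ ^ 30 + ζ ^ 35 + ζ ^ 40 + ζ ^ 45 + ζ ^ 50 + ζ ^ 55) + (522) * u ^ 25 * v ^ 5 * (1 + ζ ^ 5 + ζ ^ 10 + ζ ^ 15 + ζ ^ 20 + ζ ^ 25 + ζ ^ 30 + ζ ^ 35 + ζ ^ 40 + ζ ^ 45 + ζ ^ 50 + ζ ^ 55 + ζ ^ 60 + ζ ^ 65 + ζ ^ 70 + ζ ^ 75 + ζ ^ 80) + (-522) * u ^ 5 * v ^ 25 * (1 + ζ ^ 5 + ζ ^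 10 + ζ ^ 15 + ζ ^ 20 + ζ ^ 25 + ζ ^ 30 + ζ ^ 35 + ζ ^ 40 + ζ ^ 45 + ζ ^ 50 + ζ ^ 55 + ζ ^ 60) + (-10005) * u ^ 20 * v ^ 10 * (1 + ζ ^ 5 + ζ ^ 10 + ζ ^ 15 + ζ ^ 20 + ζ ^ 25 + ζ ^ 30 + ζ ^ 35 + ζ ^ 40 + ζ ^ 45 + ζ ^ 50 + ζ ^ 55 + ζ ^ 60 + ζ ^ 65 + ζ ^ 70 + ζ ^ 75) + (-10005) * u ^ 10 * v ^ 20 * (1 + ζ ^ 5 + ζ ^ 10 + ζ ^ 15 + ζ ^ 20 + ζ ^ 25 + ζ ^ 30 + ζ ^ 35 + ζ ^ 40 + ζ ^ 45 + ζ ^ 50 + ζ ^ 55 + ζ ^ 60 + ζ ^ 65)) * h1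

theorem abs_kleinF_S (ζ u v : K) (h1 : ζ ^ 5 = 1) :
    kleinF (kleinSu ζ u v) (kleinSv ζ u v) = kleinF u v := by
  unfold kleinF kleinSu kleinSv
  linear_combination
    ((1) * u ^ 11 * v ^ 1 * (1 + ζ ^ 5 + ζ ^ 10 + ζ ^ 15 + ζ ^ 20 + ζ ^ 25 + ζ ^ 30) + (11) * u ^ 6 * v ^ 6 * (1 + ζ ^ 5 + ζ ^ 10 + ζ ^ 15 + ζ ^ 20 + ζ ^ 25) + (-1) * u ^ 1 * v ^ 11 * (1 + ζ ^ 5 + ζ ^ 10 + ζ ^ 15 + ζ ^ 20)) * h1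

theorem abs_kleinFv_S (ζ u v : K) (h1 : ζ ^ 5 = 1) :
    kleinFv (kleinSu ζ u v) (kleinSv ζ u v) = ζ ^ 3 * kleinFv u v := by
  unfold kleinFv kleinSu kleinSv
  linear_combination
    ((1) * u ^ 11 * ζ ^ 3 * (1 + ζ ^ 5 + ζ ^ 10 + ζ ^ 15 + ζ ^ 20 + ζ ^ 25) + (66) * u ^ 6 * v ^ 5 * ζ ^ 3 * (1 + ζ ^ 5 + ζ ^ 10 + ζ ^ 15 + ζ ^ 20) + (-11) * u ^ 1 * v ^ 10 * ζ ^ 3 * (1 + ζ ^ 5 + ζ ^ 10 + ζ ^ 15)) * h1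

theorem abs_kleinFu_S (ζ u v : K) (h1 : ζ ^ 5 = 1) :
    kleinFu (kleinSu ζ u v) (kleinSv ζ u v) = ζ ^ 2 * kleinFu u v := by
  unfold kleinFu kleinSu kleinSv
  linear_combination
    ((11) * u ^ 10 * v ^ 1 * ζ ^ 2 * (1 + ζ ^ 5 + ζ ^ 10 + ζ ^ 15 + ζ ^ 20 + ζ ^ 25) + (66) * u ^ 5 * v ^ 6 * ζ ^ 2 * (1 + ζ ^ 5 + ζ ^ 10 + ζ ^ 15 + ζ ^ 20) + (-1) * v ^ 11 * ζ ^ 2 * (1 + ζ ^ 5 + ζ ^ 10 + ζ ^ 15)) * h1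

end Fermat.Agent.S52x
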