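/-
S52x — [K-PTS] shared definitions (helper3's frozen literal, team message 1533; this file was
put on main by helper5 at helper7's request so that the consumers can compile against it).

* `mkPoint W x y` : the affine point `(x, y)` of `W` if it is nonsingular, else `0` (total function);
* `KleinCurve W u v ν` : `W` is `Y² = X³ + 27 H(u,v) ν⁻⁴ X + 54 T(u,v) ν⁻⁶`, with `ν ≠ 0`, `f(u,v) ≠ 0`;
* `kleinSpt W ζ u v ν`, `kleinTpt W u v ν` : the sections `s₀`, `t₀` as points of `W`.
-/
import Mathlib
import Fermat.Agent.S52x.KALG_helper4_Defs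

set_option autoImplicit false

namespace Fermat.Agent.S52x

variable {k : Type*} [Field k] [DecidableEq k]

open Classical in
/-- The affine point `(x, y)` of `W` if it is nonsingular, and `0` otherwise. -/
noncomputable def mkPoint (W : WeierstrassCurve k) (x y : k) : W.toAffine.Point :=
  if h : W.toAffine.Nonsingular x y then .some x y h else 0

/-- `W` is the member `Y² = X³ + 27 H(u,v) ν⁻⁴ X + 54 T(u,v) ν⁻⁶` of Klein's family. -/
structure KleinCurve (W : WeierstrassCurve k) (u v ν : k) : Prop where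
  (a₁ : W.a₁ = 0) (a₂ : W.a₂ = 0) (a₃ : W.a₃ = 0)
  (a₄ : W.a₄ * ν ^ 4 = 27 * kleinH u v) (a₆ : W.a₆ * ν ^ 6 = 54 * kleinT u v)
  (hν : ν ≠ 0) (hf : kleinF u v ≠ 0)

/-- The section `s₀` (attached to the fifth root of unity `ζ`) as a point of `W`. -/
noncomputable def kleinSpt (W : WeierstrassCurve k) (ζ u v ν : k) : W.toAffine.Point :=
  mkPoint W (kleinXs ζ u v / ν ^ 2) (kleinYs ζ u v / ν ^ 3)

/-- The section `t₀` as a point of `W`. -/
noncomputable def kleinTpt (W : WeierstrassCurve k) (u v ν : k) : W.toAffine.Point :=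
  mkPoint W (kleinXt u v / ν ^ 2) (kleinYt u v / ν ^ 3)

end Fermat.Agent.S52x
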