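/-
S52x — helper5 — [K-PTS] (K3): polynomial identities behind the action of `S` on the sections
`s₀`, `t₀` of Klein's universal curve: `s₀ ∘ S = s₀`, `t₀ ∘ S = t₀ - s₀` (chord formulas).
Certificates generated by an exact `ℚ[ζ,u,v]` tool (plain python).
-/
import Mathlib
import Fermat.Agent.S52x.KALG_helper4_Defs

set_option autoImplicit false
set_option maxHeartbeats 4000000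
set_option maxRecDepth 100000

namespace Fermat.Agent.S52x

variable {K : Type*} [Field K] [CharZero K]

theorem act_kleinXs_S (ζ u v : K) (hζ : ζ ^ 4 + ζ ^ 3 + ζ ^ 2 + ζ + 1 = 0) :
    kleinXs ζ (kleinSu ζ u v) (kleinSv ζ u v) = kleinXs ζ u v := by
  unfold kleinXs kleinSu kleinSv kleinR
  linear_combination
    ((18 / 5) * ζ ^ 30 * u ^ 10 - (36 / 5) * ζ ^ 29 * u ^ 10 + (36 / 5) * ζ ^ 27 * u ^ 10 - (93 / 5) * ζ ^ 26 * u ^ 10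
      + (93 / 5) * ζ ^ 25 * u ^ 10 + (198 / 5) * ζ ^ 25 * u ^ 5 * v ^ 5 - (36 / 5) * ζ ^ 24 * u ^ 10
      - (396 / 5) * ζ ^ 24 * u ^ 5 * v ^ 5 + (36 / 5) * ζ ^ 22 * u ^ 10 + (396 / 5) * ζ ^ 22 * u ^ 5 * v ^ 5
      - (93 / 5) * ζ ^ 21 * u ^ 10 - (198 / 5) * ζ ^ 21 * u ^ 5 * v ^ 5 + (93 / 5) * ζ ^ 20 * u ^ 10
      + (198 / 5) * ζ ^ 20 * u ^ 5 * v ^ 5 - (18 / 5) * ζ ^ 20 * v ^ 10 - (36 / 5) * ζ ^ 19 * u ^ 10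
      - (396 / 5) * ζ ^ 19 * u ^ 5 * v ^ 5 + (36 / 5) * ζ ^ 19 * v ^ 10 + (36 / 5) * ζ ^ 17 * u ^ 10
      + (396 / 5) * ζ ^ 17 * u ^ 5 * v ^ 5 - (36 / 5) * ζ ^ 17 * v ^ 10 - (93 / 5) * ζ ^ 16 * u ^ 10
      - (198 / 5) * ζ ^ 16 * u ^ 5 * v ^ 5 - (57 / 5) * ζ ^ 16 * v ^ 10 + (93 / 5) * ζ ^ 15 * u ^ 10
      + (198 / 5) * ζ ^ 15 * u ^ 5 * v ^ 5 + (57 / 5) * ζ ^ 15 * v ^ 10 - (36 / 5) * ζ ^ 14 * u ^ 10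
      - (396 / 5) * ζ ^ 14 * u ^ 5 * v ^ 5 + (36 / 5) * ζ ^ 14 * v ^ 10 + (36 / 5) * ζ ^ 12 * u ^ 10
      + (396 / 5) * ζ ^ 12 * u ^ 5 * v ^ 5 - (36 / 5) * ζ ^ 12 * v ^ 10 - (93 / 5) * ζ ^ 11 * u ^ 10
      - (198 / 5) * ζ ^ 11 * u ^ 5 * v ^ 5 - (57 / 5) * ζ ^ 11 * v ^ 10 + (93 / 5) * ζ ^ 10 * u ^ 10
      + (198 / 5) * ζ ^ 10 * u ^ 5 * v ^ 5 + (57 / 5) * ζ ^ 10 * v ^ 10 - (36 / 5) * ζ ^ 9 * u ^ 10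
      - (396 / 5) * ζ ^ 9 * u ^ 5 * v ^ 5 + (36 / 5) * ζ ^ 9 * v ^ 10 + (36 / 5) * ζ ^ 7 * u ^ 10
      + (396 / 5) * ζ ^ 7 * u ^ 5 * v ^ 5 - (36 / 5) * ζ ^ 7 * v ^ 10 - (93 / 5) * ζ ^ 6 * u ^ 10
      - (198 / 5) * ζ ^ 6 * u ^ 5 * v ^ 5 - (57 / 5) * ζ ^ 6 * v ^ 10 + (93 / 5) * ζ ^ 5 * u ^ 10
      + (198 / 5) * ζ ^ 5 * u ^ 5 * v ^ 5 + (57 / 5) * ζ ^ 5 * v ^ 10 - (36 / 5) * ζ ^ 4 * u ^ 10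
      - (396 / 5) * ζ ^ 4 * u ^ 5 * v ^ 5 + (36 / 5) * ζ ^ 4 * v ^ 10 + (36 / 5) * ζ ^ 2 * u ^ 10
      + (396 / 5) * ζ ^ 2 * u ^ 5 * v ^ 5 - (36 / 5) * ζ ^ 2 * v ^ 10 - (93 / 5) * ζ * u ^ 10
      - (198 / 5) * ζ * u ^ 5 * v ^ 5 - (57 / 5) * ζ * v ^ 10 + 15 * u ^ 10 + 15 * v ^ 10) * hζ

theorem act_kleinYs_S (ζ u v : K) (hζ : ζ ^ 4 + ζ ^ 3 + ζ ^ 2 + ζ + 1 = 0) :
    kleinYs ζ (kleinSu ζ u v) (kleinSv ζ u v) = kleinYs ζ u v := by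
  unfold kleinYs kleinSu kleinSv kleinA kleinB
  linear_combination
    (-(108 / 5) * ζ ^ 45 * u ^ 15 + (324 / 5) * ζ ^ 44 * u ^ 15 - (432 / 5) * ζ ^ 43 * u ^ 15
      + (324 / 5) * ζ ^ 42 * u ^ 15 - (108 / 5) * ζ ^ 41 * u ^ 15 - (108 / 5) * ζ ^ 40 * u ^ 15
      - (972 / 5) * ζ ^ 40 * u ^ 10 * v ^ 5 + (324 / 5) * ζ ^ 39 * u ^ 15 + (3456 / 5) * ζ ^ 39 * u ^ 10 * v ^ 5
      - (432 / 5) * ζ ^ 38 * u ^ 15 - (4968 / 5) * ζ ^ 38 * u ^ 10 * v ^ 5 + (324 / 5) * ζ ^ 37 * u ^ 15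
      + (3456 / 5) * ζ ^ 37 * u ^ 10 * v ^ 5 - (108 / 5) * ζ ^ 36 * u ^ 15 - (972 / 5) * ζ ^ 36 * u ^ 10 * v ^ 5
      - (108 / 5) * ζ ^ 35 * u ^ 15 - (972 / 5) * ζ ^ 35 * u ^ 10 * v ^ 5 + (2484 / 5) * ζ ^ 35 * u ^ 5 * v ^ 10
      + (324 / 5) * ζ ^ 34 * u ^ 15 + (3456 / 5) * ζ ^ 34 * u ^ 10 * v ^ 5 - (1512 / 5) * ζ ^ 34 * u ^ 5 * v ^ 10
      - (432 / 5) * ζ ^ 33 * u ^ 15 - (4968 / 5) * ζ ^ 33 * u ^ 10 * v ^ 5 - (1944 / 5) * ζ ^ 33 * u ^ 5 * v ^ 10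
      + (324 / 5) * ζ ^ 32 * u ^ 15 + (3456 / 5) * ζ ^ 32 * u ^ 10 * v ^ 5 - (1512 / 5) * ζ ^ 32 * u ^ 5 * v ^ 10
      - (108 / 5) * ζ ^ 31 * u ^ 15 - (972 / 5) * ζ ^ 31 * u ^ 10 * v ^ 5 + (2484 / 5) * ζ ^ 31 * u ^ 5 * v ^ 10
      - (108 / 5) * ζ ^ 30 * u ^ 15 - (972 / 5) * ζ ^ 30 * u ^ 10 * v ^ 5 + (2484 / 5) * ζ ^ 30 * u ^ 5 * v ^ 10
      - (216 / 5) * ζ ^ 30 * v ^ 15 + (324 / 5) * ζ ^ 29 * u ^ 15 + (3456 / 5) * ζ ^ 29 * u ^ 10 * v ^ 5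
      - (1512 / 5) * ζ ^ 29 * u ^ 5 * v ^ 10 + (108 / 5) * ζ ^ 29 * v ^ 15 - (432 / 5) * ζ ^ 28 * u ^ 15
      - (4968 / 5) * ζ ^ 28 * u ^ 10 * v ^ 5 - (1944 / 5) * ζ ^ 28 * u ^ 5 * v ^ 10 + (216 / 5) * ζ ^ 28 * v ^ 15
      + (324 / 5) * ζ ^ 27 * u ^ 15 + (3456 / 5) * ζ ^ 27 * u ^ 10 * v ^ 5 - (1512 / 5) * ζ ^ 27 * u ^ 5 * v ^ 10
      + (108 / 5) * ζ ^ 27 * v ^ 15 - (108 / 5) * ζ ^ 26 * u ^ 15 - (972 / 5) * ζ ^ 26 * u ^ 10 * v ^ 5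
      + (2484 / 5) * ζ ^ 26 * u ^ 5 * v ^ 10 - (216 / 5) * ζ ^ 26 * v ^ 15 - (108 / 5) * ζ ^ 25 * u ^ 15
      - (972 / 5) * ζ ^ 25 * u ^ 10 * v ^ 5 + (2484 / 5) * ζ ^ 25 * u ^ 5 * v ^ 10 - (216 / 5) * ζ ^ 25 * v ^ 15
      + (324 / 5) * ζ ^ 24 * u ^ 15 + (3456 / 5) * ζ ^ 24 * u ^ 10 * v ^ 5 - (1512 / 5) * ζ ^ 24 * u ^ 5 * v ^ 10
      + (108 / 5) * ζ ^ 24 * v ^ 15 - (432 / 5) * ζ ^ 23 * u ^ 15 - (4968 / 5) * ζ ^ 23 * u ^ 10 * v ^ 5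
      - (1944 / 5) * ζ ^ 23 * u ^ 5 * v ^ 10 + (216 / 5) * ζ ^ 23 * v ^ 15 + (324 / 5) * ζ ^ 22 * u ^ 15
      + (3456 / 5) * ζ ^ 22 * u ^ 10 * v ^ 5 - (1512 / 5) * ζ ^ 22 * u ^ 5 * v ^ 10 + (108 / 5) * ζ ^ 22 * v ^ 15
      - (108 / 5) * ζ ^ 21 * u ^ 15 - (972 / 5) * ζ ^ 21 * u ^ 10 * v ^ 5 + (2484 / 5) * ζ ^ 21 * u ^ 5 * v ^ 10
      - (216 / 5) * ζ ^ 21 * v ^ 15 - (108 / 5) * ζ ^ 20 * u ^ 15 - (972 / 5) * ζ ^ 20 * u ^ 10 * v ^ 5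
      + (2484 / 5) * ζ ^ 20 * u ^ 5 * v ^ 10 - (216 / 5) * ζ ^ 20 * v ^ 15 + (324 / 5) * ζ ^ 19 * u ^ 15
      + (3456 / 5) * ζ ^ 19 * u ^ 10 * v ^ 5 - (1512 / 5) * ζ ^ 19 * u ^ 5 * v ^ 10 + (108 / 5) * ζ ^ 19 * v ^ 15
      - (432 / 5) * ζ ^ 18 * u ^ 15 - (4968 / 5) * ζ ^ 18 * u ^ 10 * v ^ 5 - (1944 / 5) * ζ ^ 18 * u ^ 5 * v ^ 10
      + (216 / 5) * ζ ^ 18 * v ^ 15 + (324 / 5) * ζ ^ 17 * u ^ 15 + (3456 / 5) * ζ ^ 17 * u ^ 10 * v ^ 5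
      - (1512 / 5) * ζ ^ 17 * u ^ 5 * v ^ 10 + (108 / 5) * ζ ^ 17 * v ^ 15 - (108 / 5) * ζ ^ 16 * u ^ 15
      - (972 / 5) * ζ ^ 16 * u ^ 10 * v ^ 5 + (2484 / 5) * ζ ^ 16 * u ^ 5 * v ^ 10 - (216 / 5) * ζ ^ 16 * v ^ 15
      - (108 / 5) * ζ ^ 15 * u ^ 15 - (972 / 5) * ζ ^ 15 * u ^ 10 * v ^ 5 + (2484 / 5) * ζ ^ 15 * u ^ 5 * v ^ 10
      - (216 / 5) * ζ ^ 15 * v ^ 15 + (324 / 5) * ζ ^ 14 * u ^ 15 + (3456 / 5) * ζ ^ 14 * u ^ 10 * v ^ 5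
      - (1512 / 5) * ζ ^ 14 * u ^ 5 * v ^ 10 + (108 / 5) * ζ ^ 14 * v ^ 15 - (432 / 5) * ζ ^ 13 * u ^ 15
      - (4968 / 5) * ζ ^ 13 * u ^ 10 * v ^ 5 - (1944 / 5) * ζ ^ 13 * u ^ 5 * v ^ 10 + (216 / 5) * ζ ^ 13 * v ^ 15
      + (324 / 5) * ζ ^ 12 * u ^ 15 + (3456 / 5) * ζ ^ 12 * u ^ 10 * v ^ 5 - (1512 / 5) * ζ ^ 12 * u ^ 5 * v ^ 10
      + (108 / 5) * ζ ^ 12 * v ^ 15 - (108 / 5) * ζ ^ 11 * u ^ 15 - (972 / 5) * ζ ^ 11 * u ^ 10 * v ^ 5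
      + (2484 / 5) * ζ ^ 11 * u ^ 5 * v ^ 10 - (216 / 5) * ζ ^ 11 * v ^ 15 - (108 / 5) * ζ ^ 10 * u ^ 15
      - (972 / 5) * ζ ^ 10 * u ^ 10 * v ^ 5 + (2484 / 5) * ζ ^ 10 * u ^ 5 * v ^ 10 - (216 / 5) * ζ ^ 10 * v ^ 15
      + (324 / 5) * ζ ^ 9 * u ^ 15 + (3456 / 5) * ζ ^ 9 * u ^ 10 * v ^ 5 - (1512 / 5) * ζ ^ 9 * u ^ 5 * v ^ 10
      + (108 / 5) * ζ ^ 9 * v ^ 15 - (432 / 5) * ζ ^ 8 * u ^ 15 - (4968 / 5) * ζ ^ 8 * u ^ 10 * v ^ 5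
      - (1944 / 5) * ζ ^ 8 * u ^ 5 * v ^ 10 + (216 / 5) * ζ ^ 8 * v ^ 15 + (324 / 5) * ζ ^ 7 * u ^ 15
      + (3456 / 5) * ζ ^ 7 * u ^ 10 * v ^ 5 - (1512 / 5) * ζ ^ 7 * u ^ 5 * v ^ 10 + (108 / 5) * ζ ^ 7 * v ^ 15
      - (108 / 5) * ζ ^ 6 * u ^ 15 - (972 / 5) * ζ ^ 6 * u ^ 10 * v ^ 5 + (2484 / 5) * ζ ^ 6 * u ^ 5 * v ^ 10
      - (216 / 5) * ζ ^ 6 * v ^ 15 - (108 / 5) * ζ ^ 5 * u ^ 15 - (972 / 5) * ζ ^ 5 * u ^ 10 * v ^ 5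
      + (2484 / 5) * ζ ^ 5 * u ^ 5 * v ^ 10 - (216 / 5) * ζ ^ 5 * v ^ 15 + (324 / 5) * ζ ^ 4 * u ^ 15
      + (3456 / 5) * ζ ^ 4 * u ^ 10 * v ^ 5 - (1512 / 5) * ζ ^ 4 * u ^ 5 * v ^ 10 + (108 / 5) * ζ ^ 4 * v ^ 15
      - (432 / 5) * ζ ^ 3 * u ^ 15 - (4968 / 5) * ζ ^ 3 * u ^ 10 * v ^ 5 - (1944 / 5) * ζ ^ 3 * u ^ 5 * v ^ 10
      + (216 / 5) * ζ ^ 3 * v ^ 15 + (324 / 5) * ζ ^ 2 * u ^ 15 + (3456 / 5) * ζ ^ 2 * u ^ 10 * v ^ 5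
      - (1512 / 5) * ζ ^ 2 * u ^ 5 * v ^ 10 + (108 / 5) * ζ ^ 2 * v ^ 15 - (108 / 5) * ζ * u ^ 15
      - (972 / 5) * ζ * u ^ 10 * v ^ 5 + (2484 / 5) * ζ * u ^ 5 * v ^ 10 - (216 / 5) * ζ * v ^ 15) * hζ

/-- the chord identity for the `X`-coordinate of `t₀ - s₀`. -/
theorem act_klein_chord_X (ζ u v : K) (hζ : ζ ^ 4 + ζ ^ 3 + ζ ^ 2 + ζ + 1 = 0) :
    (kleinYt u v + kleinYs ζ u v) ^ 2 -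
        (kleinXt u v + kleinXs ζ u v) * (kleinXt u v - kleinXs ζ u v) ^ 2 =
      kleinXt (kleinSu ζ u v) (kleinSv ζ u v) * (kleinXt u v - kleinXs ζ u v) ^ 2 := by
  unfold kleinYt kleinYs kleinXt kleinXs kleinSu kleinSv kleinA kleinB kleinR
  linear_combination
    (ζ ^ 34 * (-(972 / 25) * u ^ 30 - (21384 / 25) * u ^ 25 * v ^ 5 - (115668 / 25) * u ^ 20 * v ^ 10 + (21384 / 25) * u ^ 15 * v ^ 15 - (972 / 25) * u ^ 10 * v ^ 20) +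
      ζ ^ 33 * ((2916 / 25) * u ^ 30 + (64152 / 25) * u ^ 25 * v ^ 5 + (347004 / 25) * u ^ 20 * v ^ 10 - (64152 / 25) * u ^ 15 * v ^ 15 + (2916 / 25) * u ^ 10 * v ^ 20) +
      ζ ^ 32 * (-(972 / 25) * u ^ 30 - (11664 / 25) * u ^ 28 * v ^ 2 - (21384 / 25) * u ^ 25 * v ^ 5 - (256608 / 25) * u ^ 23 * v ^ 7 - (115668 / 25) * u ^ 20 * v ^ 10 - (1388016 / 25) * u ^ 18 * v ^ 12 + (21384 / 25) * u ^ 15 * v ^ 15 + (256608 / 25) * u ^ 13 * v ^ 17 - (972 / 25) * u ^ 10 * v ^ 20 - (11664 / 25) * u ^ 8 * v ^ 22) +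
      ζ ^ 31 * (-(972 / 5) * u ^ 30 + (34992 / 25) * u ^ 28 * v ^ 2 + (11664 / 25) * u ^ 27 * v ^ 3 - (21384 / 5) * u ^ 25 * v ^ 5 + (769824 / 25) * u ^ 23 * v ^ 7 + (256608 / 25) * u ^ 22 * v ^ 8 - (115668 / 5) * u ^ 20 * v ^ 10 + (4164048 / 25) * u ^ 18 * v ^ 12 + (1388016 / 25) * u ^ 17 * v ^ 13 + (21384 / 5) * u ^ 15 * v ^ 15 - (769824 / 25) * u ^ 13 * v ^ 17 - (256608 / 25) * u ^ 12 * v ^ 18 - (972 / 5) * u ^ 10 * v ^ 20 + (34992 / 25) * u ^ 8 * v ^ 22 + (11664 / 25) * u ^ 7 * v ^ 23) +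
      ζ ^ 30 * ((2916 / 5) * u ^ 30 + (7776 / 25) * u ^ 28 * v ^ 2 - (54432 / 25) * u ^ 27 * v ^ 3 + (15552 / 25) * u ^ 26 * v ^ 4 + (52488 / 5) * u ^ 25 * v ^ 5 + 3888 * u ^ 24 * v ^ 6 + (15552 / 25) * u ^ 23 * v ^ 7 - (944784 / 25) * u ^ 22 * v ^ 8 - (66096 / 25) * u ^ 21 * v ^ 9 + (222588 / 5) * u ^ 20 * v ^ 10 + 42768 * u ^ 19 * v ^ 11 - (765936 / 25) * u ^ 18 * v ^ 12 - (3716928 / 25) * u ^ 17 * v ^ 13 - (2601072 / 25) * u ^ 16 * v ^ 14 - 1944 * u ^ 15 * v ^ 15 - 3888 * u ^ 14 * v ^ 16 + (198288 / 25) * u ^ 13 * v ^ 17 + (730944 / 25) * u ^ 12 * v ^ 18 + (493776 / 25) * u ^ 11 * v ^ 19 - (972 / 5) * u ^ 10 * v ^ 20 - (11664 / 25) * u ^ 8 * v ^ 22 - (34992 / 25) * u ^ 7 * v ^ 23 - (23328 / 25) * u ^ 6 * v ^ 24) +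
      ζ ^ 29 * (-(3888 / 5) * u ^ 30 - 3888 * u ^ 28 * v ^ 2 + (50544 / 25) * u ^ 27 * v ^ 3 - (7776 / 25) * u ^ 26 * v ^ 4 - 13608 * u ^ 25 * v ^ 5 - 7776 * u ^ 24 * v ^ 6 - (365472 / 5) * u ^ 23 * v ^ 7 + (606528 / 25) * u ^ 22 * v ^ 8 + (645408 / 25) * u ^ 21 * v ^ 9 - (342144 / 5) * u ^ 20 * v ^ 10 - 85536 * u ^ 19 * v ^ 11 - (1636848 / 5) * u ^ 18 * v ^ 12 + (493776 / 25) * u ^ 17 * v ^ 13 + (7978176 / 25) * u ^ 16 * v ^ 14 - (717336 / 5) * u ^ 15 * v ^ 15 + 7776 * u ^ 14 * v ^ 16 + (279936 / 5) * u ^ 13 * v ^ 17 - (178848 / 25) * u ^ 12 * v ^ 18 - (1500768 / 25) * u ^ 11 * v ^ 19 + (132192 / 5) * u ^ 10 * v ^ 20 - (11664 / 5) * u ^ 8 * v ^ 22 + (11664 / 25) * u ^ 7 * v ^ 23 + (69984 / 25) * u ^ 6 * v ^ 24 - (5832 / 5) * u ^ 5 * v ^ 25) +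
      ζ ^ 28 * ((34992 / 5) * u ^ 28 * v ^ 2 + (11664 / 5) * u ^ 27 * v ^ 3 + (209952 / 25) * u ^ 26 * v ^ 4 - 5832 * u ^ 25 * v ^ 5 + (81648 / 5) * u ^ 24 * v ^ 6 + (629856 / 5) * u ^ 23 * v ^ 7 + (489888 / 5) * u ^ 22 * v ^ 8 + (2752704 / 25) * u ^ 21 * v ^ 9 - (34992 / 5) * u ^ 20 * v ^ 10 + 163296 * u ^ 19 * v ^ 11 + (2671056 / 5) * u ^ 18 * v ^ 12 + (3954096 / 5) * u ^ 17 * v ^ 13 + (4688928 / 25) * u ^ 16 * v ^ 14 + (3155112 / 5) * u ^ 15 * v ^ 15 - (968112 / 5) * u ^ 14 * v ^ 16 - 23328 * u ^ 13 * v ^ 17 - (489888 / 5) * u ^ 12 * v ^ 18 - (186624 / 25) * u ^ 11 * v ^ 19 - (478224 / 5) * u ^ 10 * v ^ 20 + (209952 / 5) * u ^ 9 * v ^ 21 - (11664 / 5) * u ^ 8 * v ^ 22 + (11664 / 5) * u ^ 7 * v ^ 23 - (23328 / 25) * u ^ 6 * v ^ 24 + (17496 / 5) *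 u ^ 5 * v ^ 25 - (11664 / 5) * u ^ 4 * v ^ 26) +
      ζ ^ 27 * ((3888 / 5) * u ^ 30 - 7776 * u ^ 28 * v ^ 2 - (42768 / 5) * u ^ 27 * v ^ 3 - (101088 / 5) * u ^ 26 * v ^ 4 + (103032 / 5) * u ^ 25 * v ^ 5 - (66096 / 5) * u ^ 24 * v ^ 6 - (3689712 / 25) * u ^ 23 * v ^ 7 - 233280 * u ^ 22 * v ^ 8 - (1874016 / 5) * u ^ 21 * v ^ 9 + 54432 * u ^ 20 * v ^ 10 - (528768 / 5) * u ^ 19 * v ^ 11 - (17721504 / 25) * u ^ 18 * v ^ 12 - (7624368 / 5) * u ^ 17 * v ^ 13 - (8258112 / 5) * u ^ 16 * v ^ 14 - (4309848 / 5) * u ^ 15 * v ^ 15 + (2212272 / 5) * u ^ 14 * v ^ 16 - (7779888 / 25) * u ^ 13 * v ^ 17 + (567648 / 5) * u ^ 12 * v ^ 18 + (1018656 / 5) * u ^ 11 * v ^ 19 + (451008 / 5) * u ^ 10 * v ^ 20 - 116640 * u ^ 9 * v ^ 21 + (1236384 / 25) * u ^ 8 * v ^ 22 + (11664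 / 5) * u ^ 7 * v ^ 23 - (23328 / 5) * u ^ 6 * v ^ 24 - (5832 / 5) * u ^ 5 * v ^ 25 + (34992 / 5) * u ^ 4 * v ^ 26 - (34992 / 25) * u ^ 3 * v ^ 27) +
      ζ ^ 26 * (-(7776 / 5) * u ^ 30 - (23328 / 5) * u ^ 28 * v ^ 2 + (69984 / 5) * u ^ 27 * v ^ 3 + (3888 / 5) * u ^ 26 * v ^ 4 + (1944 / 5) * u ^ 25 * v ^ 5 - (225504 / 5) * u ^ 24 * v ^ 6 - (89424 / 25) * u ^ 23 * v ^ 7 + (3748032 / 25) * u ^ 22 * v ^ 8 + (1500768 / 5) * u ^ 21 * v ^ 9 + 85536 * u ^ 20 * v ^ 10 - (684288 / 5) * u ^ 19 * v ^ 11 + (3650832 / 25) * u ^ 18 * v ^ 12 + (18421344 / 25) * u ^ 17 * v ^ 13 + 1947888 * u ^ 16 * v ^ 14 + (4181544 / 5) * u ^ 15 * v ^ 15 + (3471984 / 5) * u ^ 14 * v ^ 16 + (26799984 / 25) * u ^ 13 * v ^ 17 + (2569968 / 25) * u ^ 12 * v ^ 18 - (715392 / 5) * u ^ 11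 * v ^ 19 - (108864 / 5) * u ^ 10 * v ^ 20 - (209952 / 5) * u ^ 9 * v ^ 21 - (3709152 / 25) * u ^ 8 * v ^ 22 - (186624 / 25) * u ^ 7 * v ^ 23 - (23328 / 5) * u ^ 6 * v ^ 24 - 5832 * u ^ 5 * v ^ 25 - (11664 / 5) * u ^ 4 * v ^ 26 + (104976 / 25) * u ^ 3 * v ^ 27 - (23328 / 25) * u ^ 2 * v ^ 28) +
      ζ ^ 25 * ((7776 / 5) * u ^ 30 + (69984 / 5) * u ^ 28 * v ^ 2 - (23328 / 5) * u ^ 27 * v ^ 3 + (66096 / 5) * u ^ 26 * v ^ 4 + (56376 / 5) * u ^ 25 * v ^ 5 + 31104 * u ^ 24 * v ^ 6 + (5874768 / 25) * u ^ 23 * v ^ 7 + (847584 / 25) * u ^ 22 * v ^ 8 + (1349136 / 25) * u ^ 21 * v ^ 9 + 101088 * u ^ 20 * v ^ 10 - 54432 * u ^ 19 * v ^ 11 + (33813936 / 25) * u ^ 18 * v ^ 12 + (5116608 / 25) * u ^ 17 * v ^ 13 + (6100272 / 25) * u ^ 16 * v ^ 14 - (973944 / 5) * u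 ^ 15 * v ^ 15 - 1076976 * u ^ 14 * v ^ 16 - (4941648 / 25) * u ^ 13 * v ^ 17 + (11263536 / 25) * u ^ 12 * v ^ 18 - (260496 / 25) * u ^ 11 * v ^ 19 + (458784 / 5) * u ^ 10 * v ^ 20 + 233280 * u ^ 9 * v ^ 21 + (653184 / 25) * u ^ 8 * v ^ 22 - (1772928 / 25) * u ^ 7 * v ^ 23 + (139968 / 25) * u ^ 6 * v ^ 24 - 5832 * u ^ 5 * v ^ 25 - 11664 * u ^ 4 * v ^ 26 - (34992 / 25) * u ^ 3 * v ^ 27 + (69984 / 25) * u ^ 2 * v ^ 28 - (11664 / 25) * u * v ^ 29) +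
      ζ ^ 24 * (-(3888 / 5) * u ^ 30 - (101088 / 5) * u ^ 28 * v ^ 2 - 7776 * u ^ 27 * v ^ 3 - (295488 / 5) * u ^ 26 * v ^ 4 + (7776 / 5) * u ^ 25 * v ^ 5 - 112752 * u ^ 24 * v ^ 6 - (1310256 / 5) * u ^ 23 * v ^ 7 - (13903488 / 25) * u ^ 22 * v ^ 8 - (14622768 / 25) * u ^ 21 * v ^ 9 - (25331292 / 25) * u ^ 20 * v ^ 10 - 62208 * u ^ 19 * v ^ 11 - (13709088 / 5) * u ^ 18 * v ^ 12 - (41065056 / 25) * u ^ 17 * v ^ 13 - (124851456 / 25) * u ^ 16 * v ^ 14 - (75837384 / 25) * u ^ 15 * v ^ 15 - 2080080 * u ^ 14 * v ^ 16 - (5213808 / 5) * u ^ 13 * v ^ 17 - (9929952 / 25) * u ^ 12 * v ^ 18 + (15400368 / 25) * u ^ 11 * v ^ 19 + (5269212 / 25) * u ^ 10 * v ^ 20 + 116640 * u ^ 9 * v ^ 21 + 69984 * u ^ 8 * v ^ 22 - (419904 / 25) * u ^ 7 * v ^ 23 - (1936224 / 25)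 * u ^ 6 * v ^ 24 - (561816 / 25) * u ^ 5 * v ^ 25 - 11664 * u ^ 4 * v ^ 26 - (34992 / 5) * u ^ 3 * v ^ 27 - (23328 / 25) * u ^ 2 * v ^ 28 + (34992 / 25) * u * v ^ 29 - (972 / 25) * v ^ 30) +
      ζ ^ 23 * ((93312 / 5) * u ^ 28 * v ^ 2 + (93312 / 5) * u ^ 27 * v ^ 3 + (373248 / 5) * u ^ 26 * v ^ 4 + 93312 * u ^ 24 * v ^ 6 + 291600 * u ^ 23 * v ^ 7 + (3195936 / 5) * u ^ 22 * v ^ 8 + (31247856 / 25) * u ^ 21 * v ^ 9 + (17965476 / 25) * u ^ 20 * v ^ 10 + (4012416 / 5) * u ^ 19 * v ^ 11 + (9027936 / 5) * u ^ 18 * v ^ 12 + (17122752 / 5) * u ^ 17 * v ^ 13 + (172137312 / 25) * u ^ 16 * v ^ 14 + (109239192 / 25) * u ^ 15 * v ^ 15 + (16282944 / 5) * u ^ 14 * v ^ 16 + (1061424 / 5) * u ^ 13 * v ^ 17 + (536544 / 5) * u ^ 12 * v ^ 18 - (6053616 / 25) * u ^ 11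 * v ^ 19 + (1280124 / 25) * u ^ 10 * v ^ 20 + (93312 / 5) * u ^ 9 * v ^ 21 + (1842912 / 5) * u ^ 8 * v ^ 22 + (1073088 / 5) * u ^ 7 * v ^ 23 + (2356128 / 25) * u ^ 6 * v ^ 24 + (868968 / 25) * u ^ 5 * v ^ 25 + (93312 / 5) * u ^ 4 * v ^ 26 - (34992 / 5) * u ^ 3 * v ^ 27 - (23328 / 5) * u ^ 2 * v ^ 28 - (11664 / 25) * u * v ^ 29 + (2916 / 25) * v ^ 30) +
      ζ ^ 22 * ((3888 / 5) * u ^ 30 - 7776 * u ^ 28 * v ^ 2 - (101088 / 5) * u ^ 27 * v ^ 3 - (264384 / 5) * u ^ 26 * v ^ 4 - (7776 / 5) * u ^ 25 * v ^ 5 - 85536 * u ^ 24 * v ^ 6 - 155520 * u ^ 23 * v ^ 7 - 606528 * u ^ 22 * v ^ 8 - (5011632 / 5) * u ^ 21 * v ^ 9 - (17127612 / 25) * u ^ 20 * v ^ 10 - (6524064 / 5) * u ^ 19 * v ^ 11 - (8102592 / 5) * u ^ 18 * v ^ 12 - (21049632 / 5) * u ^ 17 * v ^ 13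 - (28880064 / 5) * u ^ 16 * v ^ 14 - (129025224 / 25) * u ^ 15 * v ^ 15 - (31345056 / 5) * u ^ 14 * v ^ 16 - (29416608 / 5) * u ^ 13 * v ^ 17 - (27472608 / 5) * u ^ 12 * v ^ 18 - (17305488 / 5) * u ^ 11 * v ^ 19 - (53089668 / 25) * u ^ 10 * v ^ 20 - (5038848 / 5) * u ^ 9 * v ^ 21 - (2052864 / 5) * u ^ 8 * v ^ 22 + (279936 / 5) * u ^ 7 * v ^ 23 + (303264 / 5) * u ^ 6 * v ^ 24 + (837864 / 25) * u ^ 5 * v ^ 25 + (93312 / 5) * u ^ 4 * v ^ 26 + (46656 / 5) * u ^ 3 * v ^ 27 - (23328 / 5) * u ^ 2 * v ^ 28 - (11664 / 5) * u * v ^ 29 - (972 / 25) * v ^ 30) +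
      ζ ^ 21 * (-(7776 / 5) * u ^ 30 - (23328 / 5) * u ^ 28 * v ^ 2 + (69984 / 5) * u ^ 27 * v ^ 3 + (120528 / 5) * u ^ 26 * v ^ 4 - (202176 / 5) * u ^ 25 * v ^ 5 + 97200 * u ^ 24 * v ^ 6 - 241056 * u ^ 23 * v ^ 7 + 645408 * u ^ 22 * v ^ 8 - 136080 * u ^ 21 * v ^ 9 + (4614084 / 5) * u ^ 20 * v ^ 10 - 202176 * u ^ 19 * v ^ 11 + (3347568 / 5) * u ^ 18 * v ^ 12 + (6819552 / 5) * u ^ 17 * v ^ 13 + (10019376 / 5) * u ^ 16 * v ^ 14 + (11199384 / 5) * u ^ 15 * v ^ 15 + 3024864 * u ^ 14 * v ^ 16 + (12729312 / 5) * u ^ 13 * v ^ 17 + (975888 / 5) * u ^ 12 * v ^ 18 - (8192016 / 5) * u ^ 11 * v ^ 19 - 1414260 * u ^ 10 * v ^ 20 - 1353024 * u ^ 9 * v ^ 21 - (5552064 / 5) * u ^ 8 * v ^ 22 - (2729376 / 5) * u ^ 7 * v ^ 23 - (489888 / 5) * u ^ 6 * v ^ 24 - (235224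 / 5) * u ^ 5 * v ^ 25 + (93312 / 5) * u ^ 3 * v ^ 27 + (46656 / 5) * u ^ 2 * v ^ 28 - (11664 / 5) * u * v ^ 29 - (972 / 5) * v ^ 30) +
      ζ ^ 20 * ((7776 / 5) * u ^ 30 + (69984 / 5) * u ^ 28 * v ^ 2 - (23328 / 5) * u ^ 27 * v ^ 3 + (66096 / 5) * u ^ 26 * v ^ 4 + (202176 / 5) * u ^ 25 * v ^ 5 - 50544 * u ^ 24 * v ^ 6 + 381024 * u ^ 23 * v ^ 7 - 365472 * u ^ 22 * v ^ 8 + 730944 * u ^ 21 * v ^ 9 - 689148 * u ^ 20 * v ^ 10 + 715392 * u ^ 19 * v ^ 11 - 248832 * u ^ 18 * v ^ 12 + 81648 * u ^ 17 * v ^ 13 - 439344 * u ^ 16 * v ^ 14 - 600696 * u ^ 15 * v ^ 15 - 3020976 * u ^ 14 * v ^ 16 - 3561408 * u ^ 13 * v ^ 17 - 4681152 * u ^ 12 * v ^ 18 - 5563728 * u ^ 11 * v ^ 19 - 5562756 * u ^ 10 * v ^ 20 - 3922992 * u ^ 9 * v ^ 21 - 2690496 * u ^ 8 * v ^ 22 - 1582416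 * u ^ 7 * v ^ 23 - 711504 * u ^ 6 * v ^ 24 - (919512 / 5) * u ^ 5 * v ^ 25 - 50544 * u ^ 4 * v ^ 26 + (34992 / 5) * u ^ 3 * v ^ 27 + (85536 / 5) * u ^ 2 * v ^ 28 + (42768 / 5) * u * v ^ 29 - (972 / 5) * v ^ 30) +
      ζ ^ 19 * (-(3888 / 5) * u ^ 30 - (101088 / 5) * u ^ 28 * v ^ 2 - 7776 * u ^ 27 * v ^ 3 - (295488 / 5) * u ^ 26 * v ^ 4 + (7776 / 5) * u ^ 25 * v ^ 5 - 54432 * u ^ 24 * v ^ 6 - 311040 * u ^ 23 * v ^ 7 - 303264 * u ^ 22 * v ^ 8 - 987552 * u ^ 21 * v ^ 9 - 108864 * u ^ 20 * v ^ 10 - 458784 * u ^ 19 * v ^ 11 - 629856 * u ^ 18 * v ^ 12 - 1928448 * u ^ 17 * v ^ 13 - 3227040 * u ^ 16 * v ^ 14 - 2177280 * u ^ 15 * v ^ 15 + 1726272 * u ^ 14 * v ^ 16 + 3724704 * u ^ 13 * v ^ 17 + 5279904 * u ^ 12 * v ^ 18 + 5023296 * u ^ 11 * v ^ 19 + 3102624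 * u ^ 10 * v ^ 20 + 1314144 * u ^ 9 * v ^ 21 + 342144 * u ^ 8 * v ^ 22 - 287712 * u ^ 7 * v ^ 23 - 443232 * u ^ 6 * v ^ 24 - (1353024 / 5) * u ^ 5 * v ^ 25 - 132192 * u ^ 4 * v ^ 26 - (303264 / 5) * u ^ 3 * v ^ 27 - 15552 * u ^ 2 * v ^ 28 + (7776 / 5) * u * v ^ 29 + (3888 / 5) * v ^ 30) +
      ζ ^ 18 * ((93312 / 5) * u ^ 28 * v ^ 2 + (93312 / 5) * u ^ 27 * v ^ 3 + (373248 / 5) * u ^ 26 * v ^ 4 + 93312 * u ^ 24 * v ^ 6 + 326592 * u ^ 23 * v ^ 7 + 606528 * u ^ 22 * v ^ 8 + 1399680 * u ^ 21 * v ^ 9 + 466560 * u ^ 20 * v ^ 10 + 1353024 * u ^ 19 * v ^ 11 + 1539648 * u ^ 18 * v ^ 12 + 4665600 * u ^ 17 * v ^ 13 + 6578496 * u ^ 16 * v ^ 14 + 5365440 * u ^ 15 * v ^ 15 + 3639168 * u ^ 14 * v ^ 16 + 2426112 * u ^ 13 * v ^ 17 + 2612736 * u ^ 12 * v ^ 18 + 2612736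 * u ^ 11 * v ^ 19 + 2099520 * u ^ 10 * v ^ 20 + 1213056 * u ^ 9 * v ^ 21 + 699840 * u ^ 8 * v ^ 22 + 139968 * u ^ 7 * v ^ 23 - 186624 * u ^ 6 * v ^ 24 - 233280 * u ^ 5 * v ^ 25 - 139968 * u ^ 4 * v ^ 26 - (419904 / 5) * u ^ 3 * v ^ 27 - (186624 / 5) * u ^ 2 * v ^ 28 - (46656 / 5) * u * v ^ 29) +
      ζ ^ 17 * ((3888 / 5) * u ^ 30 - 7776 * u ^ 28 * v ^ 2 - (101088 / 5) * u ^ 27 * v ^ 3 - (264384 / 5) * u ^ 26 * v ^ 4 - (7776 / 5) * u ^ 25 * v ^ 5 - 85536 * u ^ 24 * v ^ 6 - 155520 * u ^ 23 * v ^ 7 - 583200 * u ^ 22 * v ^ 8 - 1018656 * u ^ 21 * v ^ 9 - 590976 * u ^ 20 * v ^ 10 - 1454112 * u ^ 19 * v ^ 11 - 1283040 * u ^ 18 * v ^ 12 - 4323456 * u ^ 17 * v ^ 13 - 4937760 * u ^ 16 * v ^ 14 - 5287680 * u ^ 15 * v ^ 15 - 5552064 * u ^ 14 * v ^ 16 - 5637600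 * u ^ 13 * v ^ 17 - 3740256 * u ^ 12 * v ^ 18 - 1570752 * u ^ 11 * v ^ 19 + 163296 * u ^ 10 * v ^ 20 + 598752 * u ^ 9 * v ^ 21 + 777600 * u ^ 8 * v ^ 22 + 614304 * u ^ 7 * v ^ 23 + 303264 * u ^ 6 * v ^ 24 + (186624 / 5) * u ^ 5 * v ^ 25 - 7776 * u ^ 4 * v ^ 26 - 23328 * u ^ 3 * v ^ 27 - (108864 / 5) * u ^ 2 * v ^ 28 - (54432 / 5) * u * v ^ 29 - (3888 / 5) * v ^ 30) +
      ζ ^ 16 * (-(7776 / 5) * u ^ 30 - (23328 / 5) * u ^ 28 * v ^ 2 + (69984 / 5) * u ^ 27 * v ^ 3 + (120528 / 5) * u ^ 26 * v ^ 4 - (202176 / 5) * u ^ 25 * v ^ 5 + 97200 * u ^ 24 * v ^ 6 - 241056 * u ^ 23 * v ^ 7 + 645408 * u ^ 22 * v ^ 8 - 124416 * u ^ 21 * v ^ 9 + 921456 * u ^ 20 * v ^ 10 - 155520 * u ^ 19 * v ^ 11 + 618192 * u ^ 18 * v ^ 12 + 1508544 * u ^ 17 * v ^ 13 + 2013984 * u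 ^ 16 * v ^ 14 + 2698272 * u ^ 15 * v ^ 15 + 3168720 * u ^ 14 * v ^ 16 + 3032640 * u ^ 13 * v ^ 17 + 486000 * u ^ 12 * v ^ 18 - 528768 * u ^ 11 * v ^ 19 + 101088 * u ^ 10 * v ^ 20 + 660960 * u ^ 9 * v ^ 21 + 688176 * u ^ 8 * v ^ 22 + 948672 * u ^ 7 * v ^ 23 + 898128 * u ^ 6 * v ^ 24 + (2776032 / 5) * u ^ 5 * v ^ 25 + 272160 * u ^ 4 * v ^ 26 + (668736 / 5) * u ^ 3 * v ^ 27 + (229392 / 5) * u ^ 2 * v ^ 28 + (31104 / 5) * u * v ^ 29 - (3888 / 5) * v ^ 30) +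
      ζ ^ 15 * ((7776 / 5) * u ^ 30 + (69984 / 5) * u ^ 28 * v ^ 2 - (23328 / 5) * u ^ 27 * v ^ 3 + (66096 / 5) * u ^ 26 * v ^ 4 + (202176 / 5) * u ^ 25 * v ^ 5 - 50544 * u ^ 24 * v ^ 6 + 381024 * u ^ 23 * v ^ 7 - 365472 * u ^ 22 * v ^ 8 + 730944 * u ^ 21 * v ^ 9 - 688176 * u ^ 20 * v ^ 10 + 715392 * u ^ 19 * v ^ 11 - 244944 * u ^ 18 * v ^ 12 + 77760 * u ^ 17 * v ^ 13 - 427680 * u ^ 16 * v ^ 14 - 598752 * u ^ 15 * v ^ 15 - 2982096 * u ^ 14 * v ^ 16 - 3545856 * u ^ 13 * v ^ 17 - 4638384 * u ^ 12 * v ^ 18 - 5536512 * u ^ 11 * v ^ 19 - 5466528 * u ^ 10 * v ^ 20 - 3786912 * u ^ 9 * v ^ 21 - 2507760 * u ^ 8 * v ^ 22 - 1415232 * u ^ 7 * v ^ 23 - 571536 * u ^ 6 * v ^ 24 - (443232 / 5) * u ^ 5 * v ^ 25 + 7776 * u ^ 4 * v ^ 26 + (171072 / 5) * u ^ 3 * v ^ 27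 + (143856 / 5) * u ^ 2 * v ^ 28 + (62208 / 5) * u * v ^ 29 + (3888 / 5) * v ^ 30) +
      ζ ^ 14 * (-(3888 / 5) * u ^ 30 - (101088 / 5) * u ^ 28 * v ^ 2 - 7776 * u ^ 27 * v ^ 3 - (295488 / 5) * u ^ 26 * v ^ 4 + (7776 / 5) * u ^ 25 * v ^ 5 - 54432 * u ^ 24 * v ^ 6 - 311040 * u ^ 23 * v ^ 7 - 303264 * u ^ 22 * v ^ 8 - 987552 * u ^ 21 * v ^ 9 - 108864 * u ^ 20 * v ^ 10 - 458784 * u ^ 19 * v ^ 11 - 629856 * u ^ 18 * v ^ 12 - 1928448 * u ^ 17 * v ^ 13 - 3227040 * u ^ 16 * v ^ 14 - 2177280 * u ^ 15 * v ^ 15 + 1726272 * u ^ 14 * v ^ 16 + 3724704 * u ^ 13 * v ^ 17 + 5279904 * u ^ 12 * v ^ 18 + 5023296 * u ^ 11 * v ^ 19 + 3102624 * u ^ 10 * v ^ 20 + 1314144 * u ^ 9 * v ^ 21 + 342144 * u ^ 8 * v ^ 22 - 287712 * u ^ 7 * v ^ 23 - 443232 * u ^ 6 * v ^ 24 - (1353024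 / 5) * u ^ 5 * v ^ 25 - 132192 * u ^ 4 * v ^ 26 - (303264 / 5) * u ^ 3 * v ^ 27 - 15552 * u ^ 2 * v ^ 28 + (7776 / 5) * u * v ^ 29 + (3888 / 5) * v ^ 30) +
      ζ ^ 13 * ((93312 / 5) * u ^ 28 * v ^ 2 + (93312 / 5) * u ^ 27 * v ^ 3 + (373248 / 5) * u ^ 26 * v ^ 4 + 93312 * u ^ 24 * v ^ 6 + 326592 * u ^ 23 * v ^ 7 + 606528 * u ^ 22 * v ^ 8 + 1399680 * u ^ 21 * v ^ 9 + 466560 * u ^ 20 * v ^ 10 + 1353024 * u ^ 19 * v ^ 11 + 1539648 * u ^ 18 * v ^ 12 + 4665600 * u ^ 17 * v ^ 13 + 6578496 * u ^ 16 * v ^ 14 + 5365440 * u ^ 15 * v ^ 15 + 3639168 * u ^ 14 * v ^ 16 + 2426112 * u ^ 13 * v ^ 17 + 2612736 * u ^ 12 * v ^ 18 + 2612736 * u ^ 11 * v ^ 19 + 2099520 * u ^ 10 * v ^ 20 + 1213056 * u ^ 9 * v ^ 21 + 699840 * u ^ 8 * v ^ 22 + 139968 * u ^ 7 * v ^ 23 - 186624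 * u ^ 6 * v ^ 24 - 233280 * u ^ 5 * v ^ 25 - 139968 * u ^ 4 * v ^ 26 - (419904 / 5) * u ^ 3 * v ^ 27 - (186624 / 5) * u ^ 2 * v ^ 28 - (46656 / 5) * u * v ^ 29) +
      ζ ^ 12 * ((3888 / 5) * u ^ 30 - 7776 * u ^ 28 * v ^ 2 - (101088 / 5) * u ^ 27 * v ^ 3 - (264384 / 5) * u ^ 26 * v ^ 4 - (7776 / 5) * u ^ 25 * v ^ 5 - 85536 * u ^ 24 * v ^ 6 - 155520 * u ^ 23 * v ^ 7 - 583200 * u ^ 22 * v ^ 8 - 1018656 * u ^ 21 * v ^ 9 - 590976 * u ^ 20 * v ^ 10 - 1454112 * u ^ 19 * v ^ 11 - 1283040 * u ^ 18 * v ^ 12 - 4323456 * u ^ 17 * v ^ 13 - 4937760 * u ^ 16 * v ^ 14 - 5287680 * u ^ 15 * v ^ 15 - 5552064 * u ^ 14 * v ^ 16 - 5637600 * u ^ 13 * v ^ 17 - 3740256 * u ^ 12 * v ^ 18 - 1570752 * u ^ 11 * v ^ 19 + 163296 * u ^ 10 * v ^ 20 + 598752 * u ^ 9 * v ^ 21 + 777600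 * u ^ 8 * v ^ 22 + 614304 * u ^ 7 * v ^ 23 + 303264 * u ^ 6 * v ^ 24 + (186624 / 5) * u ^ 5 * v ^ 25 - 7776 * u ^ 4 * v ^ 26 - 23328 * u ^ 3 * v ^ 27 - (108864 / 5) * u ^ 2 * v ^ 28 - (54432 / 5) * u * v ^ 29 - (3888 / 5) * v ^ 30) +
      ζ ^ 11 * (-(7776 / 5) * u ^ 30 - (23328 / 5) * u ^ 28 * v ^ 2 + (69984 / 5) * u ^ 27 * v ^ 3 + (120528 / 5) * u ^ 26 * v ^ 4 - (202176 / 5) * u ^ 25 * v ^ 5 + 97200 * u ^ 24 * v ^ 6 - 241056 * u ^ 23 * v ^ 7 + 645408 * u ^ 22 * v ^ 8 - 124416 * u ^ 21 * v ^ 9 + 921456 * u ^ 20 * v ^ 10 - 155520 * u ^ 19 * v ^ 11 + 618192 * u ^ 18 * v ^ 12 + 1508544 * u ^ 17 * v ^ 13 + 2013984 * u ^ 16 * v ^ 14 + 2698272 * u ^ 15 * v ^ 15 + 3168720 * u ^ 14 * v ^ 16 + 3032640 * u ^ 13 * v ^ 17 + 486000 * u ^ 12 * v ^ 18 - 528768 *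 u ^ 11 * v ^ 19 + 101088 * u ^ 10 * v ^ 20 + 660960 * u ^ 9 * v ^ 21 + 688176 * u ^ 8 * v ^ 22 + 948672 * u ^ 7 * v ^ 23 + 898128 * u ^ 6 * v ^ 24 + (2776032 / 5) * u ^ 5 * v ^ 25 + 272160 * u ^ 4 * v ^ 26 + (668736 / 5) * u ^ 3 * v ^ 27 + (229392 / 5) * u ^ 2 * v ^ 28 + (31104 / 5) * u * v ^ 29 - (3888 / 5) * v ^ 30) +
      ζ ^ 10 * ((7776 / 5) * u ^ 30 + (69984 / 5) * u ^ 28 * v ^ 2 - (23328 / 5) * u ^ 27 * v ^ 3 + (66096 / 5) * u ^ 26 * v ^ 4 + (202176 / 5) * u ^ 25 * v ^ 5 - 50544 * u ^ 24 * v ^ 6 + 381024 * u ^ 23 * v ^ 7 - 365472 * u ^ 22 * v ^ 8 + 730944 * u ^ 21 * v ^ 9 - 688176 * u ^ 20 * v ^ 10 + 715392 * u ^ 19 * v ^ 11 - 244944 * u ^ 18 * v ^ 12 + 77760 * u ^ 17 * v ^ 13 - 427680 * u ^ 16 * v ^ 14 - 598752 * u ^ 15 * v ^ 15 - 2982096 *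 u ^ 14 * v ^ 16 - 3545856 * u ^ 13 * v ^ 17 - 4638384 * u ^ 12 * v ^ 18 - 5536512 * u ^ 11 * v ^ 19 - 5466528 * u ^ 10 * v ^ 20 - 3786912 * u ^ 9 * v ^ 21 - 2507760 * u ^ 8 * v ^ 22 - 1415232 * u ^ 7 * v ^ 23 - 571536 * u ^ 6 * v ^ 24 - (443232 / 5) * u ^ 5 * v ^ 25 + 7776 * u ^ 4 * v ^ 26 + (171072 / 5) * u ^ 3 * v ^ 27 + (143856 / 5) * u ^ 2 * v ^ 28 + (62208 / 5) * u * v ^ 29 + (3888 / 5) * v ^ 30) +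
      ζ ^ 9 * (-(3888 / 5) * u ^ 30 - (101088 / 5) * u ^ 28 * v ^ 2 - 7776 * u ^ 27 * v ^ 3 - (295488 / 5) * u ^ 26 * v ^ 4 + (7776 / 5) * u ^ 25 * v ^ 5 - 54432 * u ^ 24 * v ^ 6 - 311040 * u ^ 23 * v ^ 7 - 303264 * u ^ 22 * v ^ 8 - 987552 * u ^ 21 * v ^ 9 - 108864 * u ^ 20 * v ^ 10 - 458784 * u ^ 19 * v ^ 11 - 629856 * u ^ 18 * v ^ 12 - 1928448 * u ^ 17 * v ^ 13 - 3227040 * u ^ 16 * v ^ 14 - 2177280 * u ^ 15 * v ^ 15 + 1726272 * u ^ 14 * v ^ 16 + 3724704 * u ^ 13 * v ^ 17 + 5279904 * u ^ 12 * v ^ 18 + 5023296 * u ^ 11 * v ^ 19 + 3102624 * u ^ 10 * v ^ 20 + 1314144 * u ^ 9 * v ^ 21 + 342144 * u ^ 8 * v ^ 22 - 287712 * u ^ 7 * v ^ 23 - 443232 * u ^ 6 * v ^ 24 - (1353024 / 5) * u ^ 5 * v ^ 25 - 132192 * u ^ 4 * v ^ 26 - (303264 / 5) * u ^ 3 * v ^ 27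 - 15552 * u ^ 2 * v ^ 28 + (7776 / 5) * u * v ^ 29 + (3888 / 5) * v ^ 30) +
      ζ ^ 8 * (-(5832 / 125) * u ^ 30 + (93312 / 5) * u ^ 28 * v ^ 2 + (93312 / 5) * u ^ 27 * v ^ 3 + (373248 / 5) * u ^ 26 * v ^ 4 - (192456 / 125) * u ^ 25 * v ^ 5 + 93312 * u ^ 24 * v ^ 6 + 326592 * u ^ 23 * v ^ 7 + 606528 * u ^ 22 * v ^ 8 + 1399680 * u ^ 21 * v ^ 9 + (11244096 / 25) * u ^ 20 * v ^ 10 + 1353024 * u ^ 19 * v ^ 11 + 1539648 * u ^ 18 * v ^ 12 + 4665600 * u ^ 17 * v ^ 13 + 6578496 * u ^ 16 * v ^ 14 + (132660504 / 25) * u ^ 15 * v ^ 15 + 3639168 * u ^ 14 * v ^ 16 + 2426112 * u ^ 13 * v ^ 17 + 2612736 * u ^ 12 * v ^ 18 + 2612736 * u ^ 11 * v ^ 19 + (52907904 / 25) * u ^ 10 * v ^ 20 + 1213056 * u ^ 9 * v ^ 21 + 699840 * u ^ 8 * v ^ 22 + 139968 * u ^ 7 * v ^ 23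 - 186624 * u ^ 6 * v ^ 24 - (29352456 / 125) * u ^ 5 * v ^ 25 - 139968 * u ^ 4 * v ^ 26 - (419904 / 5) * u ^ 3 * v ^ 27 - (186624 / 5) * u ^ 2 * v ^ 28 - (46656 / 5) * u * v ^ 29 + (5832 / 125) * v ^ 30) +
      ζ ^ 7 * ((120528 / 125) * u ^ 30 - 7776 * u ^ 28 * v ^ 2 - (101088 / 5) * u ^ 27 * v ^ 3 - (264384 / 5) * u ^ 26 * v ^ 4 + (575424 / 125) * u ^ 25 * v ^ 5 - 85536 * u ^ 24 * v ^ 6 - 155520 * u ^ 23 * v ^ 7 - 583200 * u ^ 22 * v ^ 8 - 1018656 * u ^ 21 * v ^ 9 - (13094784 / 25) * u ^ 20 * v ^ 10 - 1454112 * u ^ 19 * v ^ 11 - 1283040 * u ^ 18 * v ^ 12 - 4323456 * u ^ 17 * v ^ 13 - 4937760 * u ^ 16 * v ^ 14 - (126290016 / 25) * u ^ 15 * v ^ 15 - 5552064 * u ^ 14 * v ^ 16 - 5637600 * u ^ 13 * v ^ 17 - 3740256 * u ^ 12 * v ^ 18 - 1570752 * u ^ 11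 * v ^ 19 + (2402784 / 25) * u ^ 10 * v ^ 20 + 598752 * u ^ 9 * v ^ 21 + 777600 * u ^ 8 * v ^ 22 + 614304 * u ^ 7 * v ^ 23 + 303264 * u ^ 6 * v ^ 24 + (5435424 / 125) * u ^ 5 * v ^ 25 - 7776 * u ^ 4 * v ^ 26 - 23328 * u ^ 3 * v ^ 27 - (108864 / 5) * u ^ 2 * v ^ 28 - (54432 / 5) * u * v ^ 29 - (120528 / 125) * v ^ 30) +
      ζ ^ 6 * (-(211896 / 125) * u ^ 30 - (23328 / 5) * u ^ 28 * v ^ 2 + (69984 / 5) * u ^ 27 * v ^ 3 + (120528 / 5) * u ^ 26 * v ^ 4 - (5631768 / 125) * u ^ 25 * v ^ 5 + 97200 * u ^ 24 * v ^ 6 - 241056 * u ^ 23 * v ^ 7 + 645408 * u ^ 22 * v ^ 8 - 124416 * u ^ 21 * v ^ 9 + (21776688 / 25) * u ^ 20 * v ^ 10 - 155520 * u ^ 19 * v ^ 11 + 618192 * u ^ 18 * v ^ 12 + 1508544 * u ^ 17 * v ^ 13 + 2013984 * u ^ 16 * v ^ 14 + (63030312 / 25) *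 u ^ 15 * v ^ 15 + 3168720 * u ^ 14 * v ^ 16 + 3032640 * u ^ 13 * v ^ 17 + 486000 * u ^ 12 * v ^ 18 - 528768 * u ^ 11 * v ^ 19 + (3786912 / 25) * u ^ 10 * v ^ 20 + 660960 * u ^ 9 * v ^ 21 + 688176 * u ^ 8 * v ^ 22 + 948672 * u ^ 7 * v ^ 23 + 898128 * u ^ 6 * v ^ 24 + (68823432 / 125) * u ^ 5 * v ^ 25 + 272160 * u ^ 4 * v ^ 26 + (668736 / 5) * u ^ 3 * v ^ 27 + (229392 / 5) * u ^ 2 * v ^ 28 + (31104 / 5) * u * v ^ 29 - (79704 / 125) * v ^ 30) +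
      ζ ^ 5 * ((147744 / 125) * u ^ 30 + (69984 / 5) * u ^ 28 * v ^ 2 - (23328 / 5) * u ^ 27 * v ^ 3 + (66096 / 5) * u ^ 26 * v ^ 4 + (3514752 / 125) * u ^ 25 * v ^ 5 - 50544 * u ^ 24 * v ^ 6 + 381024 * u ^ 23 * v ^ 7 - 365472 * u ^ 22 * v ^ 8 + 730944 * u ^ 21 * v ^ 9 - (20563632 / 25) * u ^ 20 * v ^ 10 + 715392 * u ^ 19 * v ^ 11 - 244944 * u ^ 18 * v ^ 12 + 77760 * u ^ 17 * v ^ 13 - 427680 * u ^ 16 * v ^ 14 - (26772768 / 25) * u ^ 15 * v ^ 15 - 2982096 * u ^ 14 * v ^ 16 - 3545856 * u ^ 13 * v ^ 17 - 4638384 * u ^ 12 * v ^ 18 - 5536512 * u ^ 11 * v ^ 19 - (133303968 / 25) * u ^ 10 * v ^ 20 - 3786912 * u ^ 9 * v ^ 21 - 2507760 * u ^ 8 * v ^ 22 - 1415232 * u ^ 7 * v ^ 23 - 571536 * u ^ 6 * v ^ 24 - (12620448 / 125) * u ^ 5 * v ^ 25 + 7776 * u ^ 4 *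 v ^ 26 + (171072 / 5) * u ^ 3 * v ^ 27 + (143856 / 5) * u ^ 2 * v ^ 28 + (62208 / 5) * u * v ^ 29 + (143856 / 125) * v ^ 30) +
      ζ ^ 4 * ((120528 / 125) * u ^ 30 - (493776 / 25) * u ^ 28 * v ^ 2 - (206064 / 25) * u ^ 27 * v ^ 3 - (1454112 / 25) * u ^ 26 * v ^ 4 + (5795064 / 125) * u ^ 25 * v ^ 5 - (260496 / 5) * u ^ 24 * v ^ 6 - 299376 * u ^ 23 * v ^ 7 - (1562976 / 5) * u ^ 22 * v ^ 8 - (4832784 / 5) * u ^ 21 * v ^ 9 + (6073056 / 25) * u ^ 20 * v ^ 10 - (2037312 / 5) * u ^ 19 * v ^ 11 - (2717712 / 5) * u ^ 18 * v ^ 12 - 1963440 * u ^ 17 * v ^ 13 - (15528672 / 5) * u ^ 16 * v ^ 14 - (35087256 / 25) * u ^ 15 * v ^ 15 + (10019376 / 5) * u ^ 14 * v ^ 16 + (19405008 / 5) * u ^ 13 * v ^ 17 + (27006048 / 5) * u ^ 12 * v ^ 18 + 5058288 * u ^ 11 * v ^ 19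 + (79501824 / 25) * u ^ 10 * v ^ 20 + (6314112 / 5) * u ^ 9 * v ^ 21 + (1559088 / 5) * u ^ 8 * v ^ 22 - (1543536 / 5) * u ^ 7 * v ^ 23 - (2262816 / 5) * u ^ 6 * v ^ 24 - (38061576 / 125) * u ^ 5 * v ^ 25 - (649296 / 5) * u ^ 4 * v ^ 26 - (1481328 / 25) * u ^ 3 * v ^ 27 - (365472 / 25) * u ^ 2 * v ^ 28 + (50544 / 25) * u * v ^ 29 + (326592 / 125) * v ^ 30) +
      ζ ^ 3 * (-(530712 / 125) * u ^ 30 + (431568 / 25) * u ^ 28 * v ^ 2 + (501552 / 25) * u ^ 27 * v ^ 3 + (1796256 / 25) * u ^ 26 * v ^ 4 - (11594016 / 125) * u ^ 25 * v ^ 5 + (431568 / 5) * u ^ 24 * v ^ 6 + 291600 * u ^ 23 * v ^ 7 + (3172608 / 5) * u ^ 22 * v ^ 8 + (6683472 / 5) * u ^ 21 * v ^ 9 - (653184 / 25) * u ^ 20 * v ^ 10 + (5995296 / 5) * u ^ 19 * v ^ 11 + (6403536 / 5) * u ^ 18 * v ^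 12 + 4770576 * u ^ 17 * v ^ 13 + (31072896 / 5) * u ^ 16 * v ^ 14 + (137413584 / 25) * u ^ 15 * v ^ 15 + (14031792 / 5) * u ^ 14 * v ^ 16 + (9786096 / 5) * u ^ 13 * v ^ 17 + (11244096 / 5) * u ^ 12 * v ^ 18 + 2507760 * u ^ 11 * v ^ 19 + (46609344 / 25) * u ^ 10 * v ^ 20 + (6835104 / 5) * u ^ 9 * v ^ 21 + (3954096 / 5) * u ^ 8 * v ^ 22 + (1014768 / 5) * u ^ 7 * v ^ 23 - (793152 / 5) * u ^ 6 * v ^ 24 - (24074496 / 125) * u ^ 5 * v ^ 25 - (734832 / 5) * u ^ 4 * v ^ 26 - (2204496 / 25) * u ^ 3 * v ^ 27 - (1003104 / 25) * u ^ 2 * v ^ 28 - (268272 / 25) * u * v ^ 29 - (227448 / 125) * v ^ 30) +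
      ζ ^ 2 * ((163296 / 25) * u ^ 30 - (182736 / 25) * u ^ 28 * v ^ 2 - (517104 / 25) * u ^ 27 * v ^ 3 - (1298592 / 25) * u ^ 26 * v ^ 4 + (2933496 / 25) * u ^ 25 * v ^ 5 - (416016 / 5) * u ^ 24 * v ^ 6 - 143856 * u ^ 23 * v ^ 7 - (2962656 / 5) * u ^ 22 * v ^ 8 - (4988304 / 5) * u ^ 21 * v ^ 9 - 77760 * u ^ 20 * v ^ 10 - (7013952 / 5) * u ^ 19 * v ^ 11 - (5983632 / 5) * u ^ 18 * v ^ 12 - 4358448 * u ^ 17 * v ^ 13 - (24082272 / 5) * u ^ 16 * v ^ 14 - 6378264 * u ^ 15 * v ^ 15 - (26372304 / 5) * u ^ 14 * v ^ 16 - (27406512 / 5) * u ^ 13 * v ^ 17 - (18094752 / 5) * u ^ 12 * v ^ 18 - 1535760 * u ^ 11 * v ^ 19 + (396576 / 5) * u ^ 10 * v ^ 20 + (2737152 / 5) * u ^ 9 * v ^ 21 + (3736368 / 5) * u ^ 8 * v ^ 22 + (2966544 / 5) * u ^ 7 * v ^ 23 + (1469664 /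 5) * u ^ 6 * v ^ 24 + (1938168 / 25) * u ^ 5 * v ^ 25 - (27216 / 5) * u ^ 4 * v ^ 26 - (548208 / 25) * u ^ 3 * v ^ 27 - (520992 / 25) * u ^ 2 * v ^ 28 - (260496 / 25) * u * v ^ 29 - (73872 / 25) * v ^ 30) +
      ζ * (-(33048 / 5) * u ^ 30 - (11664 / 5) * u ^ 28 * v ^ 2 + 11664 * u ^ 27 * v ^ 3 + (143856 / 5) * u ^ 26 * v ^ 4 - (711504 / 5) * u ^ 25 * v ^ 5 + 108864 * u ^ 24 * v ^ 6 - 182736 * u ^ 23 * v ^ 7 + 598752 * u ^ 22 * v ^ 8 - 19440 * u ^ 21 * v ^ 9 + 524880 * u ^ 20 * v ^ 10 + 101088 * u ^ 19 * v ^ 11 + 1049760 * u ^ 18 * v ^ 12 + 1333584 * u ^ 17 * v ^ 13 + 2620512 * u ^ 16 * v ^ 14 + 3911328 * u ^ 15 * v ^ 15 + 4556736 * u ^ 14 * v ^ 16 + 3814128 * u ^ 13 * v ^ 17 + 1092528 * u ^ 12 * v ^ 18 - 353808 * u ^ 11 * v ^ 19 - 155520 * u ^ 10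 * v ^ 20 + 404352 * u ^ 9 * v ^ 21 + 536544 * u ^ 8 * v ^ 22 + 843696 * u ^ 7 * v ^ 23 + 851472 * u ^ 6 * v ^ 24 + (2865456 / 5) * u ^ 5 * v ^ 25 + 283824 * u ^ 4 * v ^ 26 + (703728 / 5) * u ^ 3 * v ^ 27 + 50544 * u ^ 2 * v ^ 28 + (42768 / 5) * u * v ^ 29 - (5832 / 5) * v ^ 30) +
      (3888 * u ^ 30 + 3888 * u ^ 28 * v ^ 2 - 3888 * u ^ 27 * v ^ 3 - 11664 * u ^ 26 * v ^ 4 + 95256 * u ^ 25 * v ^ 5 - 77760 * u ^ 24 * v ^ 6 + 213840 * u ^ 23 * v ^ 7 - 388800 * u ^ 22 * v ^ 8 + 330480 * u ^ 21 * v ^ 9 - 486000 * u ^ 20 * v ^ 10 + 427680 * u ^ 19 * v ^ 11 - 699840 * u ^ 18 * v ^ 12 + 58320 * u ^ 17 * v ^ 13 - 1399680 * u ^ 16 * v ^ 14 - 1564920 * u ^ 15 * v ^ 15 - 2643840 * u ^ 14 * v ^ 16 - 1730160 * u ^ 13 * v ^ 17 - 913680 * u ^ 12 * v ^ 18 - 1030320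 * u ^ 11 * v ^ 19 - 1594080 * u ^ 10 * v ^ 20 - 1788480 * u ^ 9 * v ^ 21 - 1555200 * u ^ 8 * v ^ 22 - 1302480 * u ^ 7 * v ^ 23 - 874800 * u ^ 6 * v ^ 24 - 464616 * u ^ 5 * v ^ 25 - 174960 * u ^ 4 * v ^ 26 - 66096 * u ^ 3 * v ^ 27 - 11664 * u ^ 2 * v ^ 28 + 3888 * u * v ^ 29 + 3888 * v ^ 30)) * hζ

/-- the chord identity for the `Y`-coordinate of `t₀ - s₀`. -/
theorem act_klein_chord_Y (ζ u v : K) (hζ : ζ ^ 4 + ζ ^ 3 + ζ ^ 2 + ζ + 1 = 0) :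
    kleinYt (kleinSu ζ u v) (kleinSv ζ u v) * (kleinXt u v - kleinXs ζ u v) =
      -((kleinYt u v + kleinYs ζ u v) *
          (kleinXt (kleinSu ζ u v) (kleinSv ζ u v) - kleinXt u v) +
        kleinYt u v * (kleinXt u v - kleinXs ζ u v)) := by
  unfold kleinYt kleinYs kleinXt kleinXs kleinSu kleinSv kleinA kleinB kleinR
  linear_combination
    (ζ ^ 43 * (-(1944 / 5) * u ^ 23 * v ^ 2 - (21384 / 5) * u ^ 18 * v ^ 7 + (1944 / 5) * u ^ 13 * v ^ 12) +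
      ζ ^ 42 * ((3888 / 5) * u ^ 23 * v ^ 2 - (1944 / 5) * u ^ 22 * v ^ 3 + (42768 / 5) * u ^ 18 * v ^ 7 - (21384 / 5) * u ^ 17 * v ^ 8 - (3888 / 5) * u ^ 13 * v ^ 12 + (1944 / 5) * u ^ 12 * v ^ 13) +
      ζ ^ 41 * ((3888 / 5) * u ^ 22 * v ^ 3 - (7776 / 5) * u ^ 21 * v ^ 4 + (42768 / 5) * u ^ 17 * v ^ 8 - (85536 / 5) * u ^ 16 * v ^ 9 - (3888 / 5) * u ^ 12 * v ^ 13 + (7776 / 5) * u ^ 11 * v ^ 14) +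
      ζ ^ 40 * (-(3888 / 5) * u ^ 23 * v ^ 2 + (15552 / 5) * u ^ 21 * v ^ 4 - (42768 / 5) * u ^ 18 * v ^ 7 + (171072 / 5) * u ^ 16 * v ^ 9 + (3888 / 5) * u ^ 13 * v ^ 12 - (15552 / 5) * u ^ 11 * v ^ 14) +
      ζ ^ 39 * ((11664 / 5) * u ^ 23 * v ^ 2 - (3888 / 5) * u ^ 22 * v ^ 3 + 3888 * u ^ 21 * v ^ 4 - 3888 * u ^ 20 * v ^ 5 + 5832 * u ^ 19 * v ^ 6 + (69984 / 5) * u ^ 18 * v ^ 7 + (54432 / 5) * u ^ 17 * v ^ 8 + 11664 * u ^ 16 * v ^ 9 + 7776 * u ^ 15 * v ^ 10 - 17496 * u ^ 14 * v ^ 11 + (7776 / 5) * u ^ 13 * v ^ 12 + (3888 / 5) * u ^ 12 * v ^ 13 + 1944 * u ^ 9 * v ^ 16) +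
      ζ ^ 38 * (-(11664 / 5) * u ^ 23 * v ^ 2 + (11664 / 5) * u ^ 22 * v ^ 3 - (34992 / 5) * u ^ 21 * v ^ 4 + 7776 * u ^ 20 * v ^ 5 - 7776 * u ^ 19 * v ^ 6 - (42768 / 5) * u ^ 18 * v ^ 7 - (27216 / 5) * u ^ 17 * v ^ 8 - (132192 / 5) * u ^ 16 * v ^ 9 + 3888 * u ^ 15 * v ^ 10 + 46656 * u ^ 14 * v ^ 11 - 23328 * u ^ 13 * v ^ 12 + (7776 / 5) * u ^ 12 * v ^ 13 + (15552 / 5) * u ^ 11 * v ^ 14 - 3888 * u ^ 9 * v ^ 16 + (11664 / 5) * u ^ 8 * v ^ 17) +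
      ζ ^ 37 * ((3888 / 5) * u ^ 23 * v ^ 2 - (11664 / 5) * u ^ 22 * v ^ 3 + (46656 / 5) * u ^ 21 * v ^ 4 - 3888 * u ^ 20 * v ^ 5 + 19440 * u ^ 19 * v ^ 6 - (50544 / 5) * u ^ 18 * v ^ 7 + (44712 / 5) * u ^ 17 * v ^ 8 + (182736 / 5) * u ^ 16 * v ^ 9 + 66096 * u ^ 15 * v ^ 10 + 38880 * u ^ 14 * v ^ 11 + 77760 * u ^ 13 * v ^ 12 - 75816 * u ^ 12 * v ^ 13 + (31104 / 5) * u ^ 11 * v ^ 14 - (23328 / 5) * u ^ 8 * v ^ 17 + (40824 / 5) * u ^ 7 * v ^ 18) +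
      ζ ^ 36 * ((3888 / 5) * u ^ 22 * v ^ 3 - (46656 / 5) * u ^ 21 * v ^ 4 - 19440 * u ^ 19 * v ^ 6 + 15552 * u ^ 18 * v ^ 7 - (31104 / 5) * u ^ 17 * v ^ 8 - (336312 / 5) * u ^ 16 * v ^ 9 - 77760 * u ^ 15 * v ^ 10 - 89424 * u ^ 14 * v ^ 11 - 31104 * u ^ 13 * v ^ 12 + 163296 * u ^ 12 * v ^ 13 - 130248 * u ^ 11 * v ^ 14 + 3888 * u ^ 9 * v ^ 16 - (81648 / 5) * u ^ 7 * v ^ 18 + (56376 / 5) * u ^ 6 * v ^ 19) +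
      ζ ^ 35 * (-(3888 / 5) * u ^ 23 * v ^ 2 + (15552 / 5) * u ^ 21 * v ^ 4 + 11664 * u ^ 19 * v ^ 6 - (66096 / 5) * u ^ 18 * v ^ 7 + 19440 * u ^ 17 * v ^ 8 + (186624 / 5) * u ^ 16 * v ^ 9 + 29160 * u ^ 15 * v ^ 10 + 69984 * u ^ 14 * v ^ 11 + 46656 * u ^ 13 * v ^ 12 + 58320 * u ^ 12 * v ^ 13 + 283824 * u ^ 11 * v ^ 14 - 87480 * u ^ 10 * v ^ 15 + 7776 * u ^ 9 * v ^ 16 + (23328 / 5) * u ^ 8 * v ^ 17 - (112752 / 5) * u ^ 6 * v ^ 19 + 9720 * u ^ 5 * v ^ 20) +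
      ζ ^ 34 * ((11664 / 5) * u ^ 23 * v ^ 2 - (3888 / 5) * u ^ 22 * v ^ 3 + 3888 * u ^ 21 * v ^ 4 - 3888 * u ^ 20 * v ^ 5 - 3888 * u ^ 19 * v ^ 6 + (139968 / 5) * u ^ 18 * v ^ 7 - (124416 / 5) * u ^ 17 * v ^ 8 + 54432 * u ^ 16 * v ^ 9 - 34992 * u ^ 15 * v ^ 10 - 25272 * u ^ 14 * v ^ 11 - 11664 * u ^ 13 * v ^ 12 - 120528 * u ^ 12 * v ^ 13 + 31104 * u ^ 11 * v ^ 14 + 241056 * u ^ 10 * v ^ 15 - 48600 * u ^ 9 * v ^ 16 + (46656 / 5) * u ^ 8 * v ^ 17 + (81648 / 5) * u ^ 7 * v ^ 18 - 19440 * u ^ 5 * v ^ 20 + 5832 * u ^ 4 * v ^ 21) +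
      ζ ^ 33 * (-(11664 / 5) * u ^ 23 * v ^ 2 + (11664 / 5) * u ^ 22 * v ^ 3 - (34992 / 5) * u ^ 21 * v ^ 4 + 7776 * u ^ 20 * v ^ 5 - 7776 * u ^ 19 * v ^ 6 - (101088 / 5) * u ^ 18 * v ^ 7 + (217728 / 5) * u ^ 17 * v ^ 8 - (361584 / 5) * u ^ 16 * v ^ 9 + 108864 * u ^ 15 * v ^ 10 - 69984 * u ^ 14 * v ^ 11 + (390744 / 5) * u ^ 13 * v ^ 12 + 178848 * u ^ 12 * v ^ 13 + 93312 * u ^ 11 * v ^ 14 + 198288 * u ^ 10 * v ^ 15 + 264384 * u ^ 9 * v ^ 16 + (169128 / 5) * u ^ 8 * v ^ 17 + (163296 / 5) * u ^ 7 * v ^ 18 + (112752 / 5) * u ^ 6 * v ^ 19 - 11664 * u ^ 4 * v ^ 21 + (17496 / 5) * u ^ 3 * v ^ 22) +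
      ζ ^ 32 * ((3888 / 5) * u ^ 23 * v ^ 2 - (11664 / 5) * u ^ 22 * v ^ 3 + (46656 / 5) * u ^ 21 * v ^ 4 - 3888 * u ^ 20 * v ^ 5 + 19440 * u ^ 19 * v ^ 6 - (50544 / 5) * u ^ 18 * v ^ 7 - (159408 / 5) * u ^ 17 * v ^ 8 + (520992 / 5) * u ^ 16 * v ^ 9 - 34992 * u ^ 15 * v ^ 10 + 233280 * u ^ 14 * v ^ 11 - (956448 / 5) * u ^ 13 * v ^ 12 - (279936 / 5) * u ^ 12 * v ^ 13 + 3888 * u ^ 11 * v ^ 14 + 104976 * u ^ 10 * v ^ 15 + 174960 * u ^ 9 * v ^ 16 + (1080864 / 5) * u ^ 8 * v ^ 17 + (314928 / 5) * u ^ 7 * v ^ 18 + (225504 / 5) * u ^ 6 * v ^ 19 + 19440 * u ^ 5 * v ^ 20 - (34992 / 5) * u ^ 3 * v ^ 22 + (7776 / 5) * u ^ 2 * v ^ 23) +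
      ζ ^ 31 * ((3888 / 5) * u ^ 22 * v ^ 3 - (46656 / 5) * u ^ 21 * v ^ 4 - 19440 * u ^ 19 * v ^ 6 + 15552 * u ^ 18 * v ^ 7 - (31104 / 5) * u ^ 17 * v ^ 8 - (618192 / 5) * u ^ 16 * v ^ 9 - 19440 * u ^ 15 * v ^ 10 - 213840 * u ^ 14 * v ^ 11 + 178848 * u ^ 13 * v ^ 12 - (781488 / 5) * u ^ 12 * v ^ 13 - (1090584 / 5) * u ^ 11 * v ^ 14 - 213840 * u ^ 10 * v ^ 15 + 23328 * u ^ 9 * v ^ 16 + 66096 * u ^ 8 * v ^ 17 + (497664 / 5) * u ^ 7 * v ^ 18 + (239112 / 5) * u ^ 6 * v ^ 19 + 38880 * u ^ 5 * v ^ 20 + 11664 * u ^ 4 * v ^ 21 - (15552 / 5) * u ^ 2 * v ^ 23 + (1944 / 5) * u * v ^ 24) +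
      ζ ^ 30 * (-(324 / 5) * u ^ 25 - (3888 / 5) * u ^ 23 * v ^ 2 + (15552 / 5) * u ^ 21 * v ^ 4 - (2916 / 5) * u ^ 20 * v ^ 5 + 11664 * u ^ 19 * v ^ 6 - (66096 / 5) * u ^ 18 * v ^ 7 + 19440 * u ^ 17 * v ^ 8 + (186624 / 5) * u ^ 16 * v ^ 9 - (89748 / 5) * u ^ 15 * v ^ 10 + 104976 * u ^ 14 * v ^ 11 - (287712 / 5) * u ^ 13 * v ^ 12 + 213840 * u ^ 12 * v ^ 13 + (159408 / 5) * u ^ 11 * v ^ 14 - (1069848 / 5) * u ^ 10 * v ^ 15 - 268272 * u ^ 9 * v ^ 16 - (361584 / 5) * u ^ 8 * v ^ 17 - 19440 * u ^ 7 * v ^ 18 + (27216 / 5) * u ^ 6 * v ^ 19 + 19440 * u ^ 5 * v ^ 20 + 23328 * u ^ 4 * v ^ 21 + (34992 / 5) * u ^ 3 * v ^ 22 - (3888 / 5) * u * v ^ 24) +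
      ζ ^ 29 * ((972 / 5) * u ^ 25 + (11664 / 5) * u ^ 23 * v ^ 2 - (3888 / 5) * u ^ 22 * v ^ 3 + 3888 * u ^ 21 * v ^ 4 - (9072 / 5) * u ^ 20 * v ^ 5 - 3888 * u ^ 19 * v ^ 6 + (139968 / 5) * u ^ 18 * v ^ 7 - (124416 / 5) * u ^ 17 * v ^ 8 + 54432 * u ^ 16 * v ^ 9 - (179496 / 5) * u ^ 15 * v ^ 10 - 54432 * u ^ 14 * v ^ 11 + (46656 / 5) * u ^ 13 * v ^ 12 - (909792 / 5) * u ^ 12 * v ^ 13 + 124416 * u ^ 11 * v ^ 14 + (447444 / 5) * u ^ 10 * v ^ 15 - 124416 * u ^ 9 * v ^ 16 - (781488 / 5) * u ^ 8 * v ^ 17 - (89424 / 5) * u ^ 7 * v ^ 18 - 11664 * u ^ 6 * v ^ 19 - 7776 * u ^ 5 * v ^ 20 + 11664 * u ^ 4 * v ^ 21 + (69984 / 5) * u ^ 3 * v ^ 22 + (15552 / 5) * u ^ 2 * v ^ 23) +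
      ζ ^ 28 * (-(1296 / 5) * u ^ 25 - (15552 / 5) * u ^ 23 * v ^ 2 + (11664 / 5) * u ^ 22 * v ^ 3 - (34992 / 5) * u ^ 21 * v ^ 4 + (23976 / 5) * u ^ 20 * v ^ 5 - 7776 * u ^ 19 * v ^ 6 - 27216 * u ^ 18 * v ^ 7 + (217728 / 5) * u ^ 17 * v ^ 8 - (361584 / 5) * u ^ 16 * v ^ 9 + (538488 / 5) * u ^ 15 * v ^ 10 - 69984 * u ^ 14 * v ^ 11 + (392688 / 5) * u ^ 13 * v ^ 12 + (940896 / 5) * u ^ 12 * v ^ 13 + (287712 / 5) * u ^ 11 * v ^ 14 + (1244808 / 5) * u ^ 10 * v ^ 15 + 178848 * u ^ 9 * v ^ 16 - (120528 / 5) * u ^ 8 * v ^ 17 - (431568 / 5) * u ^ 7 * v ^ 18 - (66096 / 5) * u ^ 6 * v ^ 19 - 23328 * u ^ 5 * v ^ 20 - 15552 * u ^ 4 * v ^ 21 + (7776 / 5) * u ^ 3 * v ^ 22 + (31104 / 5) * u ^ 2 * v ^ 23 + (3888 / 5) * u * v ^ 24) +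
      ζ ^ 27 * ((972 / 5) * u ^ 25 + (15552 / 5) * u ^ 23 * v ^ 2 - (7776 / 5) * u ^ 22 * v ^ 3 + (46656 / 5) * u ^ 21 * v ^ 4 - (9072 / 5) * u ^ 20 * v ^ 5 + 19440 * u ^ 19 * v ^ 6 + (73872 / 5) * u ^ 18 * v ^ 7 - (124416 / 5) * u ^ 17 * v ^ 8 + (520992 / 5) * u ^ 16 * v ^ 9 - (179496 / 5) * u ^ 15 * v ^ 10 + 233280 * u ^ 14 * v ^ 11 - 202176 * u ^ 13 * v ^ 12 - 81648 * u ^ 12 * v ^ 13 + (31104 / 5) * u ^ 11 * v ^ 14 + (447444 / 5) * u ^ 10 * v ^ 15 + 194400 * u ^ 9 * v ^ 16 + (909792 / 5) * u ^ 8 * v ^ 17 + (167184 / 5) * u ^ 7 * v ^ 18 - (93312 / 5) * u ^ 6 * v ^ 19 - 7776 * u ^ 5 * v ^ 20 - 19440 * u ^ 4 * v ^ 21 - (73872 / 5) * u ^ 3 * v ^ 22 - (11664 / 5) * u ^ 2 * v ^ 23 + (7776 / 5) * u * v ^ 24) +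
      ζ ^ 26 * (-(324 / 5) * u ^ 25 - (13932 / 5) * u ^ 23 * v ^ 2 - (6156 / 5) * u ^ 22 * v ^ 3 - (47952 / 5) * u ^ 21 * v ^ 4 - (2916 / 5) * u ^ 20 * v ^ 5 - 17820 * u ^ 19 * v ^ 6 - (91368 / 5) * u ^ 18 * v ^ 7 - 24300 * u ^ 17 * v ^ 8 - (641196 / 5) * u ^ 16 * v ^ 9 - (49248 / 5) * u ^ 15 * v ^ 10 - 208980 * u ^ 14 * v ^ 11 + (838836 / 5) * u ^ 13 * v ^ 12 - (720576 / 5) * u ^ 12 * v ^ 13 - (919836 / 5) * u ^ 11 * v ^ 14 - (1069848 / 5) * u ^ 10 * v ^ 15 + 19440 * u ^ 9 * v ^ 16 + (357696 / 5) * u ^ 8 * v ^ 17 + (454896 / 5) * u ^ 7 * v ^ 18 + 34992 * u ^ 6 * v ^ 19 + 19440 * u ^ 5 * v ^ 20 - 7776 * u ^ 3 * v ^ 22 - (34992 / 5) * u ^ 2 * v ^ 23 - (7776 / 5) * u * v ^ 24) +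
      ζ ^ 25 * (-(324 / 5) * u ^ 25 + (6156 / 5) * u ^ 23 * v ^ 2 + (13932 / 5) * u ^ 22 * v ^ 3 + 6480 * u ^ 21 * v ^ 4 - (12636 / 5) * u ^ 20 * v ^ 5 + 10044 * u ^ 19 * v ^ 6 + 9720 * u ^ 18 * v ^ 7 + (242028 / 5) * u ^ 17 * v ^ 8 + (388476 / 5) * u ^ 16 * v ^ 9 - (217728 / 5) * u ^ 15 * v ^ 10 + 100116 * u ^ 14 * v ^ 11 - (356724 / 5) * u ^ 13 * v ^ 12 + (1132704 / 5) * u ^ 12 * v ^ 13 + (48924 / 5) * u ^ 11 * v ^ 14 - (846288 / 5) * u ^ 10 * v ^ 15 - 268272 * u ^ 9 * v ^ 16 - (357696 / 5) * u ^ 8 * v ^ 17 - (104976 / 5) * u ^ 7 * v ^ 18 + (34992 / 5) * u ^ 6 * v ^ 19 + 15552 * u ^ 5 * v ^ 20 + 23328 * u ^ 4 * v ^ 21 + (34992 / 5) * u ^ 3 * v ^ 22 - (3888 / 5) * u * v ^ 24) +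
      ζ ^ 24 * ((972 / 5) * u ^ 25 + (7776 / 5) * u ^ 23 * v ^ 2 - (15552 / 5) * u ^ 22 * v ^ 3 + (7776 / 5) * u ^ 21 * v ^ 4 + (39528 / 5) * u ^ 20 * v ^ 5 + 7776 * u ^ 19 * v ^ 6 + (104976 / 5) * u ^ 18 * v ^ 7 - (151632 / 5) * u ^ 17 * v ^ 8 + (31104 / 5) * u ^ 16 * v ^ 9 + (539784 / 5) * u ^ 15 * v ^ 10 + 23328 * u ^ 14 * v ^ 11 + 124416 * u ^ 13 * v ^ 12 - 112752 * u ^ 12 * v ^ 13 + (657072 / 5) * u ^ 11 * v ^ 14 + (389124 / 5) * u ^ 10 * v ^ 15 - 31104 * u ^ 9 * v ^ 16 - (789264 / 5) * u ^ 8 * v ^ 17 - (93312 / 5) * u ^ 7 * v ^ 18 - (42768 / 5) * u ^ 6 * v ^ 19 - 5832 * u ^ 5 * v ^ 20 + 3888 * u ^ 4 * v ^ 21 + (69984 / 5) * u ^ 3 * v ^ 22 + (15552 / 5) * u ^ 2 * v ^ 23) +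
      ζ ^ 23 * (-(1296 / 5) * u ^ 25 - (15552 / 5) * u ^ 23 * v ^ 2 + (15552 / 5) * u ^ 22 * v ^ 3 - (31104 / 5) * u ^ 21 * v ^ 4 - (53784 / 5) * u ^ 20 * v ^ 5 - 15552 * u ^ 19 * v ^ 6 - (225504 / 5) * u ^ 18 * v ^ 7 + 31104 * u ^ 17 * v ^ 8 - (326592 / 5) * u ^ 16 * v ^ 9 - (433512 / 5) * u ^ 15 * v ^ 10 - 139968 * u ^ 14 * v ^ 11 - (762048 / 5) * u ^ 13 * v ^ 12 + (73872 / 5) * u ^ 12 * v ^ 13 - (287712 / 5) * u ^ 11 * v ^ 14 + (817128 / 5) * u ^ 10 * v ^ 15 + 104976 * u ^ 9 * v ^ 16 + (128304 / 5) * u ^ 8 * v ^ 17 - (423792 / 5) * u ^ 7 * v ^ 18 - 11664 * u ^ 6 * v ^ 19 - 19440 * u ^ 5 * v ^ 20 - 11664 * u ^ 4 * v ^ 21 - (15552 / 5) * u ^ 3 * v ^ 22 + (31104 / 5) * u ^ 2 * v ^ 23 + (3888 / 5) * u * v ^ 24) +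
      ζ ^ 22 * ((972 / 5) * u ^ 25 + (15552 / 5) * u ^ 23 * v ^ 2 - (7776 / 5) * u ^ 22 * v ^ 3 + 7776 * u ^ 21 * v ^ 4 + (39528 / 5) * u ^ 20 * v ^ 5 + 15552 * u ^ 19 * v ^ 6 + (225504 / 5) * u ^ 18 * v ^ 7 + (23328 / 5) * u ^ 17 * v ^ 8 + (548208 / 5) * u ^ 16 * v ^ 9 + (442584 / 5) * u ^ 15 * v ^ 10 + 182736 * u ^ 14 * v ^ 11 + (742608 / 5) * u ^ 13 * v ^ 12 + (1135296 / 5) * u ^ 12 * v ^ 13 + (1473552 / 5) * u ^ 11 * v ^ 14 + (1069524 / 5) * u ^ 10 * v ^ 15 + 209952 * u ^ 9 * v ^ 16 + (921456 / 5) * u ^ 8 * v ^ 17 + (384912 / 5) * u ^ 7 * v ^ 18 - (108864 / 5) * u ^ 6 * v ^ 19 - 5832 * u ^ 5 * v ^ 20 - 11664 * u ^ 4 * v ^ 21 - (62208 / 5) * u ^ 3 * v ^ 22 - (27216 / 5) * u ^ 2 * v ^ 23 + (7776 / 5) * u * v ^ 24) +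
      ζ ^ 21 * (-(324 / 5) * u ^ 25 - (13932 / 5) * u ^ 23 * v ^ 2 - (6156 / 5) * u ^ 22 * v ^ 3 - (47952 / 5) * u ^ 21 * v ^ 4 - (12636 / 5) * u ^ 20 * v ^ 5 - 13932 * u ^ 19 * v ^ 6 - (128304 / 5) * u ^ 18 * v ^ 7 - (205092 / 5) * u ^ 17 * v ^ 8 - (450684 / 5) * u ^ 16 * v ^ 9 - (331128 / 5) * u ^ 15 * v ^ 10 - 82620 * u ^ 14 * v ^ 11 - (222588 / 5) * u ^ 13 * v ^ 12 - (578664 / 5) * u ^ 12 * v ^ 13 - (517428 / 5) * u ^ 11 * v ^ 14 - (214488 / 5) * u ^ 10 * v ^ 15 + 40824 * u ^ 9 * v ^ 16 + (429624 / 5) * u ^ 8 * v ^ 17 + (501552 / 5) * u ^ 7 * v ^ 18 + (312984 / 5) * u ^ 6 * v ^ 19 + 15552 * u ^ 5 * v ^ 20 + 3888 * u ^ 4 * v ^ 21 - (15552 / 5) * u ^ 3 * v ^ 22 - (27216 / 5) * u ^ 2 * v ^ 23 - (15552 / 5) * u * v ^ 24) +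
      ζ ^ 20 * (-(324 / 5) * u ^ 25 + (6156 / 5) * u ^ 23 * v ^ 2 + (13932 / 5) * u ^ 22 * v ^ 3 + 6480 * u ^ 21 * v ^ 4 - (12636 / 5) * u ^ 20 * v ^ 5 + 6156 * u ^ 19 * v ^ 6 + (34992 / 5) * u ^ 18 * v ^ 7 + (259524 / 5) * u ^ 17 * v ^ 8 + 60588 * u ^ 16 * v ^ 9 + (170748 / 5) * u ^ 15 * v ^ 10 + 16524 * u ^ 14 * v ^ 11 + (210924 / 5) * u ^ 13 * v ^ 12 + (337608 / 5) * u ^ 12 * v ^ 13 + 161028 * u ^ 11 * v ^ 14 + (754596 / 5) * u ^ 10 * v ^ 15 + 161352 * u ^ 9 * v ^ 16 + (499608 / 5) * u ^ 8 * v ^ 17 + (435456 / 5) * u ^ 7 * v ^ 18 + 64152 * u ^ 6 * v ^ 19 + (182412 / 5) * u ^ 5 * v ^ 20 + 15552 * u ^ 4 * v ^ 21 + (46656 / 5) * u ^ 3 * v ^ 22 + (15552 / 5) * u ^ 2 * v ^ 23 - (648 / 5) * v ^ 25) +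
      ζ ^ 19 * ((972 / 5) * u ^ 25 + (7776 / 5) * u ^ 23 * v ^ 2 - (15552 / 5) * u ^ 22 * v ^ 3 + (7776 / 5) * u ^ 21 * v ^ 4 + (39528 / 5) * u ^ 20 * v ^ 5 + 7776 * u ^ 19 * v ^ 6 + (93312 / 5) * u ^ 18 * v ^ 7 - (225504 / 5) * u ^ 17 * v ^ 8 - (23328 / 5) * u ^ 16 * v ^ 9 + (210276 / 5) * u ^ 15 * v ^ 10 + 69984 * u ^ 14 * v ^ 11 + (31104 / 5) * u ^ 13 * v ^ 12 - (606528 / 5) * u ^ 12 * v ^ 13 - (1213056 / 5) * u ^ 11 * v ^ 14 - (1194588 / 5) * u ^ 10 * v ^ 15 - 178848 * u ^ 9 * v ^ 16 - (520992 / 5) * u ^ 8 * v ^ 17 - (202176 / 5) * u ^ 7 * v ^ 18 + (23328 / 5) * u ^ 6 * v ^ 19 + (102384 / 5) * u ^ 5 * v ^ 20 + 15552 * u ^ 4 * v ^ 21 + (46656 / 5) * u ^ 3 * v ^ 22 + (23328 / 5) * u ^ 2 * v ^ 23 + (7776 / 5) * u * v ^ 24 + (324 / 5) * v ^ 25) +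
      ζ ^ 18 * (-(1296 / 5) * u ^ 25 - (15552 / 5) * u ^ 23 * v ^ 2 + (15552 / 5) * u ^ 22 * v ^ 3 - (31104 / 5) * u ^ 21 * v ^ 4 - (53784 / 5) * u ^ 20 * v ^ 5 - 15552 * u ^ 19 * v ^ 6 - (225504 / 5) * u ^ 18 * v ^ 7 + (147744 / 5) * u ^ 17 * v ^ 8 - (373248 / 5) * u ^ 16 * v ^ 9 - (454248 / 5) * u ^ 15 * v ^ 10 - 178848 * u ^ 14 * v ^ 11 - (606528 / 5) * u ^ 13 * v ^ 12 - (287712 / 5) * u ^ 12 * v ^ 13 - (318816 / 5) * u ^ 11 * v ^ 14 - (189216 / 5) * u ^ 10 * v ^ 15 - 69984 * u ^ 9 * v ^ 16 - (202176 / 5) * u ^ 8 * v ^ 17 - (147744 / 5) * u ^ 7 * v ^ 18 - (54432 / 5) * u ^ 6 * v ^ 19 + (13608 / 5) * u ^ 5 * v ^ 20 + 7776 * u ^ 4 * v ^ 21 + (23328 / 5) * u ^ 3 * v ^ 22 + (15552 / 5) * u ^ 2 * v ^ 23 + (7776 / 5) * u * v ^ 24 + (648 / 5) * v ^ 25)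 +
      ζ ^ 17 * ((972 / 5) * u ^ 25 + (15552 / 5) * u ^ 23 * v ^ 2 - (7776 / 5) * u ^ 22 * v ^ 3 + 7776 * u ^ 21 * v ^ 4 + (39528 / 5) * u ^ 20 * v ^ 5 + 15552 * u ^ 19 * v ^ 6 + (225504 / 5) * u ^ 18 * v ^ 7 + (23328 / 5) * u ^ 17 * v ^ 8 + 108864 * u ^ 16 * v ^ 9 + (404676 / 5) * u ^ 15 * v ^ 10 + 178848 * u ^ 14 * v ^ 11 + (606528 / 5) * u ^ 13 * v ^ 12 + (1213056 / 5) * u ^ 12 * v ^ 13 + 248832 * u ^ 11 * v ^ 14 + (943812 / 5) * u ^ 10 * v ^ 15 + 69984 * u ^ 9 * v ^ 16 + (202176 / 5) * u ^ 8 * v ^ 17 - (23328 / 5) * u ^ 7 * v ^ 18 - 23328 * u ^ 6 * v ^ 19 - (92016 / 5) * u ^ 5 * v ^ 20 - 7776 * u ^ 4 * v ^ 21 - (23328 / 5) * u ^ 3 * v ^ 22 - (7776 / 5) * u ^ 2 * v ^ 23 + (324 / 5) * v ^ 25) +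
      ζ ^ 16 * (-(324 / 5) * u ^ 25 - (13932 / 5) * u ^ 23 * v ^ 2 - (6156 / 5) * u ^ 22 * v ^ 3 - (47952 / 5) * u ^ 21 * v ^ 4 - (12636 / 5) * u ^ 20 * v ^ 5 - 13932 * u ^ 19 * v ^ 6 - (128304 / 5) * u ^ 18 * v ^ 7 - (205092 / 5) * u ^ 17 * v ^ 8 - (450684 / 5) * u ^ 16 * v ^ 9 - (331452 / 5) * u ^ 15 * v ^ 10 - 86508 * u ^ 14 * v ^ 11 - (240408 / 5) * u ^ 13 * v ^ 12 - (654804 / 5) * u ^ 12 * v ^ 13 - (510948 / 5) * u ^ 11 * v ^ 14 - (314604 / 5) * u ^ 10 * v ^ 15 + 19116 * u ^ 9 * v ^ 16 + (31104 / 5) * u ^ 8 * v ^ 17 - (28188 / 5) * u ^ 7 * v ^ 18 - (126036 / 5) * u ^ 6 * v ^ 19 - (165888 / 5) * u ^ 5 * v ^ 20 - 26244 * u ^ 4 * v ^ 21 - (78732 / 5) * u ^ 3 * v ^ 22 - (40176 / 5) * u ^ 2 * v ^ 23 - (13932 / 5) * u * v ^ 24 - (648 / 5) * v ^ 25)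 +
      ζ ^ 15 * (-(324 / 5) * u ^ 25 + (6156 / 5) * u ^ 23 * v ^ 2 + (13932 / 5) * u ^ 22 * v ^ 3 + 6480 * u ^ 21 * v ^ 4 - (12636 / 5) * u ^ 20 * v ^ 5 + 6156 * u ^ 19 * v ^ 6 + (34992 / 5) * u ^ 18 * v ^ 7 + (259524 / 5) * u ^ 17 * v ^ 8 + 60588 * u ^ 16 * v ^ 9 + (170748 / 5) * u ^ 15 * v ^ 10 + 16524 * u ^ 14 * v ^ 11 + (209304 / 5) * u ^ 13 * v ^ 12 + (335988 / 5) * u ^ 12 * v ^ 13 + 159732 * u ^ 11 * v ^ 14 + (754596 / 5) * u ^ 10 * v ^ 15 + 159732 * u ^ 9 * v ^ 16 + (489888 / 5) * u ^ 8 * v ^ 17 + (401436 / 5) * u ^ 7 * v ^ 18 + 54756 * u ^ 6 * v ^ 19 + (141912 / 5) * u ^ 5 * v ^ 20 + 10692 * u ^ 4 * v ^ 21 + (32076 / 5) * u ^ 3 * v ^ 22 + (9072 / 5) * u ^ 2 * v ^ 23 - 324 * u * v ^ 24 - (648 / 5) * v ^ 25) +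
      ζ ^ 14 * ((972 / 5) * u ^ 25 + (7776 / 5) * u ^ 23 * v ^ 2 - (15552 / 5) * u ^ 22 * v ^ 3 + (7776 / 5) * u ^ 21 * v ^ 4 + (39528 / 5) * u ^ 20 * v ^ 5 + 7776 * u ^ 19 * v ^ 6 + (93312 / 5) * u ^ 18 * v ^ 7 - (225504 / 5) * u ^ 17 * v ^ 8 - (23328 / 5) * u ^ 16 * v ^ 9 + (210276 / 5) * u ^ 15 * v ^ 10 + 69984 * u ^ 14 * v ^ 11 + (31104 / 5) * u ^ 13 * v ^ 12 - (606528 / 5) * u ^ 12 * v ^ 13 - (1213056 / 5) * u ^ 11 * v ^ 14 - (1194588 / 5) * u ^ 10 * v ^ 15 - 178848 * u ^ 9 * v ^ 16 - (520992 / 5) * u ^ 8 * v ^ 17 - (202176 / 5) * u ^ 7 * v ^ 18 + (23328 / 5) * u ^ 6 * v ^ 19 + (102384 / 5) * u ^ 5 * v ^ 20 + 15552 * u ^ 4 * v ^ 21 + (46656 / 5) * u ^ 3 * v ^ 22 + (23328 / 5) * u ^ 2 * v ^ 23 + (7776 / 5) * u * v ^ 24 + (324 / 5) * v ^ 25) +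
      ζ ^ 13 * (-(1296 / 5) * u ^ 25 - (15552 / 5) * u ^ 23 * v ^ 2 + (15552 / 5) * u ^ 22 * v ^ 3 - (31104 / 5) * u ^ 21 * v ^ 4 - (53784 / 5) * u ^ 20 * v ^ 5 - 15552 * u ^ 19 * v ^ 6 - (225504 / 5) * u ^ 18 * v ^ 7 + (147744 / 5) * u ^ 17 * v ^ 8 - (373248 / 5) * u ^ 16 * v ^ 9 - (454248 / 5) * u ^ 15 * v ^ 10 - 178848 * u ^ 14 * v ^ 11 - (606528 / 5) * u ^ 13 * v ^ 12 - (287712 / 5) * u ^ 12 * v ^ 13 - (318816 / 5) * u ^ 11 * v ^ 14 - (189216 / 5) * u ^ 10 * v ^ 15 - 69984 * u ^ 9 * v ^ 16 - (202176 / 5) * u ^ 8 * v ^ 17 - (147744 / 5) * u ^ 7 * v ^ 18 - (54432 / 5) * u ^ 6 * v ^ 19 + (13608 / 5) * u ^ 5 * v ^ 20 + 7776 * u ^ 4 * v ^ 21 + (23328 / 5) * u ^ 3 * v ^ 22 + (15552 / 5) * u ^ 2 * v ^ 23 + (7776 / 5) * u * v ^ 24 + (648 / 5) * v ^ 25)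 +
      ζ ^ 12 * ((972 / 5) * u ^ 25 + (15552 / 5) * u ^ 23 * v ^ 2 - (7776 / 5) * u ^ 22 * v ^ 3 + 7776 * u ^ 21 * v ^ 4 + (39528 / 5) * u ^ 20 * v ^ 5 + 15552 * u ^ 19 * v ^ 6 + (225504 / 5) * u ^ 18 * v ^ 7 + (23328 / 5) * u ^ 17 * v ^ 8 + 108864 * u ^ 16 * v ^ 9 + (404676 / 5) * u ^ 15 * v ^ 10 + 178848 * u ^ 14 * v ^ 11 + (606528 / 5) * u ^ 13 * v ^ 12 + (1213056 / 5) * u ^ 12 * v ^ 13 + 248832 * u ^ 11 * v ^ 14 + (943812 / 5) * u ^ 10 * v ^ 15 + 69984 * u ^ 9 * v ^ 16 + (202176 / 5) * u ^ 8 * v ^ 17 - (23328 / 5) * u ^ 7 * v ^ 18 - 23328 * u ^ 6 * v ^ 19 - (92016 / 5) * u ^ 5 * v ^ 20 - 7776 * u ^ 4 * v ^ 21 - (23328 / 5) * u ^ 3 * v ^ 22 - (7776 / 5) * u ^ 2 * v ^ 23 + (324 / 5) * v ^ 25) +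
      ζ ^ 11 * (-(324 / 5) * u ^ 25 - (13932 / 5) * u ^ 23 * v ^ 2 - (6156 / 5) * u ^ 22 * v ^ 3 - (47952 / 5) * u ^ 21 * v ^ 4 - (12636 / 5) * u ^ 20 * v ^ 5 - 13932 * u ^ 19 * v ^ 6 - (128304 / 5) * u ^ 18 * v ^ 7 - (205092 / 5) * u ^ 17 * v ^ 8 - (450684 / 5) * u ^ 16 * v ^ 9 - (331452 / 5) * u ^ 15 * v ^ 10 - 86508 * u ^ 14 * v ^ 11 - (240408 / 5) * u ^ 13 * v ^ 12 - (654804 / 5) * u ^ 12 * v ^ 13 - (510948 / 5) * u ^ 11 * v ^ 14 - (314604 / 5) * u ^ 10 * v ^ 15 + 19116 * u ^ 9 * v ^ 16 + (31104 / 5) * u ^ 8 * v ^ 17 - (28188 / 5) * u ^ 7 * v ^ 18 - (126036 / 5) * u ^ 6 * v ^ 19 - (165888 / 5) * u ^ 5 * v ^ 20 - 26244 * u ^ 4 * v ^ 21 - (78732 / 5) * u ^ 3 * v ^ 22 - (40176 / 5) * u ^ 2 * v ^ 23 - (13932 / 5) * u * v ^ 24 - (648 / 5) * v ^ 25)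 +
      ζ ^ 10 * (-(324 / 5) * u ^ 25 + (6156 / 5) * u ^ 23 * v ^ 2 + (13932 / 5) * u ^ 22 * v ^ 3 + 6480 * u ^ 21 * v ^ 4 - (12636 / 5) * u ^ 20 * v ^ 5 + 6156 * u ^ 19 * v ^ 6 + (34992 / 5) * u ^ 18 * v ^ 7 + (259524 / 5) * u ^ 17 * v ^ 8 + 60588 * u ^ 16 * v ^ 9 + (170748 / 5) * u ^ 15 * v ^ 10 + 16524 * u ^ 14 * v ^ 11 + (209304 / 5) * u ^ 13 * v ^ 12 + (335988 / 5) * u ^ 12 * v ^ 13 + 159732 * u ^ 11 * v ^ 14 + (754596 / 5) * u ^ 10 * v ^ 15 + 159732 * u ^ 9 * v ^ 16 + (489888 / 5) * u ^ 8 * v ^ 17 + (401436 / 5) * u ^ 7 * v ^ 18 + 54756 * u ^ 6 * v ^ 19 + (141912 / 5) * u ^ 5 * v ^ 20 + 10692 * u ^ 4 * v ^ 21 + (32076 / 5) * u ^ 3 * v ^ 22 + (9072 / 5) * u ^ 2 * v ^ 23 - 324 * u * v ^ 24 - (648 / 5) * v ^ 25) +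
      ζ ^ 9 * ((972 / 5) * u ^ 25 + (7776 / 5) * u ^ 23 * v ^ 2 - (15552 / 5) * u ^ 22 * v ^ 3 + (7776 / 5) * u ^ 21 * v ^ 4 + (39528 / 5) * u ^ 20 * v ^ 5 + 7776 * u ^ 19 * v ^ 6 + (93312 / 5) * u ^ 18 * v ^ 7 - (225504 / 5) * u ^ 17 * v ^ 8 - (23328 / 5) * u ^ 16 * v ^ 9 + (210276 / 5) * u ^ 15 * v ^ 10 + 69984 * u ^ 14 * v ^ 11 + (31104 / 5) * u ^ 13 * v ^ 12 - (606528 / 5) * u ^ 12 * v ^ 13 - (1213056 / 5) * u ^ 11 * v ^ 14 - (1194588 / 5) * u ^ 10 * v ^ 15 - 178848 * u ^ 9 * v ^ 16 - (520992 / 5) * u ^ 8 * v ^ 17 - (202176 / 5) * u ^ 7 * v ^ 18 + (23328 / 5) * u ^ 6 * v ^ 19 + (102384 / 5) * u ^ 5 * v ^ 20 + 15552 * u ^ 4 * v ^ 21 + (46656 / 5) * u ^ 3 * v ^ 22 + (23328 / 5) * u ^ 2 * v ^ 23 + (7776 / 5) * u * v ^ 24 + (324 / 5) * v ^ 25) +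
      ζ ^ 8 * (-(1296 / 5) * u ^ 25 - (15552 / 5) * u ^ 23 * v ^ 2 + (15552 / 5) * u ^ 22 * v ^ 3 - (31104 / 5) * u ^ 21 * v ^ 4 - (53784 / 5) * u ^ 20 * v ^ 5 - 15552 * u ^ 19 * v ^ 6 - (225504 / 5) * u ^ 18 * v ^ 7 + (147744 / 5) * u ^ 17 * v ^ 8 - (373248 / 5) * u ^ 16 * v ^ 9 - (454248 / 5) * u ^ 15 * v ^ 10 - 178848 * u ^ 14 * v ^ 11 - (606528 / 5) * u ^ 13 * v ^ 12 - (287712 / 5) * u ^ 12 * v ^ 13 - (318816 / 5) * u ^ 11 * v ^ 14 - (189216 / 5) * u ^ 10 * v ^ 15 - 69984 * u ^ 9 * v ^ 16 - (202176 / 5) * u ^ 8 * v ^ 17 - (147744 / 5) * u ^ 7 * v ^ 18 - (54432 / 5) * u ^ 6 * v ^ 19 + (13608 / 5) * u ^ 5 * v ^ 20 + 7776 * u ^ 4 * v ^ 21 + (23328 / 5) * u ^ 3 * v ^ 22 + (15552 / 5) * u ^ 2 * v ^ 23 + (7776 / 5) * u * v ^ 24 + (648 / 5) * v ^ 25)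 +
      ζ ^ 7 * ((972 / 5) * u ^ 25 + (15552 / 5) * u ^ 23 * v ^ 2 - (7776 / 5) * u ^ 22 * v ^ 3 + 7776 * u ^ 21 * v ^ 4 + (39528 / 5) * u ^ 20 * v ^ 5 + 15552 * u ^ 19 * v ^ 6 + (225504 / 5) * u ^ 18 * v ^ 7 + (23328 / 5) * u ^ 17 * v ^ 8 + 108864 * u ^ 16 * v ^ 9 + (404676 / 5) * u ^ 15 * v ^ 10 + 178848 * u ^ 14 * v ^ 11 + (606528 / 5) * u ^ 13 * v ^ 12 + (1213056 / 5) * u ^ 12 * v ^ 13 + 248832 * u ^ 11 * v ^ 14 + (943812 / 5) * u ^ 10 * v ^ 15 + 69984 * u ^ 9 * v ^ 16 + (202176 / 5) * u ^ 8 * v ^ 17 - (23328 / 5) * u ^ 7 * v ^ 18 - 23328 * u ^ 6 * v ^ 19 - (92016 / 5) * u ^ 5 * v ^ 20 - 7776 * u ^ 4 * v ^ 21 - (23328 / 5) * u ^ 3 * v ^ 22 - (7776 / 5) * u ^ 2 * v ^ 23 + (324 / 5) * v ^ 25) +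
      ζ ^ 6 * (-(324 / 5) * u ^ 25 - (13932 / 5) * u ^ 23 * v ^ 2 - (6156 / 5) * u ^ 22 * v ^ 3 - (47952 / 5) * u ^ 21 * v ^ 4 - (12636 / 5) * u ^ 20 * v ^ 5 - 13932 * u ^ 19 * v ^ 6 - (128304 / 5) * u ^ 18 * v ^ 7 - (205092 / 5) * u ^ 17 * v ^ 8 - (450684 / 5) * u ^ 16 * v ^ 9 - (331452 / 5) * u ^ 15 * v ^ 10 - 86508 * u ^ 14 * v ^ 11 - (240408 / 5) * u ^ 13 * v ^ 12 - (654804 / 5) * u ^ 12 * v ^ 13 - (510948 / 5) * u ^ 11 * v ^ 14 - (314604 / 5) * u ^ 10 * v ^ 15 + 19116 * u ^ 9 * v ^ 16 + (31104 / 5) * u ^ 8 * v ^ 17 - (28188 / 5) * u ^ 7 * v ^ 18 - (126036 / 5) * u ^ 6 * v ^ 19 - (165888 / 5) * u ^ 5 * v ^ 20 - 26244 * u ^ 4 * v ^ 21 - (78732 / 5) * u ^ 3 * v ^ 22 - (40176 / 5) * u ^ 2 * v ^ 23 - (13932 / 5) * u * v ^ 24 - (648 / 5) * v ^ 25) +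
      ζ ^ 5 * (-(324 / 5) * u ^ 25 + (6156 / 5) * u ^ 23 * v ^ 2 + (13932 / 5) * u ^ 22 * v ^ 3 + 6480 * u ^ 21 * v ^ 4 - (12636 / 5) * u ^ 20 * v ^ 5 + 6156 * u ^ 19 * v ^ 6 + (34992 / 5) * u ^ 18 * v ^ 7 + (259524 / 5) * u ^ 17 * v ^ 8 + 60588 * u ^ 16 * v ^ 9 + (170748 / 5) * u ^ 15 * v ^ 10 + 16524 * u ^ 14 * v ^ 11 + (209304 / 5) * u ^ 13 * v ^ 12 + (335988 / 5) * u ^ 12 * v ^ 13 + 159732 * u ^ 11 * v ^ 14 + (754596 / 5) * u ^ 10 * v ^ 15 + 159732 * u ^ 9 * v ^ 16 + (489888 / 5) * u ^ 8 * v ^ 17 + (401436 / 5) * u ^ 7 * v ^ 18 + 54756 * u ^ 6 * v ^ 19 + (141912 / 5) * u ^ 5 * v ^ 20 + 10692 * u ^ 4 * v ^ 21 + (32076 / 5) * u ^ 3 * v ^ 22 + (9072 / 5) * u ^ 2 * v ^ 23 - 324 * u * v ^ 24 - (648 / 5) * v ^ 25) +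
      ζ ^ 4 * ((972 / 5) * u ^ 25 + (7776 / 5) * u ^ 23 * v ^ 2 - (15552 / 5) * u ^ 22 * v ^ 3 + (7776 / 5) * u ^ 21 * v ^ 4 + (39528 / 5) * u ^ 20 * v ^ 5 + 7776 * u ^ 19 * v ^ 6 + (93312 / 5) * u ^ 18 * v ^ 7 - (225504 / 5) * u ^ 17 * v ^ 8 - (23328 / 5) * u ^ 16 * v ^ 9 + (210276 / 5) * u ^ 15 * v ^ 10 + 69984 * u ^ 14 * v ^ 11 + (31104 / 5) * u ^ 13 * v ^ 12 - (606528 / 5) * u ^ 12 * v ^ 13 - (1213056 / 5) * u ^ 11 * v ^ 14 - (1194588 / 5) * u ^ 10 * v ^ 15 - 178848 * u ^ 9 * v ^ 16 - (520992 / 5) * u ^ 8 * v ^ 17 - (202176 / 5) * u ^ 7 * v ^ 18 + (23328 / 5) * u ^ 6 * v ^ 19 + (102384 / 5) * u ^ 5 * v ^ 20 + 15552 * u ^ 4 * v ^ 21 + (46656 / 5) * u ^ 3 * v ^ 22 + (23328 / 5) * u ^ 2 * v ^ 23 + (7776 / 5) * u * v ^ 24 + (324 / 5) * v ^ 25) +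
      ζ ^ 3 * (-(1296 / 5) * u ^ 25 - (15552 / 5) * u ^ 23 * v ^ 2 + (15552 / 5) * u ^ 22 * v ^ 3 - (31104 / 5) * u ^ 21 * v ^ 4 - (53784 / 5) * u ^ 20 * v ^ 5 - 15552 * u ^ 19 * v ^ 6 - (225504 / 5) * u ^ 18 * v ^ 7 + (147744 / 5) * u ^ 17 * v ^ 8 - (373248 / 5) * u ^ 16 * v ^ 9 - (454248 / 5) * u ^ 15 * v ^ 10 - 178848 * u ^ 14 * v ^ 11 - (606528 / 5) * u ^ 13 * v ^ 12 - (287712 / 5) * u ^ 12 * v ^ 13 - (318816 / 5) * u ^ 11 * v ^ 14 - (189216 / 5) * u ^ 10 * v ^ 15 - 69984 * u ^ 9 * v ^ 16 - (202176 / 5) * u ^ 8 * v ^ 17 - (147744 / 5) * u ^ 7 * v ^ 18 - (54432 / 5) * u ^ 6 * v ^ 19 + (13608 / 5) * u ^ 5 * v ^ 20 + 7776 * u ^ 4 * v ^ 21 + (23328 / 5) * u ^ 3 * v ^ 22 + (15552 / 5) * u ^ 2 * v ^ 23 + (7776 / 5) * u * v ^ 24 + (648 / 5) * v ^ 25)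 +
      ζ ^ 2 * ((972 / 5) * u ^ 25 + (15552 / 5) * u ^ 23 * v ^ 2 - (7776 / 5) * u ^ 22 * v ^ 3 + 7776 * u ^ 21 * v ^ 4 + (39528 / 5) * u ^ 20 * v ^ 5 + 15552 * u ^ 19 * v ^ 6 + (225504 / 5) * u ^ 18 * v ^ 7 + (23328 / 5) * u ^ 17 * v ^ 8 + 108864 * u ^ 16 * v ^ 9 + (404676 / 5) * u ^ 15 * v ^ 10 + 178848 * u ^ 14 * v ^ 11 + (606528 / 5) * u ^ 13 * v ^ 12 + (1213056 / 5) * u ^ 12 * v ^ 13 + 248832 * u ^ 11 * v ^ 14 + (943812 / 5) * u ^ 10 * v ^ 15 + 69984 * u ^ 9 * v ^ 16 + (202176 / 5) * u ^ 8 * v ^ 17 - (23328 / 5) * u ^ 7 * v ^ 18 - 23328 * u ^ 6 * v ^ 19 - (92016 / 5) * u ^ 5 * v ^ 20 - 7776 * u ^ 4 * v ^ 21 - (23328 / 5) * u ^ 3 * v ^ 22 - (7776 / 5) * u ^ 2 * v ^ 23 + (324 / 5) * v ^ 25) +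
      ζ * (-(324 / 5) * u ^ 25 - (13932 / 5) * u ^ 23 * v ^ 2 - (6156 / 5) * u ^ 22 * v ^ 3 - (47952 / 5) * u ^ 21 * v ^ 4 - (12636 / 5) * u ^ 20 * v ^ 5 - 13932 * u ^ 19 * v ^ 6 - (128304 / 5) * u ^ 18 * v ^ 7 - (205092 / 5) * u ^ 17 * v ^ 8 - (450684 / 5) * u ^ 16 * v ^ 9 - (331452 / 5) * u ^ 15 * v ^ 10 - 86508 * u ^ 14 * v ^ 11 - (240408 / 5) * u ^ 13 * v ^ 12 - (654804 / 5) * u ^ 12 * v ^ 13 - (510948 / 5) * u ^ 11 * v ^ 14 - (314604 / 5) * u ^ 10 * v ^ 15 + 19116 * u ^ 9 * v ^ 16 + (31104 / 5) * u ^ 8 * v ^ 17 - (28188 / 5) * u ^ 7 * v ^ 18 - (126036 / 5) * u ^ 6 * v ^ 19 - (165888 / 5) * u ^ 5 * v ^ 20 - 26244 * u ^ 4 * v ^ 21 - (78732 / 5) * u ^ 3 * v ^ 22 - (40176 / 5) * u ^ 2 * v ^ 23 - (13932 / 5) * u * v ^ 24 - (648 / 5) * v ^ 25) +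
      (1620 * u ^ 23 * v ^ 2 + 1620 * u ^ 22 * v ^ 3 + 6480 * u ^ 21 * v ^ 4 + 8100 * u ^ 19 * v ^ 6 + 9720 * u ^ 18 * v ^ 7 + 34020 * u ^ 17 * v ^ 8 + 46980 * u ^ 16 * v ^ 9 + 40500 * u ^ 15 * v ^ 10 + 24300 * u ^ 14 * v ^ 11 + 16200 * u ^ 13 * v ^ 12 + 8100 * u ^ 12 * v ^ 13 + 8100 * u ^ 11 * v ^ 14 + 8100 * u ^ 9 * v ^ 16 + 9720 * u ^ 8 * v ^ 17 + 34020 * u ^ 7 * v ^ 18 + 46980 * u ^ 6 * v ^ 19 + 40500 * u ^ 5 * v ^ 20 + 24300 * u ^ 4 * v ^ 21 + 14580 * u ^ 3 * v ^ 22 + 6480 * u ^ 2 * v ^ 23 + 1620 * u * v ^ 24)) * hζ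

/-- the cofactor `f² / (X_t - X_s)`. -/
def act_kleinG (ζ u v : K) : K :=
  ζ ^ 3 * (-(1 / 36) * u ^ 12 * v ^ 2 + (5 / 36) * u ^ 10 * v ^ 4 - (5 / 36) * u ^ 9 * v ^ 5 - (5 / 18) * u ^ 8 * v ^ 6 + (7 / 18) * u ^ 7 * v ^ 7 - (5 / 18) * u ^ 5 * v ^ 9 + (5 / 18) * u ^ 4 * v ^ 10 - (5 / 36) * u ^ 3 * v ^ 11 + (1 / 36) * u ^ 2 * v ^ 12) +
      ζ ^ 2 * (-(1 / 36) * u ^ 12 * v ^ 2 + (5 / 36) * u ^ 10 * v ^ 4 - (5 / 36) * u ^ 9 * v ^ 5 - (5 / 18) * u ^ 8 * v ^ 6 + (7 / 18) * u ^ 7 * v ^ 7 - (5 / 18) * u ^ 5 * v ^ 9 + (5 / 18) * u ^ 4 * v ^ 10 - (5 / 36) * u ^ 3 * v ^ 11 + (1 / 36) * u ^ 2 * v ^ 12) +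
      ((1 / 18) * u ^ 12 * v ^ 2 - (5 / 36) * u ^ 10 * v ^ 4 + (5 / 36) * u ^ 9 * v ^ 5 + (5 / 36) * u ^ 8 * v ^ 6 + (7 / 36) * u ^ 7 * v ^ 7 - (5 / 12) * u ^ 5 * v ^ 9 + (5 / 12) * u ^ 4 * v ^ 10 - (5 / 18) * u ^ 3 * v ^ 11 + (1 / 12) * u ^ 2 * v ^ 12)

/-- `(X_t - X_s) ∣ f²`. -/
theorem act_kleinF_sq_eq (ζ u v : K) (hζ : ζ ^ 4 + ζ ^ 3 + ζ ^ 2 + ζ + 1 = 0) :
    kleinF u v ^ 2 = (kleinXt u v - kleinXs ζ u v) * act_kleinG ζ u v := by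
  unfold kleinF kleinXt kleinXs act_kleinG kleinR
  linear_combination
    (-1 : K) * (ζ ^ 3 * ((1 / 10) * u ^ 22 * v ^ 2 - (1 / 2) * u ^ 20 * v ^ 4 + (1 / 2) * u ^ 19 * v ^ 5 + u ^ 18 * v ^ 6 - (3 / 10) * u ^ 17 * v ^ 7 - (9 / 2) * u ^ 15 * v ^ 9 + (9 / 2) * u ^ 14 * v ^ 10 + (23 / 2) * u ^ 13 * v ^ 11 - (78 / 5) * u ^ 12 * v ^ 12 + (23 / 2) * u ^ 10 * v ^ 14 - (23 / 2) * u ^ 9 * v ^ 15 + (9 / 2) * u ^ 8 * v ^ 16 + (3 / 10) * u ^ 7 * v ^ 17 - u ^ 5 * v ^ 19 + u ^ 4 * v ^ 20 - (1 / 2) * u ^ 3 * v ^ 21 + (1 / 10) * u ^ 2 * v ^ 22) +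
      ζ ^ 2 * (-(1 / 10) * u ^ 22 * v ^ 2 + (1 / 2) * u ^ 20 * v ^ 4 - (1 / 2) * u ^ 19 * v ^ 5 - u ^ 18 * v ^ 6 + (3 / 10) * u ^ 17 * v ^ 7 + (9 / 2) * u ^ 15 * v ^ 9 - (9 / 2) * u ^ 14 * v ^ 10 - (23 / 2) * u ^ 13 * v ^ 11 + (78 / 5) * u ^ 12 * v ^ 12 - (23 / 2) * u ^ 10 * v ^ 14 + (23 / 2) * u ^ 9 * v ^ 15 - (9 / 2) * u ^ 8 * v ^ 16 - (3 / 10) * u ^ 7 * v ^ 17 + u ^ 5 * v ^ 19 - u ^ 4 * v ^ 20 + (1 / 2) * u ^ 3 * v ^ 21 - (1 / 10) * u ^ 2 * v ^ 22) +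
      ζ * (-(1 / 5) * u ^ 22 * v ^ 2 + u ^ 20 * v ^ 4 - u ^ 19 * v ^ 5 - 2 * u ^ 18 * v ^ 6 + (3 / 5) * u ^ 17 * v ^ 7 + 9 * u ^ 15 * v ^ 9 - 9 * u ^ 14 * v ^ 10 - 23 * u ^ 13 * v ^ 11 + (156 / 5) * u ^ 12 * v ^ 12 - 23 * u ^ 10 * v ^ 14 + 23 * u ^ 9 * v ^ 15 - 9 * u ^ 8 * v ^ 16 - (3 / 5) * u ^ 7 * v ^ 17 + 2 * u ^ 5 * v ^ 19 - 2 * u ^ 4 * v ^ 20 + u ^ 3 * v ^ 21 - (1 / 5) * u ^ 2 * v ^ 22) +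
      (-(1 / 2) * u ^ 20 * v ^ 4 + (1 / 2) * u ^ 19 * v ^ 5 + (3 / 2) * u ^ 18 * v ^ 6 - (7 / 2) * u ^ 17 * v ^ 7 - 2 * u ^ 15 * v ^ 9 + 2 * u ^ 14 * v ^ 10 + (37 / 2) * u ^ 13 * v ^ 11 - 39 * u ^ 12 * v ^ 12 + 39 * u ^ 10 * v ^ 14 - 39 * u ^ 9 * v ^ 15 + (41 / 2) * u ^ 8 * v ^ 16 - 2 * u ^ 7 * v ^ 17 - (7 / 2) * u ^ 5 * v ^ 19 + (7 / 2) * u ^ 4 * v ^ 20 - 2 * u ^ 3 * v ^ 21 + (1 / 2) * u ^ 2 * v ^ 22)) * hζ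

theorem act_kleinXt_ne_kleinXs (ζ u v : K) (hζ : ζ ^ 4 + ζ ^ 3 + ζ ^ 2 + ζ + 1 = 0)
    (hf : kleinF u v ≠ 0) : kleinXt u v ≠ kleinXs ζ u v := by
  intro h
  apply hf
  have h1 := act_kleinF_sq_eq ζ u v hζ
  rw [h, sub_self, zero_mul] at h1
  exact pow_eq_zero_iff (two_ne_zero) |>.mp h1

/-- `s₀` lies on `Y² = X³ + 27 H X + 54 T`. -/
theorem act_kleinS_on_curve (ζ u v : K) (hζ : ζ ^ 4 + ζ ^ 3 + ζ ^ 2 + ζ + 1 = 0) :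
    kleinYs ζ u v ^ 2 =
      kleinXs ζ u v ^ 3 + 27 * kleinH u v * kleinXs ζ u v + 54 * kleinT u v := by
  unfold kleinYs kleinXs kleinH kleinT kleinA kleinB kleinR
  linear_combination
    (ζ ^ 8 * (-(5832 / 125) * u ^ 30 - (192456 / 125) * u ^ 25 * v ^ 5 - (419904 / 25) * u ^ 20 * v ^ 10 - (1475496 / 25) * u ^ 15 * v ^ 15 + (419904 / 25) * u ^ 10 * v ^ 20 - (192456 / 125) * u ^ 5 * v ^ 25 + (5832 / 125) * v ^ 30) +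
      ζ ^ 7 * ((23328 / 125) * u ^ 30 + (769824 / 125) * u ^ 25 * v ^ 5 + (1679616 / 25) * u ^ 20 * v ^ 10 + (5901984 / 25) * u ^ 15 * v ^ 15 - (1679616 / 25) * u ^ 10 * v ^ 20 + (769824 / 125) * u ^ 5 * v ^ 25 - (23328 / 125) * v ^ 30) +
      ζ ^ 6 * (-(17496 / 125) * u ^ 30 - (577368 / 125) * u ^ 25 * v ^ 5 - (1259712 / 25) * u ^ 20 * v ^ 10 - (4426488 / 25) * u ^ 15 * v ^ 15 + (1259712 / 25) * u ^ 10 * v ^ 20 - (577368 / 125) * u ^ 5 * v ^ 25 + (17496 / 125) * v ^ 30) +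
      ζ ^ 5 * (-(46656 / 125) * u ^ 30 - (1539648 / 125) * u ^ 25 * v ^ 5 - (3359232 / 25) * u ^ 20 * v ^ 10 - (11803968 / 25) * u ^ 15 * v ^ 15 + (3359232 / 25) * u ^ 10 * v ^ 20 - (1539648 / 125) * u ^ 5 * v ^ 25 + (46656 / 125) * v ^ 30) +
      ζ ^ 4 * ((212868 / 125) * u ^ 30 + (5347944 / 125) * u ^ 25 * v ^ 5 + (8036496 / 25) * u ^ 20 * v ^ 10 + (15874704 / 25) * u ^ 15 * v ^ 15 + (2461104 / 25) * u ^ 10 * v ^ 20 - (4274856 / 125) * u ^ 5 * v ^ 25 + (224532 / 125) * v ^ 30) +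
      ζ ^ 3 * (-(516132 / 125) * u ^ 30 - (10835856 / 125) * u ^ 25 * v ^ 5 - (10042704 / 25) * u ^ 20 * v ^ 10 + (13687704 / 25) * u ^ 15 * v ^ 15 - (7453296 / 25) * u ^ 10 * v ^ 20 + (5202144 / 125) * u ^ 5 * v ^ 25 - (212868 / 125) * v ^ 30) +
      ζ ^ 2 * ((142884 / 25) * u ^ 30 + (2921832 / 25) * u ^ 25 * v ^ 5 + (2414448 / 5) * u ^ 20 * v ^ 10 - (6146928 / 5) * u ^ 15 * v ^ 15 - (314928 / 5) * u ^ 10 * v ^ 20 + (997272 / 25) * u ^ 5 * v ^ 25 - (55404 / 25) * v ^ 30) +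
      ζ * (-(26244 / 5) * u ^ 30 - (559872 / 5) * u ^ 25 * v ^ 5 - 548208 * u ^ 20 * v ^ 10 + 519048 * u ^ 15 * v ^ 15 - 151632 * u ^ 10 * v ^ 20 + (81648 / 5) * u ^ 5 * v ^ 25 - (2916 / 5) * v ^ 30) +
      (2916 * u ^ 30 + 64152 * u ^ 25 * v ^ 5 + 349920 * u ^ 20 * v ^ 10 + 349920 * u ^ 10 * v ^ 20 - 64152 * u ^ 5 * v ^ 25 + 2916 * v ^ 30)) * hζ

/-- `t₀` lies on `Y² = X³ + 27 H X + 54 T`. -/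
theorem act_kleinT_on_curve (u v : K) :
    kleinYt u v ^ 2 = kleinXt u v ^ 3 + 27 * kleinH u v * kleinXt u v + 54 * kleinT u v := by
  unfold kleinYt kleinXt kleinH kleinT
  ring

end Fermat.Agent.S52x
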