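/-
S52x — helper5 — [K-PTS] (K3): the transformation laws of the sections `s₀`, `t₀` of Klein's
universal curve under the generators `S`, `Tm` of the binary icosahedral group, as equalities of
points:  `s₀ ∘ S = s₀`, `t₀ ∘ S = t₀ - s₀`, `s₀ ∘ Tm = t₀`, `t₀ ∘ Tm = -s₀`.
-/
import Mathlib
import Fermat.Agent.S52x.KALG_helper4_Defs
import Fermat.Agent.S52x.KPTS_helper3_Defs
import Fermat.Agent.S52x.KPTS_helper5_Chord

set_option autoImplicit false

namespace Fermat.Agent.S52x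

open WeierstrassCurve

variable {k : Type*} [Field k] [DecidableEq k]

/-! ### generic lemmas on short Weierstrass curves -/

theorem act_mkPoint_of_nonsingular (W : WeierstrassCurve k) {x y : k}
    (h : W.toAffine.Nonsingular x y) : mkPoint W x y = Affine.Point.some x y h := by
  unfold mkPoint
  rw [dif_pos h]

theorem act_mkPoint_of_not_nonsingular (W : WeierstrassCurve k) {x y : k}
    (h : ¬ W.toAffine.Nonsingular x y) : mkPoint W x y = 0 := by
  unfold mkPoint
  rw [dif_neg h]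

theorem act_negY_short (W : WeierstrassCurve k) (h1 : W.a₁ = 0) (h3 : W.a₃ = 0) (x y : k) :
    W.toAffine.negY x y = -y := by
  simp [Affine.negY, h1, h3]

theorem act_neg_mkPoint_short (W : WeierstrassCurve k) (h1 : W.a₁ = 0) (h3 : W.a₃ = 0) (x y : k) :
    -mkPoint W x y = mkPoint W x (-y) := by
  by_cases h : W.toAffine.Nonsingular x y
  · have h' : W.toAffine.Nonsingular x (-y) := by
      have := (Affine.nonsingular_neg (W' := W.toAffine) x y).mpr h
      rwa [act_negY_short W h1 h3] at this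
    rw [act_mkPoint_of_nonsingular W h, act_mkPoint_of_nonsingular W h', Affine.Point.neg_some]
    congr 1
    exact act_negY_short W h1 h3 x y
  · have h' : ¬ W.toAffine.Nonsingular x (-y) := by
      intro h'
      apply h
      have := (Affine.nonsingular_neg (W' := W.toAffine) x (-y)).mpr h'
      rwa [act_negY_short W h1 h3, neg_neg] at this
    rw [act_mkPoint_of_not_nonsingular W h, act_mkPoint_of_not_nonsingular W h', neg_zero]

/-- the chord formula on a short Weierstrass curve, in polynomial form. -/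
theorem act_mkPoint_add_short (W : WeierstrassCurve k) (h1 : W.a₁ = 0) (h2 : W.a₂ = 0)
    (h3 : W.a₃ = 0) {x₁ y₁ x₂ y₂ x₃ y₃ : k} (hP₁ : W.toAffine.Nonsingular x₁ y₁)
    (hP₂ : W.toAffine.Nonsingular x₂ y₂) (hx : x₁ ≠ x₂)
    (hX : (y₁ - y₂) ^ 2 - (x₁ + x₂) * (x₁ - x₂) ^ 2 = x₃ * (x₁ - x₂) ^ 2)
    (hY : y₃ * (x₁ - x₂) = -((y₁ - y₂) * (x₃ - x₁) + y₁ * (x₁ - x₂))) :
    mkPoint W x₁ y₁ + mkPoint W x₂ y₂ = mkPoint W x₃ y₃ := by
  have hx' : x₁ - x₂ ≠ 0 := sub_ne_zero.mpr hx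
  have hsl : W.toAffine.slope x₁ x₂ y₁ y₂ = (y₁ - y₂) / (x₁ - x₂) := Affine.slope_of_X_ne hx
  have e3 : W.toAffine.addX x₁ x₂ (W.toAffine.slope x₁ x₂ y₁ y₂) = x₃ := by
    rw [hsl]
    simp only [Affine.addX, h1, h2]
    field_simp
    linear_combination hX
  have e4 : W.toAffine.addY x₁ x₂ y₁ (W.toAffine.slope x₁ x₂ y₁ y₂) = y₃ := by
    unfold Affine.addY
    rw [act_negY_short W h1 h3]
    unfold Affine.negAddY
    rw [e3, hsl]
    field_simp
    linear_combination -hY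
  have hns := Affine.nonsingular_add hP₁ hP₂ (fun hxy => hx hxy.left)
  have hP₃ : W.toAffine.Nonsingular x₃ y₃ := by
    rw [e3, e4] at hns
    exact hns
  rw [act_mkPoint_of_nonsingular W hP₁, act_mkPoint_of_nonsingular W hP₂, act_mkPoint_of_nonsingular W hP₃,
    Affine.Point.add_of_X_ne hx]
  congr 1

/-! ### points on Klein's curve -/

variable [CharZero k] {W : WeierstrassCurve k} {u v ν : k}

theorem KleinCurve.act_Δ_ne_zero (h : KleinCurve W u v ν) : W.Δ ≠ 0 := by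
  have hν := h.hν
  have h4 : W.a₄ = 27 * kleinH u v / ν ^ 4 := by
    rw [eq_div_iff (pow_ne_zero _ hν)]; exact h.a₄
  have h6 : W.a₆ = 54 * kleinT u v / ν ^ 6 := by
    rw [eq_div_iff (pow_ne_zero _ hν)]; exact h.a₆
  have hΔ : W.Δ * ν ^ 12 = -1259712 * 1728 * kleinF u v ^ 5 := by
    have hs := klein_syzygy u v
    simp only [WeierstrassCurve.Δ, WeierstrassCurve.b₂, WeierstrassCurve.b₄, WeierstrassCurve.b₆,
      WeierstrassCurve.b₈, h.a₁, h.a₂, h.a₃, h4, h6]
    field_simp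
    linear_combination (-1259712 : k) * hs
  intro h0
  rw [h0, zero_mul] at hΔ
  have : kleinF u v ^ 5 = 0 := by
    have h1 : (-1259712 * 1728 : k) ≠ 0 := by norm_num
    exact (mul_eq_zero.mp hΔ.symm).resolve_left h1
  exact h.hf (pow_eq_zero_iff (by norm_num) |>.mp this)

/-- a solution of `Y² = X³ + 27 H X + 54 T` gives a nonsingular point of `W`. -/
theorem KleinCurve.act_nonsingular (h : KleinCurve W u v ν) {X Y : k}
    (hXY : Y ^ 2 = X ^ 3 + 27 * kleinH u v * X + 54 * kleinT u v) :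
    W.toAffine.Nonsingular (X / ν ^ 2) (Y / ν ^ 3) := by
  have hν := h.hν
  rw [← Affine.equation_iff_nonsingular_of_Δ_ne_zero h.act_Δ_ne_zero, Affine.equation_iff]
  have h4 : W.a₄ = 27 * kleinH u v / ν ^ 4 := by
    rw [eq_div_iff (pow_ne_zero _ hν)]; exact h.a₄
  have h6 : W.a₆ = 54 * kleinT u v / ν ^ 6 := by
    rw [eq_div_iff (pow_ne_zero _ hν)]; exact h.a₆
  simp only [h.a₁, h.a₂, h.a₃, h4, h6]
  field_simp
  linear_combination hXY

theorem KleinCurve.act_nonsingular_s (h : KleinCurve W u v ν) (ζ : k)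
    (hζ : ζ ^ 4 + ζ ^ 3 + ζ ^ 2 + ζ + 1 = 0) :
    W.toAffine.Nonsingular (kleinXs ζ u v / ν ^ 2) (kleinYs ζ u v / ν ^ 3) :=
  h.act_nonsingular (act_kleinS_on_curve ζ u v hζ)

theorem KleinCurve.act_nonsingular_t (h : KleinCurve W u v ν) :
    W.toAffine.Nonsingular (kleinXt u v / ν ^ 2) (kleinYt u v / ν ^ 3) :=
  h.act_nonsingular (act_kleinT_on_curve u v)

/-! ### the action of `S` -/

omit [DecidableEq k] [CharZero k] in
/-- **(K3-S, `s₀`)**: `s₀ (S w) = s₀ (w)`. -/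
theorem kleinSpt_S [DecidableEq k] [CharZero k] (W : WeierstrassCurve k) (ζ u v ν : k)
    (hζ : ζ ^ 4 + ζ ^ 3 + ζ ^ 2 + ζ + 1 = 0) :
    kleinSpt W ζ (kleinSu ζ u v) (kleinSv ζ u v) ν = kleinSpt W ζ u v ν := by
  unfold kleinSpt
  rw [act_kleinXs_S ζ u v hζ, act_kleinYs_S ζ u v hζ]

/-- **(K3-S, `t₀`)**: `t₀ (S w) = t₀ (w) - s₀ (w)`. -/
theorem kleinTpt_S (h : KleinCurve W u v ν) (ζ : k) (hζ : ζ ^ 4 + ζ ^ 3 + ζ ^ 2 + ζ + 1 = 0) :
    kleinTpt W (kleinSu ζ u v) (kleinSv ζ u v) ν = kleinTpt W u v ν - kleinSpt W ζ u v ν := by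
  have hν := h.hν
  have hs := h.act_nonsingular_s ζ hζ
  have ht := h.act_nonsingular_t
  have hs' : W.toAffine.Nonsingular (kleinXs ζ u v / ν ^ 2) (-(kleinYs ζ u v / ν ^ 3)) := by
    have := (Affine.nonsingular_neg (W' := W.toAffine) _ _).mpr hs
    rwa [act_negY_short W h.a₁ h.a₃] at this
  have hx : kleinXt u v / ν ^ 2 ≠ kleinXs ζ u v / ν ^ 2 := by
    intro hx
    apply act_kleinXt_ne_kleinXs ζ u v hζ h.hf
    field_simp at hx
    exact hx
  unfold kleinTpt kleinSpt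
  rw [sub_eq_add_neg, act_neg_mkPoint_short W h.a₁ h.a₃]
  symm
  apply act_mkPoint_add_short W h.a₁ h.a₂ h.a₃ ht hs' hx
  · have := act_klein_chord_X ζ u v hζ
    field_simp
    linear_combination this
  · have := act_klein_chord_Y ζ u v hζ
    field_simp
    linear_combination this

end Fermat.Agent.S52x
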