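import Fermat.Agent.S52x.KALG_helper4_Defs

/-!
# [RIGID] Rigidity of Klein's icosahedral family

`klein_rigid`: if `(H, X_s, Y_s, X_t)` at `w' = (u', v')` are the `λ`-weighted scalings
(weights 4, 2, 3, 2) of their values at `w = (u, v)` and `f(w) ≠ 0`, then `w' = κ w` with `κ⁵ = λ`.

Proof.  With `z = u⁵`, `ω = v⁵`, `r = √5`, `P = 2z − (−11+5r)ω`, `Q = 2z − (−11−5r)ω`
(`P Q = 4 (z² + 11 z ω − ω²)`) one has `Y_s = c₁ Q² P` and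
`N := 12 X_s Y_s² − (3 X_s² + 27 H)² = c₂ Q⁵ P³`, so `Q' = λ Q`, `P' = λ P`, hence
`(z', ω') = λ (z, ω)`.  Then `u' = κ u`, `v' = κ ξ v` with `κ⁵ = λ`, `ξ⁵ = 1`, and
`X_t(u, ξ v) = X_t(u, v)` with `ξ ≠ 1` forces `f(u, v) = 0`.
-/

namespace Fermat.Agent.S52x

set_option linter.unusedSectionVars false

section rigid

variable {K : Type*} [Field K] [CharZero K]

theorem rigid_PQ (r z w : K) (hr : r ^ 2 = 5) :
    (2 * z - (-11 + 5 * r) * w) * (2 * z - (-11 - 5 * r) * w) =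
      4 * (z ^ 2 + 11 * z * w - w ^ 2) := by
  linear_combination (-25 * w ^ 2) * hr

theorem rigid_g_sq (ζ : K) (hζ : ζ ^ 4 + ζ ^ 3 + ζ ^ 2 + ζ + 1 = 0) :
    2 * (kleinA ζ - 2 * kleinB ζ) ^ 2 = -25 + 11 * kleinR ζ := by
  unfold kleinA kleinB kleinR
  linear_combination (2 * ζ^4 - 10 * ζ^3 + 24 * ζ^2 - 36 * ζ + 25) * hζ

theorem rigid_g_ne_zero (ζ : K) (hζ : ζ ^ 4 + ζ ^ 3 + ζ ^ 2 + ζ + 1 = 0) :
    kleinA ζ - 2 * kleinB ζ ≠ 0 := by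
  intro h0
  have h1 := rigid_g_sq ζ hζ
  have hr := kleinR_sq ζ hζ
  rw [h0] at h1
  have h2 : (20 : K) = 0 := by
    linear_combination (25 + 11 * kleinR ζ) * h1 + 121 * hr
  norm_num at h2

/-- `Y_s = (27/10) (a − 2b) Q² P`. -/
theorem kleinYs_factor (ζ u v : K) (hζ : ζ ^ 4 + ζ ^ 3 + ζ ^ 2 + ζ + 1 = 0) :
    kleinYs ζ u v = 27 / 10 * (kleinA ζ - 2 * kleinB ζ) *
      (2 * u ^ 5 - (-11 - 5 * kleinR ζ) * v ^ 5) ^ 2 *
      (2 * u ^ 5 - (-11 + 5 * kleinR ζ) * v ^ 5) := by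
  unfold kleinYs kleinA kleinB kleinR
  linear_combination (-(675/2) * ζ^12 * v^15 + 2025 * ζ^11 * v^15 - (8775/2) * ζ^10 * v^15 + (4725/2) * ζ^9 * v^15 - 135 * ζ^8 * u^5 * v^10
      + (12015/2) * ζ^8 * v^15 + 675 * ζ^7 * u^5 * v^10 - (20925/2) * ζ^7 * v^15 - 1215 * ζ^6 * u^5 * v^10
      + (5535/2) * ζ^6 * v^15 + 540 * ζ^5 * u^5 * v^10 + (12015/2) * ζ^5 * v^15 + 54 * ζ^4 * u^10 * v^5
      + 1944 * ζ^4 * u^5 * v^10 - (4833/2) * ζ^4 * v^15 - 216 * ζ^3 * u^10 * v^5 - 4941 * ζ^3 * u^5 * v^10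
      - (14283/2) * ζ^3 * v^15 + 324 * ζ^2 * u^10 * v^5 + 5589 * ζ^2 * u^5 * v^10 + 9126 * ζ^2 * v^15
      - 162 * ζ * u^10 * v^5 - 2457 * ζ * u^5 * v^10 - (7101/2) * ζ * v^15) * hζ

/-- The identity `12 X_s Y_s² − (3 X_s² + 27 H)² = c₂ Q⁵ P³` over `ℚ(√5)[z, ω]`
(with `Y_s² = (729/200)(−25 + 11 r) Q⁴ P²`). -/
theorem rigid_N_identity (r z w : K) (hr : r ^ 2 = 5) :
    12 * (((-75 + 18 * r) * z ^ 2 + 198 * r * z * w + (-75 - 18 * r) * w ^ 2) / 5) *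
        (729 / 200 * (-25 + 11 * r)) * (2 * z - (-11 - 5 * r) * w) ^ 4 *
        (2 * z - (-11 + 5 * r) * w) ^ 2 -
      (3 * (((-75 + 18 * r) * z ^ 2 + 198 * r * z * w + (-75 - 18 * r) * w ^ 2) / 5) ^ 2 +
        27 * (-(z ^ 4 + w ^ 4) + 228 * (z ^ 3 * w - z * w ^ 3) - 494 * z ^ 2 * w ^ 2)) ^ 2 =
      (-(6561 / 10) * r + 72171 / 50) * (2 * z - (-11 - 5 * r) * w) ^ 5 *
        (2 * z - (-11 + 5 * r) * w) ^ 3 := by
  linear_combination (-(512578125/2) * r^7 * w^8 + 27064125 * r^6 * z^2 * w^6 + 92674125 * r^6 * z * w^7 - (1181800125/2) * r^6 * w^8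
      + 21651300 * r^5 * z^3 * w^5 + (529964775/2) * r^5 * z^2 * w^6 + 1964855475 * r^5 * z * w^7
      + 3509970975 * r^5 * w^8 - 4330260 * r^4 * z^4 * w^4 - 136271970 * r^4 * z^3 * w^5 - (247382505/2) * r^4 * z^2 * w^6
      + 2998508220 * r^4 * z * w^7 + 8123108490 * r^4 * w^8 - 6928416 * r^3 * z^5 * w^3 - 162647190 * r^3 * z^4 * w^4
      - 1367574840 * r^3 * z^3 * w^5 - 7032046995 * r^3 * z^2 * w^6 - 18305386830 * r^3 * z * w^7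
      - (31888041201/2) * r^3 * w^8 - (944784/625) * r^2 * z^8 - (41570496/625) * r^2 * z^7 * w - (1115160048/625) * r^2 * z^6 * w^2
      - (1152426528/625) * r^2 * z^5 * w^3 + (12624899274/125) * r^2 * z^4 * w^4 - (498175758972/625) * r^2 * z^3 * w^5
      - (6450694617798/625) * r^2 * z^2 * w^6 - (21254563146879/625) * r^2 * z * w^7 - (46321128540693/1250) * r^2 * w^8
      + (629856/25) * r * z^8 + (6928416/5) * r * z^7 * w + (819915048/25) * r * z^6 * w^2 + (8701565616/25) * r * z^5 * w^3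
      + (10238033718/5) * r * z^4 * w^4 + (233053464708/25) * r * z^3 * w^5 + (272610776907/10) * r * z^2 * w^6
      + (1062280087299/25) * r * z * w^7 + (600182486568/25) * r * w^8 - (6508512/125) * z^8 - (260130528/125) * z^7 * w
      - (3550970664/125) * z^6 * w^2 - (6012920304/125) * z^5 * w^3 + (44262881082/25) * z^4 * w^4
      + (1727670168054/125) * z^3 * w^5 + (12147566362047/250) * z^2 * w^6 + (10458577783278/125) * z * w^7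
      + (7008807165363/125) * w^8) * hr

theorem rigid_c2_ne_zero (r : K) (hr : r ^ 2 = 5) : -(6561 / 10) * r + 72171 / 50 ≠ 0 := by
  intro h0
  have h1 : (-(6561 / 10) * r + 72171 / 50) * ((6561 / 10) * r + 72171 / 50) =
      -(43046721 / 625 : K) := by
    linear_combination (-(43046721 / 100 : K)) * hr
  rw [h0, zero_mul] at h1
  norm_num at h1

/-- `N := 12 X_s Y_s² − (3 X_s² + 27 H)² = c₂ Q⁵ P³`. -/
theorem kleinN_factor (ζ u v : K) (hζ : ζ ^ 4 + ζ ^ 3 + ζ ^ 2 + ζ + 1 = 0) :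
    12 * kleinXs ζ u v * kleinYs ζ u v ^ 2 - (3 * kleinXs ζ u v ^ 2 + 27 * kleinH u v) ^ 2 =
      (-(6561 / 10) * kleinR ζ + 72171 / 50) *
        (2 * u ^ 5 - (-11 - 5 * kleinR ζ) * v ^ 5) ^ 5 *
        (2 * u ^ 5 - (-11 + 5 * kleinR ζ) * v ^ 5) ^ 3 := by
  have hr := kleinR_sq ζ hζ
  have hg := rigid_g_sq ζ hζ
  have hN := rigid_N_identity (kleinR ζ) (u ^ 5) (v ^ 5) hr
  rw [kleinYs_factor ζ u v hζ]
  unfold kleinXs kleinH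
  linear_combination hN +
    (12 * (((-75 + 18 * kleinR ζ) * (u ^ 5) ^ 2 + 198 * kleinR ζ * u ^ 5 * v ^ 5 +
      (-75 - 18 * kleinR ζ) * (v ^ 5) ^ 2) / 5) * (729 / 200) *
      (2 * u ^ 5 - (-11 - 5 * kleinR ζ) * v ^ 5) ^ 4 *
      (2 * u ^ 5 - (-11 + 5 * kleinR ζ) * v ^ 5) ^ 2) * hg

/-- Abstract cancellation step. -/
theorem rigid_cancel (P Q P' Q' lam c₁ c₂ : K) (hc₁ : c₁ ≠ 0) (hc₂ : c₂ ≠ 0) (hlam : lam ≠ 0)
    (hP : P ≠ 0) (hQ : Q ≠ 0) (h1 : c₁ * Q' ^ 2 * P' = lam ^ 3 * (c₁ * Q ^ 2 * P))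
    (h2 : c₂ * Q' ^ 5 * P' ^ 3 = lam ^ 8 * (c₂ * Q ^ 5 * P ^ 3)) :
    Q' = lam * Q ∧ P' = lam * P := by
  have h1' : Q' ^ 2 * P' = lam ^ 3 * (Q ^ 2 * P) := by
    apply mul_left_cancel₀ hc₁
    linear_combination h1
  have h2' : Q' ^ 5 * P' ^ 3 = lam ^ 8 * (Q ^ 5 * P ^ 3) := by
    apply mul_left_cancel₀ hc₂
    linear_combination h2
  have hne : lam ^ 8 * (Q ^ 5 * P ^ 3) ≠ 0 :=
    mul_ne_zero (pow_ne_zero _ hlam) (mul_ne_zero (pow_ne_zero _ hQ) (pow_ne_zero _ hP))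
  have hQ' : Q' = lam * Q := by
    apply mul_right_cancel₀ hne
    have e1 : Q' * (lam ^ 8 * (Q ^ 5 * P ^ 3)) = (Q' ^ 2 * P') ^ 3 := by
      rw [← h2']; ring
    rw [e1, h1']
    ring
  refine ⟨hQ', ?_⟩
  have hne2 : lam ^ 2 * Q ^ 2 ≠ 0 := mul_ne_zero (pow_ne_zero _ hlam) (pow_ne_zero _ hQ)
  apply mul_left_cancel₀ hne2
  rw [hQ'] at h1'
  linear_combination h1'

/-- Step 1 of rigidity: `(u'⁵, v'⁵) = λ (u⁵, v⁵)`. -/
theorem klein_rigid_pow5 (ζ : K) (hζ : ζ ^ 4 + ζ ^ 3 + ζ ^ 2 + ζ + 1 = 0) (u v u' v' lam : K)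
    (hf : kleinF u v ≠ 0) (hlam : lam ≠ 0)
    (hH : kleinH u' v' = lam ^ 4 * kleinH u v)
    (hXs : kleinXs ζ u' v' = lam ^ 2 * kleinXs ζ u v)
    (hYs : kleinYs ζ u' v' = lam ^ 3 * kleinYs ζ u v) :
    u' ^ 5 = lam * u ^ 5 ∧ v' ^ 5 = lam * v ^ 5 := by
  have hr := kleinR_sq ζ hζ
  have hg0 := rigid_g_ne_zero ζ hζ
  have hc2 := rigid_c2_ne_zero (kleinR ζ) hr
  set r := kleinR ζ with hrdef
  set g := kleinA ζ - 2 * kleinB ζ with hgdef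
  have hPQ := rigid_PQ r (u ^ 5) (v ^ 5) hr
  have hF10 : (u ^ 5) ^ 2 + 11 * u ^ 5 * v ^ 5 - (v ^ 5) ^ 2 ≠ 0 := by
    intro h0
    apply hf
    unfold kleinF
    have : u ^ 10 + 11 * u ^ 5 * v ^ 5 - v ^ 10 = 0 := by linear_combination h0
    rw [this, mul_zero]
  have hPQ0 : (2 * u ^ 5 - (-11 + 5 * r) * v ^ 5) * (2 * u ^ 5 - (-11 - 5 * r) * v ^ 5) ≠ 0 := by
    rw [hPQ]
    exact mul_ne_zero (by norm_num) hF10
  have hP0 := left_ne_zero_of_mul hPQ0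
  have hQ0 := right_ne_zero_of_mul hPQ0
  have hc1 : (27 / 10 : K) * g ≠ 0 := mul_ne_zero (by norm_num) hg0
  -- the two factorisations at both points
  have hY := kleinYs_factor ζ u v hζ
  have hY' := kleinYs_factor ζ u' v' hζ
  have hN := kleinN_factor ζ u v hζ
  have hN' := kleinN_factor ζ u' v' hζ
  rw [hXs, hYs, hH] at hN'
  rw [hY'] at hYs
  rw [hY] at hYs
  obtain ⟨hQ', hP'⟩ := rigid_cancel (2 * u ^ 5 - (-11 + 5 * r) * v ^ 5)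
    (2 * u ^ 5 - (-11 - 5 * r) * v ^ 5) (2 * u' ^ 5 - (-11 + 5 * r) * v' ^ 5)
    (2 * u' ^ 5 - (-11 - 5 * r) * v' ^ 5) lam (27 / 10 * g) (-(6561 / 10) * r + 72171 / 50)
    hc1 hc2 hlam hP0 hQ0 (by linear_combination hYs) (by linear_combination (-1 : K) * hN' + lam ^ 8 * hN)
  have h10r : (10 : K) * r ≠ 0 := by
    refine mul_ne_zero (by norm_num) ?_
    intro h0
    rw [h0] at hr
    norm_num at hr
  have hv : v' ^ 5 = lam * v ^ 5 := by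
    apply mul_left_cancel₀ h10r
    linear_combination hQ' - hP'
  refine ⟨?_, hv⟩
  have h2 : (2 : K) ≠ 0 := by norm_num
  apply mul_left_cancel₀ h2
  linear_combination hP' + (-11 + 5 * r) * hv

/-- `F₁₀ = lin · R` for a primitive fifth root of unity `ξ`. -/
theorem rigid_F10_factor (ξ u v : K) (hξ : ξ ^ 4 + ξ ^ 3 + ξ ^ 2 + ξ + 1 = 0) :
    u ^ 10 + 11 * u ^ 5 * v ^ 5 - v ^ 10 = ((ξ ^ 2 - 1) * u + (ξ ^ 2 - ξ) * v) *
      ((2/5) * ξ^3 * u^9 + (4/5) * ξ^3 * u^8 * v - (7/5) * ξ^3 * u^7 * v^2 - (4/5) * ξ^3 * u^6 * v^3 + (22/5) * ξ^3 * u^5 * v^4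
        + (11/5) * ξ^3 * u^4 * v^5 - (3/5) * ξ^3 * u^3 * v^6 - (1/5) * ξ^3 * u^2 * v^7 + (3/5) * ξ^3 * u * v^8
        - (4/5) * ξ^3 * v^9 - (1/5) * ξ^2 * u^9 + (3/5) * ξ^2 * u^8 * v + (1/5) * ξ^2 * u^7 * v^2
        - (8/5) * ξ^2 * u^6 * v^3 + (4/5) * ξ^2 * u^5 * v^4 + (7/5) * ξ^2 * u^4 * v^5 + (4/5) * ξ^2 * u^3 * v^6
        - (7/5) * ξ^2 * u^2 * v^7 + (6/5) * ξ^2 * u * v^8 - (3/5) * ξ^2 * v^9 + (1/5) * ξ * u^9 + (2/5) * ξ * u^8 * v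
        - (6/5) * ξ * u^7 * v^2 + (3/5) * ξ * u^6 * v^3 + (11/5) * ξ * u^5 * v^4 - (7/5) * ξ * u^4 * v^5
        + (11/5) * ξ * u^3 * v^6 - (8/5) * ξ * u^2 * v^7 + (4/5) * ξ * u * v^8 - (2/5) * ξ * v^9 - (2/5) * u^9
        + (6/5) * u^8 * v - (3/5) * u^7 * v^2 - (11/5) * u^6 * v^3 + (18/5) * u^5 * v^4 - (11/5) * u^4 * v^5
        + (8/5) * u^3 * v^6 - (4/5) * u^2 * v^7 + (2/5) * u * v^8 - (1/5) * v^9) := by
  linear_combination (-(2/5) * ξ * u^10 - (6/5) * ξ * u^9 * v + (3/5) * ξ * u^8 * v^2 + (11/5) * ξ * u^7 * v^3 - (18/5) * ξ * u^6 * v^4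
      - (33/5) * ξ * u^5 * v^5 - (8/5) * ξ * u^4 * v^6 + (4/5) * ξ * u^3 * v^7 - (2/5) * ξ * u^2 * v^8
      + (1/5) * ξ * u * v^9 + (4/5) * ξ * v^10 + (3/5) * u^10 + (6/5) * u^9 * v - (3/5) * u^8 * v^2
      - (11/5) * u^7 * v^3 + (18/5) * u^6 * v^4 + (44/5) * u^5 * v^5 + (8/5) * u^4 * v^6 - (4/5) * u^3 * v^7
      + (2/5) * u^2 * v^8 - (1/5) * u * v^9 - v^10) * hξ

/-- `(X_t(u, ξ v) − X_t(u, v)) · Q₃ = 36 u v² · lin · F₁₀`. -/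
theorem rigid_Xt_diff (ξ u v : K) (hξ : ξ ^ 4 + ξ ^ 3 + ξ ^ 2 + ξ + 1 = 0) :
    (kleinXt u (ξ * v) - kleinXt u v) *
      (u ^ 4 + (1 + ξ) * u ^ 3 * v + (-1 + ξ - ξ ^ 2) * u ^ 2 * v ^ 2 + (-ξ - ξ ^ 2) * u * v ^ 3 +
        ξ ^ 2 * v ^ 4) =
      36 * u * v ^ 2 * (((ξ ^ 2 - 1) * u + (ξ ^ 2 - ξ) * v) *
        (u ^ 10 + 11 * u ^ 5 * v ^ 5 - v ^ 10)) := by
  unfold kleinXt
  linear_combination (-3 * ξ^8 * u^2 * v^12 - 3 * ξ^8 * u * v^13 + 3 * ξ^8 * v^14 - 33 * ξ^7 * u^3 * v^11 - 30 * ξ^7 * u^2 * v^12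
      + 36 * ξ^7 * u * v^13 - 3 * ξ^7 * v^14 - 33 * ξ^6 * u^4 * v^10 + 66 * ξ^6 * u^2 * v^12 - 33 * ξ^6 * u * v^13
      + 33 * ξ^5 * u^4 * v^10 + 33 * ξ^5 * u^3 * v^11 - 33 * ξ^5 * u^2 * v^12 + 198 * ξ^3 * u^7 * v^7
      + 198 * ξ^3 * u^6 * v^8 - 198 * ξ^3 * u^5 * v^9 - 3 * ξ^3 * u^2 * v^12 - 3 * ξ^3 * u * v^13
      + 3 * ξ^3 * v^14 + 198 * ξ^2 * u^8 * v^6 - 396 * ξ^2 * u^6 * v^8 + 198 * ξ^2 * u^5 * v^9 - 33 * ξ^2 * u^3 * v^11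
      - 30 * ξ^2 * u^2 * v^12 + 36 * ξ^2 * u * v^13 - 3 * ξ^2 * v^14 + 198 * ξ * u^9 * v^5 - 396 * ξ * u^7 * v^7
      + 198 * ξ * u^6 * v^8 - 33 * ξ * u^4 * v^10 + 66 * ξ * u^2 * v^12 - 33 * ξ * u * v^13 - 198 * u^9 * v^5
      - 198 * u^8 * v^6 + 198 * u^7 * v^7 + 33 * u^4 * v^10 + 33 * u^3 * v^11 - 33 * u^2 * v^12) * hξ

/-- If `ξ` is a primitive fifth root of unity and `X_t(u, ξ v) = X_t(u, v)` then `f(u, v) = 0`. -/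
theorem kleinF_eq_zero_of_kleinXt_twist (ξ u v : K) (hξ : ξ ^ 4 + ξ ^ 3 + ξ ^ 2 + ξ + 1 = 0)
    (h : kleinXt u (ξ * v) = kleinXt u v) : kleinF u v = 0 := by
  by_contra hf
  have hu : u ≠ 0 := by
    rintro rfl
    apply hf
    unfold kleinF
    ring
  have hv : v ≠ 0 := by
    rintro rfl
    apply hf
    unfold kleinF
    ring
  have h1 := rigid_Xt_diff ξ u v hξ
  rw [h, sub_self, zero_mul] at h1
  have h36 : (36 : K) * u * v ^ 2 ≠ 0 :=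
    mul_ne_zero (mul_ne_zero (by norm_num) hu) (pow_ne_zero _ hv)
  have h2 : ((ξ ^ 2 - 1) * u + (ξ ^ 2 - ξ) * v) * (u ^ 10 + 11 * u ^ 5 * v ^ 5 - v ^ 10) = 0 := by
    rcases mul_eq_zero.mp h1.symm with h3 | h3
    · exact absurd h3 h36
    · exact h3
  have h3 := rigid_F10_factor ξ u v hξ
  have h4 : (u ^ 10 + 11 * u ^ 5 * v ^ 5 - v ^ 10) ^ 2 = 0 := by
    rw [sq]
    nth_rewrite 1 [h3]
    rw [mul_right_comm, h2, zero_mul]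
  have h5 : u ^ 10 + 11 * u ^ 5 * v ^ 5 - v ^ 10 = 0 := pow_eq_zero_iff (by norm_num) |>.mp h4
  apply hf
  unfold kleinF
  rw [h5, mul_zero]

/-- **[RIGID]** (minimal hypotheses). -/
theorem klein_rigid' (ζ : K) (hζ : ζ ^ 4 + ζ ^ 3 + ζ ^ 2 + ζ + 1 = 0) (u v u' v' lam : K)
    (hf : kleinF u v ≠ 0) (hlam : lam ≠ 0)
    (hH : kleinH u' v' = lam ^ 4 * kleinH u v)
    (hXs : kleinXs ζ u' v' = lam ^ 2 * kleinXs ζ u v)
    (hYs : kleinYs ζ u' v' = lam ^ 3 * kleinYs ζ u v)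
    (hXt : kleinXt u' v' = lam ^ 2 * kleinXt u v) :
    ∃ κ : K, κ ^ 5 = lam ∧ u' = κ * u ∧ v' = κ * v := by
  obtain ⟨hu5, hv5⟩ := klein_rigid_pow5 ζ hζ u v u' v' lam hf hlam hH hXs hYs
  have hu : u ≠ 0 := by
    rintro rfl
    apply hf
    unfold kleinF
    ring
  have hv : v ≠ 0 := by
    rintro rfl
    apply hf
    unfold kleinF
    ring
  set κ : K := u' / u with hκ
  have hκu : u' = κ * u := by rw [hκ]; field_simp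
  have hκ5 : κ ^ 5 = lam := by
    rw [hκ, div_pow, hu5]
    field_simp
  have hκ0 : κ ≠ 0 := by
    intro h0
    rw [h0] at hκ5
    apply hlam
    rw [← hκ5]
    ring
  set ξ : K := v' / (κ * v) with hξdef
  have hκv : κ * v ≠ 0 := mul_ne_zero hκ0 hv
  have hξv : v' = κ * (ξ * v) := by rw [hξdef]; field_simp
  have hξ5 : ξ ^ 5 = 1 := by
    rw [hξdef, div_pow, hv5, mul_pow, hκ5]
    have : lam * v ^ 5 ≠ 0 := mul_ne_zero hlam (pow_ne_zero _ hv)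
    exact div_self this
  refine ⟨κ, hκ5, hκu, ?_⟩
  by_cases hξ1 : ξ = 1
  · rw [hξv, hξ1, one_mul]
  · exfalso
    have hΦ : ξ ^ 4 + ξ ^ 3 + ξ ^ 2 + ξ + 1 = 0 := by
      have h1 : (ξ - 1) * (ξ ^ 4 + ξ ^ 3 + ξ ^ 2 + ξ + 1) = 0 := by linear_combination hξ5
      rcases mul_eq_zero.mp h1 with h2 | h2
      · exact absurd (sub_eq_zero.mp h2) hξ1
      · exact h2
    apply hf
    apply kleinF_eq_zero_of_kleinXt_twist ξ u v hΦ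
    have hscale : kleinXt u' v' = κ ^ 10 * kleinXt u (ξ * v) := by
      rw [hκu, hξv]
      unfold kleinXt
      ring
    have hκ10 : κ ^ 10 = lam ^ 2 := by rw [← hκ5]; ring
    rw [hscale, hκ10] at hXt
    exact mul_left_cancel₀ (pow_ne_zero 2 hlam) hXt

/-- **[RIGID]**: the isomorphism class of `(ℰ_w, s₀(w), t₀(w))` determines `w` up to the
`μ₅`-compatible scaling: if the invariants and the coordinates of the two sections at `w'` are the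
`λ`-scalings of those at `w` (and `f(w) ≠ 0`), then `w' = κ w` with `κ⁵ = λ`. -/
theorem klein_rigid (ζ : K) (hζ : ζ ^ 4 + ζ ^ 3 + ζ ^ 2 + ζ + 1 = 0) (u v u' v' lam : K)
    (hf : kleinF u v ≠ 0) (hlam : lam ≠ 0)
    (hH : kleinH u' v' = lam ^ 4 * kleinH u v) (_hT : kleinT u' v' = lam ^ 6 * kleinT u v)
    (hXs : kleinXs ζ u' v' = lam ^ 2 * kleinXs ζ u v)
    (hYs : kleinYs ζ u' v' = lam ^ 3 * kleinYs ζ u v)
    (hXt : kleinXt u' v' = lam ^ 2 * kleinXt u v)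
    (_hYt : kleinYt u' v' = lam ^ 3 * kleinYt u v) :
    ∃ κ : K, κ ^ 5 = lam ∧ u' = κ * u ∧ v' = κ * v :=
  klein_rigid' ζ hζ u v u' v' lam hf hlam hH hXs hYs hXt

end rigid

end Fermat.Agent.S52x
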