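/-
S52x — helper5 — [K-PTS] (K2) core certificates: the duplication formula
`2 • s₀(ζ) = s₀(ζ²)` and the inversion `s₀(ζ⁴) = −s₀(ζ)` as polynomial identities modulo `Φ₅(ζ)`,
and `Y_s ≠ 0` off `f = 0`.
-/
import Mathlib
import Fermat.Agent.S52x.KALG_helper4_Defs
import Fermat.Agent.S52x.RIGID_helper4_Main

set_option autoImplicit false

namespace Fermat.Agent.S52x

variable {K : Type*} [Field K] [CharZero K]

/-- `X`-coordinate of the duplication formula: with `λ = (3 X_s² + 27 H) / (2 Y_s)`,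
`λ² − 2 X_s = X_s(ζ²)`. -/
theorem act_klein_dbl_X (ζ u v : K) (hζ : ζ ^ 4 + ζ ^ 3 + ζ ^ 2 + ζ + 1 = 0) :
    (3 * kleinXs ζ u v ^ 2 + 27 * kleinH u v) ^ 2 - 8 * kleinXs ζ u v * kleinYs ζ u v ^ 2 =
      4 * kleinYs ζ u v ^ 2 * kleinXs (ζ ^ 2) u v := by
  unfold kleinXs kleinYs kleinH kleinA kleinB kleinR
  linear_combination
    (ζ ^ 12 * (-(3254256 / 625) * u ^ 40 - (80201664 / 625) * u ^ 35 * v ^ 5 - (292043232 / 625) * u ^ 30 * v ^ 10 + (5085877248 / 625) * u ^ 25 * v ^ 15 + (5835720816 / 125) * u ^ 20 * v ^ 20 - (32337646848 / 625) * u ^ 15 * v ^ 25 + (7287223968 / 625) * u ^ 10 * v ^ 30 - (612639936 / 625) * u ^ 5 * v ^ 35 + (17740944 / 625) * v ^ 40) +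
      ζ ^ 11 * ((3254256 / 125) * u ^ 40 + (88599744 / 125) * u ^ 35 * v ^ 5 + (552383712 / 125) * u ^ 30 * v ^ 10 - (2616841728 / 125) * u ^ 25 * v ^ 15 - (4920330096 / 25) * u ^ 20 * v ^ 20 + (8067195648 / 125) * u ^ 15 * v ^ 25 - (963469728 / 125) * u ^ 10 * v ^ 30 + (49968576 / 125) * u ^ 5 * v ^ 35 - (944784 / 125) * v ^ 40) +
      ζ ^ 10 * (-(40520736 / 625) * u ^ 40 - (1258032384 / 625) * u ^ 35 * v ^ 5 - (11934931392 / 625) * u ^ 30 * v ^ 10 - (21426861312 / 625) * u ^ 25 * v ^ 15 + (25860417696 / 125) * u ^ 20 * v ^ 20 + (21426861312 / 625) * u ^ 15 * v ^ 25 - (11934931392 / 625) * u ^ 10 * v ^ 30 + (1258032384 / 625) * u ^ 5 * v ^ 35 - (40520736 / 625) * v ^ 40) +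
      ζ ^ 9 * ((12807072 / 125) * u ^ 40 + (450137088 / 125) * u ^ 35 * v ^ 5 + (5522157504 / 125) * u ^ 30 * v ^ 10 + (26233922304 / 125) * u ^ 25 * v ^ 15 + (6323544288 / 25) * u ^ 20 * v ^ 20 - (4432506624 / 125) * u ^ 15 * v ^ 25 - (541256256 / 125) * u ^ 10 * v ^ 30 + (104136192 / 125) * u ^ 5 * v ^ 35 - (3989088 / 125) * v ^ 40) +
      ζ ^ 8 * (-(72538416 / 625) * u ^ 40 - (2703551904 / 625) * u ^ 35 * v ^ 5 - (36400637952 / 625) * u ^ 30 * v ^ 10 - (205393102272 / 625) * u ^ 25 * v ^ 15 - (77755618224 / 125) * u ^ 20 * v ^ 20 + (28256599872 / 625) * u ^ 15 * v ^ 25 + (12864598848 / 625) * u ^ 10 * v ^ 30 - (1799918496 / 625) * u ^ 5 * v ^ 35 + (63930384 / 625) * v ^ 40) +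
      ζ ^ 7 * ((14486688 / 125) * u ^ 40 + (482049792 / 125) * u ^ 35 * v ^ 5 + (5349157056 / 125) * u ^ 30 * v ^ 10 + (19837944576 / 125) * u ^ 25 * v ^ 15 + (132479712 / 25) * u ^ 20 * v ^ 20 + (1963471104 / 125) * u ^ 15 * v ^ 25 - (714256704 / 125) * u ^ 10 * v ^ 30 + (72223488 / 125) * u ^ 5 * v ^ 35 - (2309472 / 125) * v ^ 40) +
      ζ ^ 6 * (-(30548016 / 625) * u ^ 40 - (593534304 / 625) * u ^ 35 * v ^ 5 + (2681926848 / 625) * u ^ 30 * v ^ 10 + (110563662528 / 625) * u ^ 25 * v ^ 15 + (107012639376 / 125) * u ^ 20 * v ^ 20 - (151441316928 / 625) * u ^ 15 * v ^ 25 + (14050827648 / 625) * u ^ 10 * v ^ 30 - (445728096 / 625) * u ^ 5 * v ^ 35 + (944784 / 625) * v ^ 40) +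
      ζ ^ 5 * (-(3989088 / 25) * u ^ 40 - (28553472 / 5) * u ^ 35 * v ^ 5 - (1806007104 / 25) * u ^ 30 * v ^ 10 - (9142149888 / 25) * u ^ 25 * v ^ 15 - (2724547104 / 5) * u ^ 20 * v ^ 20 + (421583616 / 25) * u ^ 15 * v ^ 25 + 24774336 * u ^ 10 * v ^ 30 - (78941952 / 25) * u ^ 5 * v ^ 35 + (2729376 / 25) * v ^ 40) +
      ζ ^ 4 * ((312198624 / 625) * u ^ 40 + (8655901056 / 625) * u ^ 35 * v ^ 5 + (75262858128 / 625) * u ^ 30 * v ^ 10 + (180155402208 / 625) * u ^ 25 * v ^ 15 - (32158242864 / 125) * u ^ 20 * v ^ 20 + (154445100192 / 625) * u ^ 15 * v ^ 25 - (2870778672 / 625) * u ^ 10 * v ^ 30 - (2840230656 / 625) * u ^ 5 * v ^ 35 + (175729824 / 625) * v ^ 40) +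
      ζ ^ 3 * (-(115578576 / 125) * u ^ 40 - (2663661024 / 125) * u ^ 35 * v ^ 5 - (16127147952 / 125) * u ^ 30 * v ^ 10 - (5360284512 / 125) * u ^ 25 * v ^ 15 + (8079582816 / 25) * u ^ 20 * v ^ 20 + (12633021792 / 125) * u ^ 15 * v ^ 25 - (9194532912 / 125) * u ^ 10 * v ^ 30 + (1233887904 / 125) * u ^ 5 * v ^ 35 - (48393936 / 125) * v ^ 40) +
      ζ ^ 2 * ((26978832 / 25) * u ^ 40 + (565610688 / 25) * u ^ 35 * v ^ 5 + (2588603184 / 25) * u ^ 30 * v ^ 10 - (4134584736 / 25) * u ^ 25 * v ^ 15 - (281545632 / 5) * u ^ 20 * v ^ 20 - (6224446944 / 25) * u ^ 15 * v ^ 25 + (96472944 / 25) * u ^ 10 * v ^ 30 + (139828032 / 25) * u ^ 5 * v ^ 35 - (8713008 / 25) * v ^ 40) +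
      ζ * (-839808 * u ^ 40 - 16586208 * u ^ 35 * v ^ 5 - 58471632 * u ^ 30 * v ^ 10 + 240395040 * u ^ 25 * v ^ 15 - 68759280 * u ^ 20 * v ^ 20 - 70753824 * u ^ 15 * v ^ 25 + 13751856 * u ^ 10 * v ^ 30 - 629856 * u ^ 5 * v ^ 35) +
      (419904 * u ^ 40 + 7978176 * u ^ 35 * v ^ 5 + 22359888 * u ^ 30 * v ^ 10 - 155574432 * u ^ 25 * v ^ 15 + 68759280 * u ^ 20 * v ^ 20 + 155574432 * u ^ 15 * v ^ 25 + 22359888 * u ^ 10 * v ^ 30 - 7978176 * u ^ 5 * v ^ 35 + 419904 * v ^ 40)) * hζ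

/-- `Y`-coordinate of the duplication formula: `λ (X_s − X_s(ζ²)) − Y_s = Y_s(ζ²)`. -/
theorem act_klein_dbl_Y (ζ u v : K) (hζ : ζ ^ 4 + ζ ^ 3 + ζ ^ 2 + ζ + 1 = 0) :
    (3 * kleinXs ζ u v ^ 2 + 27 * kleinH u v) * (kleinXs ζ u v - kleinXs (ζ ^ 2) u v) -
        2 * kleinYs ζ u v ^ 2 =
      2 * kleinYs ζ u v * kleinYs (ζ ^ 2) u v := by
  unfold kleinXs kleinYs kleinH kleinA kleinB kleinR
  linear_combination
    (ζ ^ 12 * (-(17496 / 125) * u ^ 30 - (577368 / 125) * u ^ 25 * v ^ 5 - (1259712 / 25) * u ^ 20 * v ^ 10 - (4426488 / 25) * u ^ 15 * v ^ 15 + (1259712 / 25) * u ^ 10 * v ^ 20 - (577368 / 125) * u ^ 5 * v ^ 25 + (17496 / 125) * v ^ 30) +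
      ζ ^ 11 * ((52488 / 125) * u ^ 30 + (1732104 / 125) * u ^ 25 * v ^ 5 + (3779136 / 25) * u ^ 20 * v ^ 10 + (13279464 / 25) * u ^ 15 * v ^ 15 - (3779136 / 25) * u ^ 10 * v ^ 20 + (1732104 / 125) * u ^ 5 * v ^ 25 - (52488 / 125) * v ^ 30) +
      ζ ^ 9 * (-(139968 / 125) * u ^ 30 - (4618944 / 125) * u ^ 25 * v ^ 5 - (10077696 / 25) * u ^ 20 * v ^ 10 - (35411904 / 25) * u ^ 15 * v ^ 15 + (10077696 / 25) * u ^ 10 * v ^ 20 - (4618944 / 125) * u ^ 5 * v ^ 25 + (139968 / 125) * v ^ 30) +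
      ζ ^ 8 * ((169128 / 125) * u ^ 30 + (5727024 / 125) * u ^ 25 * v ^ 5 + (12760416 / 25) * u ^ 20 * v ^ 10 + (44976384 / 25) * u ^ 15 * v ^ 15 - (19758816 / 25) * u ^ 10 * v ^ 20 + (12142224 / 125) * u ^ 5 * v ^ 25 - (460728 / 125) * v ^ 30) +
      ζ ^ 7 * ((23328 / 125) * u ^ 30 - (688176 / 125) * u ^ 25 * v ^ 5 - (4735584 / 25) * u ^ 20 * v ^ 10 - (28798416 / 25) * u ^ 15 * v ^ 15 + (4735584 / 25) * u ^ 10 * v ^ 20 - (688176 / 125) * u ^ 5 * v ^ 25 - (23328 / 125) * v ^ 30) +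
      ζ ^ 6 * (-(414072 / 125) * u ^ 30 - (9144576 / 125) * u ^ 25 * v ^ 5 - (9984384 / 25) * u ^ 20 * v ^ 10 + (1527984 / 25) * u ^ 15 * v ^ 15 + (2985984 / 25) * u ^ 10 * v ^ 20 - (2729376 / 125) * u ^ 5 * v ^ 25 + (122472 / 125) * v ^ 30) +
      ζ ^ 5 * ((513216 / 125) * u ^ 30 + (13436928 / 125) * u ^ 25 * v ^ 5 + (21788352 / 25) * u ^ 20 * v ^ 10 + (51694848 / 25) * u ^ 15 * v ^ 15 + (6205248 / 25) * u ^ 10 * v ^ 20 - (12223872 / 125) * u ^ 5 * v ^ 25 + (653184 / 125) * v ^ 30) +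
      ζ ^ 4 * (-(139968 / 25) * u ^ 30 - (3510864 / 25) * u ^ 25 * v ^ 5 - (5237136 / 5) * u ^ 20 * v ^ 10 - (9809424 / 5) * u ^ 15 * v ^ 15 + (1038096 / 5) * u ^ 10 * v ^ 20 + (338256 / 25) * u ^ 5 * v ^ 25 - (34992 / 25) * v ^ 30) +
      ζ ^ 3 * ((1358856 / 125) * u ^ 30 + (28950048 / 125) * u ^ 25 * v ^ 5 + (28145232 / 25) * u ^ 20 * v ^ 10 - (29311632 / 25) * u ^ 15 * v ^ 15 - (151632 / 25) * u ^ 10 * v ^ 20 + (3289248 / 125) * u ^ 5 * v ^ 25 - (192456 / 125) * v ^ 30) +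
      ζ ^ 2 * (-(227448 / 25) * u ^ 30 - (4648104 / 25) * u ^ 25 * v ^ 5 - (3837456 / 5) * u ^ 20 * v ^ 10 + (9698616 / 5) * u ^ 15 * v ^ 15 - (361584 / 5) * u ^ 10 * v ^ 20 - (798984 / 25) * u ^ 5 * v ^ 25 + (52488 / 25) * v ^ 30) +
      ζ * ((11664 / 5) * u ^ 30 + (239112 / 5) * u ^ 25 * v ^ 5 + 198288 * u ^ 20 * v ^ 10 - 519048 * u ^ 15 * v ^ 15 - 198288 * u ^ 10 * v ^ 20 + (239112 / 5) * u ^ 5 * v ^ 25 - (11664 / 5) * v ^ 30)) * hζ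

/-- `X_s(ζ⁴) = X_s(ζ)`. -/
theorem act_kleinXs_inv (ζ u v : K) (hζ : ζ ^ 4 + ζ ^ 3 + ζ ^ 2 + ζ + 1 = 0) :
    kleinXs (ζ ^ 4) u v = kleinXs ζ u v := by
  unfold kleinXs kleinR
  linear_combination
    (ζ ^ 12 * ((18 / 5) * u ^ 10 + (198 / 5) * u ^ 5 * v ^ 5 - (18 / 5) * v ^ 10) +
      ζ ^ 11 * (-(18 / 5) * u ^ 10 - (198 / 5) * u ^ 5 * v ^ 5 + (18 / 5) * v ^ 10) +
      ζ ^ 8 * (-(18 / 5) * u ^ 10 - (198 / 5) * u ^ 5 * v ^ 5 + (18 / 5) * v ^ 10) +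
      ζ ^ 7 * ((36 / 5) * u ^ 10 + (396 / 5) * u ^ 5 * v ^ 5 - (36 / 5) * v ^ 10) +
      ζ ^ 6 * (-(18 / 5) * u ^ 10 - (198 / 5) * u ^ 5 * v ^ 5 + (18 / 5) * v ^ 10) +
      ζ ^ 4 * (-(18 / 5) * u ^ 10 - (198 / 5) * u ^ 5 * v ^ 5 + (18 / 5) * v ^ 10) +
      ζ ^ 2 * ((36 / 5) * u ^ 10 + (396 / 5) * u ^ 5 * v ^ 5 - (36 / 5) * v ^ 10) +
      ζ * (-(18 / 5) * u ^ 10 - (198 / 5) * u ^ 5 * v ^ 5 + (18 / 5) * v ^ 10)) * hζ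

/-- `Y_s(ζ⁴) = −Y_s(ζ)`. -/
theorem act_kleinYs_inv (ζ u v : K) (hζ : ζ ^ 4 + ζ ^ 3 + ζ ^ 2 + ζ + 1 = 0) :
    kleinYs (ζ ^ 4) u v = -kleinYs ζ u v := by
  unfold kleinYs kleinA kleinB
  linear_combination
    (ζ ^ 12 * (-(108 / 5) * u ^ 15 - (972 / 5) * u ^ 10 * v ^ 5 + (2484 / 5) * u ^ 5 * v ^ 10 - (216 / 5) * v ^ 15) +
      ζ ^ 11 * ((108 / 5) * u ^ 15 + (972 / 5) * u ^ 10 * v ^ 5 - (2484 / 5) * u ^ 5 * v ^ 10 + (216 / 5) * v ^ 15) +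
      ζ ^ 8 * ((216 / 5) * u ^ 15 + (2484 / 5) * u ^ 10 * v ^ 5 + (972 / 5) * u ^ 5 * v ^ 10 - (108 / 5) * v ^ 15) +
      ζ ^ 7 * (-(324 / 5) * u ^ 15 - (3456 / 5) * u ^ 10 * v ^ 5 + (1512 / 5) * u ^ 5 * v ^ 10 - (108 / 5) * v ^ 15) +
      ζ ^ 6 * ((108 / 5) * u ^ 15 + (972 / 5) * u ^ 10 * v ^ 5 - (2484 / 5) * u ^ 5 * v ^ 10 + (216 / 5) * v ^ 15) +
      ζ ^ 4 * (-(216 / 5) * u ^ 15 - (2484 / 5) * u ^ 10 * v ^ 5 - (972 / 5) * u ^ 5 * v ^ 10 + (108 / 5) * v ^ 15) +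
      ζ ^ 3 * ((432 / 5) * u ^ 15 + (4968 / 5) * u ^ 10 * v ^ 5 + (1944 / 5) * u ^ 5 * v ^ 10 - (216 / 5) * v ^ 15) +
      ζ ^ 2 * (-(324 / 5) * u ^ 15 - (3456 / 5) * u ^ 10 * v ^ 5 + (1512 / 5) * u ^ 5 * v ^ 10 - (108 / 5) * v ^ 15) +
      ζ * ((108 / 5) * u ^ 15 + (972 / 5) * u ^ 10 * v ^ 5 - (2484 / 5) * u ^ 5 * v ^ 10 + (216 / 5) * v ^ 15)) * hζ

/-- `Y_s ≠ 0` off the zero locus of `f`. -/
theorem act_kleinYs_ne_zero (ζ u v : K) (hζ : ζ ^ 4 + ζ ^ 3 + ζ ^ 2 + ζ + 1 = 0)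
    (hf : kleinF u v ≠ 0) : kleinYs ζ u v ≠ 0 := by
  intro h0
  apply hf
  have hY := kleinYs_factor ζ u v hζ
  have hg := rigid_g_ne_zero ζ hζ
  have hPQ := rigid_PQ (kleinR ζ) (u ^ 5) (v ^ 5) (kleinR_sq ζ hζ)
  rw [h0] at hY
  have h1 : (2 * u ^ 5 - (-11 + 5 * kleinR ζ) * v ^ 5) *
      (2 * u ^ 5 - (-11 - 5 * kleinR ζ) * v ^ 5) = 0 := by
    have h27 : (27 / 10 : K) ≠ 0 := by norm_num
    rcases mul_eq_zero.mp hY.symm with h2 | h2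
    · rcases mul_eq_zero.mp h2 with h3 | h3
      · exact absurd (mul_eq_zero.mp h3 |>.resolve_left h27) hg
      · rw [pow_eq_zero_iff two_ne_zero |>.mp h3, mul_zero]
    · rw [h2, zero_mul]
  rw [h1] at hPQ
  unfold kleinF
  linear_combination (-(u * v) / 4) * hPQ

end Fermat.Agent.S52x
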