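/-
S52x — helper5 — [K-PTS] (K2) point forms: `2 • s₀(ζ) = s₀(ζ²)`, `s₀(ζ⁴) = −s₀(ζ)`, `5 • s₀ = 0`,
`s₀ ≠ 0`, `t₀ ≠ 0` and the explicit affine forms of `s₀`, `t₀`.
-/
import Mathlib
import Fermat.Agent.S52x.KALG_helper4_Defs
import Fermat.Agent.S52x.KPTS_helper3_Defs
import Fermat.Agent.S52x.KPTS_helper5_Chord
import Fermat.Agent.S52x.KPTS_helper5_Dbl
import Fermat.Agent.S52x.KPTS_helper5_Act

set_option autoImplicit false

namespace Fermat.Agent.S52x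

open WeierstrassCurve

variable {k : Type*} [Field k] [DecidableEq k]

/-- the tangent (duplication) formula on a short Weierstrass curve, in polynomial form. -/
theorem act_mkPoint_two_nsmul_short (W : WeierstrassCurve k) (h1 : W.a₁ = 0) (h2 : W.a₂ = 0)
    (h3 : W.a₃ = 0) (h2k : (2 : k) ≠ 0) {x y x₃ y₃ : k} (hP : W.toAffine.Nonsingular x y)
    (hy : y ≠ 0)
    (hX : (3 * x ^ 2 + W.a₄) ^ 2 - 8 * x * y ^ 2 = 4 * y ^ 2 * x₃)
    (hY : (3 * x ^ 2 + W.a₄) * (x - x₃) - 2 * y ^ 2 = 2 * y * y₃) :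
    2 • mkPoint W x y = mkPoint W x₃ y₃ := by
  have hyn : y ≠ W.toAffine.negY x y := by
    rw [act_negY_short W h1 h3]
    intro h
    apply hy
    have : 2 * y = 0 := by linear_combination h
    exact (mul_eq_zero.mp this).resolve_left h2k
  have hsl : W.toAffine.slope x x y y = (3 * x ^ 2 + W.a₄) / (2 * y) := by
    rw [Affine.slope_of_Y_ne rfl hyn, act_negY_short W h1 h3]
    simp only [h1, h2]
    congr 1
    · ring
    · ring
  have e3 : W.toAffine.addX x x (W.toAffine.slope x x y y) = x₃ := by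
    rw [hsl]
    simp only [Affine.addX, h1, h2]
    field_simp
    linear_combination hX
  have e4 : W.toAffine.addY x x y (W.toAffine.slope x x y y) = y₃ := by
    unfold Affine.addY
    rw [act_negY_short W h1 h3]
    unfold Affine.negAddY
    rw [e3, hsl]
    field_simp
    linear_combination hY
  have hns := Affine.nonsingular_add hP hP (fun hxy => hyn hxy.right)
  have hP₃ : W.toAffine.Nonsingular x₃ y₃ := by
    rw [e3, e4] at hns
    exact hns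
  rw [two_nsmul, act_mkPoint_of_nonsingular W hP, act_mkPoint_of_nonsingular W hP₃,
    Affine.Point.add_self_of_Y_ne hyn]
  congr 1

omit [DecidableEq k] in
theorem act_phi5_sq (ζ : k) (hζ : ζ ^ 4 + ζ ^ 3 + ζ ^ 2 + ζ + 1 = 0) :
    (ζ ^ 2) ^ 4 + (ζ ^ 2) ^ 3 + (ζ ^ 2) ^ 2 + ζ ^ 2 + 1 = 0 := by
  linear_combination (ζ ^ 4 - ζ ^ 3 + ζ ^ 2 - ζ + 1) * hζ

omit [DecidableEq k] in
theorem act_phi5_pow_five (ζ : k) (hζ : ζ ^ 4 + ζ ^ 3 + ζ ^ 2 + ζ + 1 = 0) : ζ ^ 5 = 1 := by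
  linear_combination (ζ - 1) * hζ

variable [CharZero k] {W : WeierstrassCurve k} {u v ν : k}

/-! ### explicit affine forms, non-vanishing -/

theorem KleinCurve.act_kleinSpt_eq_some (h : KleinCurve W u v ν) (ζ : k)
    (hζ : ζ ^ 4 + ζ ^ 3 + ζ ^ 2 + ζ + 1 = 0) :
    kleinSpt W ζ u v ν = Affine.Point.some (kleinXs ζ u v / ν ^ 2) (kleinYs ζ u v / ν ^ 3)
      (h.act_nonsingular_s ζ hζ) :=
  act_mkPoint_of_nonsingular W _

theorem KleinCurve.act_kleinTpt_eq_some (h : KleinCurve W u v ν) :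
    kleinTpt W u v ν = Affine.Point.some (kleinXt u v / ν ^ 2) (kleinYt u v / ν ^ 3)
      h.act_nonsingular_t :=
  act_mkPoint_of_nonsingular W _

theorem KleinCurve.act_kleinSpt_ne_zero (h : KleinCurve W u v ν) (ζ : k)
    (hζ : ζ ^ 4 + ζ ^ 3 + ζ ^ 2 + ζ + 1 = 0) : kleinSpt W ζ u v ν ≠ 0 := by
  rw [h.act_kleinSpt_eq_some ζ hζ]
  exact Affine.Point.some_ne_zero _

theorem KleinCurve.act_kleinTpt_ne_zero (h : KleinCurve W u v ν) : kleinTpt W u v ν ≠ 0 := by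
  rw [h.act_kleinTpt_eq_some]
  exact Affine.Point.some_ne_zero _

/-! ### duplication, inversion, order five -/

/-- **(K2)** `2 • s₀(ζ) = s₀(ζ²)`. -/
theorem KleinCurve.act_two_nsmul_kleinSpt (h : KleinCurve W u v ν) (ζ : k)
    (hζ : ζ ^ 4 + ζ ^ 3 + ζ ^ 2 + ζ + 1 = 0) :
    2 • kleinSpt W ζ u v ν = kleinSpt W (ζ ^ 2) u v ν := by
  have hν := h.hν
  have h4 : W.a₄ = 27 * kleinH u v / ν ^ 4 := by
    rw [eq_div_iff (pow_ne_zero _ hν)]; exact h.a₄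
  have hy : kleinYs ζ u v / ν ^ 3 ≠ 0 :=
    div_ne_zero (act_kleinYs_ne_zero ζ u v hζ h.hf) (pow_ne_zero _ hν)
  unfold kleinSpt
  apply act_mkPoint_two_nsmul_short W h.a₁ h.a₂ h.a₃ two_ne_zero (h.act_nonsingular_s ζ hζ) hy
  · have := act_klein_dbl_X ζ u v hζ
    rw [h4]
    field_simp
    linear_combination this
  · have := act_klein_dbl_Y ζ u v hζ
    rw [h4]
    field_simp
    linear_combination this

/-- **(K2)** `s₀(ζ⁴) = −s₀(ζ)`. -/
theorem KleinCurve.act_kleinSpt_inv (h : KleinCurve W u v ν) (ζ : k)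
    (hζ : ζ ^ 4 + ζ ^ 3 + ζ ^ 2 + ζ + 1 = 0) :
    kleinSpt W (ζ ^ 4) u v ν = -kleinSpt W ζ u v ν := by
  unfold kleinSpt
  rw [act_kleinXs_inv ζ u v hζ, act_kleinYs_inv ζ u v hζ, act_neg_mkPoint_short W h.a₁ h.a₃,
    neg_div]

/-- **(K2)** `5 • s₀ = 0`. -/
theorem KleinCurve.act_five_nsmul_kleinSpt (h : KleinCurve W u v ν) (ζ : k)
    (hζ : ζ ^ 4 + ζ ^ 3 + ζ ^ 2 + ζ + 1 = 0) : 5 • kleinSpt W ζ u v ν = 0 := by
  have e1 := h.act_two_nsmul_kleinSpt ζ hζ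
  have e2 := h.act_two_nsmul_kleinSpt (ζ ^ 2) (act_phi5_sq ζ hζ)
  have e3 := h.act_kleinSpt_inv ζ hζ
  have e4 : (ζ ^ 2) ^ 2 = ζ ^ 4 := by ring
  rw [e4, e3, ← e1] at e2
  have : (5 : ℕ) • kleinSpt W ζ u v ν = 2 • 2 • kleinSpt W ζ u v ν + kleinSpt W ζ u v ν := by
    rw [← mul_nsmul, ← succ_nsmul]
  rw [this, e2, neg_add_cancel]

end Fermat.Agent.S52x
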