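/-
S52x — helper5 — the generator `Tm`: `(Tm w)₁⁵`, `(Tm w)₂⁵`, `(Tm w)₁ (Tm w)₂` as explicit forms; `Tm ∘ Tm = −1`.
-/
import Mathlib
import Fermat.Agent.S52x.KALG_helper4_Defs

set_option autoImplicit false

namespace Fermat.Agent.S52x

variable {K : Type*} [Field K] [CharZero K]

theorem act_kleinR_ne_zero (ζ : K) (hζ : ζ ^ 4 + ζ ^ 3 + ζ ^ 2 + ζ + 1 = 0) : kleinR ζ ≠ 0 := by
  intro h0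
  have h := kleinR_sq ζ hζ
  rw [h0] at h
  norm_num at h

/-- `(Tm w)₁⁵` as an explicit quintic form. -/
def act_kleinP (ζ u v : K) : K :=
  ζ ^ 3 * (-(1 / 25) * u ^ 5 + (2 / 5) * u ^ 4 * v + (2 / 5) * u ^ 3 * v ^ 2 + (6 / 5) * u ^ 2 * v ^ 3 + (4 / 5) * u * v ^ 4 + (7 / 25) * v ^ 5) +
      ζ ^ 2 * (-(7 / 25) * u ^ 5 + (4 / 5) * u ^ 4 * v - (6 / 5) * u ^ 3 * v ^ 2 + (2 / 5) * u ^ 2 * v ^ 3 - (2 / 5) * u * v ^ 4 - (1 / 25) * v ^ 5) +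
      ζ * (-(8 / 25) * u ^ 5 + (6 / 5) * u ^ 4 * v - (4 / 5) * u ^ 3 * v ^ 2 + (8 / 5) * u ^ 2 * v ^ 3 + (2 / 5) * u * v ^ 4 + (6 / 25) * v ^ 5) +
      (-(4 / 25) * u ^ 5 + (3 / 5) * u ^ 4 * v - (2 / 5) * u ^ 3 * v ^ 2 + (4 / 5) * u ^ 2 * v ^ 3 + (1 / 5) * u * v ^ 4 + (3 / 25) * v ^ 5)

/-- `(Tm w)₂⁵` as an explicit quintic form. -/
def act_kleinQ (ζ u v : K) : K :=
  ζ ^ 3 * ((7 / 25) * u ^ 5 - (4 / 5) * u ^ 4 * v + (6 / 5) * u ^ 3 * v ^ 2 - (2 / 5) * u ^ 2 * v ^ 3 + (2 / 5) * u * v ^ 4 + (1 / 25) * v ^ 5) +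
      ζ ^ 2 * (-(1 / 25) * u ^ 5 + (2 / 5) * u ^ 4 * v + (2 / 5) * u ^ 3 * v ^ 2 + (6 / 5) * u ^ 2 * v ^ 3 + (4 / 5) * u * v ^ 4 + (7 / 25) * v ^ 5) +
      ζ * ((6 / 25) * u ^ 5 - (2 / 5) * u ^ 4 * v + (8 / 5) * u ^ 3 * v ^ 2 + (4 / 5) * u ^ 2 * v ^ 3 + (6 / 5) * u * v ^ 4 + (8 / 25) * v ^ 5) +
      ((3 / 25) * u ^ 5 - (1 / 5) * u ^ 4 * v + (4 / 5) * u ^ 3 * v ^ 2 + (2 / 5) * u ^ 2 * v ^ 3 + (3 / 5) * u * v ^ 4 + (4 / 25) * v ^ 5)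

/-- `(Tm w)₁ (Tm w)₂` as an explicit quadratic form. -/
def act_kleinD (ζ u v : K) : K :=
  ζ ^ 3 * (-(2 / 5) * u ^ 2 - (2 / 5) * u * v + (2 / 5) * v ^ 2) +
      ζ ^ 2 * (-(2 / 5) * u ^ 2 - (2 / 5) * u * v + (2 / 5) * v ^ 2) +
      (-(1 / 5) * u ^ 2 - (1 / 5) * u * v + (1 / 5) * v ^ 2)

theorem act_kleinTu_pow5 (ζ u v : K) (hζ : ζ ^ 4 + ζ ^ 3 + ζ ^ 2 + ζ + 1 = 0) :
    kleinTu ζ u v ^ 5 = act_kleinP ζ u v := by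
  have hR := act_kleinR_ne_zero ζ hζ
  unfold kleinTu
  rw [div_pow, div_eq_iff (pow_ne_zero 5 hR)]
  unfold act_kleinP kleinA kleinB kleinR
  linear_combination
    (ζ ^ 19 * ((1 / 25) * u ^ 5 - (2 / 5) * u ^ 4 * v - (2 / 5) * u ^ 3 * v ^ 2 - (6 / 5) * u ^ 2 * v ^ 3 - (4 / 5) * u * v ^ 4 - (7 / 25) * v ^ 5) +
      ζ ^ 18 * ((1 / 25) * u ^ 5 + (8 / 5) * u ^ 4 * v + (18 / 5) * u ^ 3 * v ^ 2 + (34 / 5) * u ^ 2 * v ^ 3 + (26 / 5) * u * v ^ 4 + (43 / 25) * v ^ 5) +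
      ζ ^ 17 * (-(24 / 25) * u ^ 5 - (2 / 5) * u ^ 4 * v - (52 / 5) * u ^ 3 * v ^ 2 - (56 / 5) * u ^ 2 * v ^ 3 - (54 / 5) * u * v ^ 4 - (82 / 25) * v ^ 5) +
      ζ ^ 16 * ((61 / 25) * u ^ 5 - (27 / 5) * u ^ 4 * v + (18 / 5) * u ^ 3 * v ^ 2 - (36 / 5) * u ^ 2 * v ^ 3 - (9 / 5) * u * v ^ 4 - (27 / 25) * v ^ 5) +
      ζ ^ 15 * ((51 / 25) * u ^ 5 - (7 / 5) * u ^ 4 * v + (188 / 5) * u ^ 3 * v ^ 2 + (224 / 5) * u ^ 2 * v ^ 3 + (206 / 5) * u * v ^ 4 + (318 / 25) * v ^ 5) +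
      ζ ^ 14 * (-(39 / 5) * u ^ 5 + 18 * u ^ 4 * v - 52 * u ^ 3 * v ^ 2 - 46 * u ^ 2 * v ^ 3 - 54 * u * v ^ 4 - (77 / 5) * v ^ 5) +
      ζ ^ 13 * (-(36 / 5) * u ^ 5 - 3 * u ^ 4 * v - 48 * u ^ 3 * v ^ 2 - 24 * u ^ 2 * v ^ 3 - 16 * u * v ^ 4 - (23 / 5) * v ^ 5) +
      ζ ^ 12 * (21 * u ^ 5 + 150 * u ^ 3 * v ^ 2 + 120 * u ^ 2 * v ^ 3 + 105 * u * v ^ 4 + 28 * v ^ 5) +
      ζ ^ 11 * (-(9 / 5) * u ^ 5 - 57 * u ^ 4 * v - 102 * u ^ 3 * v ^ 2 - 156 * u ^ 2 * v ^ 3 - 104 * u * v ^ 4 - (132 / 5) * v ^ 5) +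
      ζ ^ 10 * (-(41 / 5) * u ^ 5 + 67 * u ^ 4 * v + 22 * u ^ 3 * v ^ 2 + 96 * u ^ 2 * v ^ 3 + 34 * u * v ^ 4 + (32 / 5) * v ^ 5) +
      ζ ^ 9 * (-(181 / 25) * u ^ 5 - (38 / 5) * u ^ 4 * v - (138 / 5) * u ^ 3 * v ^ 2 - (64 / 5) * u ^ 2 * v ^ 3 + (49 / 5) * u * v ^ 4 + (142 / 25) * v ^ 5) +
      ζ ^ 8 * ((204 / 25) * u ^ 5 - (43 / 5) * u ^ 4 * v + (172 / 5) * u ^ 3 * v ^ 2 - (64 / 5) * u ^ 2 * v ^ 3 - (46 / 5) * u * v ^ 4 - (103 / 25) * v ^ 5) +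
      ζ ^ 7 * (-(1 / 25) * u ^ 5 - (48 / 5) * u ^ 4 * v - (48 / 5) * u ^ 3 * v ^ 2 + (6 / 5) * u ^ 2 * v ^ 3 + (4 / 5) * u * v ^ 4 + (7 / 25) * v ^ 5) +
      ζ ^ 6 * ((9 / 25) * u ^ 5 + (37 / 5) * u ^ 4 * v - (8 / 5) * u ^ 3 * v ^ 2 + (16 / 5) * u ^ 2 * v ^ 3 + (4 / 5) * u * v ^ 4 + (12 / 25) * v ^ 5) +
      ζ ^ 5 * (-(21 / 25) * u ^ 5 - (3 / 5) * u ^ 4 * v + (2 / 5) * u ^ 3 * v ^ 2 - (4 / 5) * u ^ 2 * v ^ 3 - (1 / 5) * u * v ^ 4 - (3 / 25) * v ^ 5)) * hζ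

theorem act_kleinTv_pow5 (ζ u v : K) (hζ : ζ ^ 4 + ζ ^ 3 + ζ ^ 2 + ζ + 1 = 0) :
    kleinTv ζ u v ^ 5 = act_kleinQ ζ u v := by
  have hR := act_kleinR_ne_zero ζ hζ
  unfold kleinTv
  rw [div_pow, div_eq_iff (pow_ne_zero 5 hR)]
  unfold act_kleinQ kleinA kleinB kleinR
  linear_combination
    (ζ ^ 19 * (-(7 / 25) * u ^ 5 + (4 / 5) * u ^ 4 * v - (6 / 5) * u ^ 3 * v ^ 2 + (2 / 5) * u ^ 2 * v ^ 3 - (2 / 5) * u * v ^ 4 - (1 / 25) * v ^ 5) +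
      ζ ^ 18 * ((43 / 25) * u ^ 5 - (26 / 5) * u ^ 4 * v + (34 / 5) * u ^ 3 * v ^ 2 - (18 / 5) * u ^ 2 * v ^ 3 + (8 / 5) * u * v ^ 4 - (1 / 25) * v ^ 5) +
      ζ ^ 17 * (-(82 / 25) * u ^ 5 + (54 / 5) * u ^ 4 * v - (56 / 5) * u ^ 3 * v ^ 2 + (52 / 5) * u ^ 2 * v ^ 3 - (2 / 5) * u * v ^ 4 + (24 / 25) * v ^ 5) +
      ζ ^ 16 * (-(27 / 25) * u ^ 5 + (9 / 5) * u ^ 4 * v - (36 / 5) * u ^ 3 * v ^ 2 - (18 / 5) * u ^ 2 * v ^ 3 - (27 / 5) * u * v ^ 4 - (61 / 25) * v ^ 5) +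
      ζ ^ 15 * ((318 / 25) * u ^ 5 - (206 / 5) * u ^ 4 * v + (224 / 5) * u ^ 3 * v ^ 2 - (188 / 5) * u ^ 2 * v ^ 3 - (7 / 5) * u * v ^ 4 - (51 / 25) * v ^ 5) +
      ζ ^ 14 * (-(77 / 5) * u ^ 5 + 54 * u ^ 4 * v - 46 * u ^ 3 * v ^ 2 + 52 * u ^ 2 * v ^ 3 + 18 * u * v ^ 4 + (39 / 5) * v ^ 5) +
      ζ ^ 13 * (-(23 / 5) * u ^ 5 + 16 * u ^ 4 * v - 24 * u ^ 3 * v ^ 2 + 48 * u ^ 2 * v ^ 3 - 3 * u * v ^ 4 + (36 / 5) * v ^ 5) +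
      ζ ^ 12 * (28 * u ^ 5 - 105 * u ^ 4 * v + 120 * u ^ 3 * v ^ 2 - 150 * u ^ 2 * v ^ 3 - 21 * v ^ 5) +
      ζ ^ 11 * (-(132 / 5) * u ^ 5 + 104 * u ^ 4 * v - 156 * u ^ 3 * v ^ 2 + 102 * u ^ 2 * v ^ 3 - 57 * u * v ^ 4 + (9 / 5) * v ^ 5) +
      ζ ^ 10 * ((32 / 5) * u ^ 5 - 34 * u ^ 4 * v + 96 * u ^ 3 * v ^ 2 - 22 * u ^ 2 * v ^ 3 + 67 * u * v ^ 4 + (41 / 5) * v ^ 5) +
      ζ ^ 9 * ((142 / 25) * u ^ 5 - (49 / 5) * u ^ 4 * v - (64 / 5) * u ^ 3 * v ^ 2 + (138 / 5) * u ^ 2 * v ^ 3 - (38 / 5) * u * v ^ 4 + (181 / 25) * v ^ 5) +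
      ζ ^ 8 * (-(103 / 25) * u ^ 5 + (46 / 5) * u ^ 4 * v - (64 / 5) * u ^ 3 * v ^ 2 - (172 / 5) * u ^ 2 * v ^ 3 - (43 / 5) * u * v ^ 4 - (204 / 25) * v ^ 5) +
      ζ ^ 7 * ((7 / 25) * u ^ 5 - (4 / 5) * u ^ 4 * v + (6 / 5) * u ^ 3 * v ^ 2 + (48 / 5) * u ^ 2 * v ^ 3 - (48 / 5) * u * v ^ 4 + (1 / 25) * v ^ 5) +
      ζ ^ 6 * ((12 / 25) * u ^ 5 - (4 / 5) * u ^ 4 * v + (16 / 5) * u ^ 3 * v ^ 2 + (8 / 5) * u ^ 2 * v ^ 3 + (37 / 5) * u * v ^ 4 - (9 / 25) * v ^ 5) +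
      ζ ^ 5 * (-(3 / 25) * u ^ 5 + (1 / 5) * u ^ 4 * v - (4 / 5) * u ^ 3 * v ^ 2 - (2 / 5) * u ^ 2 * v ^ 3 - (3 / 5) * u * v ^ 4 + (21 / 25) * v ^ 5)) * hζ

theorem act_kleinTu_mul_kleinTv (ζ u v : K) (hζ : ζ ^ 4 + ζ ^ 3 + ζ ^ 2 + ζ + 1 = 0) :
    kleinTu ζ u v * kleinTv ζ u v = act_kleinD ζ u v := by
  have hR := act_kleinR_ne_zero ζ hζ
  unfold kleinTu kleinTv
  rw [div_mul_div_comm, div_eq_iff (mul_ne_zero hR hR)]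
  unfold act_kleinD kleinA kleinB kleinR
  linear_combination
    (ζ ^ 7 * ((2 / 5) * u ^ 2 + (2 / 5) * u * v - (2 / 5) * v ^ 2) +
      ζ ^ 6 * (-(4 / 5) * u ^ 2 - (4 / 5) * u * v + (4 / 5) * v ^ 2) +
      ζ ^ 5 * (-(4 / 5) * u ^ 2 - (4 / 5) * u * v + (4 / 5) * v ^ 2) +
      ζ ^ 4 * ((13 / 5) * u ^ 2 + (8 / 5) * u * v - (13 / 5) * v ^ 2) +
      ζ ^ 3 * (-(8 / 5) * u ^ 2 + (2 / 5) * u * v + (8 / 5) * v ^ 2) +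
      ζ ^ 2 * ((1 / 5) * u ^ 2 - (4 / 5) * u * v - (1 / 5) * v ^ 2)) * hζ

/-- `Tm ∘ Tm = −1`, first coordinate. -/
theorem act_kleinTu_Tm (ζ u v : K) (hζ : ζ ^ 4 + ζ ^ 3 + ζ ^ 2 + ζ + 1 = 0) :
    kleinTu ζ (kleinTu ζ u v) (kleinTv ζ u v) = -u := by
  have hR := act_kleinR_ne_zero ζ hζ
  have e : kleinTu ζ (kleinTu ζ u v) (kleinTv ζ u v) =
      (-(kleinA ζ) * (-(kleinA ζ) * u + kleinB ζ * v) +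
        kleinB ζ * (kleinB ζ * u + kleinA ζ * v)) / (kleinR ζ * kleinR ζ) := by
    unfold kleinTu kleinTv
    field_simp
  rw [e, div_eq_iff (mul_ne_zero hR hR)]
  unfold kleinA kleinB kleinR
  linear_combination
    (ζ ^ 4 * (2 * u) +
      ζ ^ 3 * (-4 * u) +
      ζ ^ 2 * (2 * u)) * hζ

/-- `Tm ∘ Tm = −1`, second coordinate. -/
theorem act_kleinTv_Tm (ζ u v : K) (hζ : ζ ^ 4 + ζ ^ 3 + ζ ^ 2 + ζ + 1 = 0) :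
    kleinTv ζ (kleinTu ζ u v) (kleinTv ζ u v) = -v := by
  have hR := act_kleinR_ne_zero ζ hζ
  have e : kleinTv ζ (kleinTu ζ u v) (kleinTv ζ u v) =
      (kleinB ζ * (-(kleinA ζ) * u + kleinB ζ * v) +
        kleinA ζ * (kleinB ζ * u + kleinA ζ * v)) / (kleinR ζ * kleinR ζ) := by
    unfold kleinTu kleinTv
    field_simp
  rw [e, div_eq_iff (mul_ne_zero hR hR)]
  unfold kleinA kleinB kleinR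
  linear_combination
    (ζ ^ 4 * (2 * v) +
      ζ ^ 3 * (-4 * v) +
      ζ ^ 2 * (2 * v)) * hζ

omit [CharZero K] in
theorem act_kleinXs_neg (ζ u v : K) : kleinXs ζ (-u) (-v) = kleinXs ζ u v := by
  unfold kleinXs
  ring

omit [CharZero K] in
theorem act_kleinYs_neg (ζ u v : K) : kleinYs ζ (-u) (-v) = -kleinYs ζ u v := by
  unfold kleinYs
  ring


end Fermat.Agent.S52x
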