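/-
S52x — helper5 — `X_s ∘ Tm = X_t`, `Y_s ∘ Tm = Y_t`, `X_t ∘ Tm = X_s`, `Y_t ∘ Tm = −Y_s`.
-/
import Mathlib
import Fermat.Agent.S52x.KALG_helper4_Defs
import Fermat.Agent.S52x.KPTS_helper5_Tm0

set_option autoImplicit false

namespace Fermat.Agent.S52x

variable {K : Type*} [Field K] [CharZero K]

/-- `X_s ∘ Tm = X_t`. -/
theorem act_kleinXs_Tm (ζ u v : K) (hζ : ζ ^ 4 + ζ ^ 3 + ζ ^ 2 + ζ + 1 = 0) :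
    kleinXs ζ (kleinTu ζ u v) (kleinTv ζ u v) = kleinXt u v := by
  have hp := act_kleinTu_pow5 ζ u v hζ
  have hq := act_kleinTv_pow5 ζ u v hζ
  have e : kleinXs ζ (kleinTu ζ u v) (kleinTv ζ u v) =
      ((-75 + 18 * kleinR ζ) * act_kleinP ζ u v ^ 2 +
        198 * kleinR ζ * act_kleinP ζ u v * act_kleinQ ζ u v +
        (-75 - 18 * kleinR ζ) * act_kleinQ ζ u v ^ 2) / 5 := by
    unfold kleinXs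
    rw [← hp, ← hq]
    ring
  rw [e]
  unfold act_kleinP act_kleinQ kleinXt kleinR
  linear_combination
    (ζ ^ 6 * (-(18 / 25) * u ^ 10 + (36 / 5) * u ^ 9 * v - (72 / 5) * u ^ 8 * v ^ 2 + (144 / 5) * u ^ 7 * v ^ 3 - (108 / 5) * u ^ 6 * v ^ 4 + (1152 / 25) * u ^ 5 * v ^ 5 + (108 / 5) * u ^ 4 * v ^ 6 + (144 / 5) * u ^ 3 * v ^ 7 + (72 / 5) * u ^ 2 * v ^ 8 + (36 / 5) * u * v ^ 9 + (18 / 25) * v ^ 10) +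
      ζ ^ 5 * (-(36 / 25) * u ^ 10 - (72 / 5) * u ^ 8 * v ^ 2 + (144 / 5) * u ^ 7 * v ^ 3 + (504 / 25) * u ^ 5 * v ^ 5 + (144 / 5) * u ^ 3 * v ^ 7 + (72 / 5) * u ^ 2 * v ^ 8 + (36 / 25) * v ^ 10) +
      ζ ^ 4 * ((54 / 25) * u ^ 10 - (36 / 5) * u ^ 9 * v + (144 / 5) * u ^ 8 * v ^ 2 - (288 / 5) * u ^ 7 * v ^ 3 + (108 / 5) * u ^ 6 * v ^ 4 - (1656 / 25) * u ^ 5 * v ^ 5 - (108 / 5) * u ^ 4 * v ^ 6 - (288 / 5) * u ^ 3 * v ^ 7 - (144 / 5) * u ^ 2 * v ^ 8 - (36 / 5) * u * v ^ 9 - (54 / 25) * v ^ 10) +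
      ζ ^ 3 * ((54 / 25) * u ^ 10 - (72 / 5) * u ^ 9 * v + 36 * u ^ 8 * v ^ 2 - 72 * u ^ 7 * v ^ 3 + (216 / 5) * u ^ 6 * v ^ 4 - (2556 / 25) * u ^ 5 * v ^ 5 - (216 / 5) * u ^ 4 * v ^ 6 - 72 * u ^ 3 * v ^ 7 - 36 * u ^ 2 * v ^ 8 - (72 / 5) * u * v ^ 9 - (54 / 25) * v ^ 10) +
      ζ ^ 2 * (-(66 / 25) * u ^ 10 + (72 / 5) * u ^ 9 * v - (216 / 5) * u ^ 8 * v ^ 2 + 72 * u ^ 7 * v ^ 3 - 72 * u ^ 6 * v ^ 4 + (1404 / 25) * u ^ 5 * v ^ 5 - (144 / 5) * u ^ 4 * v ^ 6 + (72 / 5) * u ^ 3 * v ^ 7 + (6 / 25) * v ^ 10) +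
      ζ * ((12 / 25) * u ^ 10 + (72 / 5) * u ^ 9 * v - (36 / 5) * u ^ 8 * v ^ 2 + (144 / 5) * u ^ 7 * v ^ 3 - (72 / 5) * u ^ 6 * v ^ 4 + (2952 / 25) * u ^ 5 * v ^ 5 + (576 / 5) * u ^ 4 * v ^ 6 + (432 / 5) * u ^ 3 * v ^ 7 + (252 / 5) * u ^ 2 * v ^ 8 + (144 / 5) * u * v ^ 9 + (48 / 25) * v ^ 10) +
      (-(18 / 5) * u ^ 10 + (18 / 5) * u ^ 9 * v - (234 / 5) * u ^ 8 * v ^ 2 + (252 / 5) * u ^ 7 * v ^ 3 - (486 / 5) * u ^ 6 * v ^ 4 - 90 * u ^ 5 * v ^ 5 - (1026 / 5) * u ^ 4 * v ^ 6 - (612 / 5) * u ^ 3 * v ^ 7 - (414 / 5) * u ^ 2 * v ^ 8 - (198 / 5) * u * v ^ 9 - (18 / 5) * v ^ 10)) * hζ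

/-- `Y_s ∘ Tm = Y_t`. -/
theorem act_kleinYs_Tm (ζ u v : K) (hζ : ζ ^ 4 + ζ ^ 3 + ζ ^ 2 + ζ + 1 = 0) :
    kleinYs ζ (kleinTu ζ u v) (kleinTv ζ u v) = kleinYt u v := by
  have hp := act_kleinTu_pow5 ζ u v hζ
  have hq := act_kleinTv_pow5 ζ u v hζ
  have e : kleinYs ζ (kleinTu ζ u v) (kleinTv ζ u v) =
      108 / 5 * ((kleinA ζ - 2 * kleinB ζ) * act_kleinP ζ u v ^ 3 +
        (9 * kleinA ζ - 23 * kleinB ζ) * act_kleinP ζ u v ^ 2 * act_kleinQ ζ u v -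
        (23 * kleinA ζ + 9 * kleinB ζ) * act_kleinP ζ u v * act_kleinQ ζ u v ^ 2 +
        (2 * kleinA ζ + kleinB ζ) * act_kleinQ ζ u v ^ 3) := by
    unfold kleinYs
    rw [← hp, ← hq]
    ring
  rw [e]
  unfold act_kleinP act_kleinQ kleinYt kleinA kleinB
  linear_combination
    (ζ ^ 9 * (-(324 / 125) * u ^ 15 + (864 / 25) * u ^ 14 * v - (3672 / 25) * u ^ 13 * v ^ 2 + (9288 / 25) * u ^ 12 * v ^ 3 - (17064 / 25) * u ^ 11 * v ^ 4 + (118044 / 125) * u ^ 10 * v ^ 5 - (27216 / 25) * u ^ 9 * v ^ 6 + (16848 / 25) * u ^ 8 * v ^ 7 - (15552 / 25) * u ^ 7 * v ^ 8 - (864 / 25) * u ^ 6 * v ^ 9 - (38988 / 125) * u ^ 5 * v ^ 10 - (3024 / 25) * u ^ 4 * v ^ 11 - (2808 / 25) * u ^ 3 * v ^ 12 - (648 / 25) * u ^ 2 * v ^ 13 - (216 / 25) * u * v ^ 14 - (108 / 125) * v ^ 15) +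
      ζ ^ 8 * (-(1188 / 125) * u ^ 15 + (1728 / 25) * u ^ 14 * v - (6696 / 25) * u ^ 13 * v ^ 2 + (22248 / 25) * u ^ 12 * v ^ 3 - (36072 / 25) * u ^ 11 * v ^ 4 + (270108 / 125) * u ^ 10 * v ^ 5 - (43632 / 25) * u ^ 9 * v ^ 6 + (57024 / 25) * u ^ 8 * v ^ 7 + (3888 / 25) * u ^ 7 * v ^ 8 + (57888 / 25) * u ^ 6 * v ^ 9 + (173124 / 125) * u ^ 5 * v ^ 10 + (26352 / 25) * u ^ 4 * v ^ 11 + (15336 / 25) * u ^ 3 * v ^ 12 + (5832 / 25) * u ^ 2 * v ^ 13 + (1512 / 25) * u * v ^ 14 + (324 / 125) * v ^ 15) +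
      ζ ^ 7 * (-(972 / 125) * u ^ 15 + (1296 / 25) * u ^ 14 * v - (6696 / 25) * u ^ 13 * v ^ 2 + (15768 / 25) * u ^ 12 * v ^ 3 - (32616 / 25) * u ^ 11 * v ^ 4 + (243972 / 125) * u ^ 10 * v ^ 5 - (20304 / 25) * u ^ 9 * v ^ 6 + (76464 / 25) * u ^ 8 * v ^ 7 + (36288 / 25) * u ^ 7 * v ^ 8 + (82944 / 25) * u ^ 6 * v ^ 9 + (345276 / 125) * u ^ 5 * v ^ 10 + (57024 / 25) * u ^ 4 * v ^ 11 + (30456 / 25) * u ^ 3 * v ^ 12 + (10152 / 25) * u ^ 2 * v ^ 13 + (2376 / 25) * u * v ^ 14 + (1836 / 125) * v ^ 15) +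
      ζ ^ 6 * (-(216 / 125) * u ^ 15 - (324 / 25) * u ^ 14 * v + (2376 / 25) * u ^ 13 * v ^ 2 - (432 / 25) * u ^ 12 * v ^ 3 + (8532 / 25) * u ^ 11 * v ^ 4 - (3564 / 125) * u ^ 10 * v ^ 5 + (30456 / 25) * u ^ 9 * v ^ 6 + (33696 / 25) * u ^ 8 * v ^ 7 + (75168 / 25) * u ^ 7 * v ^ 8 + (98712 / 25) * u ^ 6 * v ^ 9 + (459648 / 125) * u ^ 5 * v ^ 10 + (61884 / 25) * u ^ 4 * v ^ 11 + (36504 / 25) * u ^ 3 * v ^ 12 + (13392 / 25) * u ^ 2 * v ^ 13 + (3348 / 25) * u * v ^ 14 + (1188 / 125) * v ^ 15) +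
      ζ ^ 5 * (-(648 / 25) * u ^ 14 * v - (8208 / 25) * u ^ 12 * v ^ 3 + (648 / 25) * u ^ 11 * v ^ 4 - (11016 / 25) * u ^ 10 * v ^ 5 + (19872 / 25) * u ^ 9 * v ^ 6 - (3888 / 25) * u ^ 7 * v ^ 8 - (19872 / 25) * u ^ 6 * v ^ 9 - (7776 / 25) * u ^ 5 * v ^ 10 + (648 / 25) * u ^ 4 * v ^ 11 - (2592 / 25) * u ^ 2 * v ^ 13 - (648 / 25) * u * v ^ 14 + (216 / 25) * v ^ 15) +
      ζ ^ 4 * ((324 / 125) * u ^ 15 + (108 / 25) * u ^ 14 * v + (432 / 25) * u ^ 13 * v ^ 2 - (216 / 25) * u ^ 12 * v ^ 3 + (3132 / 25) * u ^ 11 * v ^ 4 - (35424 / 125) * u ^ 10 * v ^ 5 - (18792 / 25) * u ^ 9 * v ^ 6 - (36288 / 25) * u ^ 8 * v ^ 7 - (46656 / 25) * u ^ 7 * v ^ 8 - (63288 / 25) * u ^ 6 * v ^ 9 - (307692 / 125) * u ^ 5 * v ^ 10 - (46548 / 25) * u ^ 4 * v ^ 11 - (26352 / 25) * u ^ 3 * v ^ 12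 - (8424 / 25) * u ^ 2 * v ^ 13 - (2052 / 25) * u * v ^ 14 - (1512 / 125) * v ^ 15) +
      ζ ^ 3 * ((1188 / 125) * u ^ 15 - (1296 / 25) * u ^ 14 * v + (6156 / 25) * u ^ 13 * v ^ 2 - (17496 / 25) * u ^ 12 * v ^ 3 + 1296 * u ^ 11 * v ^ 4 - (254988 / 125) * u ^ 10 * v ^ 5 + (15984 / 25) * u ^ 9 * v ^ 6 - (84564 / 25) * u ^ 8 * v ^ 7 - (51516 / 25) * u ^ 7 * v ^ 8 - (21816 / 5) * u ^ 6 * v ^ 9 - (452304 / 125) * u ^ 5 * v ^ 10 - (69984 / 25) * u ^ 4 * v ^ 11 - (39096 / 25) * u ^ 3 * v ^ 12 - (13284 / 25) * u ^ 2 * v ^ 13 - (648 / 5) * u * v ^ 14 - (1944 / 125) * v ^ 15) +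
      ζ ^ 2 * ((972 / 125) * u ^ 15 - (1404 / 25) * u ^ 14 * v + (6156 / 25) * u ^ 13 * v ^ 2 - (17496 / 25) * u ^ 12 * v ^ 3 + (31644 / 25) * u ^ 11 * v ^ 4 - (231552 / 125) * u ^ 10 * v ^ 5 + (32616 / 25) * u ^ 9 * v ^ 6 - (55404 / 25) * u ^ 8 * v ^ 7 - (9396 / 25) * u ^ 7 * v ^ 8 - (53136 / 25) * u ^ 6 * v ^ 9 - (181656 / 125) * u ^ 5 * v ^ 10 - (29916 / 25) * u ^ 4 * v ^ 11 - (16416 / 25) * u ^ 3 * v ^ 12 - (5724 / 25) * u ^ 2 * v ^ 13 - (1404 / 25) * u * v ^ 14 - (756 / 125) * v ^ 15) +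
      ζ * ((216 / 125) * u ^ 15 - (324 / 25) * u ^ 14 * v + (4104 / 25) * u ^ 13 * v ^ 2 - (1296 / 25) * u ^ 12 * v ^ 3 + (18036 / 25) * u ^ 11 * v ^ 4 - (51516 / 125) * u ^ 10 * v ^ 5 + (21816 / 25) * u ^ 9 * v ^ 6 + (5184 / 25) * u ^ 8 * v ^ 7 + (57024 / 25) * u ^ 7 * v ^ 8 + (69336 / 25) * u ^ 6 * v ^ 9 + (311472 / 125) * u ^ 5 * v ^ 10 + (35964 / 25) * u ^ 4 * v ^ 11 + (21816 / 25) * u ^ 3 * v ^ 12 + (9936 / 25) * u ^ 2 * v ^ 13 + (2484 / 25) * u * v ^ 14 - (108 / 125) * v ^ 15) +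
      (-108 * u ^ 13 * v ^ 2 - 108 * u ^ 12 * v ^ 3 - 432 * u ^ 11 * v ^ 4 - 540 * u ^ 9 * v ^ 6 - 648 * u ^ 8 * v ^ 7 - 2268 * u ^ 7 * v ^ 8 - 3132 * u ^ 6 * v ^ 9 - 2700 * u ^ 5 * v ^ 10 - 1620 * u ^ 4 * v ^ 11 - 972 * u ^ 3 * v ^ 12 - 432 * u ^ 2 * v ^ 13 - 108 * u * v ^ 14)) * hζ

/-- `X_t ∘ Tm = X_s`. -/
theorem act_kleinXt_Tm (ζ u v : K) (hζ : ζ ^ 4 + ζ ^ 3 + ζ ^ 2 + ζ + 1 = 0) :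
    kleinXt (kleinTu ζ u v) (kleinTv ζ u v) = kleinXs ζ u v := by
  rw [← act_kleinXs_Tm ζ (kleinTu ζ u v) (kleinTv ζ u v) hζ, act_kleinTu_Tm ζ u v hζ,
    act_kleinTv_Tm ζ u v hζ, act_kleinXs_neg]

/-- `Y_t ∘ Tm = −Y_s`. -/
theorem act_kleinYt_Tm (ζ u v : K) (hζ : ζ ^ 4 + ζ ^ 3 + ζ ^ 2 + ζ + 1 = 0) :
    kleinYt (kleinTu ζ u v) (kleinTv ζ u v) = -kleinYs ζ u v := by
  rw [← act_kleinYs_Tm ζ (kleinTu ζ u v) (kleinTv ζ u v) hζ, act_kleinTu_Tm ζ u v hζ,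
    act_kleinTv_Tm ζ u v hζ, act_kleinYs_neg]


end Fermat.Agent.S52x
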