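/-
S52x — helper5 — `f ∘ Tm = f`.
-/
import Mathlib
import Fermat.Agent.S52x.KALG_helper4_Defs
import Fermat.Agent.S52x.KPTS_helper5_Tm0
import Fermat.Agent.S52x.KPTS_helper5_TmX

set_option autoImplicit false

namespace Fermat.Agent.S52x

variable {K : Type*} [Field K] [CharZero K]

/-- `f ∘ Tm = f`. -/
theorem act_kleinF_Tm (ζ u v : K) (hζ : ζ ^ 4 + ζ ^ 3 + ζ ^ 2 + ζ + 1 = 0) :
    kleinF (kleinTu ζ u v) (kleinTv ζ u v) = kleinF u v := by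
  have hp := act_kleinTu_pow5 ζ u v hζ
  have hq := act_kleinTv_pow5 ζ u v hζ
  have hd := act_kleinTu_mul_kleinTv ζ u v hζ
  have e : kleinF (kleinTu ζ u v) (kleinTv ζ u v) =
      act_kleinD ζ u v * (act_kleinP ζ u v ^ 2 + 11 * act_kleinP ζ u v * act_kleinQ ζ u v -
        act_kleinQ ζ u v ^ 2) := by
    unfold kleinF
    rw [← hp, ← hq, ← hd]
    ring
  rw [e]
  unfold act_kleinP act_kleinQ act_kleinD kleinF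
  linear_combination
    (ζ ^ 5 * ((2 / 25) * u ^ 12 - (18 / 25) * u ^ 11 * v + (18 / 25) * u ^ 10 * v ^ 2 - (4 / 5) * u ^ 9 * v ^ 3 - (12 / 5) * u ^ 8 * v ^ 4 + (12 / 25) * u ^ 7 * v ^ 5 - (248 / 25) * u ^ 6 * v ^ 6 - (12 / 25) * u ^ 5 * v ^ 7 - (12 / 5) * u ^ 4 * v ^ 8 + (4 / 5) * u ^ 3 * v ^ 9 + (18 / 25) * u ^ 2 * v ^ 10 + (18 / 25) * u * v ^ 11 + (2 / 25) * v ^ 12) +
      ζ ^ 4 * ((8 / 25) * u ^ 12 - (32 / 25) * u ^ 11 * v + (72 / 25) * u ^ 10 * v ^ 2 - (16 / 5) * u ^ 9 * v ^ 3 - (48 / 5) * u ^ 8 * v ^ 4 + (48 / 25) * u ^ 7 * v ^ 5 - (552 / 25) * u ^ 6 * v ^ 6 - (48 / 25) * u ^ 5 * v ^ 7 - (48 / 5) * u ^ 4 * v ^ 8 + (16 / 5) * u ^ 3 * v ^ 9 + (72 / 25) * u ^ 2 * v ^ 10 + (32 / 25) * u * v ^ 11 + (8 / 25) * v ^ 12) +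
      ζ ^ 3 * ((8 / 25) * u ^ 12 - (32 / 25) * u ^ 11 * v + (72 / 25) * u ^ 10 * v ^ 2 - (16 / 5) * u ^ 9 * v ^ 3 - (48 / 5) * u ^ 8 * v ^ 4 + (48 / 25) * u ^ 7 * v ^ 5 - (552 / 25) * u ^ 6 * v ^ 6 - (48 / 25) * u ^ 5 * v ^ 7 - (48 / 5) * u ^ 4 * v ^ 8 + (16 / 5) * u ^ 3 * v ^ 9 + (72 / 25) * u ^ 2 * v ^ 10 + (32 / 25) * u * v ^ 11 + (8 / 25) * v ^ 12) +
      ζ ^ 2 * ((3 / 25) * u ^ 12 - (7 / 25) * u ^ 11 * v + (27 / 25) * u ^ 10 * v ^ 2 - (6 / 5) * u ^ 9 * v ^ 3 - (18 / 5) * u ^ 8 * v ^ 4 + (18 / 25) * u ^ 7 * v ^ 5 - (152 / 25) * u ^ 6 * v ^ 6 - (18 / 25) * u ^ 5 * v ^ 7 - (18 / 5) * u ^ 4 * v ^ 8 + (6 / 5) * u ^ 3 * v ^ 9 + (27 / 25) * u ^ 2 * v ^ 10 + (7 / 25) * u * v ^ 11 + (3 / 25) * v ^ 12) +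
      ζ * ((3 / 25) * u ^ 12 + (13 / 25) * u ^ 11 * v + (27 / 25) * u ^ 10 * v ^ 2 - (6 / 5) * u ^ 9 * v ^ 3 - (18 / 5) * u ^ 8 * v ^ 4 + (18 / 25) * u ^ 7 * v ^ 5 + (68 / 25) * u ^ 6 * v ^ 6 - (18 / 25) * u ^ 5 * v ^ 7 - (18 / 5) * u ^ 4 * v ^ 8 + (6 / 5) * u ^ 3 * v ^ 9 + (27 / 25) * u ^ 2 * v ^ 10 - (13 / 25) * u * v ^ 11 + (3 / 25) * v ^ 12) +
      ((1 / 25) * u ^ 12 - (29 / 25) * u ^ 11 * v + (9 / 25) * u ^ 10 * v ^ 2 - (2 / 5) * u ^ 9 * v ^ 3 - (6 / 5) * u ^ 8 * v ^ 4 + (6 / 25) * u ^ 7 * v ^ 5 - (344 / 25) * u ^ 6 * v ^ 6 - (6 / 25) * u ^ 5 * v ^ 7 - (6 / 5) * u ^ 4 * v ^ 8 + (2 / 5) * u ^ 3 * v ^ 9 + (9 / 25) * u ^ 2 * v ^ 10 + (29 / 25) * u * v ^ 11 + (1 / 25) * v ^ 12)) * hζ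


end Fermat.Agent.S52x
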