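/-
S52x — helper5 — further stages: `(Tm w)₁¹⁰`, `(Tm w)₁⁵ (Tm w)₂⁵`, `(Tm w)₂¹⁰`, `(Tm w)₁²⁰`, `(Tm w)₂²⁰` as explicit forms.
-/
import Mathlib
import Fermat.Agent.S52x.KALG_helper4_Defs
import Fermat.Agent.S52x.KPTS_helper5_Tm0
import Fermat.Agent.S52x.KPTS_helper5_TmF

set_option autoImplicit false

namespace Fermat.Agent.S52x

variable {K : Type*} [Field K] [CharZero K]

/-- `(Tm w)₁¹⁰` as an explicit form (reduced modulo `Φ₅`). -/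
def act_kleinP2 (ζ u v : K) : K :=
  ζ ^ 3 * ((11 / 125) * u ^ 10 - (14 / 25) * u ^ 9 * v + (36 / 25) * u ^ 8 * v ^ 2 - (72 / 25) * u ^ 7 * v ^ 3 + (42 / 25) * u ^ 6 * v ^ 4 - (504 / 125) * u ^ 5 * v ^ 5 - (42 / 25) * u ^ 4 * v ^ 6 - (72 / 25) * u ^ 3 * v ^ 7 - (36 / 25) * u ^ 2 * v ^ 8 - (14 / 25) * u * v ^ 9 - (11 / 125) * v ^ 10) +
      ζ ^ 2 * ((11 / 125) * u ^ 10 - (14 / 25) * u ^ 9 * v + (36 / 25) * u ^ 8 * v ^ 2 - (72 / 25) * u ^ 7 * v ^ 3 + (42 / 25) * u ^ 6 * v ^ 4 - (504 / 125) * u ^ 5 * v ^ 5 - (42 / 25) * u ^ 4 * v ^ 6 - (72 / 25) * u ^ 3 * v ^ 7 - (36 / 25) * u ^ 2 * v ^ 8 - (14 / 25) * u * v ^ 9 - (11 / 125) * v ^ 10) +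
      (-(7 / 125) * u ^ 10 + (8 / 25) * u ^ 9 * v - (27 / 25) * u ^ 8 * v ^ 2 + (24 / 25) * u ^ 7 * v ^ 3 - (84 / 25) * u ^ 6 * v ^ 4 - (252 / 125) * u ^ 5 * v ^ 5 - (126 / 25) * u ^ 4 * v ^ 6 - (96 / 25) * u ^ 3 * v ^ 7 - (63 / 25) * u ^ 2 * v ^ 8 - (22 / 25) * u * v ^ 9 - (18 / 125) * v ^ 10)

/-- `(Tm w)₁⁵ (Tm w)₂⁵` as an explicit form (reduced modulo `Φ₅`). -/
def act_kleinPQ (ζ u v : K) : K :=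
  ζ ^ 3 * (-(2 / 125) * u ^ 10 - (2 / 25) * u ^ 9 * v - (2 / 25) * u ^ 8 * v ^ 2 + (4 / 25) * u ^ 7 * v ^ 3 + (6 / 25) * u ^ 6 * v ^ 4 - (22 / 125) * u ^ 5 * v ^ 5 - (6 / 25) * u ^ 4 * v ^ 6 + (4 / 25) * u ^ 3 * v ^ 7 + (2 / 25) * u ^ 2 * v ^ 8 - (2 / 25) * u * v ^ 9 + (2 / 125) * v ^ 10) +
      ζ ^ 2 * (-(2 / 125) * u ^ 10 - (2 / 25) * u ^ 9 * v - (2 / 25) * u ^ 8 * v ^ 2 + (4 / 25) * u ^ 7 * v ^ 3 + (6 / 25) * u ^ 6 * v ^ 4 - (22 / 125) * u ^ 5 * v ^ 5 - (6 / 25) * u ^ 4 * v ^ 6 + (4 / 25) * u ^ 3 * v ^ 7 + (2 / 25) * u ^ 2 * v ^ 8 - (2 / 25) * u * v ^ 9 + (2 / 125) * v ^ 10) +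
      (-(1 / 125) * u ^ 10 - (1 / 25) * u ^ 9 * v - (1 / 25) * u ^ 8 * v ^ 2 + (2 / 25) * u ^ 7 * v ^ 3 + (3 / 25) * u ^ 6 * v ^ 4 - (11 / 125) * u ^ 5 * v ^ 5 - (3 / 25) * u ^ 4 * v ^ 6 + (2 / 25) * u ^ 3 * v ^ 7 + (1 / 25) * u ^ 2 * v ^ 8 - (1 / 25) * u * v ^ 9 + (1 / 125) * v ^ 10)

/-- `(Tm w)₂¹⁰` as an explicit form (reduced modulo `Φ₅`). -/
def act_kleinQ2 (ζ u v : K) : K :=
  ζ ^ 3 * (-(11 / 125) * u ^ 10 + (14 / 25) * u ^ 9 * v - (36 / 25) * u ^ 8 * v ^ 2 + (72 / 25) * u ^ 7 * v ^ 3 - (42 / 25) * u ^ 6 * v ^ 4 + (504 / 125) * u ^ 5 * v ^ 5 + (42 / 25) * u ^ 4 * v ^ 6 + (72 / 25) * u ^ 3 * v ^ 7 + (36 / 25) * u ^ 2 * v ^ 8 + (14 / 25) * u * v ^ 9 + (11 / 125) * v ^ 10) +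
      ζ ^ 2 * (-(11 / 125) * u ^ 10 + (14 / 25) * u ^ 9 * v - (36 / 25) * u ^ 8 * v ^ 2 + (72 / 25) * u ^ 7 * v ^ 3 - (42 / 25) * u ^ 6 * v ^ 4 + (504 / 125) * u ^ 5 * v ^ 5 + (42 / 25) * u ^ 4 * v ^ 6 + (72 / 25) * u ^ 3 * v ^ 7 + (36 / 25) * u ^ 2 * v ^ 8 + (14 / 25) * u * v ^ 9 + (11 / 125) * v ^ 10) +
      (-(18 / 125) * u ^ 10 + (22 / 25) * u ^ 9 * v - (63 / 25) * u ^ 8 * v ^ 2 + (96 / 25) * u ^ 7 * v ^ 3 - (126 / 25) * u ^ 6 * v ^ 4 + (252 / 125) * u ^ 5 * v ^ 5 - (84 / 25) * u ^ 4 * v ^ 6 - (24 / 25) * u ^ 3 * v ^ 7 - (27 / 25) * u ^ 2 * v ^ 8 - (8 / 25) * u * v ^ 9 - (7 / 125) * v ^ 10)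

/-- `(Tm w)₁²⁰` as an explicit form (reduced modulo `Φ₅`). -/
def act_kleinP4 (ζ u v : K) : K :=
  ζ ^ 3 * (-(11 / 625) * u ^ 20 + (136 / 625) * u ^ 19 * v - (798 / 625) * u ^ 18 * v ^ 2 + (2964 / 625) * u ^ 17 * v ^ 3 - (7752 / 625) * u ^ 16 * v ^ 4 + (15504 / 625) * u ^ 15 * v ^ 5 - (23256 / 625) * u ^ 14 * v ^ 6 + (31008 / 625) * u ^ 13 * v ^ 7 - (25194 / 625) * u ^ 12 * v ^ 8 + (33592 / 625) * u ^ 11 * v ^ 9 + (33592 / 625) * u ^ 9 * v ^ 11 + (25194 / 625) * u ^ 8 * v ^ 12 + (31008 / 625) * u ^ 7 * v ^ 13 + (23256 / 625) * u ^ 6 * v ^ 14 + (15504 / 625) * u ^ 5 * v ^ 15 + (7752 / 625) * u ^ 4 * v ^ 16 + (2964 / 625) * u ^ 3 * v ^ 17 + (798 / 625) * u ^ 2 * v ^ 18 + (136 / 625) * u * v ^ 19 + (11 / 625) * v ^ 20) +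
      ζ ^ 2 * (-(11 / 625) * u ^ 20 + (136 / 625) * u ^ 19 * v - (798 / 625) * u ^ 18 * v ^ 2 + (2964 / 625) * u ^ 17 * v ^ 3 - (7752 / 625) * u ^ 16 * v ^ 4 + (15504 / 625) * u ^ 15 * v ^ 5 - (23256 / 625) * u ^ 14 * v ^ 6 + (31008 / 625) * u ^ 13 * v ^ 7 - (25194 / 625) * u ^ 12 * v ^ 8 + (33592 / 625) * u ^ 11 * v ^ 9 + (33592 / 625) * u ^ 9 * v ^ 11 + (25194 / 625) * u ^ 8 * v ^ 12 + (31008 / 625) * u ^ 7 * v ^ 13 + (23256 / 625) * u ^ 6 * v ^ 14 + (15504 / 625) * u ^ 5 * v ^ 15 + (7752 / 625) * u ^ 4 * v ^ 16 + (2964 / 625) * u ^ 3 * v ^ 17 + (798 / 625) * u ^ 2 * v ^ 18 + (136 / 625) * u * v ^ 19 + (11 / 625) * v ^ 20) +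
      ((34 / 3125) * u ^ 20 - (84 / 625) * u ^ 19 * v + (494 / 625) * u ^ 18 * v ^ 2 - (1824 / 625) * u ^ 17 * v ^ 3 + (969 / 125) * u ^ 16 * v ^ 4 - (46512 / 3125) * u ^ 15 * v ^ 5 + (15504 / 625) * u ^ 14 * v ^ 6 - (15504 / 625) * u ^ 13 * v ^ 7 + (25194 / 625) * u ^ 12 * v ^ 8 + (184756 / 3125) * u ^ 10 * v ^ 10 + (33592 / 625) * u ^ 9 * v ^ 11 + (50388 / 625) * u ^ 8 * v ^ 12 + (46512 / 625) * u ^ 7 * v ^ 13 + (7752 / 125) * u ^ 6 * v ^ 14 + (124032 / 3125) * u ^ 5 * v ^ 15 + (12597 / 625) * u ^ 4 * v ^ 16 + (4788 / 625) * u ^ 3 * v ^ 17 + (1292 / 625) * u ^ 2 * v ^ 18 + (44 / 125) * u * v ^ 19 + (89 / 3125) * v ^ 20)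

/-- `(Tm w)₂²⁰` as an explicit form (reduced modulo `Φ₅`). -/
def act_kleinQ4 (ζ u v : K) : K :=
  ζ ^ 3 * ((11 / 625) * u ^ 20 - (136 / 625) * u ^ 19 * v + (798 / 625) * u ^ 18 * v ^ 2 - (2964 / 625) * u ^ 17 * v ^ 3 + (7752 / 625) * u ^ 16 * v ^ 4 - (15504 / 625) * u ^ 15 * v ^ 5 + (23256 / 625) * u ^ 14 * v ^ 6 - (31008 / 625) * u ^ 13 * v ^ 7 + (25194 / 625) * u ^ 12 * v ^ 8 - (33592 / 625) * u ^ 11 * v ^ 9 - (33592 / 625) * u ^ 9 * v ^ 11 - (25194 / 625) * u ^ 8 * v ^ 12 - (31008 / 625) * u ^ 7 * v ^ 13 - (23256 / 625) * u ^ 6 * v ^ 14 - (15504 / 625) * u ^ 5 * v ^ 15 - (7752 / 625) * u ^ 4 * v ^ 16 - (2964 / 625) * u ^ 3 * v ^ 17 - (798 / 625) * u ^ 2 * v ^ 18 - (136 / 625) * u * v ^ 19 - (11 / 625) * v ^ 20) +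
      ζ ^ 2 * ((11 / 625) * u ^ 20 - (136 / 625) * u ^ 19 * v + (798 / 625) * u ^ 18 * v ^ 2 - (2964 / 625) * u ^ 17 * v ^ 3 + (7752 / 625) * u ^ 16 * v ^ 4 - (15504 / 625) * u ^ 15 * v ^ 5 + (23256 / 625) * u ^ 14 * v ^ 6 - (31008 / 625) * u ^ 13 * v ^ 7 + (25194 / 625) * u ^ 12 * v ^ 8 - (33592 / 625) * u ^ 11 * v ^ 9 - (33592 / 625) * u ^ 9 * v ^ 11 - (25194 / 625) * u ^ 8 * v ^ 12 - (31008 / 625) * u ^ 7 * v ^ 13 - (23256 / 625) * u ^ 6 * v ^ 14 - (15504 / 625) * u ^ 5 * v ^ 15 - (7752 / 625) * u ^ 4 * v ^ 16 - (2964 / 625) * u ^ 3 * v ^ 17 - (798 / 625) * u ^ 2 * v ^ 18 - (136 / 625) * u * v ^ 19 - (11 / 625) * v ^ 20) +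
      ((89 / 3125) * u ^ 20 - (44 / 125) * u ^ 19 * v + (1292 / 625) * u ^ 18 * v ^ 2 - (4788 / 625) * u ^ 17 * v ^ 3 + (12597 / 625) * u ^ 16 * v ^ 4 - (124032 / 3125) * u ^ 15 * v ^ 5 + (7752 / 125) * u ^ 14 * v ^ 6 - (46512 / 625) * u ^ 13 * v ^ 7 + (50388 / 625) * u ^ 12 * v ^ 8 - (33592 / 625) * u ^ 11 * v ^ 9 + (184756 / 3125) * u ^ 10 * v ^ 10 + (25194 / 625) * u ^ 8 * v ^ 12 + (15504 / 625) * u ^ 7 * v ^ 13 + (15504 / 625) * u ^ 6 * v ^ 14 + (46512 / 3125) * u ^ 5 * v ^ 15 + (969 / 125) * u ^ 4 * v ^ 16 + (1824 / 625) * u ^ 3 * v ^ 17 + (494 / 625) * u ^ 2 * v ^ 18 + (84 / 625) * u * v ^ 19 + (34 / 3125) * v ^ 20)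

theorem act_kleinP_sq (ζ u v : K) (hζ : ζ ^ 4 + ζ ^ 3 + ζ ^ 2 + ζ + 1 = 0) :
    act_kleinP ζ u v ^ 2 = act_kleinP2 ζ u v := by
  unfold act_kleinP act_kleinP2
  linear_combination
    (ζ ^ 2 * ((1 / 625) * u ^ 10 - (4 / 125) * u ^ 9 * v + (16 / 125) * u ^ 8 * v ^ 2 + (28 / 125) * u ^ 7 * v ^ 3 + (132 / 125) * u ^ 6 * v ^ 4 + (986 / 625) * u ^ 5 * v ^ 5 + (288 / 125) * u ^ 4 * v ^ 6 + (268 / 125) * u ^ 3 * v ^ 7 + (164 / 125) * u ^ 2 * v ^ 8 + (56 / 125) * u * v ^ 9 + (49 / 625) * v ^ 10) +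
      ζ * ((13 / 625) * u ^ 10 - (32 / 125) * u ^ 9 * v + (48 / 125) * u ^ 8 * v ^ 2 - (156 / 125) * u ^ 7 * v ^ 3 - (24 / 125) * u ^ 6 * v ^ 4 - (2082 / 625) * u ^ 5 * v ^ 5 - (396 / 125) * u ^ 4 * v ^ 6 - (396 / 125) * u ^ 3 * v ^ 7 - (228 / 125) * u ^ 2 * v ^ 8 - (92 / 125) * u * v ^ 9 - (63 / 625) * v ^ 10) +
      ((51 / 625) * u ^ 10 - (64 / 125) * u ^ 9 * v + (196 / 125) * u ^ 8 * v ^ 2 - (212 / 125) * u ^ 7 * v ^ 3 + (552 / 125) * u ^ 6 * v ^ 4 + (986 / 625) * u ^ 5 * v ^ 5 + (708 / 125) * u ^ 4 * v ^ 6 + (508 / 125) * u ^ 3 * v ^ 7 + (344 / 125) * u ^ 2 * v ^ 8 + (116 / 125) * u * v ^ 9 + (99 / 625) * v ^ 10)) * hζ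

theorem act_kleinP_mul_kleinQ (ζ u v : K) (hζ : ζ ^ 4 + ζ ^ 3 + ζ ^ 2 + ζ + 1 = 0) :
    act_kleinP ζ u v * act_kleinQ ζ u v = act_kleinPQ ζ u v := by
  unfold act_kleinP act_kleinQ act_kleinPQ
  linear_combination
    (ζ ^ 2 * (-(7 / 625) * u ^ 10 + (18 / 125) * u ^ 9 * v - (32 / 125) * u ^ 8 * v ^ 2 + (64 / 125) * u ^ 7 * v ^ 3 - (54 / 125) * u ^ 6 * v ^ 4 + (548 / 625) * u ^ 5 * v ^ 5 + (54 / 125) * u ^ 4 * v ^ 6 + (64 / 125) * u ^ 3 * v ^ 7 + (32 / 125) * u ^ 2 * v ^ 8 + (18 / 125) * u * v ^ 9 + (7 / 625) * v ^ 10) +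
      ζ * (-(41 / 625) * u ^ 10 + (34 / 125) * u ^ 9 * v - (116 / 125) * u ^ 8 * v ^ 2 + (232 / 125) * u ^ 7 * v ^ 3 - (102 / 125) * u ^ 6 * v ^ 4 + (1424 / 625) * u ^ 5 * v ^ 5 + (102 / 125) * u ^ 4 * v ^ 6 + (232 / 125) * u ^ 3 * v ^ 7 + (116 / 125) * u ^ 2 * v ^ 8 + (34 / 125) * u * v ^ 9 + (41 / 625) * v ^ 10) +
      (-(7 / 625) * u ^ 10 + (18 / 125) * u ^ 9 * v - (32 / 125) * u ^ 8 * v ^ 2 + (64 / 125) * u ^ 7 * v ^ 3 - (54 / 125) * u ^ 6 * v ^ 4 + (548 / 625) * u ^ 5 * v ^ 5 + (54 / 125) * u ^ 4 * v ^ 6 + (64 / 125) * u ^ 3 * v ^ 7 + (32 / 125) * u ^ 2 * v ^ 8 + (18 / 125) * u * v ^ 9 + (7 / 625) * v ^ 10)) * hζ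

theorem act_kleinQ_sq (ζ u v : K) (hζ : ζ ^ 4 + ζ ^ 3 + ζ ^ 2 + ζ + 1 = 0) :
    act_kleinQ ζ u v ^ 2 = act_kleinQ2 ζ u v := by
  unfold act_kleinQ act_kleinQ2
  linear_combination
    (ζ ^ 2 * ((49 / 625) * u ^ 10 - (56 / 125) * u ^ 9 * v + (164 / 125) * u ^ 8 * v ^ 2 - (268 / 125) * u ^ 7 * v ^ 3 + (288 / 125) * u ^ 6 * v ^ 4 - (986 / 625) * u ^ 5 * v ^ 5 + (132 / 125) * u ^ 4 * v ^ 6 - (28 / 125) * u ^ 3 * v ^ 7 + (16 / 125) * u ^ 2 * v ^ 8 + (4 / 125) * u * v ^ 9 + (1 / 625) * v ^ 10) +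
      ζ * (-(63 / 625) * u ^ 10 + (92 / 125) * u ^ 9 * v - (228 / 125) * u ^ 8 * v ^ 2 + (396 / 125) * u ^ 7 * v ^ 3 - (396 / 125) * u ^ 6 * v ^ 4 + (2082 / 625) * u ^ 5 * v ^ 5 - (24 / 125) * u ^ 4 * v ^ 6 + (156 / 125) * u ^ 3 * v ^ 7 + (48 / 125) * u ^ 2 * v ^ 8 + (32 / 125) * u * v ^ 9 + (13 / 625) * v ^ 10) +
      ((99 / 625) * u ^ 10 - (116 / 125) * u ^ 9 * v + (344 / 125) * u ^ 8 * v ^ 2 - (508 / 125) * u ^ 7 * v ^ 3 + (708 / 125) * u ^ 6 * v ^ 4 - (986 / 625) * u ^ 5 * v ^ 5 + (552 / 125) * u ^ 4 * v ^ 6 + (212 / 125) * u ^ 3 * v ^ 7 + (196 / 125) * u ^ 2 * v ^ 8 + (64 / 125) * u * v ^ 9 + (51 / 625) * v ^ 10)) * hζ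

theorem act_kleinP2_sq (ζ u v : K) (hζ : ζ ^ 4 + ζ ^ 3 + ζ ^ 2 + ζ + 1 = 0) :
    act_kleinP2 ζ u v ^ 2 = act_kleinP4 ζ u v := by
  unfold act_kleinP2 act_kleinP4
  linear_combination
    (ζ ^ 2 * ((121 / 15625) * u ^ 20 - (308 / 3125) * u ^ 19 * v + (1772 / 3125) * u ^ 18 * v ^ 2 - (6624 / 3125) * u ^ 17 * v ^ 3 + (17484 / 3125) * u ^ 16 * v ^ 4 - (170088 / 15625) * u ^ 15 * v ^ 5 + (54228 / 3125) * u ^ 14 * v ^ 6 - (62232 / 3125) * u ^ 13 * v ^ 7 + (75564 / 3125) * u ^ 12 * v ^ 8 - (33284 / 3125) * u ^ 11 * v ^ 9 + (369774 / 15625) * u ^ 10 * v ^ 10 + (33284 / 3125) * u ^ 9 * v ^ 11 + (75564 / 3125) * u ^ 8 * v ^ 12 + (62232 / 3125) * u ^ 7 * v ^ 13 + (54228 / 3125) * u ^ 6 * v ^ 14 + (170088 / 15625) * u ^ 5 * v ^ 15 + (17484 / 3125) * u ^ 4 * v ^ 16 + (6624 / 3125) * u ^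 3 * v ^ 17 + (1772 / 3125) * u ^ 2 * v ^ 18 + (308 / 3125) * u * v ^ 19 + (121 / 15625) * v ^ 20) +
      ζ * ((121 / 15625) * u ^ 20 - (308 / 3125) * u ^ 19 * v + (1772 / 3125) * u ^ 18 * v ^ 2 - (6624 / 3125) * u ^ 17 * v ^ 3 + (17484 / 3125) * u ^ 16 * v ^ 4 - (170088 / 15625) * u ^ 15 * v ^ 5 + (54228 / 3125) * u ^ 14 * v ^ 6 - (62232 / 3125) * u ^ 13 * v ^ 7 + (75564 / 3125) * u ^ 12 * v ^ 8 - (33284 / 3125) * u ^ 11 * v ^ 9 + (369774 / 15625) * u ^ 10 * v ^ 10 + (33284 / 3125) * u ^ 9 * v ^ 11 + (75564 / 3125) * u ^ 8 * v ^ 12 + (62232 / 3125) * u ^ 7 * v ^ 13 + (54228 / 3125) * u ^ 6 * v ^ 14 + (170088 / 15625) * u ^ 5 * v ^ 15 + (17484 / 3125) * u ^ 4 * v ^ 16 + (6624 / 3125) * u ^ 3 * v ^ 17 + (1772 / 3125) * u ^ 2 * v ^ 18 + (308 / 3125) * u * v ^ 19 + (121 / 15625)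 * v ^ 20) +
      (-(121 / 15625) * u ^ 20 + (308 / 3125) * u ^ 19 * v - (1772 / 3125) * u ^ 18 * v ^ 2 + (6624 / 3125) * u ^ 17 * v ^ 3 - (17484 / 3125) * u ^ 16 * v ^ 4 + (170088 / 15625) * u ^ 15 * v ^ 5 - (54228 / 3125) * u ^ 14 * v ^ 6 + (62232 / 3125) * u ^ 13 * v ^ 7 - (75564 / 3125) * u ^ 12 * v ^ 8 + (33284 / 3125) * u ^ 11 * v ^ 9 - (369774 / 15625) * u ^ 10 * v ^ 10 - (33284 / 3125) * u ^ 9 * v ^ 11 - (75564 / 3125) * u ^ 8 * v ^ 12 - (62232 / 3125) * u ^ 7 * v ^ 13 - (54228 / 3125) * u ^ 6 * v ^ 14 - (170088 / 15625) * u ^ 5 * v ^ 15 - (17484 / 3125) * u ^ 4 * v ^ 16 - (6624 / 3125) * u ^ 3 * v ^ 17 - (1772 / 3125) * u ^ 2 * v ^ 18 - (308 / 3125) * u * v ^ 19 - (121 / 15625) * v ^ 20)) * hζ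

theorem act_kleinQ2_sq (ζ u v : K) (hζ : ζ ^ 4 + ζ ^ 3 + ζ ^ 2 + ζ + 1 = 0) :
    act_kleinQ2 ζ u v ^ 2 = act_kleinQ4 ζ u v := by
  unfold act_kleinQ2 act_kleinQ4
  linear_combination
    (ζ ^ 2 * ((121 / 15625) * u ^ 20 - (308 / 3125) * u ^ 19 * v + (1772 / 3125) * u ^ 18 * v ^ 2 - (6624 / 3125) * u ^ 17 * v ^ 3 + (17484 / 3125) * u ^ 16 * v ^ 4 - (170088 / 15625) * u ^ 15 * v ^ 5 + (54228 / 3125) * u ^ 14 * v ^ 6 - (62232 / 3125) * u ^ 13 * v ^ 7 + (75564 / 3125) * u ^ 12 * v ^ 8 - (33284 / 3125) * u ^ 11 * v ^ 9 + (369774 / 15625) * u ^ 10 * v ^ 10 + (33284 / 3125) * u ^ 9 * v ^ 11 + (75564 / 3125) * u ^ 8 * v ^ 12 + (62232 / 3125) * u ^ 7 * v ^ 13 + (54228 / 3125) * u ^ 6 * v ^ 14 + (170088 / 15625) * u ^ 5 * v ^ 15 + (17484 / 3125) * u ^ 4 * v ^ 16 + (6624 / 3125) * u ^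 3 * v ^ 17 + (1772 / 3125) * u ^ 2 * v ^ 18 + (308 / 3125) * u * v ^ 19 + (121 / 15625) * v ^ 20) +
      ζ * ((121 / 15625) * u ^ 20 - (308 / 3125) * u ^ 19 * v + (1772 / 3125) * u ^ 18 * v ^ 2 - (6624 / 3125) * u ^ 17 * v ^ 3 + (17484 / 3125) * u ^ 16 * v ^ 4 - (170088 / 15625) * u ^ 15 * v ^ 5 + (54228 / 3125) * u ^ 14 * v ^ 6 - (62232 / 3125) * u ^ 13 * v ^ 7 + (75564 / 3125) * u ^ 12 * v ^ 8 - (33284 / 3125) * u ^ 11 * v ^ 9 + (369774 / 15625) * u ^ 10 * v ^ 10 + (33284 / 3125) * u ^ 9 * v ^ 11 + (75564 / 3125) * u ^ 8 * v ^ 12 + (62232 / 3125) * u ^ 7 * v ^ 13 + (54228 / 3125) * u ^ 6 * v ^ 14 + (170088 / 15625) * u ^ 5 * v ^ 15 + (17484 / 3125) * u ^ 4 * v ^ 16 + (6624 / 3125) * u ^ 3 * v ^ 17 + (1772 / 3125) * u ^ 2 * v ^ 18 + (308 / 3125) * u * v ^ 19 + (121 / 15625)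 * v ^ 20) +
      (-(121 / 15625) * u ^ 20 + (308 / 3125) * u ^ 19 * v - (1772 / 3125) * u ^ 18 * v ^ 2 + (6624 / 3125) * u ^ 17 * v ^ 3 - (17484 / 3125) * u ^ 16 * v ^ 4 + (170088 / 15625) * u ^ 15 * v ^ 5 - (54228 / 3125) * u ^ 14 * v ^ 6 + (62232 / 3125) * u ^ 13 * v ^ 7 - (75564 / 3125) * u ^ 12 * v ^ 8 + (33284 / 3125) * u ^ 11 * v ^ 9 - (369774 / 15625) * u ^ 10 * v ^ 10 - (33284 / 3125) * u ^ 9 * v ^ 11 - (75564 / 3125) * u ^ 8 * v ^ 12 - (62232 / 3125) * u ^ 7 * v ^ 13 - (54228 / 3125) * u ^ 6 * v ^ 14 - (170088 / 15625) * u ^ 5 * v ^ 15 - (17484 / 3125) * u ^ 4 * v ^ 16 - (6624 / 3125) * u ^ 3 * v ^ 17 - (1772 / 3125) * u ^ 2 * v ^ 18 - (308 / 3125) * u * v ^ 19 - (121 / 15625) * v ^ 20)) * hζ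

end Fermat.Agent.S52x
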