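/-
S52x — helper5 — `H ∘ Tm = H`.
-/
import Mathlib
import Fermat.Agent.S52x.KALG_helper4_Defs
import Fermat.Agent.S52x.KPTS_helper5_Tm0
import Fermat.Agent.S52x.KPTS_helper5_Tm1

set_option autoImplicit false

namespace Fermat.Agent.S52x

variable {K : Type*} [Field K] [CharZero K]

/-- `H ∘ Tm = H`. -/
theorem act_kleinH_Tm (ζ u v : K) (hζ : ζ ^ 4 + ζ ^ 3 + ζ ^ 2 + ζ + 1 = 0) :
    kleinH (kleinTu ζ u v) (kleinTv ζ u v) = kleinH u v := by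
  have hp := act_kleinTu_pow5 ζ u v hζ
  have hq := act_kleinTv_pow5 ζ u v hζ
  have h1 := act_kleinP_sq ζ u v hζ
  have h2 := act_kleinP_mul_kleinQ ζ u v hζ
  have h3 := act_kleinQ_sq ζ u v hζ
  have h4 := act_kleinP2_sq ζ u v hζ
  have h5 := act_kleinQ2_sq ζ u v hζ
  have e : kleinH (kleinTu ζ u v) (kleinTv ζ u v) =
      -(act_kleinP4 ζ u v + act_kleinQ4 ζ u v) +
        228 * ((act_kleinP2 ζ u v - act_kleinQ2 ζ u v) * act_kleinPQ ζ u v) -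
        494 * act_kleinP2 ζ u v * act_kleinQ2 ζ u v := by
    unfold kleinH
    rw [← h4, ← h5, ← h1, ← h2, ← h3, ← hp, ← hq]
    ring
  rw [e]
  unfold act_kleinP2 act_kleinPQ act_kleinQ2 act_kleinP4 act_kleinQ4 kleinH
  linear_combination
    (ζ ^ 2 * ((49742 / 15625) * u ^ 20 - (149416 / 3125) * u ^ 19 * v + (896344 / 3125) * u ^ 18 * v ^ 2 - (3286848 / 3125) * u ^ 17 * v ^ 3 + (8665368 / 3125) * u ^ 16 * v ^ 4 - (82306176 / 15625) * u ^ 15 * v ^ 5 + (27041256 / 3125) * u ^ 14 * v ^ 6 - (30777264 / 3125) * u ^ 13 * v ^ 7 + (37648728 / 3125) * u ^ 12 * v ^ 8 - (16880968 / 3125) * u ^ 11 * v ^ 9 + (177712548 / 15625) * u ^ 10 * v ^ 10 + (16880968 / 3125) * u ^ 9 * v ^ 11 + (37648728 / 3125) * u ^ 8 * v ^ 12 + (30777264 / 3125) * u ^ 7 * v ^ 13 + (27041256 / 3125) * u ^ 6 * v ^ 14 + (82306176 / 15625) * u ^ 5 * v ^ 15 + (8665368 / 3125) * u ^ 4 *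 v ^ 16 + (3286848 / 3125) * u ^ 3 * v ^ 17 + (896344 / 3125) * u ^ 2 * v ^ 18 + (149416 / 3125) * u * v ^ 19 + (49742 / 15625) * v ^ 20) +
      ζ * ((49742 / 15625) * u ^ 20 - (149416 / 3125) * u ^ 19 * v + (896344 / 3125) * u ^ 18 * v ^ 2 - (3286848 / 3125) * u ^ 17 * v ^ 3 + (8665368 / 3125) * u ^ 16 * v ^ 4 - (82306176 / 15625) * u ^ 15 * v ^ 5 + (27041256 / 3125) * u ^ 14 * v ^ 6 - (30777264 / 3125) * u ^ 13 * v ^ 7 + (37648728 / 3125) * u ^ 12 * v ^ 8 - (16880968 / 3125) * u ^ 11 * v ^ 9 + (177712548 / 15625) * u ^ 10 * v ^ 10 + (16880968 / 3125) * u ^ 9 * v ^ 11 + (37648728 / 3125) * u ^ 8 * v ^ 12 + (30777264 / 3125) * u ^ 7 * v ^ 13 + (27041256 / 3125) * u ^ 6 * v ^ 14 + (82306176 / 15625) * u ^ 5 * v ^ 15 + (8665368 / 3125) * u ^ 4 * v ^ 16 + (3286848 / 3125) * u ^ 3 * v ^ 17 + (896344 / 3125) * u ^ 2 * v ^ 18 + (149416 / 3125) * u * v ^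 19 + (49742 / 15625) * v ^ 20) +
      (-(49742 / 15625) * u ^ 20 + (149416 / 3125) * u ^ 19 * v - (896344 / 3125) * u ^ 18 * v ^ 2 + (3286848 / 3125) * u ^ 17 * v ^ 3 - (8665368 / 3125) * u ^ 16 * v ^ 4 + (82306176 / 15625) * u ^ 15 * v ^ 5 - (27041256 / 3125) * u ^ 14 * v ^ 6 + (30777264 / 3125) * u ^ 13 * v ^ 7 - (37648728 / 3125) * u ^ 12 * v ^ 8 + (16880968 / 3125) * u ^ 11 * v ^ 9 - (177712548 / 15625) * u ^ 10 * v ^ 10 - (16880968 / 3125) * u ^ 9 * v ^ 11 - (37648728 / 3125) * u ^ 8 * v ^ 12 - (30777264 / 3125) * u ^ 7 * v ^ 13 - (27041256 / 3125) * u ^ 6 * v ^ 14 - (82306176 / 15625) * u ^ 5 * v ^ 15 - (8665368 / 3125) * u ^ 4 * v ^ 16 - (3286848 / 3125) * u ^ 3 * v ^ 17 - (896344 / 3125) * u ^ 2 * v ^ 18 - (149416 / 3125) * u * v ^ 19 - (49742 / 15625) * v ^ 20)) * hζ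

end Fermat.Agent.S52x
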