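/-
S52x — helper5 — `T ∘ Tm = T`.
-/
import Mathlib
import Fermat.Agent.S52x.KALG_helper4_Defs
import Fermat.Agent.S52x.KPTS_helper5_Tm0
import Fermat.Agent.S52x.KPTS_helper5_Tm1
import Fermat.Agent.S52x.KPTS_helper5_TmH

set_option autoImplicit false

namespace Fermat.Agent.S52x

variable {K : Type*} [Field K] [CharZero K]

/-- `T ∘ Tm = T`. -/
theorem act_kleinT_Tm (ζ u v : K) (hζ : ζ ^ 4 + ζ ^ 3 + ζ ^ 2 + ζ + 1 = 0) :
    kleinT (kleinTu ζ u v) (kleinTv ζ u v) = kleinT u v := by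
  have hp := act_kleinTu_pow5 ζ u v hζ
  have hq := act_kleinTv_pow5 ζ u v hζ
  have h1 := act_kleinP_sq ζ u v hζ
  have h2 := act_kleinP_mul_kleinQ ζ u v hζ
  have h3 := act_kleinQ_sq ζ u v hζ
  have h4 := act_kleinP2_sq ζ u v hζ
  have h5 := act_kleinQ2_sq ζ u v hζ
  have e : kleinT (kleinTu ζ u v) (kleinTv ζ u v) =
      act_kleinP4 ζ u v *
          (act_kleinP2 ζ u v + 522 * act_kleinPQ ζ u v - 10005 * act_kleinQ2 ζ u v) +
        act_kleinQ4 ζ u v *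
          (act_kleinQ2 ζ u v - 522 * act_kleinPQ ζ u v - 10005 * act_kleinP2 ζ u v) := by
    unfold kleinT
    rw [← h4, ← h5, ← h1, ← h2, ← h3, ← hp, ← hq]
    ring
  rw [e]
  unfold act_kleinP2 act_kleinPQ act_kleinQ2 act_kleinP4 act_kleinQ4 kleinT
  linear_combination
    (ζ ^ 2 * (-(2398484 / 78125) * u ^ 30 + (45178064 / 78125) * u ^ 29 * v - (405442112 / 78125) * u ^ 28 * v ^ 2 + (2339975616 / 78125) * u ^ 27 * v ^ 3 - (9763023648 / 78125) * u ^ 26 * v ^ 4 + (31386041352 / 78125) * u ^ 25 * v ^ 5 - (16158580848 / 15625) * u ^ 24 * v ^ 6 + (34214640384 / 15625) * u ^ 23 * v ^ 7 - (60899630112 / 15625) * u ^ 22 * v ^ 8 + (91605467536 / 15625) * u ^ 21 * v ^ 9 - (120325663516 / 15625) * u ^ 20 * v ^ 10 + (131166125472 / 15625) * u ^ 19 * v ^ 11 - (138484811776 / 15625) * u ^ 18 * v ^ 12 + (95830236768 / 15625) * u ^ 17 * v ^ 13 - (116365287504 / 15625) * u ^ 16 * v ^ 14 - (116365287504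 / 15625) * u ^ 14 * v ^ 16 - (95830236768 / 15625) * u ^ 13 * v ^ 17 - (138484811776 / 15625) * u ^ 12 * v ^ 18 - (131166125472 / 15625) * u ^ 11 * v ^ 19 - (120325663516 / 15625) * u ^ 10 * v ^ 20 - (91605467536 / 15625) * u ^ 9 * v ^ 21 - (60899630112 / 15625) * u ^ 8 * v ^ 22 - (34214640384 / 15625) * u ^ 7 * v ^ 23 - (16158580848 / 15625) * u ^ 6 * v ^ 24 - (31386041352 / 78125) * u ^ 5 * v ^ 25 - (9763023648 / 78125) * u ^ 4 * v ^ 26 - (2339975616 / 78125) * u ^ 3 * v ^ 27 - (405442112 / 78125) * u ^ 2 * v ^ 28 - (45178064 / 78125) * u * v ^ 29 - (2398484 / 78125) * v ^ 30) +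
      ζ * (-(2398484 / 78125) * u ^ 30 + (45178064 / 78125) * u ^ 29 * v - (405442112 / 78125) * u ^ 28 * v ^ 2 + (2339975616 / 78125) * u ^ 27 * v ^ 3 - (9763023648 / 78125) * u ^ 26 * v ^ 4 + (31386041352 / 78125) * u ^ 25 * v ^ 5 - (16158580848 / 15625) * u ^ 24 * v ^ 6 + (34214640384 / 15625) * u ^ 23 * v ^ 7 - (60899630112 / 15625) * u ^ 22 * v ^ 8 + (91605467536 / 15625) * u ^ 21 * v ^ 9 - (120325663516 / 15625) * u ^ 20 * v ^ 10 + (131166125472 / 15625) * u ^ 19 * v ^ 11 - (138484811776 / 15625) * u ^ 18 * v ^ 12 + (95830236768 / 15625) * u ^ 17 * v ^ 13 - (116365287504 / 15625) * u ^ 16 * v ^ 14 - (116365287504 / 15625) * u ^ 14 * v ^ 16 - (95830236768 / 15625) * u ^ 13 * v ^ 17 - (138484811776 / 15625) * u ^ 12 * v ^ 18 - (131166125472 / 15625) * u ^ 11 * v ^ 19 - (120325663516 / 15625) * u ^ 10 * v ^ 20 - (91605467536 / 15625) * u ^ 9 * v ^ 21 - (60899630112 / 15625) * u ^ 8 *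 v ^ 22 - (34214640384 / 15625) * u ^ 7 * v ^ 23 - (16158580848 / 15625) * u ^ 6 * v ^ 24 - (31386041352 / 78125) * u ^ 5 * v ^ 25 - (9763023648 / 78125) * u ^ 4 * v ^ 26 - (2339975616 / 78125) * u ^ 3 * v ^ 27 - (405442112 / 78125) * u ^ 2 * v ^ 28 - (45178064 / 78125) * u * v ^ 29 - (2398484 / 78125) * v ^ 30) +
      ((2398484 / 78125) * u ^ 30 - (45178064 / 78125) * u ^ 29 * v + (405442112 / 78125) * u ^ 28 * v ^ 2 - (2339975616 / 78125) * u ^ 27 * v ^ 3 + (9763023648 / 78125) * u ^ 26 * v ^ 4 - (31386041352 / 78125) * u ^ 25 * v ^ 5 + (16158580848 / 15625) * u ^ 24 * v ^ 6 - (34214640384 / 15625) * u ^ 23 * v ^ 7 + (60899630112 / 15625) * u ^ 22 * v ^ 8 - (91605467536 / 15625) * u ^ 21 * v ^ 9 + (120325663516 / 15625) * u ^ 20 * v ^ 10 - (131166125472 / 15625) * u ^ 19 * v ^ 11 + (138484811776 / 15625) * u ^ 18 * v ^ 12 - (95830236768 / 15625) * u ^ 17 * v ^ 13 + (116365287504 / 15625)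 * u ^ 16 * v ^ 14 + (116365287504 / 15625) * u ^ 14 * v ^ 16 + (95830236768 / 15625) * u ^ 13 * v ^ 17 + (138484811776 / 15625) * u ^ 12 * v ^ 18 + (131166125472 / 15625) * u ^ 11 * v ^ 19 + (120325663516 / 15625) * u ^ 10 * v ^ 20 + (91605467536 / 15625) * u ^ 9 * v ^ 21 + (60899630112 / 15625) * u ^ 8 * v ^ 22 + (34214640384 / 15625) * u ^ 7 * v ^ 23 + (16158580848 / 15625) * u ^ 6 * v ^ 24 + (31386041352 / 78125) * u ^ 5 * v ^ 25 + (9763023648 / 78125) * u ^ 4 * v ^ 26 + (2339975616 / 78125) * u ^ 3 * v ^ 27 + (405442112 / 78125) * u ^ 2 * v ^ 28 + (45178064 / 78125) * u * v ^ 29 + (2398484 / 78125) * v ^ 30)) * hζ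

end Fermat.Agent.S52x
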