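/-
S52x — helper5 — the generator `Tm` of the binary icosahedral group acting on Klein's forms
(aggregator; the certificates are split over `KPTS_helper5_Tm0/TmX/TmF/Tm1/TmH/TmT` to keep the
memory of each compilation unit small):
`act_kleinXs_Tm`, `act_kleinYs_Tm`, `act_kleinXt_Tm`, `act_kleinYt_Tm`, `act_kleinH_Tm`,
`act_kleinT_Tm`, `act_kleinF_Tm`, `act_kleinTu_Tm`, `act_kleinTv_Tm`.
-/
import Fermat.Agent.S52x.KPTS_helper5_Tm0
import Fermat.Agent.S52x.KPTS_helper5_TmX
import Fermat.Agent.S52x.KPTS_helper5_TmF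
import Fermat.Agent.S52x.KPTS_helper5_Tm1
import Fermat.Agent.S52x.KPTS_helper5_TmH
import Fermat.Agent.S52x.KPTS_helper5_TmT
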