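/-
S52x — helper5 — [K-PTS] (K3-Tm): the transformation laws of `s₀`, `t₀` under `Tm` as point
equalities, `Tm`-stability of `KleinCurve`, and `5 • t₀ = 0`.
-/
import Mathlib
import Fermat.Agent.S52x.KALG_helper4_Defs
import Fermat.Agent.S52x.KPTS_helper3_Defs
import Fermat.Agent.S52x.KPTS_helper5_Act
import Fermat.Agent.S52x.KPTS_helper5_Ord
import Fermat.Agent.S52x.KPTS_helper5_Tm

set_option autoImplicit false

namespace Fermat.Agent.S52x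

open WeierstrassCurve

variable {k : Type*} [Field k] [DecidableEq k] [CharZero k] {W : WeierstrassCurve k} {u v ν : k}

omit [DecidableEq k] in
/-- `Tm` preserves the curve. -/
theorem KleinCurve.act_Tm (h : KleinCurve W u v ν) (ζ : k)
    (hζ : ζ ^ 4 + ζ ^ 3 + ζ ^ 2 + ζ + 1 = 0) :
    KleinCurve W (kleinTu ζ u v) (kleinTv ζ u v) ν where
  a₁ := h.a₁
  a₂ := h.a₂
  a₃ := h.a₃
  a₄ := by rw [act_kleinH_Tm ζ u v hζ]; exact h.a₄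
  a₆ := by rw [act_kleinT_Tm ζ u v hζ]; exact h.a₆
  hν := h.hν
  hf := by rw [act_kleinF_Tm ζ u v hζ]; exact h.hf

/-- **(K3-Tm, `s₀`)**: `s₀ (Tm w) = t₀ (w)`. -/
theorem kleinSpt_Tm (W : WeierstrassCurve k) (ζ u v ν : k)
    (hζ : ζ ^ 4 + ζ ^ 3 + ζ ^ 2 + ζ + 1 = 0) :
    kleinSpt W ζ (kleinTu ζ u v) (kleinTv ζ u v) ν = kleinTpt W u v ν := by
  unfold kleinSpt kleinTpt
  rw [act_kleinXs_Tm ζ u v hζ, act_kleinYs_Tm ζ u v hζ]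

/-- **(K3-Tm, `t₀`)**: `t₀ (Tm w) = -s₀ (w)`. -/
theorem kleinTpt_Tm (h : KleinCurve W u v ν) (ζ : k) (hζ : ζ ^ 4 + ζ ^ 3 + ζ ^ 2 + ζ + 1 = 0) :
    kleinTpt W (kleinTu ζ u v) (kleinTv ζ u v) ν = -kleinSpt W ζ u v ν := by
  unfold kleinSpt kleinTpt
  rw [act_kleinXt_Tm ζ u v hζ, act_kleinYt_Tm ζ u v hζ, neg_div,
    ← act_neg_mkPoint_short W h.a₁ h.a₃]

/-- **(K2)** `5 • t₀ = 0`. -/
theorem KleinCurve.act_five_nsmul_kleinTpt (h : KleinCurve W u v ν) (ζ : k)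
    (hζ : ζ ^ 4 + ζ ^ 3 + ζ ^ 2 + ζ + 1 = 0) : 5 • kleinTpt W u v ν = 0 := by
  rw [← kleinSpt_Tm W ζ u v ν hζ]
  exact (h.act_Tm ζ hζ).act_five_nsmul_kleinSpt ζ hζ

end Fermat.Agent.S52x
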