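/-
PROJECT S52 (3–5 switch), package [K-PTS] (helper7): (K4) scaling, (K5a) change of the fifth root
of unity, (K5b) Galois action, for the sections `s₀ = kleinSpt`, `t₀ = kleinTpt` of Klein's curve.
-/
import Mathlib
import Fermat.Prelude.Def_FLTPrelim_GaloisRep
import Fermat.Agent.S52x.ABS_helper7_Alg
import Fermat.Agent.S52x.KPTS_helper3_Defs

set_option autoImplicit false

namespace Fermat.Agent.S52x

open WeierstrassCurve WeierstrassCurve.Affine
open scoped WeierstrassCurve.Affine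

section scaling

variable {k : Type*} [Field k]

/-- (K4) scaling, section `s₀`. -/
theorem kleinSpt_scale (W : WeierstrassCurve k) (ζ u v ν : k) {l : k} (hl : l ≠ 0) :
    kleinSpt W ζ (l * u) (l * v) (l ^ 5 * ν) = kleinSpt W ζ u v ν := by
  unfold kleinSpt
  have h1 : kleinXs ζ (l * u) (l * v) / (l ^ 5 * ν) ^ 2 = kleinXs ζ u v / ν ^ 2 := by
    rw [kleinXs_scale, mul_pow, ← pow_mul]
    exact mul_div_mul_left _ _ (pow_ne_zero _ hl)
  have h2 : kleinYs ζ (l * u) (l * v) / (l ^ 5 * ν) ^ 3 = kleinYs ζ u v / ν ^ 3 := by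
    rw [kleinYs_scale, mul_pow, ← pow_mul]
    exact mul_div_mul_left _ _ (pow_ne_zero _ hl)
  rw [h1, h2]

/-- (K4) scaling, section `t₀`. -/
theorem kleinTpt_scale (W : WeierstrassCurve k) (u v ν : k) {l : k} (hl : l ≠ 0) :
    kleinTpt W (l * u) (l * v) (l ^ 5 * ν) = kleinTpt W u v ν := by
  unfold kleinTpt
  have h1 : kleinXt (l * u) (l * v) / (l ^ 5 * ν) ^ 2 = kleinXt u v / ν ^ 2 := by
    rw [kleinXt_scale, mul_pow, ← pow_mul]
    exact mul_div_mul_left _ _ (pow_ne_zero _ hl)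
  have h2 : kleinYt (l * u) (l * v) / (l ^ 5 * ν) ^ 3 = kleinYt u v / ν ^ 3 := by
    rw [kleinYt_scale, mul_pow, ← pow_mul]
    exact mul_div_mul_left _ _ (pow_ne_zero _ hl)
  rw [h1, h2]

/-- (K5a) change of the root of unity, from the doubling identity and `5`-torsion. -/
theorem kleinSpt_pow_of_two_nsmul [DecidableEq k] (W : WeierstrassCurve k) (u v ν : k)
    (h2 : ∀ ξ : k, ξ ^ 4 + ξ ^ 3 + ξ ^ 2 + ξ + 1 = 0 →
      2 • kleinSpt W ξ u v ν = kleinSpt W (ξ ^ 2) u v ν)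
    (h5 : ∀ ξ : k, ξ ^ 4 + ξ ^ 3 + ξ ^ 2 + ξ + 1 = 0 → 5 • kleinSpt W ξ u v ν = 0)
    {ζ : k} (hζ : ζ ^ 4 + ζ ^ 3 + ζ ^ 2 + ζ + 1 = 0) (e : ℕ) (he : ¬ 5 ∣ e) :
    kleinSpt W (ζ ^ e) u v ν = e • kleinSpt W ζ u v ν :=
  nsmul_eq_of_two_nsmul (fun ξ => kleinSpt W ξ u v ν) h2 h5 hζ e he

end scaling

section galois

variable {R : Type*} {S : Type*} {K : Type*} [CommRing R] [CommRing S] [Field K]
  [DecidableEq K] [Algebra R S] [Algebra R K] [Algebra S K] [IsScalarTower R S K]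

/-- the Galois action on total points. -/
theorem smul_mkPoint (W' : Affine R) (σ : K ≃ₐ[S] K) (x y : K) :
    σ • (mkPoint (W'⁄K) x y : (W'⁄K).Point) = mkPoint (W'⁄K) (σ x) (σ y) := by
  classical
  unfold mkPoint
  have hiff : (W'⁄K).Nonsingular (σ x) (σ y) ↔ (W'⁄K).Nonsingular x y :=
    W'.baseChange_nonsingular (f := σ.toAlgHom) σ.injective x y
  by_cases h : (W'⁄K).Nonsingular x y
  · rw [dif_pos h, dif_pos (hiff.mpr h), Point.algEquiv_smul_def, Point.map_some]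
    rfl
  · rw [dif_neg h, dif_neg (fun h' => h (hiff.mp h'))]
    exact smul_zero σ

/-- (K5b) Galois action on `s₀`. -/
theorem smul_kleinSpt (W' : Affine R) (σ : K ≃ₐ[S] K) (ζ u v ν : K) :
    σ • (kleinSpt (W'⁄K) ζ u v ν : (W'⁄K).Point) = kleinSpt (W'⁄K) (σ ζ) (σ u) (σ v) (σ ν) := by
  unfold kleinSpt
  rw [smul_mkPoint, map_div₀, map_div₀, map_pow, map_pow, map_kleinXs, map_kleinYs]

/-- (K5b) Galois action on `t₀`. -/
theorem smul_kleinTpt (W' : Affine R) (σ : K ≃ₐ[S] K) (u v ν : K) :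
    σ • (kleinTpt (W'⁄K) u v ν : (W'⁄K).Point) = kleinTpt (W'⁄K) (σ u) (σ v) (σ ν) := by
  unfold kleinTpt
  rw [smul_mkPoint, map_div₀, map_div₀, map_pow, map_pow, map_kleinXt, map_kleinYt]

omit [DecidableEq K] in
/-- an `S`-automorphism of `K` fixes the image of `R` -/
theorem algEquiv_algebraMap_base (σ : K ≃ₐ[S] K) (r : R) :
    σ (algebraMap R K r) = algebraMap R K r := by
  rw [IsScalarTower.algebraMap_apply R S K, σ.commutes]

omit [DecidableEq K] in
/-- Klein's curve condition is stable under the Galois action (curve defined over the base). -/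
theorem KleinCurve.gal {W' : Affine R} {u v ν : K} (h : KleinCurve (W'⁄K) u v ν)
    (σ : K ≃ₐ[S] K) : KleinCurve (W'⁄K) (σ u) (σ v) (σ ν) where
  a₁ := h.a₁
  a₂ := h.a₂
  a₃ := h.a₃
  a₄ := by
    have h4 := congrArg σ h.a₄
    rw [map_mul, map_pow, map_mul, map_kleinH, map_ofNat] at h4
    rw [← h4]
    congr 1
    exact (algEquiv_algebraMap_base σ W'.a₄).symm
  a₆ := by
    have h6 := congrArg σ h.a₆
    rw [map_mul, map_pow, map_mul, map_kleinT, map_ofNat] at h6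
    rw [← h6]
    congr 1
    exact (algEquiv_algebraMap_base σ W'.a₆).symm
  hν := fun h0 => h.hν ((map_eq_zero_iff σ σ.injective).mp h0)
  hf := fun h0 => h.hf (by
    rw [← map_kleinF] at h0
    exact (map_eq_zero_iff σ σ.injective).mp h0)

end galois

end Fermat.Agent.S52x
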