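/-
S52 / package [SYM] (helper9): `SL₂(𝔽₅)` (more generally `SL₂(ZMod p)`) is generated, as a
monoid, by one nontrivial transvection and the Weyl element `J = !![0,1;-1,0]`.  Mathlib only.
-/
import Mathlib

set_option autoImplicit false

namespace Fermat.Agent.S52x

open Matrix

section Defs

variable {R : Type*} [CommRing R]

/-- lower unipotent `!![1,0;y,1]`. -/
def slL (y : R) : SpecialLinearGroup (Fin 2) R :=
  ⟨!![1, 0; y, 1], by simp [Matrix.det_fin_two_of]⟩

/-- upper unipotent `!![1,x;0,1]`. -/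
def slU (x : R) : SpecialLinearGroup (Fin 2) R :=
  ⟨!![1, x; 0, 1], by simp [Matrix.det_fin_two_of]⟩

/-- the Weyl element `!![0,1;-1,0]`. -/
def slJ : SpecialLinearGroup (Fin 2) R :=
  ⟨!![0, 1; -1, 0], by simp [Matrix.det_fin_two_of]⟩

/-- its inverse `!![0,-1;1,0]`. -/
def slJ' : SpecialLinearGroup (Fin 2) R :=
  ⟨!![0, -1; 1, 0], by simp [Matrix.det_fin_two_of]⟩

theorem slL_mul (x y : R) : slL x * slL y = slL (x + y) := by
  ext i j
  fin_cases i <;> fin_cases j <;>
    simp [slL, Matrix.mul_apply, Fin.sum_univ_two, add_comm]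

theorem slL_zero : slL (0 : R) = 1 := by
  ext i j
  fin_cases i <;> fin_cases j <;> simp [slL]

theorem slL_pow (x : R) (n : ℕ) : slL x ^ n = slL (n * x) := by
  induction n with
  | zero => simp [slL_zero]
  | succ n ih =>
    rw [pow_succ, ih, slL_mul]
    congr 1
    push_cast
    ring

theorem slJ_mul_slJ' : (slJ : SpecialLinearGroup (Fin 2) R) * slJ' = 1 := by
  ext i j
  fin_cases i <;> fin_cases j <;>
    simp [slJ, slJ', Matrix.mul_apply, Fin.sum_univ_two]

theorem slJ'_eq_inv : (slJ' : SpecialLinearGroup (Fin 2) R) = slJ⁻¹ :=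
  eq_inv_of_mul_eq_one_right slJ_mul_slJ'

theorem slJ'_eq_pow : (slJ' : SpecialLinearGroup (Fin 2) R) = slJ ^ 3 := by
  ext i j
  fin_cases i <;> fin_cases j <;>
    simp [slJ, slJ', pow_succ, Matrix.mul_apply, Fin.sum_univ_two]

theorem slU_eq_conj (x : R) : slU x = slJ * slL (-x) * slJ' := by
  ext i j
  fin_cases i <;> fin_cases j <;>
    simp [slJ, slJ', slL, slU, Matrix.mul_apply, Fin.sum_univ_two]

theorem slL_eq_conj (y : R) : slL y = slJ' * slU (-y) * slJ := by
  ext i j
  fin_cases i <;> fin_cases j <;>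
    simp [slJ, slJ', slL, slU, Matrix.mul_apply, Fin.sum_univ_two]

end Defs

section Field

variable {F : Type*} [Field F]

/-- Bruhat-type decomposition when the lower left entry is nonzero. -/
theorem sl2_decomp (M : SpecialLinearGroup (Fin 2) F) (hc : M 1 0 ≠ 0) :
    M = slU ((M 0 0 - 1) / M 1 0) * slL (M 1 0) * slU ((M 1 1 - 1) / M 1 0) := by
  have hdet : M 0 0 * M 1 1 - M 0 1 * M 1 0 = 1 := by
    have := M.det_coe
    rwa [Matrix.det_fin_two] at this
  ext i j
  fin_cases i <;> fin_cases j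
  · simp [slL, slU, Matrix.mul_apply, Fin.sum_univ_two]
    field_simp
    ring
  · simp [slL, slU, Matrix.mul_apply, Fin.sum_univ_two]
    field_simp
    linear_combination (-1 : F) * hdet
  · simp [slL, slU, Matrix.mul_apply, Fin.sum_univ_two]
  · simp [slL, slU, Matrix.mul_apply, Fin.sum_univ_two]
    field_simp
    ring

/-- A submonoid of `SL₂(F)` containing `J`, `J⁻¹` and all lower unipotents is everything. -/
theorem sl2_submonoid_eq_top (𝒮 : Submonoid (SpecialLinearGroup (Fin 2) F))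
    (hJ : slJ ∈ 𝒮) (hL : ∀ y : F, slL y ∈ 𝒮) : 𝒮 = ⊤ := by
  have hJ' : (slJ' : SpecialLinearGroup (Fin 2) F) ∈ 𝒮 := by
    rw [slJ'_eq_pow]; exact 𝒮.pow_mem hJ 3
  have hU : ∀ x : F, slU x ∈ 𝒮 := by
    intro x
    rw [slU_eq_conj]
    exact 𝒮.mul_mem (𝒮.mul_mem hJ (hL _)) hJ'
  have hmain : ∀ M : SpecialLinearGroup (Fin 2) F, M 1 0 ≠ 0 → M ∈ 𝒮 := by
    intro M hc
    rw [sl2_decomp M hc]
    exact 𝒮.mul_mem (𝒮.mul_mem (hU _) (hL _)) (hU _)
  rw [eq_top_iff]
  intro M _
  by_cases hc : M 1 0 = 0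
  · -- then `M 0 0 ≠ 0` and `J * M` has nonzero lower-left entry
    have hdet : M 0 0 * M 1 1 - M 0 1 * M 1 0 = 1 := by
      have := M.det_coe
      rwa [Matrix.det_fin_two] at this
    have ha : M 0 0 ≠ 0 := by
      intro h
      rw [h, hc] at hdet
      simp at hdet
    have h1 : (((slJ : SpecialLinearGroup (Fin 2) F) * M : SpecialLinearGroup (Fin 2) F) :
        Matrix (Fin 2) (Fin 2) F) 1 0 ≠ 0 := by
      simp [slJ, Matrix.mul_apply, Fin.sum_univ_two, ha]
    have h2 : slJ * M ∈ 𝒮 := hmain _ h1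
    have h3 : M = slJ' * (slJ * M) := by
      rw [slJ'_eq_inv, inv_mul_cancel_left]
    rw [h3]
    exact 𝒮.mul_mem hJ' h2
  · exact hmain M hc

end Field

section ZModp

variable {p : ℕ} [Fact p.Prime]

/-- `SL₂(𝔽_p)` is generated as a monoid by `J` and one nontrivial lower unipotent. -/
theorem sl2_zmod_submonoid_eq_top (𝒮 : Submonoid (SpecialLinearGroup (Fin 2) (ZMod p)))
    (hJ : slJ ∈ 𝒮) {c : ZMod p} (hc : c ≠ 0) (hLc : slL c ∈ 𝒮) : 𝒮 = ⊤ := by
  apply sl2_submonoid_eq_top 𝒮 hJ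
  intro y
  have h1 : slL y = slL c ^ (y * c⁻¹).val := by
    rw [slL_pow]
    congr 1
    rw [ZMod.natCast_zmod_val]
    field_simp
  rw [h1]
  exact 𝒮.pow_mem hLc _

/-- Variant with an upper unipotent. -/
theorem sl2_zmod_submonoid_eq_top' (𝒮 : Submonoid (SpecialLinearGroup (Fin 2) (ZMod p)))
    (hJ : slJ ∈ 𝒮) {c : ZMod p} (hc : c ≠ 0) (hUc : slU c ∈ 𝒮) : 𝒮 = ⊤ := by
  have hJ' : (slJ' : SpecialLinearGroup (Fin 2) (ZMod p)) ∈ 𝒮 := by
    rw [slJ'_eq_pow]; exact 𝒮.pow_mem hJ 3
  apply sl2_zmod_submonoid_eq_top 𝒮 hJ (c := -c) (neg_ne_zero.2 hc)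
  rw [slL_eq_conj, neg_neg]
  exact 𝒮.mul_mem (𝒮.mul_mem hJ' hUc) hJ

/-- Induction principle: a property of elements of `SL₂(𝔽_p)` which holds at `1` and is stable under
right multiplication by `J` and by one nontrivial lower unipotent holds everywhere. -/
theorem sl2_zmod_induction_right {c : ZMod p} (hc : c ≠ 0)
    (P : SpecialLinearGroup (Fin 2) (ZMod p) → Prop) (h1 : P 1)
    (hJ : ∀ M, P M → P (M * slJ)) (hL : ∀ M, P M → P (M * slL c))
    (M : SpecialLinearGroup (Fin 2) (ZMod p)) : P M := by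
  have hcl : Submonoid.closure {(slJ : SpecialLinearGroup (Fin 2) (ZMod p)), slL c} = ⊤ :=
    sl2_zmod_submonoid_eq_top _ (Submonoid.subset_closure (by simp)) hc
      (Submonoid.subset_closure (by simp))
  have hM : M ∈ Submonoid.closure {(slJ : SpecialLinearGroup (Fin 2) (ZMod p)), slL c} := by
    rw [hcl]; trivial
  induction hM using Submonoid.closure_induction_right with
  | one => exact h1
  | mul_right x _ y hy ih =>
    rcases hy with rfl | hy
    · exact hJ x ih
    · rw [Set.mem_singleton_iff] at hy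
      subst hy
      exact hL x ih

/-- Left multiplication version. -/
theorem sl2_zmod_induction_left {c : ZMod p} (hc : c ≠ 0)
    (P : SpecialLinearGroup (Fin 2) (ZMod p) → Prop) (h1 : P 1)
    (hJ : ∀ M, P M → P (slJ * M)) (hL : ∀ M, P M → P (slL c * M))
    (M : SpecialLinearGroup (Fin 2) (ZMod p)) : P M := by
  have hcl : Submonoid.closure {(slJ : SpecialLinearGroup (Fin 2) (ZMod p)), slL c} = ⊤ :=
    sl2_zmod_submonoid_eq_top _ (Submonoid.subset_closure (by simp)) hc
      (Submonoid.subset_closure (by simp))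
  have hM : M ∈ Submonoid.closure {(slJ : SpecialLinearGroup (Fin 2) (ZMod p)), slL c} := by
    rw [hcl]; trivial
  induction hM using Submonoid.closure_induction_left with
  | one => exact h1
  | mul_left x hx y _ ih =>
    rcases hx with rfl | hx
    · exact hJ y ih
    · rw [Set.mem_singleton_iff] at hx
      subst hx
      exact hL y ih

end ZModp

end Fermat.Agent.S52x
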