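/-
S52 / packages [SYM]+[DESC] (helper9), abstract layer.

`KleinAbs` bundles, as hypotheses, everything that the descent argument ("Theorem A") uses about
Klein's icosahedral family: the forms `H, T, F` and the covariant `Φ = (F_v, -F_u)`, the two
`5`-torsion sections `sP, tP` of the curves `y² = x³ + 27 H/ν⁴ x + 54 T/ν⁶`, their behaviour under
the two generators `S`, `Tm` of the binary icosahedral group, under scaling and under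
`Gal(ℚ̄/ℚ)`, rigidity and universality.  This file contains the structure and the symmetry
package: every element of `SL₂(𝔽₅)` is realised by a symmetry (`KleinAbs.exists_symZ`).
-/
import Mathlib
import Fermat.Prelude.Def_FLTPrelim_GaloisRep
import Fermat.Agent.S52x.SYM_helper9_SL2F5

set_option autoImplicit false
set_option linter.style.haveILetI false

namespace Fermat.Agent.S52x

open WeierstrassCurve WeierstrassCurve.Affine Matrix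
open scoped WeierstrassCurve.Affine

/-- `Ω = AlgebraicClosure ℚ`. -/
local notation "Ω" => AlgebraicClosure ℚ
/-- `GQ = Gal(Ω/ℚ)`. -/
local notation "GQ" => (AlgebraicClosure ℚ ≃ₐ[ℚ] AlgebraicClosure ℚ)

/-- `W` is the curve `y² = x³ + 27 H(u,v)/ν⁴ x + 54 T(u,v)/ν⁶` and `F(u,v) ≠ 0`. -/
def KCond (H T F : Ω → Ω → Ω) (W : WeierstrassCurve Ω) (u v ν : Ω) : Prop :=
  W.a₁ = 0 ∧ W.a₂ = 0 ∧ W.a₃ = 0 ∧ W.a₄ * ν ^ 4 = 27 * H u v ∧ W.a₆ * ν ^ 6 = 54 * T u v ∧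
    ν ≠ 0 ∧ F u v ≠ 0

/-- The abstract interface to Klein's icosahedral family. -/
structure KleinAbs where
  /-- a primitive fifth root of unity -/
  ζ : Ω
  hζ : IsPrimitiveRoot ζ 5
  /-- the Klein forms and the covariant `Φ = (Φ₁, Φ₂) = (F_v, -F_u)` -/
  H : Ω → Ω → Ω
  T : Ω → Ω → Ω
  F : Ω → Ω → Ω
  Φ₁ : Ω → Ω → Ω
  Φ₂ : Ω → Ω → Ω
  H_gal : ∀ (σ : GQ) (u v : Ω), σ (H u v) = H (σ u) (σ v)
  T_gal : ∀ (σ : GQ) (u v : Ω), σ (T u v) = T (σ u) (σ v)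
  Φ₁_gal : ∀ (σ : GQ) (u v : Ω), σ (Φ₁ u v) = Φ₁ (σ u) (σ v)
  Φ₂_gal : ∀ (σ : GQ) (u v : Ω), σ (Φ₂ u v) = Φ₂ (σ u) (σ v)
  H_hom : ∀ l u v : Ω, H (l * u) (l * v) = l ^ 20 * H u v
  T_hom : ∀ l u v : Ω, T (l * u) (l * v) = l ^ 30 * T u v
  Φ₁_hom : ∀ l u v : Ω, Φ₁ (l * u) (l * v) = l ^ 11 * Φ₁ u v
  Φ₂_hom : ∀ l u v : Ω, Φ₂ (l * u) (l * v) = l ^ 11 * Φ₂ u v
  H_poly : ∀ u v a b : Ω, ∃ p : Polynomial Ω, ∀ t : Ω, p.eval t = H (u + t * a) (v + t * b)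
  T_poly : ∀ u v a b : Ω, ∃ p : Polynomial Ω, ∀ t : Ω, p.eval t = T (u + t * a) (v + t * b)
  syz : ∀ u v : Ω, T u v ^ 2 + H u v ^ 3 = 1728 * F u v ^ 5
  euler : ∀ u v : Ω, u * Φ₂ u v - v * Φ₁ u v = -12 * F u v
  nozero : ∀ u v : Ω, H u v = 0 → T u v = 0 → u = 0 ∧ v = 0
  T_cm : ∀ i : Ω, i ^ 2 = -1 → T i 1 = 0
  /-- the two sections -/
  sP : ∀ W : WeierstrassCurve Ω, Ω → Ω → Ω → W.toAffine.Point
  tP : ∀ W : WeierstrassCurve Ω, Ω → Ω → Ω → W.toAffine.Point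
  five_s : ∀ (W : WeierstrassCurve Ω) (u v ν : Ω), KCond H T F W u v ν → (5 : ℕ) • sP W u v ν = 0
  five_t : ∀ (W : WeierstrassCurve Ω) (u v ν : Ω), KCond H T F W u v ν → (5 : ℕ) • tP W u v ν = 0
  indep : ∀ (W : WeierstrassCurve Ω) (u v ν : Ω), KCond H T F W u v ν → ∀ x y : ℤ,
    x • sP W u v ν + y • tP W u v ν = 0 → (5 : ℤ) ∣ x ∧ (5 : ℤ) ∣ y
  /-- the generator `S = diag(s₁, s₂)` -/
  s₁ : Ω
  s₂ : Ω
  H_S : ∀ u v : Ω, H (s₁ * u) (s₂ * v) = H u v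
  T_S : ∀ u v : Ω, T (s₁ * u) (s₂ * v) = T u v
  Φ₁_S : ∀ u v : Ω, Φ₁ (s₁ * u) (s₂ * v) = s₁ * Φ₁ u v
  Φ₂_S : ∀ u v : Ω, Φ₂ (s₁ * u) (s₂ * v) = s₂ * Φ₂ u v
  sP_S : ∀ (W : WeierstrassCurve Ω) (u v ν : Ω), KCond H T F W u v ν →
    sP W (s₁ * u) (s₂ * v) ν = sP W u v ν
  tP_S : ∀ (W : WeierstrassCurve Ω) (u v ν : Ω), KCond H T F W u v ν →
    tP W (s₁ * u) (s₂ * v) ν = tP W u v ν - sP W u v ν
  /-- the generator `Tm = !![m₁₁, m₁₂; m₂₁, m₂₂]` -/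
  m₁₁ : Ω
  m₁₂ : Ω
  m₂₁ : Ω
  m₂₂ : Ω
  H_M : ∀ u v : Ω, H (m₁₁ * u + m₁₂ * v) (m₂₁ * u + m₂₂ * v) = H u v
  T_M : ∀ u v : Ω, T (m₁₁ * u + m₁₂ * v) (m₂₁ * u + m₂₂ * v) = T u v
  Φ₁_M : ∀ u v : Ω, Φ₁ (m₁₁ * u + m₁₂ * v) (m₂₁ * u + m₂₂ * v) = m₁₁ * Φ₁ u v + m₁₂ * Φ₂ u v
  Φ₂_M : ∀ u v : Ω, Φ₂ (m₁₁ * u + m₁₂ * v) (m₂₁ * u + m₂₂ * v) = m₂₁ * Φ₁ u v + m₂₂ * Φ₂ u v
  sP_M : ∀ (W : WeierstrassCurve Ω) (u v ν : Ω), KCond H T F W u v ν →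
    sP W (m₁₁ * u + m₁₂ * v) (m₂₁ * u + m₂₂ * v) ν = tP W u v ν
  tP_M : ∀ (W : WeierstrassCurve Ω) (u v ν : Ω), KCond H T F W u v ν →
    tP W (m₁₁ * u + m₁₂ * v) (m₂₁ * u + m₂₂ * v) ν = -sP W u v ν
  /-- scaling -/
  sP_scale : ∀ (W : WeierstrassCurve Ω) (u v ν l : Ω), KCond H T F W u v ν → l ≠ 0 →
    sP W (l * u) (l * v) (l ^ 5 * ν) = sP W u v ν
  tP_scale : ∀ (W : WeierstrassCurve Ω) (u v ν l : Ω), KCond H T F W u v ν → l ≠ 0 →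
    tP W (l * u) (l * v) (l ^ 5 * ν) = tP W u v ν
  /-- Galois action, for curves defined over `ℚ` -/
  sP_gal : ∀ (E : WeierstrassCurve ℚ) (σ : GQ) (e : ℕ) (u v ν : Ω), σ ζ = ζ ^ e →
    KCond H T F (E.baseChange Ω) u v ν →
    σ • (sP (E.baseChange Ω) u v ν : (E⁄Ω).Point) = e • sP (E.baseChange Ω) (σ u) (σ v) (σ ν)
  tP_gal : ∀ (E : WeierstrassCurve ℚ) (σ : GQ) (u v ν : Ω),
    KCond H T F (E.baseChange Ω) u v ν →
    σ • (tP (E.baseChange Ω) u v ν : (E⁄Ω).Point) = tP (E.baseChange Ω) (σ u) (σ v) (σ ν)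
  /-- rigidity -/
  rigid : ∀ (W : WeierstrassCurve Ω) (u v ν u' v' ν' : Ω), KCond H T F W u v ν →
    KCond H T F W u' v' ν' → sP W u' v' ν' = sP W u v ν → tP W u' v' ν' = tP W u v ν →
    ∃ κ : Ω, κ ^ 5 * ν = ν' ∧ u' = κ * u ∧ v' = κ * v
  /-- universality -/
  univ : ∀ c4 c6 : ℚ, c4 ≠ 0 → c6 ≠ 0 → c4 ^ 3 ≠ c6 ^ 2 → ∃ u ν : Ω, ν ≠ 0 ∧ F u 1 ≠ 0 ∧
    -H u 1 = ν ^ 4 * algebraMap ℚ Ω c4 ∧ -T u 1 = ν ^ 6 * algebraMap ℚ Ω c6

namespace KleinAbs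

variable (A : KleinAbs)

/-- vector versions -/
def Hv (w : Fin 2 → Ω) : Ω := A.H (w 0) (w 1)
def Tv (w : Fin 2 → Ω) : Ω := A.T (w 0) (w 1)
def Fv (w : Fin 2 → Ω) : Ω := A.F (w 0) (w 1)
def Φv (w : Fin 2 → Ω) : Fin 2 → Ω := ![A.Φ₁ (w 0) (w 1), A.Φ₂ (w 0) (w 1)]
def KC (W : WeierstrassCurve Ω) (w : Fin 2 → Ω) (ν : Ω) : Prop :=
  KCond A.H A.T A.F W (w 0) (w 1) ν
def sPv (W : WeierstrassCurve Ω) (w : Fin 2 → Ω) (ν : Ω) : W.toAffine.Point :=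
  A.sP W (w 0) (w 1) ν
def tPv (W : WeierstrassCurve Ω) (w : Fin 2 → Ω) (ν : Ω) : W.toAffine.Point :=
  A.tP W (w 0) (w 1) ν

theorem Fv_ne_zero_of_eq {w w' : Fin 2 → Ω} (hH : A.Hv w' = A.Hv w) (hT : A.Tv w' = A.Tv w)
    (hF : A.Fv w ≠ 0) : A.Fv w' ≠ 0 := by
  intro h0
  have h1 := A.syz (w 0) (w 1)
  have h2 := A.syz (w' 0) (w' 1)
  unfold Hv at hH
  unfold Tv at hT
  unfold Fv at hF h0
  rw [hH, hT, h1, h0] at h2
  have : A.F (w 0) (w 1) ^ 5 = 0 := by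
    have h3 : (1728 : Ω) ≠ 0 := by norm_num
    have h4 : (1728 : Ω) * A.F (w 0) (w 1) ^ 5 = 1728 * 0 := by rw [h2]; ring
    exact mul_left_cancel₀ h3 h4
  exact hF (pow_eq_zero_iff (by norm_num) |>.1 this)

theorem KC_of_eq {W : WeierstrassCurve Ω} {w w' : Fin 2 → Ω} {ν : Ω}
    (hH : A.Hv w' = A.Hv w) (hT : A.Tv w' = A.Tv w) (h : A.KC W w ν) : A.KC W w' ν := by
  obtain ⟨h1, h2, h3, h4, h6, hν, hF⟩ := h
  refine ⟨h1, h2, h3, ?_, ?_, hν, A.Fv_ne_zero_of_eq hH hT hF⟩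
  · rw [h4]; congr 1; exact hH.symm
  · rw [h6]; congr 1; exact hT.symm

/-- `B` is a symmetry of the family inducing the integer matrix `X` on the sections:
`(s, t)(B w) = (s, t)(w) · X`. -/
structure SymZ (B : Matrix (Fin 2) (Fin 2) Ω) (X : Matrix (Fin 2) (Fin 2) ℤ) : Prop where
  hH : ∀ w, A.Hv (B *ᵥ w) = A.Hv w
  hT : ∀ w, A.Tv (B *ᵥ w) = A.Tv w
  hΦ : ∀ w, A.Φv (B *ᵥ w) = B *ᵥ A.Φv w
  hs : ∀ (W : WeierstrassCurve Ω) (w : Fin 2 → Ω) (ν : Ω), A.KC W w ν →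
    A.sPv W (B *ᵥ w) ν = X 0 0 • A.sPv W w ν + X 1 0 • A.tPv W w ν
  ht : ∀ (W : WeierstrassCurve Ω) (w : Fin 2 → Ω) (ν : Ω), A.KC W w ν →
    A.tPv W (B *ᵥ w) ν = X 0 1 • A.sPv W w ν + X 1 1 • A.tPv W w ν

variable {A}

theorem SymZ.kc {B : Matrix (Fin 2) (Fin 2) Ω} {X : Matrix (Fin 2) (Fin 2) ℤ} (h : A.SymZ B X)
    {W : WeierstrassCurve Ω} {w : Fin 2 → Ω} {ν : Ω} (hk : A.KC W w ν) : A.KC W (B *ᵥ w) ν :=
  A.KC_of_eq (h.hH w) (h.hT w) hk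

theorem SymZ.one : A.SymZ 1 1 where
  hH w := by rw [Matrix.one_mulVec]
  hT w := by rw [Matrix.one_mulVec]
  hΦ w := by rw [Matrix.one_mulVec, Matrix.one_mulVec]
  hs W w ν _ := by rw [Matrix.one_mulVec]; simp
  ht W w ν _ := by rw [Matrix.one_mulVec]; simp

theorem SymZ.mul {B B' : Matrix (Fin 2) (Fin 2) Ω} {X X' : Matrix (Fin 2) (Fin 2) ℤ}
    (h : A.SymZ B X) (h' : A.SymZ B' X') : A.SymZ (B * B') (X' * X) where
  hH w := by rw [← Matrix.mulVec_mulVec, h.hH, h'.hH]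
  hT w := by rw [← Matrix.mulVec_mulVec, h.hT, h'.hT]
  hΦ w := by rw [← Matrix.mulVec_mulVec, h.hΦ, h'.hΦ, Matrix.mulVec_mulVec]
  hs W w ν hk := by
    rw [← Matrix.mulVec_mulVec, h.hs W _ ν (h'.kc hk), h'.hs W w ν hk, h'.ht W w ν hk]
    simp only [Matrix.mul_apply, Fin.sum_univ_two]
    module
  ht W w ν hk := by
    rw [← Matrix.mulVec_mulVec, h.ht W _ ν (h'.kc hk), h'.hs W w ν hk, h'.ht W w ν hk]
    simp only [Matrix.mul_apply, Fin.sum_univ_two]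
    module

theorem mulVec_fin_two (a b c d : Ω) (w : Fin 2 → Ω) :
    (!![a, b; c, d] *ᵥ w) = ![a * w 0 + b * w 1, c * w 0 + d * w 1] := by
  ext i
  fin_cases i <;> simp [Matrix.mulVec, dotProduct, Fin.sum_univ_two]

variable (A)

/-- the generator `S` -/
theorem symZ_S : A.SymZ !![A.s₁, 0; 0, A.s₂] !![1, -1; 0, 1] where
  hH w := by
    rw [mulVec_fin_two]
    simp only [Hv, Matrix.cons_val_zero, Matrix.cons_val_one, zero_mul, add_zero, zero_add]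
    exact A.H_S _ _
  hT w := by
    rw [mulVec_fin_two]
    simp only [Tv, Matrix.cons_val_zero, Matrix.cons_val_one, zero_mul, add_zero, zero_add]
    exact A.T_S _ _
  hΦ w := by
    rw [mulVec_fin_two, mulVec_fin_two]
    simp only [Φv, Matrix.cons_val_zero, Matrix.cons_val_one, zero_mul, add_zero, zero_add]
    rw [A.Φ₁_S, A.Φ₂_S]
  hs W w ν hk := by
    rw [mulVec_fin_two]
    simp only [sPv, tPv, Matrix.cons_val_zero, Matrix.cons_val_one, zero_mul, add_zero, zero_add]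
    rw [A.sP_S W _ _ ν hk]
    simp
  ht W w ν hk := by
    rw [mulVec_fin_two]
    simp only [sPv, tPv, Matrix.cons_val_zero, Matrix.cons_val_one, zero_mul, add_zero, zero_add]
    rw [A.tP_S W _ _ ν hk]
    simp [sub_eq_neg_add]

/-- the generator `Tm` -/
theorem symZ_M : A.SymZ !![A.m₁₁, A.m₁₂; A.m₂₁, A.m₂₂] !![0, -1; 1, 0] where
  hH w := by
    rw [mulVec_fin_two]
    simp only [Hv, Matrix.cons_val_zero, Matrix.cons_val_one]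
    exact A.H_M _ _
  hT w := by
    rw [mulVec_fin_two]
    simp only [Tv, Matrix.cons_val_zero, Matrix.cons_val_one]
    exact A.T_M _ _
  hΦ w := by
    rw [mulVec_fin_two, mulVec_fin_two]
    simp only [Φv, Matrix.cons_val_zero, Matrix.cons_val_one]
    rw [A.Φ₁_M, A.Φ₂_M]
  hs W w ν hk := by
    rw [mulVec_fin_two]
    simp only [sPv, tPv, Matrix.cons_val_zero, Matrix.cons_val_one]
    rw [A.sP_M W _ _ ν hk]
    simp
  ht W w ν hk := by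
    rw [mulVec_fin_two]
    simp only [sPv, tPv, Matrix.cons_val_zero, Matrix.cons_val_one]
    rw [A.tP_M W _ _ ν hk]
    simp

/-- the submonoid of `SL₂(ℤ)` of integer matrices realised by symmetries -/
def symSubmonoid : Submonoid (SpecialLinearGroup (Fin 2) ℤ) where
  carrier := {X | ∃ B, A.SymZ B X.1}
  one_mem' := ⟨1, SymZ.one⟩
  mul_mem' := by
    rintro X X' ⟨B, hB⟩ ⟨B', hB'⟩
    exact ⟨B' * B, hB'.mul hB⟩

theorem map_slU (f : ℤ →+* ZMod 5) (x : ℤ) :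
    SpecialLinearGroup.map f (slU x) = slU (f x) := by
  ext i j
  fin_cases i <;> fin_cases j <;> simp [slU, SpecialLinearGroup.map]

theorem map_slJ' (f : ℤ →+* ZMod 5) :
    SpecialLinearGroup.map f (slJ' : SpecialLinearGroup (Fin 2) ℤ) = slJ' := by
  ext i j
  fin_cases i <;> fin_cases j <;> simp [slJ', SpecialLinearGroup.map]

theorem symSubmonoid_map_eq_top :
    (A.symSubmonoid).map (SpecialLinearGroup.map (Int.castRingHom (ZMod 5))) = ⊤ := by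
  have hU : (slU (-1) : SpecialLinearGroup (Fin 2) ℤ) ∈ A.symSubmonoid :=
    ⟨_, by
      have := A.symZ_S
      simpa [slU] using this⟩
  have hJ' : (slJ' : SpecialLinearGroup (Fin 2) ℤ) ∈ A.symSubmonoid :=
    ⟨_, by
      have := A.symZ_M
      simpa [slJ'] using this⟩
  have hJ'5 : (slJ' : SpecialLinearGroup (Fin 2) (ZMod 5)) ∈
      (A.symSubmonoid).map (SpecialLinearGroup.map (Int.castRingHom (ZMod 5))) :=
    ⟨_, hJ', map_slJ' _⟩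
  have hJ5 : (slJ : SpecialLinearGroup (Fin 2) (ZMod 5)) ∈
      (A.symSubmonoid).map (SpecialLinearGroup.map (Int.castRingHom (ZMod 5))) := by
    have h1 : (slJ : SpecialLinearGroup (Fin 2) (ZMod 5)) = slJ' ^ 3 := by
      ext i j
      fin_cases i <;> fin_cases j <;>
        simp [slJ, slJ', pow_succ, Matrix.mul_apply, Fin.sum_univ_two]
    rw [h1]
    exact Submonoid.pow_mem _ hJ'5 3
  have hU5 : (slU (-1) : SpecialLinearGroup (Fin 2) (ZMod 5)) ∈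
      (A.symSubmonoid).map (SpecialLinearGroup.map (Int.castRingHom (ZMod 5))) :=
    ⟨_, hU, by rw [map_slU]; simp⟩
  have hne : (-1 : ZMod 5) ≠ 0 := by decide
  haveI : Fact (Nat.Prime 5) := ⟨by norm_num⟩
  exact sl2_zmod_submonoid_eq_top' _ hJ5 (c := (-1 : ZMod 5)) hne hU5

/-- **[SYM]**: every integer matrix of determinant `≡ 1 mod 5` is congruent mod `5` to the matrix
of a symmetry. -/
theorem exists_symZ (x₁ x₂ y₁ y₂ : ℤ) (hdet : (5 : ℤ) ∣ x₁ * y₂ - x₂ * y₁ - 1) :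
    ∃ (B : Matrix (Fin 2) (Fin 2) Ω) (X : Matrix (Fin 2) (Fin 2) ℤ), A.SymZ B X ∧
      (5 : ℤ) ∣ X 0 0 - x₁ ∧ (5 : ℤ) ∣ X 0 1 - x₂ ∧ (5 : ℤ) ∣ X 1 0 - y₁ ∧ (5 : ℤ) ∣ X 1 1 - y₂ := by
  have hd : ((x₁ : ZMod 5) * y₂ - x₂ * y₁ : ZMod 5) = 1 := by
    have h1 : ((x₁ * y₂ - x₂ * y₁ - 1 : ℤ) : ZMod 5) = 0 :=
      (ZMod.intCast_zmod_eq_zero_iff_dvd _ 5).2 hdet
    push_cast at h1
    linear_combination h1
  let M : SpecialLinearGroup (Fin 2) (ZMod 5) :=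
    ⟨!![(x₁ : ZMod 5), x₂; y₁, y₂], by rw [Matrix.det_fin_two_of]; exact hd⟩
  have hM : M ∈ (A.symSubmonoid).map (SpecialLinearGroup.map (Int.castRingHom (ZMod 5))) := by
    rw [A.symSubmonoid_map_eq_top]; trivial
  obtain ⟨X, ⟨B, hB⟩, hXM⟩ := hM
  have hent : ∀ i j, ((X.1 i j : ℤ) : ZMod 5) = M.1 i j := by
    intro i j
    have := congrArg (fun N : SpecialLinearGroup (Fin 2) (ZMod 5) => N.1 i j) hXM
    simpa [SpecialLinearGroup.map] using this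
  have hdvd : ∀ (a b : ℤ), ((a : ℤ) : ZMod 5) = (b : ZMod 5) → (5 : ℤ) ∣ a - b := by
    intro a b h
    have h1 : ((a - b : ℤ) : ZMod 5) = 0 := by push_cast; rw [h]; ring
    exact (ZMod.intCast_zmod_eq_zero_iff_dvd _ 5).1 h1
  refine ⟨B, X.1, hB, hdvd _ _ ?_, hdvd _ _ ?_, hdvd _ _ ?_, hdvd _ _ ?_⟩
  · simpa [M] using hent 0 0
  · simpa [M] using hent 0 1
  · simpa [M] using hent 1 0
  · simpa [M] using hent 1 1

end KleinAbs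

end Fermat.Agent.S52x
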