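import Fermat.Agent.S52x.KALG_helper4_Defs

/-!
# [UNIV] Universality of Klein's icosahedral family

Over an algebraically closed field of characteristic zero, every short Weierstrass curve
`y² = x³ − 27 c₄ x − 54 c₆` with `c₄ c₆ (c₄³ − c₆²) ≠ 0` is a scaled fibre of Klein's family:
there are `u` and `ν ≠ 0` with `f(u,1) ≠ 0`, `−H(u,1) = ν⁴ c₄`, `−T(u,1) = ν⁶ c₆`.
-/

namespace Fermat.Agent.S52x

open Polynomial

theorem kleinH_eq_of_root {K : Type*} [CommRing K] (u : K) :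
    kleinH u 1 = -3125 * u ^ 10 + (u ^ 10 + 11 * u ^ 5 - 1) * (-u ^ 10 + 239 * u ^ 5 + 1) := by
  unfold kleinH
  ring

/-- the degree 60 polynomial whose roots give the parameter. -/
noncomputable def univPoly {k : Type*} [Field k] (c₄ c₆ : k) : k[X] :=
  (-(X ^ 20 + 1) + 228 * (X ^ 15 - X ^ 5) - 494 * X ^ 10) ^ 3 * C (c₆ ^ 2) +
    ((X ^ 30 + 1) + 522 * (X ^ 25 - X ^ 5) - 10005 * (X ^ 20 + X ^ 10)) ^ 2 * C (c₄ ^ 3)

theorem univPoly_natDegree {k : Type*} [Field k] (c₄ c₆ : k) (hΔ : c₄ ^ 3 - c₆ ^ 2 ≠ 0) :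
    (univPoly c₄ c₆).natDegree = 60 := by
  unfold univPoly
  compute_degree!
  intro h
  apply hΔ
  simp [Polynomial.coeff_one] at h
  linear_combination h

theorem univPoly_eval {k : Type*} [Field k] (c₄ c₆ u : k) :
    (univPoly c₄ c₆).eval u = kleinH u 1 ^ 3 * c₆ ^ 2 + kleinT u 1 ^ 2 * c₄ ^ 3 := by
  unfold univPoly kleinH kleinT
  simp only [eval_add, eval_mul, eval_pow, eval_sub, eval_neg, eval_X, eval_C, eval_one,
    eval_ofNat]
  ring

/-- `H ≠ 0` at the zeros of `f` (characteristic zero). -/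
theorem kleinH_ne_zero_of_kleinF_eq_zero {k : Type*} [Field k] [CharZero k] (u : k)
    (hf : kleinF u 1 = 0) : kleinH u 1 ≠ 0 := by
  unfold kleinF at hf
  simp only [one_pow, mul_one] at hf
  rcases mul_eq_zero.mp hf with h0 | h1
  · rw [h0]; unfold kleinH; norm_num
  · rw [kleinH_eq_of_root, h1, zero_mul, add_zero]
    have hu : u ≠ 0 := by
      rintro rfl
      norm_num at h1
    have : (3125 : k) ≠ 0 := by norm_num
    exact mul_ne_zero (neg_ne_zero.mpr this) (pow_ne_zero _ hu)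

/-- **[UNIV]**: over an algebraically closed field of characteristic zero every elliptic curve
`y² = x³ − 27 c₄ x − 54 c₆` with `c₄ c₆ Δ ≠ 0` is a twist-scaled fibre of Klein's family:
`(−H(w₀), −T(w₀)) = (ν⁴ c₄, ν⁶ c₆)` with `w₀ = (u, 1)`. -/
theorem exists_klein_parameter {k : Type*} [Field k] [IsAlgClosed k] [CharZero k] (c₄ c₆ : k)
    (h4 : c₄ ≠ 0) (h6 : c₆ ≠ 0) (hΔ : c₄ ^ 3 - c₆ ^ 2 ≠ 0) :
    ∃ u ν : k, ν ≠ 0 ∧ kleinF u 1 ≠ 0 ∧ -kleinH u 1 = ν ^ 4 * c₄ ∧ -kleinT u 1 = ν ^ 6 * c₆ := by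
  have hdeg : (univPoly c₄ c₆).degree ≠ 0 := by
    rw [Polynomial.degree_eq_natDegree (by
      intro h0
      have := univPoly_natDegree c₄ c₆ hΔ
      rw [h0, natDegree_zero] at this
      exact absurd this (by norm_num)), univPoly_natDegree c₄ c₆ hΔ]
    norm_num
  obtain ⟨u, hu⟩ := IsAlgClosed.exists_root (univPoly c₄ c₆) hdeg
  rw [IsRoot.def, univPoly_eval] at hu
  set h := kleinH u 1 with hh
  set t := kleinT u 1 with ht
  have hsyz : t ^ 2 + h ^ 3 = 1728 * kleinF u 1 ^ 5 := klein_syzygy u 1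
  have hh0 : h ≠ 0 := by
    intro h0
    have ht0 : t = 0 := by
      rw [h0] at hu
      have : t ^ 2 * c₄ ^ 3 = 0 := by simpa using hu
      rcases mul_eq_zero.mp this with h1 | h1
      · exact pow_eq_zero_iff (by norm_num) |>.mp h1
      · exact absurd (pow_eq_zero_iff (by norm_num) |>.mp h1) h4
    rw [h0, ht0] at hsyz
    have hf0 : kleinF u 1 = 0 := by
      have : (1728 : k) * kleinF u 1 ^ 5 = 0 := by rw [← hsyz]; ring
      rcases mul_eq_zero.mp this with h1 | h1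
      · norm_num at h1
      · exact pow_eq_zero_iff (by norm_num) |>.mp h1
    exact kleinH_ne_zero_of_kleinF_eq_zero u hf0 h0
  have ht0 : t ≠ 0 := by
    intro h0
    rw [h0] at hu
    have : h ^ 3 * c₆ ^ 2 = 0 := by simpa using hu
    rcases mul_eq_zero.mp this with h1 | h1
    · exact hh0 (pow_eq_zero_iff (by norm_num) |>.mp h1)
    · exact h6 (pow_eq_zero_iff (by norm_num) |>.mp h1)
  have hf0 : kleinF u 1 ≠ 0 := by
    intro h0
    rw [h0] at hsyz
    have h1 : t ^ 2 = -h ^ 3 := by linear_combination hsyz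
    rw [h1] at hu
    have : h ^ 3 * (c₆ ^ 2 - c₄ ^ 3) = 0 := by linear_combination hu
    rcases mul_eq_zero.mp this with h2 | h2
    · exact hh0 (pow_eq_zero_iff (by norm_num) |>.mp h2)
    · exact hΔ (by linear_combination -h2)
  -- the scaling factor
  set A : k := -h / c₄ with hA
  set B : k := -t / c₆ with hB
  have hA0 : A ≠ 0 := div_ne_zero (neg_ne_zero.mpr hh0) h4
  have hB0 : B ≠ 0 := div_ne_zero (neg_ne_zero.mpr ht0) h6
  have hAB : A ^ 3 = B ^ 2 := by
    rw [hA, hB]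
    field_simp
    linear_combination -hu
  obtain ⟨μ, hμ⟩ := IsAlgClosed.exists_pow_nat_eq (B / A) (n := 2) (by norm_num)
  have hμ0 : μ ≠ 0 := by
    rintro rfl
    rw [zero_pow (by norm_num)] at hμ
    exact div_ne_zero hB0 hA0 hμ.symm
  have hμ4 : μ ^ 4 = A := by
    have : μ ^ 4 = (μ ^ 2) ^ 2 := by ring
    rw [this, hμ, div_pow, ← hAB]
    field_simp
  have hμ6 : μ ^ 6 = B := by
    have : μ ^ 6 = (μ ^ 2) ^ 3 := by ring
    rw [this, hμ, div_pow, hAB]
    field_simp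
  refine ⟨u, μ, hμ0, hf0, ?_, ?_⟩
  · rw [hμ4, hA]; field_simp; rw [hh]
  · rw [hμ6, hB]; field_simp; rw [ht]

end Fermat.Agent.S52x
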