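/-
PROJECT S52 (3–5 switch), package [ABS] (helper7), part 2: the instantiation of helper9's abstract
interface `KleinAbs` by Klein's forms `kleinH`, `kleinT`, `kleinF`, the covariant
`Φ = (kleinFv, −kleinFu)`, and the sections `kleinSpt`, `kleinTpt`.
-/
import Mathlib
import Fermat.Prelude.Def_FLTPrelim_GaloisRep
import Fermat.Agent.S52x.ABS_helper7_Alg
import Fermat.Agent.S52x.ABS_helper7_SInv
import Fermat.Agent.S52x.ABS_helper7_PhiM
import Fermat.Agent.S52x.ABS_helper7_Indep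
import Fermat.Agent.S52x.KPTS_helper7_Galois
import Fermat.Agent.S52x.KPTS_helper5_Chord
import Fermat.Agent.S52x.KPTS_helper5_Act
import Fermat.Agent.S52x.KPTS_helper5_Ord
import Fermat.Agent.S52x.KPTS_helper5_Tm
import Fermat.Agent.S52x.KPTS_helper5_TmPts
import Fermat.Agent.S52x.RIGID_helper4_Main
import Fermat.Agent.S52x.UNIV_helper4_Main
import Fermat.Agent.S52x.SYM_helper9_Abs

set_option autoImplicit false

namespace Fermat.Agent.S52x

open WeierstrassCurve WeierstrassCurve.Affine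
open scoped WeierstrassCurve.Affine

/-- `Ω = AlgebraicClosure ℚ`. -/
local notation "Ω" => AlgebraicClosure ℚ
/-- `GQ = Gal(Ω/ℚ)`. -/
local notation "GQ" => (AlgebraicClosure ℚ ≃ₐ[ℚ] AlgebraicClosure ℚ)

theorem kleinCurve_of_kCond {W : WeierstrassCurve Ω} {u v ν : Ω}
    (h : KCond kleinH kleinT kleinF W u v ν) : KleinCurve W u v ν :=
  ⟨h.1, h.2.1, h.2.2.1, h.2.2.2.1, h.2.2.2.2.1, h.2.2.2.2.2.1, h.2.2.2.2.2.2⟩

section rigid

variable {k : Type*} [Field k] [CharZero k] [DecidableEq k]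

/-- **rigidity, point form** (from helper4's `klein_rigid'` and the coordinates of the sections) -/
theorem klein_rigid_pts (ζ : k) (hζ : ζ ^ 4 + ζ ^ 3 + ζ ^ 2 + ζ + 1 = 0) (W : WeierstrassCurve k)
    (u v ν u' v' ν' : k) (h : KleinCurve W u v ν) (h' : KleinCurve W u' v' ν')
    (es : kleinSpt W ζ u' v' ν' = kleinSpt W ζ u v ν)
    (et : kleinTpt W u' v' ν' = kleinTpt W u v ν) :
    ∃ κ : k, κ ^ 5 * ν = ν' ∧ u' = κ * u ∧ v' = κ * v := by
  rw [h.act_kleinSpt_eq_some ζ hζ, h'.act_kleinSpt_eq_some ζ hζ, Point.some.injEq] at es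
  rw [h.act_kleinTpt_eq_some, h'.act_kleinTpt_eq_some, Point.some.injEq] at et
  obtain ⟨ex, ey⟩ := es
  obtain ⟨fx, -⟩ := et
  have hν := h.hν
  have hν' := h'.hν
  have hlam : ν' / ν ≠ 0 := div_ne_zero hν' hν
  have hH : kleinH u' v' = (ν' / ν) ^ 4 * kleinH u v := by
    have h4 := h.a₄
    have h4' := h'.a₄
    have h27 : (27 : k) ≠ 0 := by norm_num
    have : (27 : k) * kleinH u' v' = 27 * ((ν' / ν) ^ 4 * kleinH u v) := by
      rw [← h4', mul_left_comm, ← h4]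
      field_simp
    exact mul_left_cancel₀ h27 this
  have hXs : kleinXs ζ u' v' = (ν' / ν) ^ 2 * kleinXs ζ u v := by
    field_simp at ex ⊢
    linear_combination ex
  have hYs : kleinYs ζ u' v' = (ν' / ν) ^ 3 * kleinYs ζ u v := by
    field_simp at ey ⊢
    linear_combination ey
  have hXt : kleinXt u' v' = (ν' / ν) ^ 2 * kleinXt u v := by
    field_simp at fx ⊢
    linear_combination fx
  obtain ⟨κ, hκ, hu, hv⟩ := klein_rigid' ζ hζ u v u' v' (ν' / ν) h.hf hlam hH hXs hYs hXt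
  refine ⟨κ, ?_, hu, hv⟩
  rw [hκ]
  field_simp

/-- (K5a), final form: change of the fifth root of unity. -/
theorem KleinCurve.kleinSpt_pow {W : WeierstrassCurve k} {u v ν : k} (h : KleinCurve W u v ν)
    (ζ : k) (hζ : ζ ^ 4 + ζ ^ 3 + ζ ^ 2 + ζ + 1 = 0) (e : ℕ) (he : ¬ 5 ∣ e) :
    kleinSpt W (ζ ^ e) u v ν = e • kleinSpt W ζ u v ν :=
  kleinSpt_pow_of_two_nsmul W u v ν (fun ξ hξ => h.act_two_nsmul_kleinSpt ξ hξ)
    (fun ξ hξ => h.act_five_nsmul_kleinSpt ξ hξ) hζ e he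

/-- **independence** of the two sections, given that `t₀` is `5`-torsion. -/
theorem KleinCurve.indep_of_five_nsmul_kleinTpt {W : WeierstrassCurve k} {u v ν : k}
    (h : KleinCurve W u v ν) (ζ : k) (hζ : ζ ^ 4 + ζ ^ 3 + ζ ^ 2 + ζ + 1 = 0)
    (h5t : 5 • kleinTpt W u v ν = 0) (x y : ℤ)
    (hxy : x • kleinSpt W ζ u v ν + y • kleinTpt W u v ν = 0) : (5 : ℤ) ∣ x ∧ (5 : ℤ) ∣ y := by
  refine indep_of_ne_nsmul (kleinSpt W ζ u v ν) (kleinTpt W u v ν)
    (h.act_five_nsmul_kleinSpt ζ hζ) h5t (h.act_kleinSpt_ne_zero ζ hζ) ?_ x y hxy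
  intro j hj
  rcases Nat.eq_zero_or_pos j with rfl | hj0
  · rw [zero_smul]
    exact h.act_kleinTpt_ne_zero
  · have hj5 : ¬ 5 ∣ j := fun hd => absurd (Nat.le_of_dvd hj0 hd) (by omega)
    rw [← h.kleinSpt_pow ζ hζ j hj5, h.act_kleinTpt_eq_some,
      h.act_kleinSpt_eq_some (ζ ^ j) (phi5_pow hζ j hj5)]
    intro heq
    rw [Point.some.injEq] at heq
    have hx := heq.1
    have hν2 : ν ^ 2 ≠ 0 := pow_ne_zero _ h.hν
    rw [div_left_inj' hν2] at hx
    exact act_kleinXt_ne_kleinXs (ζ ^ j) u v (phi5_pow hζ j hj5) h.hf hx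

end rigid

section gal

/-- (K5a)+(K5b): Galois action on `s₀` for a curve over `ℚ`. -/
theorem smul_kleinSpt_eq_nsmul (E : WeierstrassCurve ℚ) (σ : GQ) (e : ℕ) (ζ u v ν : Ω)
    (hζ : ζ ^ 4 + ζ ^ 3 + ζ ^ 2 + ζ + 1 = 0) (he : σ ζ = ζ ^ e)
    (h : KleinCurve (E.baseChange Ω) u v ν) :
    σ • (kleinSpt (E⁄Ω) ζ u v ν : (E⁄Ω).Point) = e • kleinSpt (E⁄Ω) ζ (σ u) (σ v) (σ ν) := by
  have hK : KleinCurve (E⁄Ω) (σ u) (σ v) (σ ν) := h.gal (S := ℚ) (W' := E) σ
  rw [smul_kleinSpt, he]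
  exact hK.kleinSpt_pow ζ hζ e (not_five_dvd_of_map_eq_pow σ hζ he)

end gal

section assemble

/-- **The instantiation of `KleinAbs`** attached to a primitive fifth root of unity `ζ`. -/
noncomputable def kleinAbsOf (ζ : Ω) (hζ : IsPrimitiveRoot ζ 5) : KleinAbs :=
  have hφ : ζ ^ 4 + ζ ^ 3 + ζ ^ 2 + ζ + 1 = 0 := phi5_of_isPrimitiveRoot hζ
  have h1 : ζ ^ 5 = 1 := hζ.pow_eq_one
  have hTu : ∀ u v : Ω, -kleinA ζ / kleinR ζ * u + kleinB ζ / kleinR ζ * v = kleinTu ζ u v := by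
    intro u v; unfold kleinTu; ring
  have hTv : ∀ u v : Ω, kleinB ζ / kleinR ζ * u + kleinA ζ / kleinR ζ * v = kleinTv ζ u v := by
    intro u v; unfold kleinTv; ring
  { ζ := ζ
    hζ := hζ
    H := kleinH
    T := kleinT
    F := kleinF
    Φ₁ := kleinFv
    Φ₂ := fun u v => -kleinFu u v
    H_gal := fun σ u v => map_kleinH σ u v
    T_gal := fun σ u v => map_kleinT σ u v
    Φ₁_gal := fun σ u v => map_kleinFv σ u v
    Φ₂_gal := fun σ u v => by rw [map_neg, map_kleinFu]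
    H_hom := kleinH_scale
    T_hom := kleinT_scale
    Φ₁_hom := kleinFv_scale
    Φ₂_hom := fun l u v => by rw [kleinFu_scale]; ring
    H_poly := exists_poly_kleinH
    T_poly := exists_poly_kleinT
    syz := klein_syzygy
    euler := klein_euler_cov
    nozero := klein_nozero
    T_cm := kleinT_cm
    sP := fun W u v ν => kleinSpt W ζ u v ν
    tP := fun W u v ν => kleinTpt W u v ν
    five_s := fun W u v ν h => (kleinCurve_of_kCond h).act_five_nsmul_kleinSpt ζ hφ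
    five_t := fun W u v ν h => (kleinCurve_of_kCond h).act_five_nsmul_kleinTpt ζ hφ
    indep := fun W u v ν h => (kleinCurve_of_kCond h).indep_of_five_nsmul_kleinTpt ζ hφ
      ((kleinCurve_of_kCond h).act_five_nsmul_kleinTpt ζ hφ)
    s₁ := ζ ^ 3
    s₂ := ζ ^ 2
    H_S := fun u v => abs_kleinH_S ζ u v h1
    T_S := fun u v => abs_kleinT_S ζ u v h1
    Φ₁_S := fun u v => abs_kleinFv_S ζ u v h1
    Φ₂_S := fun u v => by
      have := abs_kleinFu_S ζ u v h1
      unfold kleinSu kleinSv at this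
      rw [this]; ring
    sP_S := fun W u v ν _ => kleinSpt_S W ζ u v ν hφ
    tP_S := fun W u v ν h => kleinTpt_S (kleinCurve_of_kCond h) ζ hφ
    m₁₁ := -kleinA ζ / kleinR ζ
    m₁₂ := kleinB ζ / kleinR ζ
    m₂₁ := kleinB ζ / kleinR ζ
    m₂₂ := kleinA ζ / kleinR ζ
    H_M := fun u v => by rw [hTu, hTv]; exact act_kleinH_Tm ζ u v hφ
    T_M := fun u v => by rw [hTu, hTv]; exact act_kleinT_Tm ζ u v hφ
    Φ₁_M := fun u v => by rw [hTu, hTv]; exact abs_kleinFv_Tm ζ u v hφ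
    Φ₂_M := fun u v => by rw [hTu, hTv]; exact abs_kleinFu_Tm ζ u v hφ
    sP_M := fun W u v ν _ => by rw [hTu, hTv]; exact kleinSpt_Tm W ζ u v ν hφ
    tP_M := fun W u v ν h => by rw [hTu, hTv]; exact kleinTpt_Tm (kleinCurve_of_kCond h) ζ hφ
    sP_scale := fun W u v ν l _ hl => kleinSpt_scale W ζ u v ν hl
    tP_scale := fun W u v ν l _ hl => kleinTpt_scale W u v ν hl
    sP_gal := fun E σ e u v ν he h =>
      smul_kleinSpt_eq_nsmul E σ e ζ u v ν hφ he (kleinCurve_of_kCond h)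
    tP_gal := fun E σ u v ν _ => smul_kleinTpt E σ u v ν
    rigid := fun W u v ν u' v' ν' h h' es et =>
      klein_rigid_pts ζ hφ W u v ν u' v' ν' (kleinCurve_of_kCond h) (kleinCurve_of_kCond h') es et
    univ := fun c4 c6 h4 h6 hne => by
      have hne' : (algebraMap ℚ Ω c4) ^ 3 - (algebraMap ℚ Ω c6) ^ 2 ≠ 0 := by
        rw [← map_pow, ← map_pow, ← map_sub]
        intro h0
        exact hne (sub_eq_zero.mp ((map_eq_zero_iff _ (algebraMap ℚ Ω).injective).mp h0))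
      exact exists_klein_parameter (algebraMap ℚ Ω c4) (algebraMap ℚ Ω c6)
        ((map_ne_zero_iff _ (algebraMap ℚ Ω).injective).mpr h4)
        ((map_ne_zero_iff _ (algebraMap ℚ Ω).injective).mpr h6) hne' }

/-- a primitive fifth root of unity in `Ω` -/
theorem exists_primitiveRoot_five : ∃ ζ : Ω, IsPrimitiveRoot ζ 5 :=
  HasEnoughRootsOfUnity.exists_primitiveRoot Ω 5

/-- **`kleinAbs : KleinAbs`** — Klein's icosahedral family satisfies helper9's abstract interface. -/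
noncomputable def kleinAbs : KleinAbs :=
  kleinAbsOf (Classical.choose exists_primitiveRoot_five)
    (Classical.choose_spec exists_primitiveRoot_five)

end assemble

end Fermat.Agent.S52x
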