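/-
S52 / package [DESC] (helper9): rationality of a polynomial over `ℚ̄` with Galois-invariant values
at rational points.  Mathlib only.
-/
import Mathlib

set_option autoImplicit false
set_option linter.style.haveILetI false

namespace Fermat.Agent.S52x

open Polynomial

/-- `Ω = AlgebraicClosure ℚ`. -/
local notation "Ω" => AlgebraicClosure ℚ
/-- `GQ = Gal(Ω/ℚ)`. -/
local notation "GQ" => (AlgebraicClosure ℚ ≃ₐ[ℚ] AlgebraicClosure ℚ)

/-- An element of `ℚ̄` fixed by the whole Galois group is rational. -/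
theorem exists_rat_of_fixed (x : Ω) (h : ∀ σ : GQ, σ x = x) : ∃ q : ℚ, algebraMap ℚ Ω q = x := by
  haveI : Algebra.IsAlgebraic ℚ Ω := AlgebraicClosure.isAlgebraic ℚ
  haveI : IsAlgClosure ℚ Ω := ⟨inferInstance, inferInstance⟩
  haveI : IsGalois ℚ Ω := IsAlgClosure.isGalois ℚ Ω
  exact (InfiniteGalois.mem_range_algebraMap_iff_fixed (k := ℚ) (K := Ω) x).2 h

/-- A polynomial over `ℚ̄` all of whose values at rational points are fixed by `σ` has
coefficients fixed by `σ`. -/
theorem coeff_fixed_of_eval_fixed (p : Polynomial Ω) (σ : GQ)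
    (h : ∀ t : ℚ, σ (p.eval (algebraMap ℚ Ω t)) = p.eval (algebraMap ℚ Ω t)) (n : ℕ) :
    σ (p.coeff n) = p.coeff n := by
  have hmap : p.map (σ : Ω →+* Ω) = p := by
    apply Polynomial.eq_of_infinite_eval_eq
    have hsub : Set.range (algebraMap ℚ Ω) ⊆
        {x | eval x (p.map (σ : Ω →+* Ω)) = eval x p} := by
      rintro _ ⟨t, rfl⟩
      have h1 : (p.map (σ : Ω →+* Ω)).eval ((σ : Ω →+* Ω) (algebraMap ℚ Ω t))
          = (σ : Ω →+* Ω) (p.eval (algebraMap ℚ Ω t)) := by
        rw [Polynomial.eval_map, Polynomial.eval₂_at_apply]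
      have h2 : (σ : Ω →+* Ω) (algebraMap ℚ Ω t) = algebraMap ℚ Ω t := σ.commutes t
      rw [h2] at h1
      show eval (algebraMap ℚ Ω t) (p.map (σ : Ω →+* Ω)) = eval (algebraMap ℚ Ω t) p
      rw [h1]
      exact h t
    exact (Set.infinite_range_of_injective (algebraMap ℚ Ω).injective).mono hsub
  have := congrArg (fun q : Polynomial Ω => q.coeff n) hmap
  simpa [Polynomial.coeff_map] using this

/-- **Rational descent of polynomials**: a polynomial over `ℚ̄` whose values at rational points are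
Galois-invariant comes from `ℚ[X]`. -/
theorem exists_rat_poly_of_eval_fixed (p : Polynomial Ω)
    (h : ∀ (σ : GQ) (t : ℚ), σ (p.eval (algebraMap ℚ Ω t)) = p.eval (algebraMap ℚ Ω t)) :
    ∃ q : ℚ[X], q.map (algebraMap ℚ Ω) = p := by
  have hc : ∀ n, ∃ c : ℚ, algebraMap ℚ Ω c = p.coeff n := fun n =>
    exists_rat_of_fixed _ (fun σ => coeff_fixed_of_eval_fixed p σ (h σ) n)
  choose c hc using hc
  refine ⟨∑ n ∈ Finset.range (p.natDegree + 1), Polynomial.monomial n (c n), ?_⟩
  rw [Polynomial.map_sum]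
  conv_rhs => rw [p.as_sum_range]
  refine Finset.sum_congr rfl (fun n _ => ?_)
  rw [Polynomial.map_monomial, hc]

/-- Coprimality over `ℚ` from the absence of common roots in `ℚ̄`. -/
theorem isCoprime_of_no_common_root (P Q : ℚ[X])
    (h : ∀ x : Ω, aeval x P = 0 → aeval x Q = 0 → False) : IsCoprime P Q := by
  refine (Polynomial.isCoprime_iff_aeval_ne_zero_of_isAlgClosed (k := ℚ) Ω P Q).2 ?_
  intro a
  by_contra hcon
  have h1 : aeval a P = 0 := by
    by_contra h1
    exact hcon (Or.inl h1)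
  have h2 : aeval a Q = 0 := by
    by_contra h2
    exact hcon (Or.inr h2)
  exact h a h1 h2

end Fermat.Agent.S52x
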