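import Mathlib
import Fermat.Agent.Tate.VC_helper7_Galois

/-!
# S52 [MODEL] glue (helper8): curves with the same `c₄, c₆` are isomorphic

Over a field in which `6` is invertible every Weierstrass curve `E` is isomorphic, by an explicit change
of variables, to the short curve `Y² = X³ - 27 c₄ X - 54 c₆`; hence two curves with the same `c₄` and
`c₆` differ by a change of variables.
-/

set_option autoImplicit false

namespace Fermat.Agent.S52x

open WeierstrassCurve

variable {F : Type*} [Field F]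

/-- The short Weierstrass curve `Y² = X³ - 27 c₄ X - 54 c₆`. -/
def shortCurve (c4 c6 : F) : WeierstrassCurve F := ⟨0, 0, 0, -27 * c4, -54 * c6⟩

@[simp] theorem shortCurve_a₁ (c4 c6 : F) : (shortCurve c4 c6).a₁ = 0 := rfl
@[simp] theorem shortCurve_a₂ (c4 c6 : F) : (shortCurve c4 c6).a₂ = 0 := rfl
@[simp] theorem shortCurve_a₃ (c4 c6 : F) : (shortCurve c4 c6).a₃ = 0 := rfl
@[simp] theorem shortCurve_a₄ (c4 c6 : F) : (shortCurve c4 c6).a₄ = -27 * c4 := rfl
@[simp] theorem shortCurve_a₆ (c4 c6 : F) : (shortCurve c4 c6).a₆ = -54 * c6 := rfl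

theorem shortCurve_c₄ (c4 c6 : F) : (shortCurve c4 c6).c₄ = 6 ^ 4 * c4 := by
  simp only [WeierstrassCurve.c₄, WeierstrassCurve.b₂, WeierstrassCurve.b₄, shortCurve_a₁,
    shortCurve_a₂, shortCurve_a₃, shortCurve_a₄]
  ring

theorem shortCurve_c₆ (c4 c6 : F) : (shortCurve c4 c6).c₆ = 6 ^ 6 * c6 := by
  simp only [WeierstrassCurve.c₆, WeierstrassCurve.b₂, WeierstrassCurve.b₄, WeierstrassCurve.b₆,
    shortCurve_a₁, shortCurve_a₂, shortCurve_a₃, shortCurve_a₄, shortCurve_a₆]
  ring

theorem shortCurve_Δ (c4 c6 : F) : (shortCurve c4 c6).Δ = 1259712 * (c4 ^ 3 - c6 ^ 2) := by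
  simp only [WeierstrassCurve.Δ, WeierstrassCurve.b₂, WeierstrassCurve.b₄, WeierstrassCurve.b₆,
    WeierstrassCurve.b₈, shortCurve_a₁, shortCurve_a₂, shortCurve_a₃, shortCurve_a₄, shortCurve_a₆]
  ring

/-- The change of variables bringing `E` to its short form. -/
noncomputable def toShortVC (h6 : (6 : F) ≠ 0) (E : WeierstrassCurve F) : VariableChange F :=
  { u := Units.mk0 (6 : F)⁻¹ (inv_ne_zero h6)
    r := -E.b₂ / 12
    s := -E.a₁ / 2
    t := -(E.a₃ + (-E.b₂ / 12) * E.a₁) / 2 }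

theorem toShortVC_smul (h6 : (6 : F) ≠ 0) (E : WeierstrassCurve F) :
    toShortVC h6 E • E = shortCurve E.c₄ E.c₆ := by
  have h2 : (2 : F) ≠ 0 := fun h => h6 (by
    have : (6 : F) = 2 * 3 := by norm_num
    rw [this, h, zero_mul])
  have h12 : (12 : F) ≠ 0 := by
    have : (12 : F) = 2 * 6 := by norm_num
    rw [this]; exact mul_ne_zero h2 h6
  have hu : ((toShortVC h6 E).u⁻¹ : Fˣ) = Units.mk0 (6 : F) h6 := by
    ext
    simp [toShortVC]
  ext
  · rw [variableChange_a₁, hu]
    simp only [toShortVC, Units.val_mk0, shortCurve_a₁]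
    field_simp
    ring
  · rw [variableChange_a₂, hu]
    simp only [toShortVC, Units.val_mk0, shortCurve_a₂, WeierstrassCurve.b₂]
    field_simp
    ring
  · rw [variableChange_a₃, hu]
    simp only [toShortVC, Units.val_mk0, shortCurve_a₃, WeierstrassCurve.b₂]
    field_simp
    ring
  · rw [variableChange_a₄, hu]
    simp only [toShortVC, Units.val_mk0, shortCurve_a₄, WeierstrassCurve.c₄, WeierstrassCurve.b₂,
      WeierstrassCurve.b₄]
    field_simp
    ring
  · rw [variableChange_a₆, hu]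
    simp only [toShortVC, Units.val_mk0, shortCurve_a₆, WeierstrassCurve.c₆, WeierstrassCurve.b₂,
      WeierstrassCurve.b₄, WeierstrassCurve.b₆]
    field_simp
    ring

/-- Two curves with the same `c₄` and `c₆` differ by a change of variables. -/
theorem exists_variableChange_of_c_eq (h6 : (6 : F) ≠ 0) (E₁ E₂ : WeierstrassCurve F)
    (h4 : E₁.c₄ = E₂.c₄) (h6' : E₁.c₆ = E₂.c₆) : ∃ C : VariableChange F, C • E₁ = E₂ := by
  refine ⟨(toShortVC h6 E₂)⁻¹ * toShortVC h6 E₁, ?_⟩
  rw [mul_smul, toShortVC_smul, h4, h6', ← toShortVC_smul h6 E₂, inv_smul_smul]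

end Fermat.Agent.S52x
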