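/-
S52 / package [DESC] (helper9), abstract layer: "Theorem A" for an abstract Klein family
`A : KleinAbs`.  For a curve `E : y² = x³ - 27 c₄ x - 54 c₆` over `ℚ` we construct a one-parameter
family `E_t : y² = x³ - 27 P4(t) x - 54 P6(t)` (`P4, P6 ∈ ℚ[t]`, `E_0 = E`) such that `E_t[5]` has a
basis on which `Gal(ℚ̄/ℚ)` acts by the same matrices as on a fixed basis of `E[5]`.

The second Galois-semi-invariant vector is explicit: `e = ν⁻² Φ(w₀)` (`Φ = (F_v, -F_u)` the covariant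
of degree `11`), so no Hilbert 90 is needed.
-/
import Mathlib
import Fermat.Prelude.Def_FLTPrelim_GaloisRep
import Fermat.Agent.S52x.SYM_helper9_Abs
import Fermat.Agent.S52x.DESC_helper9_Rat
import Fermat.Agent.S52x.MODEL_helper8_VC

set_option autoImplicit false
set_option linter.style.haveILetI false

namespace Fermat.Agent.S52x

open WeierstrassCurve WeierstrassCurve.Affine Matrix Polynomial
open scoped WeierstrassCurve.Affine

/-- `Ω = AlgebraicClosure ℚ`. -/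
local notation "Ω" => AlgebraicClosure ℚ
/-- `GQ = Gal(Ω/ℚ)`. -/
local notation "GQ" => (AlgebraicClosure ℚ ≃ₐ[ℚ] AlgebraicClosure ℚ)

section Group

variable {G : Type*} [AddCommGroup G]

/-- integer multiples of a `5`-torsion element only depend on the multiplier mod `5`. -/
theorem zsmul_congr_mod_five {P : G} (h5 : (5 : ℕ) • P = 0) {x y : ℤ} (h : (5 : ℤ) ∣ x - y) :
    x • P = y • P := by
  obtain ⟨k, hk⟩ := h
  have h1 : (x - y) • P = 0 := by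
    rw [hk, mul_comm, mul_smul]
    have : (5 : ℤ) • P = 0 := by
      have := h5
      rwa [← natCast_zsmul] at this
    rw [this, smul_zero]
  rw [sub_smul, sub_eq_zero] at h1
  exact h1

/-- Two independent `5`-torsion elements span the `5`-torsion if it has `25` elements. -/
theorem exists_zsmul_add_of_card (hcard : Nat.card {P : G // (5 : ℕ) • P = 0} = 25) (P Q : G)
    (hP : (5 : ℕ) • P = 0) (hQ : (5 : ℕ) • Q = 0)
    (hind : ∀ x y : ℤ, x • P + y • Q = 0 → (5 : ℤ) ∣ x ∧ (5 : ℤ) ∣ y)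
    (R : G) (hR : (5 : ℕ) • R = 0) : ∃ x y : ℤ, R = x • P + y • Q := by
  let f : ZMod 5 × ZMod 5 → {P : G // (5 : ℕ) • P = 0} := fun z =>
    ⟨(z.1.val : ℤ) • P + (z.2.val : ℤ) • Q, by
      rw [smul_add, smul_comm, smul_comm (5 : ℕ) _ Q, hP, hQ, smul_zero, smul_zero, add_zero]⟩
  have hinj : Function.Injective f := by
    intro z z' hzz
    have h1 : (z.1.val : ℤ) • P + (z.2.val : ℤ) • Q = (z'.1.val : ℤ) • P + (z'.2.val : ℤ) • Q :=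
      congrArg Subtype.val hzz
    have h2 : ((z.1.val : ℤ) - z'.1.val) • P + ((z.2.val : ℤ) - z'.2.val) • Q = 0 := by
      rw [sub_smul, sub_smul]
      have : (z.1.val : ℤ) • P - (z'.1.val : ℤ) • P + ((z.2.val : ℤ) • Q - (z'.2.val : ℤ) • Q)
          = ((z.1.val : ℤ) • P + (z.2.val : ℤ) • Q) - ((z'.1.val : ℤ) • P + (z'.2.val : ℤ) • Q) := by
        abel
      rw [this, h1, sub_self]
    obtain ⟨hx, hy⟩ := hind _ _ h2
    have key : ∀ a b : ZMod 5, (5 : ℤ) ∣ (a.val : ℤ) - b.val → a = b := by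
      intro a b hab
      have h3 : (((a.val : ℤ) - b.val : ℤ) : ZMod 5) = 0 :=
        (ZMod.intCast_zmod_eq_zero_iff_dvd _ 5).2 hab
      push_cast at h3
      rw [ZMod.natCast_zmod_val, ZMod.natCast_zmod_val] at h3
      exact sub_eq_zero.1 h3
    exact Prod.ext (key _ _ hx) (key _ _ hy)
  haveI : Finite {P : G // (5 : ℕ) • P = 0} :=
    Nat.finite_of_card_ne_zero (by rw [hcard]; norm_num)
  have hbij : Function.Bijective f := by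
    apply Function.Injective.bijective_of_nat_card_le hinj
    rw [hcard, Nat.card_eq_fintype_card, Fintype.card_prod, ZMod.card]
  obtain ⟨z, hz⟩ := hbij.2 ⟨R, hR⟩
  exact ⟨z.1.val, z.2.val, (congrArg Subtype.val hz).symm⟩

end Group

/-- the coordinatewise Galois action on vectors -/
noncomputable def gv (σ : GQ) (w : Fin 2 → Ω) : Fin 2 → Ω := fun i => σ (w i)

theorem gv_add (σ : GQ) (w w' : Fin 2 → Ω) : gv σ (w + w') = gv σ w + gv σ w' := by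
  funext i; simp [gv]

theorem gv_smul (σ : GQ) (c : Ω) (w : Fin 2 → Ω) : gv σ (c • w) = σ c • gv σ w := by
  funext i; simp [gv]

namespace KleinAbs

variable (A : KleinAbs)

theorem Hv_gal (σ : GQ) (w : Fin 2 → Ω) : σ (A.Hv w) = A.Hv (gv σ w) := A.H_gal σ _ _
theorem Tv_gal (σ : GQ) (w : Fin 2 → Ω) : σ (A.Tv w) = A.Tv (gv σ w) := A.T_gal σ _ _

theorem Φv_gal (σ : GQ) (w : Fin 2 → Ω) : gv σ (A.Φv w) = A.Φv (gv σ w) := by
  funext i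
  fin_cases i
  · exact A.Φ₁_gal σ _ _
  · exact A.Φ₂_gal σ _ _

theorem Hv_smul (l : Ω) (w : Fin 2 → Ω) : A.Hv (l • w) = l ^ 20 * A.Hv w := A.H_hom l _ _
theorem Tv_smul (l : Ω) (w : Fin 2 → Ω) : A.Tv (l • w) = l ^ 30 * A.Tv w := A.T_hom l _ _

theorem Φv_smul (l : Ω) (w : Fin 2 → Ω) : A.Φv (l • w) = l ^ 11 • A.Φv w := by
  funext i
  fin_cases i
  · exact A.Φ₁_hom l _ _
  · exact A.Φ₂_hom l _ _

/-- The Klein condition is stable under the Galois group, for a curve defined over `ℚ`. -/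
theorem KC_gal (E : WeierstrassCurve ℚ) (σ : GQ) {w : Fin 2 → Ω} {ν : Ω}
    (h : A.KC (E.baseChange Ω) w ν) : A.KC (E.baseChange Ω) (gv σ w) (σ ν) := by
  obtain ⟨h1, h2, h3, h4, h6, hν, hF⟩ := h
  have ha4 : σ ((E.baseChange Ω).a₄) = (E.baseChange Ω).a₄ := σ.commutes E.a₄
  have ha6 : σ ((E.baseChange Ω).a₆) = (E.baseChange Ω).a₆ := σ.commutes E.a₆
  have hH : A.H (gv σ w 0) (gv σ w 1) = σ (A.H (w 0) (w 1)) := (A.H_gal σ _ _).symm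
  have hT : A.T (gv σ w 0) (gv σ w 1) = σ (A.T (w 0) (w 1)) := (A.T_gal σ _ _).symm
  refine ⟨h1, h2, h3, ?_, ?_, ?_, ?_⟩
  · have := congrArg σ h4
    rw [map_mul, map_pow, ha4, map_mul, map_ofNat] at this
    rw [this, hH]
  · have := congrArg σ h6
    rw [map_mul, map_pow, ha6, map_mul, map_ofNat] at this
    rw [this, hT]
  · intro h0
    apply hν
    have : σ ν = σ 0 := by rw [h0, map_zero]
    exact σ.injective this
  · intro h0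
    have hs := A.syz (gv σ w 0) (gv σ w 1)
    rw [h0, hH, hT] at hs
    have hs' := A.syz (w 0) (w 1)
    have h5 : σ (1728 * A.F (w 0) (w 1) ^ 5) = 0 := by
      rw [← hs', map_add, map_pow, map_pow, hs]; ring
    rw [map_eq_zero] at h5
    have h7 : A.F (w 0) (w 1) ^ 5 = 0 := by
      rcases mul_eq_zero.1 h5 with h | h
      · norm_num at h
      · exact h
    exact hF (pow_eq_zero_iff (by norm_num) |>.1 h7)

/-- the exponent of `σ` on fifth roots of unity -/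
theorem exists_cyc (σ : GQ) : ∃ e : ℕ, σ A.ζ = A.ζ ^ e ∧ IsCoprime (5 : ℤ) (e : ℤ) := by
  have h1 : IsPrimitiveRoot (σ A.ζ) 5 := A.hζ.map_of_injective σ.injective
  obtain ⟨e, -, he⟩ := A.hζ.eq_pow_of_pow_eq_one h1.pow_eq_one
  refine ⟨e, he.symm, ?_⟩
  rw [← he] at h1
  have h2 : e.Coprime 5 := (A.hζ.pow_iff_coprime (by norm_num) e).1 h1
  have h3 : IsCoprime ((e : ℕ) : ℤ) ((5 : ℕ) : ℤ) := Nat.isCoprime_iff_coprime.2 h2
  exact h3.symm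

/-- The data attached to `σ`: a symmetry `B` (with integer matrix `X`), a scalar `κ` and the
cyclotomic exponent `e`, such that `σ(w₀) = κ · B w₀`, `σ(ν) = κ⁵ ν`. -/
structure Twist (ν : Ω) (w₀ : Fin 2 → Ω) (σ : GQ) (B : Matrix (Fin 2) (Fin 2) Ω)
    (X : Matrix (Fin 2) (Fin 2) ℤ) (κ : Ω) (e : ℕ) : Prop where
  sym : A.SymZ B X
  cyc : σ A.ζ = A.ζ ^ e
  scal : κ ^ 5 * ν = σ ν
  act : gv σ w₀ = κ • (B *ᵥ w₀)

theorem sPv_gal (E : WeierstrassCurve ℚ) (σ : GQ) (e : ℕ) (he : σ A.ζ = A.ζ ^ e) {w : Fin 2 → Ω}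
    {ν : Ω} (hk : A.KC (E.baseChange Ω) w ν) :
    σ • (A.sPv (E.baseChange Ω) w ν : (E⁄Ω).Point)
      = e • A.sPv (E.baseChange Ω) (gv σ w) (σ ν) :=
  A.sP_gal E σ e _ _ ν he hk

theorem tPv_gal (E : WeierstrassCurve ℚ) (σ : GQ) {w : Fin 2 → Ω} {ν : Ω}
    (hk : A.KC (E.baseChange Ω) w ν) :
    σ • (A.tPv (E.baseChange Ω) w ν : (E⁄Ω).Point) = A.tPv (E.baseChange Ω) (gv σ w) (σ ν) :=
  A.tP_gal E σ _ _ ν hk

theorem sPv_scale {W : WeierstrassCurve Ω} {w : Fin 2 → Ω} {ν l : Ω} (hk : A.KC W w ν)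
    (hl : l ≠ 0) : A.sPv W (l • w) (l ^ 5 * ν) = A.sPv W w ν :=
  A.sP_scale W _ _ ν l hk hl

theorem tPv_scale {W : WeierstrassCurve Ω} {w : Fin 2 → Ω} {ν l : Ω} (hk : A.KC W w ν)
    (hl : l ≠ 0) : A.tPv W (l • w) (l ^ 5 * ν) = A.tPv W w ν :=
  A.tP_scale W _ _ ν l hk hl

/-- `det ρ̄_{E,5}` is the cyclotomic character (hypothesis shape, basis form). -/
def DetCyc (E : WeierstrassCurve ℚ) : Prop :=
  ∀ (P Q : (E⁄Ω).Point), (5 : ℕ) • P = 0 → (5 : ℕ) • Q = 0 →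
    (∀ x y : ℤ, x • P + y • Q = 0 → (5 : ℤ) ∣ x ∧ (5 : ℤ) ∣ y) →
    ∀ (σ : GQ) (a b c d : ℤ), σ • P = a • P + c • Q → σ • Q = b • P + d • Q →
    ∀ (e : ℕ), σ A.ζ = A.ζ ^ e → (5 : ℤ) ∣ a * d - b * c - e

/-- **Key lemma**: for every `σ` there are a symmetry `B`, a scalar `κ` with `σ(w₀) = κ B w₀`. -/
theorem exists_twist (E : WeierstrassCurve ℚ) {w₀ : Fin 2 → Ω} {ν : Ω}
    (hk : A.KC (E.baseChange Ω) w₀ ν)
    (hcard : Nat.card {P : (E⁄Ω).Point // (5 : ℕ) • P = 0} = 25) (hdet : A.DetCyc E) (σ : GQ) :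
    ∃ B X κ e, A.Twist ν w₀ σ B X κ e := by
  obtain ⟨e, he, hcop⟩ := A.exists_cyc σ
  have hkσ := A.KC_gal E σ hk
  have hP : (5 : ℕ) • (A.sPv (E.baseChange Ω) w₀ ν : (E⁄Ω).Point) = 0 := A.five_s _ _ _ ν hk
  have hQ : (5 : ℕ) • (A.tPv (E.baseChange Ω) w₀ ν : (E⁄Ω).Point) = 0 := A.five_t _ _ _ ν hk
  have hPσ : (5 : ℕ) • (A.sPv (E.baseChange Ω) (gv σ w₀) (σ ν) : (E⁄Ω).Point) = 0 :=
    A.five_s _ _ _ _ hkσ
  have hQσ : (5 : ℕ) • (A.tPv (E.baseChange Ω) (gv σ w₀) (σ ν) : (E⁄Ω).Point) = 0 :=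
    A.five_t _ _ _ _ hkσ
  have hind := A.indep _ _ _ ν hk
  obtain ⟨x₁, y₁, h1⟩ := exists_zsmul_add_of_card hcard _ _ hP hQ hind _ hPσ
  obtain ⟨x₂, y₂, h2⟩ := exists_zsmul_add_of_card hcard _ _ hP hQ hind _ hQσ
  have hσP : σ • (A.sPv (E.baseChange Ω) w₀ ν : (E⁄Ω).Point)
      = (e : ℤ) • A.sPv (E.baseChange Ω) (gv σ w₀) (σ ν) := by
    rw [natCast_zsmul]
    exact A.sPv_gal E σ e he hk
  have hσQ : σ • (A.tPv (E.baseChange Ω) w₀ ν : (E⁄Ω).Point)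
      = A.tPv (E.baseChange Ω) (gv σ w₀) (σ ν) := A.tPv_gal E σ hk
  have hd := hdet _ _ hP hQ hind σ ((e : ℤ) * x₁) x₂ ((e : ℤ) * y₁) y₂
    (by rw [hσP, h1]; module) (by rw [hσQ, h2]) e he
  have hdet1 : (5 : ℤ) ∣ x₁ * y₂ - x₂ * y₁ - 1 := by
    apply hcop.dvd_of_dvd_mul_left
    have : (e : ℤ) * (x₁ * y₂ - x₂ * y₁ - 1) = (e : ℤ) * x₁ * y₂ - x₂ * ((e : ℤ) * y₁) - e := by ring
    rw [this]
    exact hd
  obtain ⟨B, X, hsym, c00, c01, c10, c11⟩ := A.exists_symZ x₁ x₂ y₁ y₂ hdet1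
  have hkB := hsym.kc hk
  have hs : A.sPv (E.baseChange Ω) (B *ᵥ w₀) ν = A.sPv (E.baseChange Ω) (gv σ w₀) (σ ν) := by
    rw [hsym.hs _ w₀ ν hk, h1, zsmul_congr_mod_five hP c00, zsmul_congr_mod_five hQ c10]
  have ht : A.tPv (E.baseChange Ω) (B *ᵥ w₀) ν = A.tPv (E.baseChange Ω) (gv σ w₀) (σ ν) := by
    rw [hsym.ht _ w₀ ν hk, h2, zsmul_congr_mod_five hP c01, zsmul_congr_mod_five hQ c11]
  obtain ⟨κ, hκ, hu, hv⟩ := A.rigid _ _ _ ν _ _ (σ ν) hkB hkσ hs.symm ht.symm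
  refine ⟨B, X, κ, e, hsym, he, hκ, ?_⟩
  funext i
  fin_cases i
  · exact hu
  · exact hv

variable {A}

section TwistLemmas

variable {ν : Ω} {w₀ : Fin 2 → Ω} {σ : GQ} {B : Matrix (Fin 2) (Fin 2) Ω}
  {X : Matrix (Fin 2) (Fin 2) ℤ} {κ : Ω} {e : ℕ}

theorem Twist.kappa_ne_zero (h : A.Twist ν w₀ σ B X κ e) (hν : ν ≠ 0) : κ ≠ 0 := by
  intro h0
  have h1 := h.scal
  rw [h0] at h1
  have h2 : σ ν = 0 := by rw [← h1]; ring
  rw [map_eq_zero] at h2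
  exact hν h2

/-- `σ` acts on the covariant vector `e = ν⁻² Φ(w₀)` in the same way as on `w₀`. -/
theorem Twist.act_cov (h : A.Twist ν w₀ σ B X κ e) (hν : ν ≠ 0) :
    gv σ ((ν ^ 2)⁻¹ • A.Φv w₀) = κ • (B *ᵥ ((ν ^ 2)⁻¹ • A.Φv w₀)) := by
  have hκ := h.kappa_ne_zero hν
  have hσν : σ ν ≠ 0 := by rw [← h.scal]; exact mul_ne_zero (pow_ne_zero _ hκ) hν
  rw [gv_smul, A.Φv_gal, h.act, A.Φv_smul, h.sym.hΦ, Matrix.mulVec_smul, smul_smul, smul_smul,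
    map_inv₀, map_pow, ← h.scal]
  congr 1
  field_simp

/-- linear combinations with `σ`-fixed coefficients -/
theorem Twist.act_line (h : A.Twist ν w₀ σ B X κ e) (hν : ν ≠ 0) (t : Ω) (ht : σ t = t) :
    gv σ (w₀ + t • ((ν ^ 2)⁻¹ • A.Φv w₀))
      = κ • (B *ᵥ (w₀ + t • ((ν ^ 2)⁻¹ • A.Φv w₀))) := by
  have h1 := h.act_cov hν
  rw [gv_add, gv_smul, ht, h.act, h1, Matrix.mulVec_add,
    Matrix.mulVec_smul B t ((ν ^ 2)⁻¹ • A.Φv w₀), smul_add, smul_comm t κ]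

theorem Twist.Hval (h : A.Twist ν w₀ σ B X κ e) (hν : ν ≠ 0) {w : Fin 2 → Ω}
    (hw : gv σ w = κ • (B *ᵥ w)) : σ ((ν ^ 4)⁻¹ * A.Hv w) = (ν ^ 4)⁻¹ * A.Hv w := by
  have hκ := h.kappa_ne_zero hν
  rw [map_mul, map_inv₀, map_pow, A.Hv_gal, hw, A.Hv_smul, h.sym.hH, ← h.scal]
  field_simp

theorem Twist.Tval (h : A.Twist ν w₀ σ B X κ e) (hν : ν ≠ 0) {w : Fin 2 → Ω}
    (hw : gv σ w = κ • (B *ᵥ w)) : σ ((ν ^ 6)⁻¹ * A.Tv w) = (ν ^ 6)⁻¹ * A.Tv w := by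
  have hκ := h.kappa_ne_zero hν
  rw [map_mul, map_inv₀, map_pow, A.Tv_gal, hw, A.Tv_smul, h.sym.hT, ← h.scal]
  field_simp

/-- the Galois action on the two sections at any `w` with `σ(w) = κ B w` -/
theorem Twist.points (h : A.Twist ν w₀ σ B X κ e) (hν : ν ≠ 0) (E' : WeierstrassCurve ℚ)
    {w : Fin 2 → Ω} (hk' : A.KC (E'.baseChange Ω) w ν) (hw : gv σ w = κ • (B *ᵥ w)) :
    σ • (A.sPv (E'.baseChange Ω) w ν : (E'⁄Ω).Point)
        = ((e : ℤ) * X 0 0) • A.sPv (E'.baseChange Ω) w ν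
          + ((e : ℤ) * X 1 0) • A.tPv (E'.baseChange Ω) w ν ∧
      σ • (A.tPv (E'.baseChange Ω) w ν : (E'⁄Ω).Point)
        = X 0 1 • A.sPv (E'.baseChange Ω) w ν + X 1 1 • A.tPv (E'.baseChange Ω) w ν := by
  have hκ := h.kappa_ne_zero hν
  have hkB := h.sym.kc hk'
  constructor
  · rw [A.sPv_gal E' σ e h.cyc hk', hw, ← h.scal, A.sPv_scale hkB hκ, h.sym.hs _ w ν hk']
    module
  · rw [A.tPv_gal E' σ hk', hw, ← h.scal, A.tPv_scale hkB hκ, h.sym.ht _ w ν hk']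

end TwistLemmas

section Main

variable (A)

/-- the coordinates of the covariant vector `e = ν⁻² Φ(w₀)` -/
noncomputable def cov0 (w₀ : Fin 2 → Ω) (ν : Ω) : Ω := (ν ^ 2)⁻¹ * A.Φ₁ (w₀ 0) (w₀ 1)
noncomputable def cov1 (w₀ : Fin 2 → Ω) (ν : Ω) : Ω := (ν ^ 2)⁻¹ * A.Φ₂ (w₀ 0) (w₀ 1)

/-- the line `w₀ + t e` -/
noncomputable def line (w₀ : Fin 2 → Ω) (ν t : Ω) : Fin 2 → Ω :=
  w₀ + t • ((ν ^ 2)⁻¹ • A.Φv w₀)

theorem line_zero (w₀ : Fin 2 → Ω) (ν : Ω) : A.line w₀ ν 0 = w₀ := by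
  unfold line; rw [zero_smul, add_zero]

theorem line_apply_zero (w₀ : Fin 2 → Ω) (ν t : Ω) :
    A.line w₀ ν t 0 = w₀ 0 + t * A.cov0 w₀ ν := by
  simp [line, cov0, Φv]

theorem line_apply_one (w₀ : Fin 2 → Ω) (ν t : Ω) :
    A.line w₀ ν t 1 = w₀ 1 + t * A.cov1 w₀ ν := by
  simp [line, cov1, Φv]

/-- `det (w₀ | e) = -12 ν⁻² F(w₀)` -/
theorem det_cov (w₀ : Fin 2 → Ω) (ν : Ω) :
    w₀ 0 * A.cov1 w₀ ν - w₀ 1 * A.cov0 w₀ ν = -12 * (ν ^ 2)⁻¹ * A.Fv w₀ := by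
  have := A.euler (w₀ 0) (w₀ 1)
  unfold cov0 cov1 Fv
  linear_combination (ν ^ 2)⁻¹ * this

theorem det_cov_ne_zero {w₀ : Fin 2 → Ω} {ν : Ω} (hF : A.Fv w₀ ≠ 0) (hν : ν ≠ 0) :
    w₀ 0 * A.cov1 w₀ ν - w₀ 1 * A.cov0 w₀ ν ≠ 0 := by
  rw [A.det_cov]
  exact mul_ne_zero (mul_ne_zero (by norm_num) (inv_ne_zero (pow_ne_zero _ hν))) hF

/-- the line never passes through the origin -/
theorem line_ne_zero {w₀ : Fin 2 → Ω} {ν : Ω} (hF : A.Fv w₀ ≠ 0) (hν : ν ≠ 0) (t : Ω)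
    (h0 : A.line w₀ ν t 0 = 0) (h1 : A.line w₀ ν t 1 = 0) : False := by
  rw [line_apply_zero] at h0
  rw [line_apply_one] at h1
  apply A.det_cov_ne_zero hF hν
  linear_combination A.cov1 w₀ ν * h0 - A.cov0 w₀ ν * h1

end Main

end KleinAbs

end Fermat.Agent.S52x
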