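/-
S52 / package [DESC] (helper9), abstract layer, main theorem: "Theorem A" in basis form for an
abstract Klein family `A : KleinAbs`.
-/
import Mathlib
import Fermat.Agent.S52x.DESC_helper9_Abs

set_option autoImplicit false
set_option linter.style.haveILetI false

namespace Fermat.Agent.S52x

open WeierstrassCurve WeierstrassCurve.Affine Matrix Polynomial
open scoped WeierstrassCurve.Affine

/-- `Ω = AlgebraicClosure ℚ`. -/
local notation "Ω" => AlgebraicClosure ℚ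
/-- `GQ = Gal(Ω/ℚ)`. -/
local notation "GQ" => (AlgebraicClosure ℚ ≃ₐ[ℚ] AlgebraicClosure ℚ)

namespace KleinAbs

variable (A : KleinAbs)

/-- The family of polynomials: existence over `Ω` with Galois-invariant values. -/
theorem exists_family_polys (E : WeierstrassCurve ℚ) {w₀ : Fin 2 → Ω} {ν : Ω}
    (hk : A.KC (E.baseChange Ω) w₀ ν)
    (hcard : Nat.card {P : (E⁄Ω).Point // (5 : ℕ) • P = 0} = 25) (hdet : A.DetCyc E) :
    ∃ P4 P6 : ℚ[X],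
      (∀ t : Ω, (P4.map (algebraMap ℚ Ω)).eval t = -((ν ^ 4)⁻¹ * A.Hv (A.line w₀ ν t))) ∧
      (∀ t : Ω, (P6.map (algebraMap ℚ Ω)).eval t = -((ν ^ 6)⁻¹ * A.Tv (A.line w₀ ν t))) := by
  have hν : ν ≠ 0 := hk.2.2.2.2.2.1
  obtain ⟨pH, hpH⟩ := A.H_poly (w₀ 0) (w₀ 1) (A.cov0 w₀ ν) (A.cov1 w₀ ν)
  obtain ⟨pT, hpT⟩ := A.T_poly (w₀ 0) (w₀ 1) (A.cov0 w₀ ν) (A.cov1 w₀ ν)
  have hH : ∀ t : Ω, (C (-(ν ^ 4)⁻¹) * pH).eval t = -((ν ^ 4)⁻¹ * A.Hv (A.line w₀ ν t)) := by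
    intro t
    rw [eval_mul, eval_C, hpH, Hv, line_apply_zero, line_apply_one]
    ring
  have hT : ∀ t : Ω, (C (-(ν ^ 6)⁻¹) * pT).eval t = -((ν ^ 6)⁻¹ * A.Tv (A.line w₀ ν t)) := by
    intro t
    rw [eval_mul, eval_C, hpT, Tv, line_apply_zero, line_apply_one]
    ring
  have hfix : ∀ (σ : GQ) (t : ℚ), gv σ (A.line w₀ ν (algebraMap ℚ Ω t))
      = gv σ (A.line w₀ ν (algebraMap ℚ Ω t)) ∧
      σ ((ν ^ 4)⁻¹ * A.Hv (A.line w₀ ν (algebraMap ℚ Ω t)))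
        = (ν ^ 4)⁻¹ * A.Hv (A.line w₀ ν (algebraMap ℚ Ω t)) ∧
      σ ((ν ^ 6)⁻¹ * A.Tv (A.line w₀ ν (algebraMap ℚ Ω t)))
        = (ν ^ 6)⁻¹ * A.Tv (A.line w₀ ν (algebraMap ℚ Ω t)) := by
    intro σ t
    obtain ⟨B, X, κ, e, htw⟩ := A.exists_twist E hk hcard hdet σ
    have hl := htw.act_line hν (algebraMap ℚ Ω t) (σ.commutes t)
    exact ⟨rfl, htw.Hval hν hl, htw.Tval hν hl⟩
  obtain ⟨P4, hP4⟩ := exists_rat_poly_of_eval_fixed (C (-(ν ^ 4)⁻¹) * pH) (by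
    intro σ t
    rw [hH, map_neg, (hfix σ t).2.1])
  obtain ⟨P6, hP6⟩ := exists_rat_poly_of_eval_fixed (C (-(ν ^ 6)⁻¹) * pT) (by
    intro σ t
    rw [hT, map_neg, (hfix σ t).2.2])
  exact ⟨P4, P6, fun t => by rw [hP4, hH], fun t => by rw [hP6, hT]⟩

theorem algebraMap_eval_rat (P : ℚ[X]) (t : ℚ) :
    algebraMap ℚ Ω (P.eval t) = (P.map (algebraMap ℚ Ω)).eval (algebraMap ℚ Ω t) := by
  rw [Polynomial.eval_map, Polynomial.eval₂_at_apply]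

theorem aeval_eq_eval_map (P : ℚ[X]) (x : Ω) :
    aeval x P = (P.map (algebraMap ℚ Ω)).eval x := by
  rw [Polynomial.eval_map, Polynomial.aeval_def]

/-- the Klein condition for a short curve with prescribed invariants -/
theorem KC_shortCurve (a b : ℚ) {w : Fin 2 → Ω} {ν : Ω} (hν : ν ≠ 0) (hF : A.Fv w ≠ 0)
    (h4 : algebraMap ℚ Ω a = -((ν ^ 4)⁻¹ * A.Hv w))
    (h6 : algebraMap ℚ Ω b = -((ν ^ 6)⁻¹ * A.Tv w)) :
    A.KC ((shortCurve a b).baseChange Ω) w ν := by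
  refine ⟨?_, ?_, ?_, ?_, ?_, hν, hF⟩
  · show algebraMap ℚ Ω (shortCurve a b).a₁ = 0
    simp
  · show algebraMap ℚ Ω (shortCurve a b).a₂ = 0
    simp
  · show algebraMap ℚ Ω (shortCurve a b).a₃ = 0
    simp
  · show algebraMap ℚ Ω (shortCurve a b).a₄ * ν ^ 4 = 27 * A.H (w 0) (w 1)
    rw [shortCurve_a₄, map_mul, map_neg, map_ofNat, h4]
    unfold Hv
    field_simp
  · show algebraMap ℚ Ω (shortCurve a b).a₆ * ν ^ 6 = 54 * A.T (w 0) (w 1)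
    rw [shortCurve_a₆, map_mul, map_neg, map_ofNat, h6]
    unfold Tv
    field_simp

/-- nonvanishing of `F` from the discriminant -/
theorem Fv_ne_zero_of_disc (a b : ℚ) {w : Fin 2 → Ω} {ν : Ω} (hν : ν ≠ 0)
    (h4 : algebraMap ℚ Ω a = -((ν ^ 4)⁻¹ * A.Hv w))
    (h6 : algebraMap ℚ Ω b = -((ν ^ 6)⁻¹ * A.Tv w)) (hab : a ^ 3 ≠ b ^ 2) : A.Fv w ≠ 0 := by
  intro hF
  have hs := A.syz (w 0) (w 1)
  have hH : A.Hv w = -(ν ^ 4 * algebraMap ℚ Ω a) := by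
    rw [h4]; field_simp
  have hT : A.Tv w = -(ν ^ 6 * algebraMap ℚ Ω b) := by
    rw [h6]; field_simp
  unfold Hv at hH
  unfold Tv at hT
  unfold Fv at hF
  rw [hH, hT, hF] at hs
  have h1 : ν ^ 12 * ((algebraMap ℚ Ω b) ^ 2 - (algebraMap ℚ Ω a) ^ 3) = 0 := by
    linear_combination hs
  have h2 : (algebraMap ℚ Ω b) ^ 2 - (algebraMap ℚ Ω a) ^ 3 = 0 := by
    rcases mul_eq_zero.1 h1 with h | h
    · exact absurd (pow_eq_zero_iff (by norm_num) |>.1 h) hν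
    · exact h
  apply hab
  apply (algebraMap ℚ Ω).injective
  rw [map_pow, map_pow]
  linear_combination -h2

/-- `σ` acting trivially on `E[5]` fixes `w₀` (normalised by `w₀ 1 = 1`) and `ν`. -/
theorem fixed_of_trivial (E : WeierstrassCurve ℚ) {w₀ : Fin 2 → Ω} {ν : Ω}
    (hk : A.KC (E.baseChange Ω) w₀ ν) (hw1 : w₀ 1 = 1) (hdet : A.DetCyc E) (σ : GQ)
    (htriv : ∀ R : (E⁄Ω).Point, (5 : ℕ) • R = 0 → σ • R = R) : σ (w₀ 0) = w₀ 0 ∧ σ ν = ν := by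
  obtain ⟨e, he, -⟩ := A.exists_cyc σ
  have hkσ := A.KC_gal E σ hk
  have hP : (5 : ℕ) • (A.sPv (E.baseChange Ω) w₀ ν : (E⁄Ω).Point) = 0 := A.five_s _ _ _ ν hk
  have hQ : (5 : ℕ) • (A.tPv (E.baseChange Ω) w₀ ν : (E⁄Ω).Point) = 0 := A.five_t _ _ _ ν hk
  have hPσ : (5 : ℕ) • (A.sPv (E.baseChange Ω) (gv σ w₀) (σ ν) : (E⁄Ω).Point) = 0 :=
    A.five_s _ _ _ _ hkσ
  have hind := A.indep _ _ _ ν hk
  have hσP := htriv _ hP
  have hσQ := htriv _ hQ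
  have hd := hdet _ _ hP hQ hind σ 1 0 0 1 (by rw [hσP]; simp [sPv]) (by rw [hσQ]; simp [tPv]) e he
  have he1 : (5 : ℤ) ∣ (e : ℤ) - 1 := by
    have : ((e : ℤ) - 1) = -(1 * 1 - 0 * 0 - (e : ℤ)) := by ring
    rw [this]
    exact (dvd_neg).2 hd
  have h1 : A.sPv (E.baseChange Ω) (gv σ w₀) (σ ν) = A.sPv (E.baseChange Ω) w₀ ν := by
    have h2 := A.sPv_gal E σ e he hk
    rw [hσP, ← natCast_zsmul, zsmul_congr_mod_five hPσ he1, one_smul] at h2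
    exact h2.symm
  have h2 : A.tPv (E.baseChange Ω) (gv σ w₀) (σ ν) = A.tPv (E.baseChange Ω) w₀ ν := by
    have h3 := A.tPv_gal E σ hk
    rw [hσQ] at h3
    exact h3.symm
  obtain ⟨κ, hκ, hu, hv⟩ := A.rigid _ _ _ ν _ _ (σ ν) hk hkσ h1 h2
  have hκ1 : κ = 1 := by
    have : gv σ w₀ 1 = 1 := by
      show σ (w₀ 1) = 1
      rw [hw1, map_one]
    rw [this, hw1, mul_one] at hv
    exact hv.symm
  rw [hκ1] at hκ hu
  constructor
  · have : gv σ w₀ 0 = σ (w₀ 0) := rfl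
    rw [← this, hu, one_mul]
  · rw [← hκ]; ring

/-- **Theorem A, abstract basis form.** -/
theorem theoremA_abs (c4 c6 : ℚ) (h4 : c4 ≠ 0) (h6 : c6 ≠ 0) (hne : c4 ^ 3 ≠ c6 ^ 2)
    (hcard : Nat.card {P : ((shortCurve c4 c6)⁄Ω).Point // (5 : ℕ) • P = 0} = 25)
    (hdet : A.DetCyc (shortCurve c4 c6)) :
    ∃ P4 P6 : ℚ[X], P4.eval 0 = c4 ∧ P6.eval 0 = c6 ∧ IsCoprime P4 P6 ∧
      (∃ P Q : ((shortCurve c4 c6)⁄Ω).Point, (5 : ℕ) • P = 0 ∧ (5 : ℕ) • Q = 0 ∧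
        (∀ x y : ℤ, x • P + y • Q = 0 → (5 : ℤ) ∣ x ∧ (5 : ℤ) ∣ y) ∧
        ∀ t : ℚ, P4.eval t ^ 3 ≠ P6.eval t ^ 2 →
          ∃ P' Q' : ((shortCurve (P4.eval t) (P6.eval t))⁄Ω).Point,
            (5 : ℕ) • P' = 0 ∧ (5 : ℕ) • Q' = 0 ∧
            (∀ x y : ℤ, x • P' + y • Q' = 0 → (5 : ℤ) ∣ x ∧ (5 : ℤ) ∣ y) ∧
            ∀ σ : GQ, ∃ a b c d : ℤ, σ • P' = a • P' + c • Q' ∧ σ • Q' = b • P' + d • Q' ∧
              σ • P = a • P + c • Q ∧ σ • Q = b • P + d • Q) ∧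
      ∃ t₁ : Ω, aeval t₁ P6 = 0 ∧ ∀ σ : GQ,
        (∀ R : ((shortCurve c4 c6)⁄Ω).Point, (5 : ℕ) • R = 0 → σ • R = R) →
        (∀ I : Ω, I ^ 2 = -1 → σ I = I) → σ t₁ = t₁ := by
  obtain ⟨u₀, ν, hν, hF0, hH0, hT0⟩ := A.univ c4 c6 h4 h6 hne
  set w₀ : Fin 2 → Ω := ![u₀, 1] with hw₀
  have hw00 : w₀ 0 = u₀ := rfl
  have hw01 : w₀ 1 = 1 := rfl
  have hFw : A.Fv w₀ ≠ 0 := hF0
  have h4w : algebraMap ℚ Ω c4 = -((ν ^ 4)⁻¹ * A.Hv w₀) := by
    have : A.Hv w₀ = -(ν ^ 4 * algebraMap ℚ Ω c4) := by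
      show A.H u₀ 1 = _
      linear_combination -hH0
    rw [this]; field_simp
  have h6w : algebraMap ℚ Ω c6 = -((ν ^ 6)⁻¹ * A.Tv w₀) := by
    have : A.Tv w₀ = -(ν ^ 6 * algebraMap ℚ Ω c6) := by
      show A.T u₀ 1 = _
      linear_combination -hT0
    rw [this]; field_simp
  have hk : A.KC ((shortCurve c4 c6).baseChange Ω) w₀ ν := A.KC_shortCurve c4 c6 hν hFw h4w h6w
  obtain ⟨P4, P6, hP4, hP6⟩ := A.exists_family_polys (shortCurve c4 c6) hk hcard hdet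
  have hev4 : ∀ t : ℚ, algebraMap ℚ Ω (P4.eval t)
      = -((ν ^ 4)⁻¹ * A.Hv (A.line w₀ ν (algebraMap ℚ Ω t))) := fun t => by
    rw [algebraMap_eval_rat, hP4]
  have hev6 : ∀ t : ℚ, algebraMap ℚ Ω (P6.eval t)
      = -((ν ^ 6)⁻¹ * A.Tv (A.line w₀ ν (algebraMap ℚ Ω t))) := fun t => by
    rw [algebraMap_eval_rat, hP6]
  refine ⟨P4, P6, ?_, ?_, ?_, ?_, ?_⟩
  · apply (algebraMap ℚ Ω).injective
    rw [hev4 0, map_zero, A.line_zero, h4w]
  · apply (algebraMap ℚ Ω).injective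
    rw [hev6 0, map_zero, A.line_zero, h6w]
  · -- coprimality
    apply isCoprime_of_no_common_root
    intro x hx4 hx6
    rw [aeval_eq_eval_map, hP4] at hx4
    rw [aeval_eq_eval_map, hP6] at hx6
    have hH : A.Hv (A.line w₀ ν x) = 0 := by
      have h := neg_eq_zero.1 hx4
      rcases mul_eq_zero.1 h with h | h
      · exact absurd h (inv_ne_zero (pow_ne_zero _ hν))
      · exact h
    have hT : A.Tv (A.line w₀ ν x) = 0 := by
      have h := neg_eq_zero.1 hx6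
      rcases mul_eq_zero.1 h with h | h
      · exact absurd h (inv_ne_zero (pow_ne_zero _ hν))
      · exact h
    obtain ⟨h0, h1⟩ := A.nozero _ _ hH hT
    exact A.line_ne_zero hFw hν x h0 h1
  · -- the bases
    refine ⟨A.sPv _ w₀ ν, A.tPv _ w₀ ν, A.five_s _ _ _ ν hk, A.five_t _ _ _ ν hk,
      A.indep _ _ _ ν hk, ?_⟩
    intro t ht
    have hFt : A.Fv (A.line w₀ ν (algebraMap ℚ Ω t)) ≠ 0 :=
      A.Fv_ne_zero_of_disc _ _ hν (hev4 t) (hev6 t) ht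
    have hkt : A.KC ((shortCurve (P4.eval t) (P6.eval t)).baseChange Ω)
        (A.line w₀ ν (algebraMap ℚ Ω t)) ν :=
      A.KC_shortCurve _ _ hν hFt (hev4 t) (hev6 t)
    refine ⟨A.sPv _ _ ν, A.tPv _ _ ν, A.five_s _ _ _ ν hkt, A.five_t _ _ _ ν hkt,
      A.indep _ _ _ ν hkt, ?_⟩
    intro σ
    obtain ⟨B, X, κ, e, htw⟩ := A.exists_twist (shortCurve c4 c6) hk hcard hdet σ
    have hl := htw.act_line hν (algebraMap ℚ Ω t) (σ.commutes t)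
    obtain ⟨hs', ht'⟩ := htw.points hν (shortCurve (P4.eval t) (P6.eval t)) hkt hl
    obtain ⟨hs, ht0⟩ := htw.points hν (shortCurve c4 c6) hk htw.act
    exact ⟨(e : ℤ) * X 0 0, X 0 1, (e : ℤ) * X 1 0, X 1 1, hs', ht', hs, ht0⟩
  · -- the CM parameter
    obtain ⟨i, hi⟩ := IsAlgClosed.exists_pow_nat_eq (-1 : Ω) (n := 2) (by norm_num)
    have hi0 : i ≠ 0 := by
      intro h; rw [h] at hi; norm_num at hi
    set e0 := A.cov0 w₀ ν with he0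
    set e1 := A.cov1 w₀ ν with he1
    have hD : u₀ * e1 - e0 ≠ 0 := by
      have := A.det_cov_ne_zero hFw hν
      rw [hw00, hw01, one_mul] at this
      exact this
    -- choose the sign
    obtain ⟨j, hj, hjne⟩ : ∃ j : Ω, j ^ 2 = -1 ∧ j * e1 - e0 ≠ 0 := by
      by_cases h1 : i * e1 - e0 = 0
      · refine ⟨-i, by rw [neg_sq, hi], ?_⟩
        intro h2
        have h3 : e1 = 0 := by
          have : 2 * i * e1 = 0 := by linear_combination h1 - h2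
          rcases mul_eq_zero.1 this with h | h
          · rcases mul_eq_zero.1 h with h | h
            · norm_num at h
            · exact absurd h hi0
          · exact h
        have h4 : e0 = 0 := by rw [h3] at h1; linear_combination -h1
        apply hD
        rw [h3, h4]; ring
      · exact ⟨i, hi, h1⟩
    set t₁ : Ω := (u₀ - j) / (j * e1 - e0) with ht₁
    have hline0 : A.line w₀ ν t₁ 0 = (1 + t₁ * e1) * j := by
      rw [A.line_apply_zero, hw00, ht₁]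
      field_simp
      ring
    have hline1 : A.line w₀ ν t₁ 1 = (1 + t₁ * e1) * 1 := by
      rw [A.line_apply_one, hw01, mul_one]
    refine ⟨t₁, ?_, ?_⟩
    · rw [aeval_eq_eval_map, hP6]
      have : A.Tv (A.line w₀ ν t₁) = 0 := by
        unfold Tv
        rw [hline0, hline1, A.T_hom, A.T_cm j hj, mul_zero]
      rw [this, mul_zero, neg_zero]
    · intro σ htriv hI
      obtain ⟨hσu, hσν⟩ := A.fixed_of_trivial (shortCurve c4 c6) hk hw01 hdet σ htriv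
      rw [hw00] at hσu
      have hσj : σ j = j := hI j hj
      have hσe0 : σ e0 = e0 := by
        rw [he0, cov0, map_mul, map_inv₀, map_pow, hσν, A.Φ₁_gal, hw00, hw01, hσu, map_one]
      have hσe1 : σ e1 = e1 := by
        rw [he1, cov1, map_mul, map_inv₀, map_pow, hσν, A.Φ₂_gal, hw00, hw01, hσu, map_one]
      rw [ht₁, map_div₀, map_sub, map_sub, map_mul, hσu, hσj, hσe0, hσe1]

end KleinAbs

end Fermat.Agent.S52x
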