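/-
PROJECT S52 (3–5 switch), package [DETQ] (helper7): `det ρ̄_{E,5} = ε̄_5` in basis form for the
short Weierstrass curves `Y² = X³ - 27 c₄ X - 54 c₆` over `ℚ` (rational `c₄`, `c₆`), deduced from
helper3's statement for integral models by clearing denominators.
-/
import Mathlib
import Fermat.Agent.S52x.DET_helper3_Mod
import Fermat.Agent.S52x.MODEL_helper8_VC
import Fermat.Agent.LR.NONEIS_helper3_Main

set_option autoImplicit false

namespace Fermat.Agent.S52x

open WeierstrassCurve WeierstrassCurve.Affine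
open scoped WeierstrassCurve.Affine

/-- `Ω = AlgebraicClosure ℚ`. -/
local notation "Ω" => AlgebraicClosure ℚ
/-- `GQ = Gal(Ω/ℚ)`. -/
local notation "GQ" => (AlgebraicClosure ℚ ≃ₐ[ℚ] AlgebraicClosure ℚ)

section Transport

variable (W : WeierstrassCurve ℤ) (C : VariableChange ℚ)

/-- the Galois-equivariant isomorphism from the points of a `ℚ`-twist-free change of variables of
the generic fibre of an integral model to the points of the integral model -/
noncomputable def detqIso :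
    ((C • W.map (Int.castRingHom ℚ))⁄Ω).Point ≃+ (W⁄Ω).Point :=
  (Fermat.Agent.Tate.vcPtBaseChange (W.map (Int.castRingHom ℚ)) C Ω).trans
    (Fermat.Agent.LR.NonEis.pointCongr (Fermat.Agent.LR.NonEis.baseChange_map_castRingHom W))

theorem detqIso_smul (σ : GQ) (P : ((C • W.map (Int.castRingHom ℚ))⁄Ω).Point) :
    detqIso W C (σ • P) = σ • detqIso W C P := by
  unfold detqIso
  rw [AddEquiv.trans_apply, AddEquiv.trans_apply,
    ← Fermat.Agent.Tate.smul_vcPtBaseChange (W.map (Int.castRingHom ℚ)) C σ P,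
    Fermat.Agent.LR.NonEis.smul_pointCongr_castRingHom]

/-- **`det ρ̄_{E,p} = ε̄_p`**, basis form, for a curve over `ℚ` which is a change of variables of
the generic fibre of an integral model. -/
theorem det_mod_eq_cyclotomic_variableChange {p : ℕ} [Fact p.Prime] (hΔ : W.Δ ≠ 0) (hp2 : p ≠ 2)
    (P Q : ((C • W.map (Int.castRingHom ℚ))⁄Ω).Point) (hP : p • P = 0) (hQ : p • Q = 0)
    (hind : ∀ x y : ℤ, x • P + y • Q = 0 → (p : ℤ) ∣ x ∧ (p : ℤ) ∣ y)
    (σ : GQ) (a b c d : ℤ) (hσP : σ • P = a • P + c • Q) (hσQ : σ • Q = b • P + d • Q)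
    (ζ : Ω) (hζ : IsPrimitiveRoot ζ p) (e : ℕ) (he : σ ζ = ζ ^ e) :
    (p : ℤ) ∣ a * d - b * c - e := by
  refine det_mod_eq_cyclotomic_of_primitiveRoot W hΔ hp2 (detqIso W C P) (detqIso W C Q)
    ?_ ?_ ?_ σ a b c d ?_ ?_ ζ hζ e he
  · rw [← map_nsmul, hP, map_zero]
  · rw [← map_nsmul, hQ, map_zero]
  · intro x y hxy
    refine hind x y ?_
    apply (detqIso W C).injective
    rw [map_add, map_zsmul, map_zsmul, hxy, map_zero]
  · rw [← detqIso_smul, hσP, map_add, map_zsmul, map_zsmul]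
  · rw [← detqIso_smul, hσQ, map_add, map_zsmul, map_zsmul]

end Transport

/-- clearing a denominator -/
theorem exists_int_eq_mul_of_den_dvd (q : ℚ) (n : ℕ) (h : q.den ∣ n) :
    ∃ z : ℤ, (z : ℚ) = n * q := by
  obtain ⟨m, rfl⟩ := h
  refine ⟨q.num * m, ?_⟩
  have hd : (q.den : ℚ) ≠ 0 := Nat.cast_ne_zero.mpr q.den_ne_zero
  push_cast
  nth_rewrite 3 [← Rat.num_div_den q]
  field_simp

/-- every short curve over `ℚ` is a change of variables of the generic fibre of an integral model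
with non-zero discriminant -/
theorem exists_int_model_shortCurve (c4 c6 : ℚ) (hne : c4 ^ 3 ≠ c6 ^ 2) :
    ∃ (W : WeierstrassCurve ℤ) (C : VariableChange ℚ), W.Δ ≠ 0 ∧
      shortCurve c4 c6 = C • W.map (Int.castRingHom ℚ) := by
  set n : ℕ := c4.den * c6.den with hn
  have hn0 : (n : ℚ) ≠ 0 := by
    rw [hn]
    exact Nat.cast_ne_zero.mpr (Nat.mul_ne_zero c4.den_ne_zero c6.den_ne_zero)
  obtain ⟨C4, hC4⟩ := exists_int_eq_mul_of_den_dvd c4 (n ^ 4)
    (Dvd.dvd.trans (Dvd.intro _ rfl) (dvd_pow_self n (by norm_num)))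
  obtain ⟨C6, hC6⟩ := exists_int_eq_mul_of_den_dvd c6 (n ^ 6)
    (Dvd.dvd.trans (Dvd.intro_left _ rfl) (dvd_pow_self n (by norm_num)))
  push_cast at hC4 hC6
  refine ⟨⟨0, 0, 0, -27 * C4, -54 * C6⟩, ⟨Units.mk0 (n : ℚ) hn0, 0, 0, 0⟩, ?_, ?_⟩
  · intro h0
    have h1 : (1259712 : ℤ) * (C4 ^ 3 - C6 ^ 2) = 0 := by
      rw [← h0]
      simp only [WeierstrassCurve.Δ, WeierstrassCurve.b₂, WeierstrassCurve.b₄,
        WeierstrassCurve.b₆, WeierstrassCurve.b₈]
      ring
    have h2 : ((C4 : ℚ)) ^ 3 - (C6 : ℚ) ^ 2 = 0 := by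
      have : (C4 ^ 3 - C6 ^ 2 : ℤ) = 0 := by
        rcases mul_eq_zero.mp h1 with h | h
        · norm_num at h
        · exact h
      exact_mod_cast this
    rw [hC4, hC6] at h2
    have h3 : (n : ℚ) ^ 12 * (c4 ^ 3 - c6 ^ 2) = 0 := by
      rw [← h2]; ring
    rcases mul_eq_zero.mp h3 with h | h
    · exact hn0 (pow_eq_zero_iff (by norm_num) |>.mp h)
    · exact hne (sub_eq_zero.mp h)
  · have hu : ((Units.mk0 (n : ℚ) hn0)⁻¹ : ℚˣ).val = (n : ℚ)⁻¹ := by
      rw [Units.val_inv_eq_inv_val, Units.val_mk0]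
    ext
    · simp [shortCurve, WeierstrassCurve.variableChange_a₁]
    · simp [shortCurve, WeierstrassCurve.variableChange_a₂]
    · simp [shortCurve, WeierstrassCurve.variableChange_a₃]
    · simp only [shortCurve, WeierstrassCurve.variableChange_a₄, hu, WeierstrassCurve.map_a₄,
        WeierstrassCurve.map_a₁, WeierstrassCurve.map_a₂, WeierstrassCurve.map_a₃]
      simp only [eq_intCast]
      push_cast
      rw [hC4]
      field_simp
      ring
    · simp only [shortCurve, WeierstrassCurve.variableChange_a₆, hu, WeierstrassCurve.map_a₄,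
        WeierstrassCurve.map_a₁, WeierstrassCurve.map_a₂, WeierstrassCurve.map_a₃,
        WeierstrassCurve.map_a₆]
      simp only [eq_intCast]
      push_cast
      rw [hC6]
      field_simp
      ring

/-- **[DETQ]** `det ρ̄_{E,5} = ε̄_5`, basis form, for `E : Y² = X³ - 27 c₄ X - 54 c₆` over `ℚ`. -/
theorem det_cyclotomic_shortCurve (c4 c6 : ℚ) (hne : c4 ^ 3 ≠ c6 ^ 2)
    (P Q : ((shortCurve c4 c6)⁄Ω).Point) (hP : 5 • P = 0) (hQ : 5 • Q = 0)
    (hind : ∀ x y : ℤ, x • P + y • Q = 0 → (5 : ℤ) ∣ x ∧ (5 : ℤ) ∣ y)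
    (σ : GQ) (a b c d : ℤ) (hσP : σ • P = a • P + c • Q) (hσQ : σ • Q = b • P + d • Q)
    (ζ : Ω) (hζ : IsPrimitiveRoot ζ 5) (e : ℕ) (he : σ ζ = ζ ^ e) :
    (5 : ℤ) ∣ a * d - b * c - e := by
  obtain ⟨W, C, hΔ, hE⟩ := exists_int_model_shortCurve c4 c6 hne
  generalize shortCurve c4 c6 = E at *
  subst hE
  have : Fact (Nat.Prime 5) := ⟨by norm_num⟩
  exact_mod_cast det_mod_eq_cyclotomic_variableChange (p := 5) W C hΔ (by norm_num) P Q hP hQ
    (by exact_mod_cast hind) σ a b c d hσP hσQ ζ hζ e he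

end Fermat.Agent.S52x
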