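import Mathlib
import Fermat.Prelude.Def_FLTPrelim_GaloisRep
import Fermat.Agent.Tate.VC_helper7_Galois
import Fermat.Agent.S52x.MODEL_helper8_VC

/-!
# S52 [TOP] glue (helper8): Galois-equivariant isomorphisms of `n`-torsion

`TorsCong n E₁ E₂` : the `n`-torsion subgroups of `E₁(ℚ̄)` and `E₂(ℚ̄)` are isomorphic as groups with
`Gal(ℚ̄/ℚ)`-action.  It is an equivalence relation, and holds for curves that differ by a change of
variables over `ℚ`, in particular for curves with the same `c₄` and `c₆`.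
-/

set_option autoImplicit false

namespace Fermat.Agent.S52x

open WeierstrassCurve WeierstrassCurve.Affine
open scoped WeierstrassCurve.Affine

local notation "Ω" => AlgebraicClosure ℚ

/-- An additive equivalence restricts to the `n`-torsion subgroups. -/
def torsionByCongr {A B : Type*} [AddCommGroup A] [AddCommGroup B] (e : A ≃+ B) (n : ℕ) :
    Submodule.torsionBy ℤ A n ≃+ Submodule.torsionBy ℤ B n where
  toFun x := ⟨e x.1, by
    have := x.2
    rw [Submodule.mem_torsionBy_iff] at this ⊢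
    rw [← map_zsmul, this, map_zero]⟩
  invFun y := ⟨e.symm y.1, by
    have := y.2
    rw [Submodule.mem_torsionBy_iff] at this ⊢
    rw [← map_zsmul, this, map_zero]⟩
  left_inv x := Subtype.ext (e.symm_apply_apply _)
  right_inv y := Subtype.ext (e.apply_symm_apply _)
  map_add' x y := Subtype.ext (map_add e _ _)

@[simp] theorem torsionByCongr_coe {A B : Type*} [AddCommGroup A] [AddCommGroup B] (e : A ≃+ B)
    (n : ℕ) (x : Submodule.torsionBy ℤ A n) : ((torsionByCongr e n x : Submodule.torsionBy ℤ B n) : B)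
      = e x.1 := rfl

/-- The `n`-torsion subgroups of `E₁(ℚ̄)`, `E₂(ℚ̄)` are isomorphic as Galois modules. -/
def TorsCong (n : ℕ) (E₁ E₂ : WeierstrassCurve ℚ) : Prop :=
  ∃ φ : Submodule.torsionBy ℤ (E₁⁄Ω).Point n ≃+ Submodule.torsionBy ℤ (E₂⁄Ω).Point n,
    ∀ (σ : Ω ≃ₐ[ℚ] Ω) (x : Submodule.torsionBy ℤ (E₁⁄Ω).Point n), φ (σ • x) = σ • φ x

theorem TorsCong.refl (n : ℕ) (E : WeierstrassCurve ℚ) : TorsCong n E E :=
  ⟨AddEquiv.refl _, fun _ _ => rfl⟩

theorem TorsCong.symm {n : ℕ} {E₁ E₂ : WeierstrassCurve ℚ} (h : TorsCong n E₁ E₂) :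
    TorsCong n E₂ E₁ := by
  obtain ⟨φ, hφ⟩ := h
  refine ⟨φ.symm, fun σ y => ?_⟩
  apply φ.injective
  rw [hφ, AddEquiv.apply_symm_apply, AddEquiv.apply_symm_apply]

theorem TorsCong.trans {n : ℕ} {E₁ E₂ E₃ : WeierstrassCurve ℚ} (h₁ : TorsCong n E₁ E₂)
    (h₂ : TorsCong n E₂ E₃) : TorsCong n E₁ E₃ := by
  obtain ⟨φ, hφ⟩ := h₁
  obtain ⟨ψ, hψ⟩ := h₂
  refine ⟨φ.trans ψ, fun σ x => ?_⟩
  simp only [AddEquiv.trans_apply, hφ, hψ]

/-- A change of variables over `ℚ` induces a Galois-equivariant isomorphism of torsion. -/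
theorem torsCong_variableChange (n : ℕ) (E : WeierstrassCurve ℚ) (C : VariableChange ℚ) :
    TorsCong n (C • E) E := by
  refine ⟨torsionByCongr (Fermat.Agent.Tate.vcPtBaseChange E C Ω) n, fun σ x => ?_⟩
  apply Subtype.ext
  change Fermat.Agent.Tate.vcPtBaseChange E C Ω (σ • (x : ((C • E)⁄Ω).Point))
    = σ • Fermat.Agent.Tate.vcPtBaseChange E C Ω (x : ((C • E)⁄Ω).Point)
  exact (Fermat.Agent.Tate.smul_vcPtBaseChange E C σ _).symm

/-- Curves over `ℚ` with the same `c₄` and `c₆` have Galois-isomorphic torsion. -/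
theorem torsCong_of_c_eq (n : ℕ) (E₁ E₂ : WeierstrassCurve ℚ) (h4 : E₁.c₄ = E₂.c₄)
    (h6 : E₁.c₆ = E₂.c₆) : TorsCong n E₁ E₂ := by
  obtain ⟨C, hC⟩ := exists_variableChange_of_c_eq (by norm_num : (6 : ℚ) ≠ 0) E₁ E₂ h4 h6
  have := (torsCong_variableChange n E₁ C).symm
  rwa [hC] at this

/-- A curve over `ℚ` is torsion-congruent to its short form. -/
theorem torsCong_shortCurve (n : ℕ) (E : WeierstrassCurve ℚ) :
    TorsCong n E (shortCurve E.c₄ E.c₆) := by
  have h := (torsCong_variableChange n E (toShortVC (by norm_num : (6 : ℚ) ≠ 0) E)).symm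
  rwa [toShortVC_smul] at h

end Fermat.Agent.S52x
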