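import Mathlib
import Fermat.Agent.S52x.TOP_helper8_Cong
import Fermat.Agent.EC.Tors_helper6_CountGe

/-!
# S52 [TOP] glue (helper8): bases with the same Galois matrices give `TorsCong`
-/

set_option autoImplicit false

namespace Fermat.Agent.S52x

open WeierstrassCurve WeierstrassCurve.Affine
open scoped WeierstrassCurve.Affine

local notation "Ω" => AlgebraicClosure ℚ
local notation "GQ" => (AlgebraicClosure ℚ ≃ₐ[ℚ] AlgebraicClosure ℚ)

section Abstract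

/-- `(P, Q)` is a basis of the `p`-torsion of `J` (integer-coefficient form). -/
structure TorsBasis (J : Type*) [AddCommGroup J] (p : ℕ) (P Q : J) : Prop where
  hP : p • P = 0
  hQ : p • Q = 0
  hind : ∀ x y : ℤ, x • P + y • Q = 0 → (p : ℤ) ∣ x ∧ (p : ℤ) ∣ y
  hspan : ∀ R : J, p • R = 0 → ∃ x y : ℤ, R = x • P + y • Q

variable {J₁ J₂ : Type*} [AddCommGroup J₁] [AddCommGroup J₂] {p : ℕ}

theorem zsmul_eq_of_dvd_sub {J : Type*} [AddCommGroup J] {p : ℕ} {P : J} (hP : p • P = 0) {a b : ℤ}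
    (h : (p : ℤ) ∣ a - b) : a • P = b • P := by
  obtain ⟨k, hk⟩ := h
  have : a = b + k * p := by linarith
  rw [this, add_zsmul, mul_zsmul, natCast_zsmul, hP, smul_zero, add_zero]

theorem mem_torsionBy_nat {J : Type*} [AddCommGroup J] {p : ℕ} {R : J} :
    R ∈ Submodule.torsionBy ℤ J (p : ℤ) ↔ p • R = 0 := by
  rw [Submodule.mem_torsionBy_iff, natCast_zsmul]

theorem TorsBasis.comb_torsion {P Q : J₁} (hb : TorsBasis J₁ p P Q) (x y : ℤ) :
    p • (x • P + y • Q) = 0 := by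
  rw [smul_add, smul_comm p x P, smul_comm p y Q, hb.hP, hb.hQ, smul_zero, smul_zero, add_zero]

/-- The coefficient map `xP + yQ ↦ xP' + yQ'`. -/
noncomputable def basisMap {P Q : J₁} (hb : TorsBasis J₁ p P Q) (P' Q' : J₂)
    (R : Submodule.torsionBy ℤ J₁ (p : ℤ)) : J₂ :=
  Classical.choose (hb.hspan R.1 (mem_torsionBy_nat.mp R.2)) • P' +
    Classical.choose (Classical.choose_spec (hb.hspan R.1 (mem_torsionBy_nat.mp R.2))) • Q'

theorem basisMap_eq {P Q : J₁} (hb : TorsBasis J₁ p P Q) {P' Q' : J₂} (hP' : p • P' = 0)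
    (hQ' : p • Q' = 0) (R : Submodule.torsionBy ℤ J₁ (p : ℤ)) (x y : ℤ)
    (hR : (R : J₁) = x • P + y • Q) : basisMap hb P' Q' R = x • P' + y • Q' := by
  have hspec := Classical.choose_spec (Classical.choose_spec
    (hb.hspan R.1 (mem_torsionBy_nat.mp R.2)))
  set cx := Classical.choose (hb.hspan R.1 (mem_torsionBy_nat.mp R.2)) with hcx
  set cy := Classical.choose (Classical.choose_spec (hb.hspan R.1 (mem_torsionBy_nat.mp R.2)))
    with hcy
  have h0 : (cx - x) • P + (cy - y) • Q = 0 := by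
    have : cx • P + cy • Q = x • P + y • Q := by rw [← hspec, hR]
    rw [sub_zsmul, sub_zsmul]
    have h' : cx • P + cy • Q - (x • P + y • Q) = 0 := sub_eq_zero.mpr this
    rw [← h']; abel
  obtain ⟨h1, h2⟩ := hb.hind _ _ h0
  show cx • P' + cy • Q' = x • P' + y • Q'
  rw [zsmul_eq_of_dvd_sub hP' h1, zsmul_eq_of_dvd_sub hQ' h2]

theorem basisMap_torsion {P Q : J₁} (hb : TorsBasis J₁ p P Q) {P' Q' : J₂} (hP' : p • P' = 0)
    (hQ' : p • Q' = 0) (R : Submodule.torsionBy ℤ J₁ (p : ℤ)) :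
    basisMap hb P' Q' R ∈ Submodule.torsionBy ℤ J₂ (p : ℤ) := by
  rw [mem_torsionBy_nat]
  unfold basisMap
  rw [smul_add, smul_comm p _ P', smul_comm p _ Q', hP', hQ', smul_zero, smul_zero, add_zero]

/-- The isomorphism of `p`-torsion groups attached to two bases. -/
noncomputable def basisEquiv {P Q : J₁} (hb : TorsBasis J₁ p P Q) {P' Q' : J₂}
    (hb' : TorsBasis J₂ p P' Q') :
    Submodule.torsionBy ℤ J₁ (p : ℤ) ≃+ Submodule.torsionBy ℤ J₂ (p : ℤ) where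
  toFun R := ⟨basisMap hb P' Q' R, basisMap_torsion hb hb'.hP hb'.hQ R⟩
  invFun S := ⟨basisMap hb' P Q S, basisMap_torsion hb' hb.hP hb.hQ S⟩
  left_inv R := by
    obtain ⟨x, y, hxy⟩ := hb.hspan R.1 (mem_torsionBy_nat.mp R.2)
    apply Subtype.ext
    have h1 : basisMap hb P' Q' R = x • P' + y • Q' := basisMap_eq hb hb'.hP hb'.hQ R x y hxy
    show basisMap hb' P Q ⟨basisMap hb P' Q' R, _⟩ = R.1
    rw [basisMap_eq hb' hb.hP hb.hQ _ x y h1, hxy]
  right_inv S := by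
    obtain ⟨x, y, hxy⟩ := hb'.hspan S.1 (mem_torsionBy_nat.mp S.2)
    apply Subtype.ext
    have h1 : basisMap hb' P Q S = x • P + y • Q := basisMap_eq hb' hb.hP hb.hQ S x y hxy
    show basisMap hb P' Q' ⟨basisMap hb' P Q S, _⟩ = S.1
    rw [basisMap_eq hb hb'.hP hb'.hQ _ x y h1, hxy]
  map_add' R S := by
    obtain ⟨x, y, hxy⟩ := hb.hspan R.1 (mem_torsionBy_nat.mp R.2)
    obtain ⟨x', y', hxy'⟩ := hb.hspan S.1 (mem_torsionBy_nat.mp S.2)
    apply Subtype.ext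
    show basisMap hb P' Q' (R + S) = basisMap hb P' Q' R + basisMap hb P' Q' S
    have hsum : ((R + S : Submodule.torsionBy ℤ J₁ (p : ℤ)) : J₁) = (x + x') • P + (y + y') • Q := by
      rw [Submodule.coe_add, hxy, hxy', add_zsmul, add_zsmul]; abel
    rw [basisMap_eq hb hb'.hP hb'.hQ _ _ _ hsum, basisMap_eq hb hb'.hP hb'.hQ R x y hxy,
      basisMap_eq hb hb'.hP hb'.hQ S x' y' hxy', add_zsmul, add_zsmul]
    abel

theorem basisEquiv_apply {P Q : J₁} (hb : TorsBasis J₁ p P Q) {P' Q' : J₂}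
    (hb' : TorsBasis J₂ p P' Q') (R : Submodule.torsionBy ℤ J₁ (p : ℤ)) (x y : ℤ)
    (hR : (R : J₁) = x • P + y • Q) :
    ((basisEquiv hb hb' R : Submodule.torsionBy ℤ J₂ (p : ℤ)) : J₂) = x • P' + y • Q' :=
  basisMap_eq hb hb'.hP hb'.hQ R x y hR

/-- Two independent `p`-torsion elements form a basis as soon as `#J[p] = p²`. -/
theorem torsBasis_of_indep {J : Type*} [AddCommGroup J] {p : ℕ} [hp : Fact p.Prime]
    (hcard : Nat.card {R : J // p • R = 0} = p ^ 2) (P Q : J) (hP : p • P = 0) (hQ : p • Q = 0)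
    (hind : ∀ x y : ℤ, x • P + y • Q = 0 → (p : ℤ) ∣ x ∧ (p : ℤ) ∣ y) : TorsBasis J p P Q := by
  refine ⟨hP, hQ, hind, ?_⟩
  have : NeZero p := ⟨hp.out.ne_zero⟩
  have : Finite {R : J // p • R = 0} :=
    Nat.finite_of_card_ne_zero (by rw [hcard]; exact pow_ne_zero _ hp.out.ne_zero)
  let f : ZMod p × ZMod p → {R : J // p • R = 0} := fun xy =>
    ⟨((xy.1.val : ℕ) : ℤ) • P + ((xy.2.val : ℕ) : ℤ) • Q, by
      rw [smul_add, smul_comm p _ P, smul_comm p _ Q, hP, hQ, smul_zero, smul_zero, add_zero]⟩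
  have hinj : Function.Injective f := by
    rintro ⟨x, y⟩ ⟨x', y'⟩ h
    have h1 : ((x.val : ℕ) : ℤ) • P + ((y.val : ℕ) : ℤ) • Q
        = ((x'.val : ℕ) : ℤ) • P + ((y'.val : ℕ) : ℤ) • Q := congrArg Subtype.val h
    have h2 : (((x.val : ℕ) : ℤ) - ((x'.val : ℕ) : ℤ)) • P
        + (((y.val : ℕ) : ℤ) - ((y'.val : ℕ) : ℤ)) • Q = 0 := by
      rw [sub_zsmul, sub_zsmul]
      have h' := sub_eq_zero.mpr h1
      rw [← h']; abel
    obtain ⟨hx, hy⟩ := hind _ _ h2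
    have ex : x = x' := by
      have := (ZMod.intCast_eq_intCast_iff_dvd_sub ((x'.val : ℕ) : ℤ) ((x.val : ℕ) : ℤ) p).mpr hx
      simpa using this.symm
    have ey : y = y' := by
      have := (ZMod.intCast_eq_intCast_iff_dvd_sub ((y'.val : ℕ) : ℤ) ((y.val : ℕ) : ℤ) p).mpr hy
      simpa using this.symm
    rw [ex, ey]
  have hbij : Function.Bijective f := by
    apply hinj.bijective_of_nat_card_le
    rw [hcard, Nat.card_prod, Nat.card_zmod, sq]
  intro R hR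
  obtain ⟨⟨x, y⟩, hxy⟩ := hbij.2 ⟨R, hR⟩
  exact ⟨_, _, (congrArg Subtype.val hxy).symm⟩

end Abstract

theorem gal_smul_add (E : WeierstrassCurve ℚ) (σ : GQ) (A B : (E⁄Ω).Point) :
    σ • (A + B) = σ • A + σ • B := smul_add σ A B

theorem gal_smul_zsmul (E : WeierstrassCurve ℚ) (σ : GQ) (m : ℤ) (A : (E⁄Ω).Point) :
    σ • (m • A) = m • (σ • A) := WeierstrassCurve.Affine.Point.algEquiv_smul_zsmul σ m A

/-- Independent `p`-torsion points of an elliptic curve over `ℚ` (`p` an odd prime) form a basis of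
`E(Ω)[p]`. -/
theorem torsBasis_of_indep_curve (E : WeierstrassCurve ℚ) (hΔ : E.Δ ≠ 0) {p : ℕ} [hp : Fact p.Prime]
    (hp2 : p ≠ 2) (P Q : (E⁄Ω).Point) (hP : p • P = 0) (hQ : p • Q = 0)
    (hind : ∀ x y : ℤ, x • P + y • Q = 0 → (p : ℤ) ∣ x ∧ (p : ℤ) ∣ y) :
    TorsBasis (E⁄Ω).Point p P Q := by
  have hΔ' : (E⁄Ω).Δ ≠ 0 := by
    show (E.map (algebraMap ℚ Ω)).Δ ≠ 0
    rw [WeierstrassCurve.map_Δ]
    exact (map_ne_zero_iff _ (algebraMap ℚ Ω).injective).mpr hΔ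
  exact torsBasis_of_indep (Fermat.Agent.EC.card_torsion_eq hΔ' hp.out hp2) P Q hP hQ hind

/-- **Bases with the same Galois matrices give a Galois isomorphism of the `p`-torsion.** -/
theorem torsCong_of_same_matrix (p : ℕ) (E₁ E₂ : WeierstrassCurve ℚ)
    (P Q : (E₁⁄Ω).Point) (hb : TorsBasis (E₁⁄Ω).Point p P Q)
    (P' Q' : (E₂⁄Ω).Point) (hb' : TorsBasis (E₂⁄Ω).Point p P' Q')
    (hsame : ∀ σ : GQ, ∃ a b c d : ℤ, σ • P = a • P + c • Q ∧ σ • Q = b • P + d • Q ∧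
      σ • P' = a • P' + c • Q' ∧ σ • Q' = b • P' + d • Q') :
    TorsCong p E₁ E₂ := by
  refine ⟨basisEquiv hb hb', fun σ R => ?_⟩
  obtain ⟨x, y, hxy⟩ := hb.hspan R.1 (mem_torsionBy_nat.mp R.2)
  obtain ⟨a, b, c, d, h1, h2, h3, h4⟩ := hsame σ
  apply Subtype.ext
  have hσR : ((σ • R : Submodule.torsionBy ℤ (E₁⁄Ω).Point (p : ℤ)) : (E₁⁄Ω).Point)
      = (x * a + y * b) • P + (x * c + y * d) • Q := by
    show σ • (R : (E₁⁄Ω).Point) = _
    rw [hxy, gal_smul_add, gal_smul_zsmul, gal_smul_zsmul, h1, h2]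
    module
  rw [basisEquiv_apply hb hb' _ _ _ hσR]
  show _ = σ • ((basisEquiv hb hb' R : Submodule.torsionBy ℤ (E₂⁄Ω).Point (p : ℤ)) : (E₂⁄Ω).Point)
  rw [basisEquiv_apply hb hb' R x y hxy, gal_smul_add, gal_smul_zsmul, gal_smul_zsmul, h3, h4]
  module

end Fermat.Agent.S52x
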