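import Mathlib
import Fermat.Prelude.Def_FLTPrelim_Modularity

/-!
# S52 corner cases (helper8): a semistable integral model with `Δ ≠ 0` has `c₄ ≠ 0` and `c₆ ≠ 0`
-/

set_option autoImplicit false

namespace Fermat.Agent.S52x

open WeierstrassCurve

/-- If no prime divides an integer, it is `±1`. -/
theorem natAbs_eq_one_of_no_prime_dvd (n : ℤ) (h : ∀ p : ℕ, p.Prime → ¬ (p : ℤ) ∣ n) :
    n.natAbs = 1 := by
  by_contra hne
  obtain ⟨p, hp, hpn⟩ := Nat.exists_prime_and_dvd hne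
  exact h p hp (Int.natCast_dvd.mpr hpn)

theorem c₄_ne_zero_of_semistable (W : WeierstrassCurve ℤ) (_hΔ : W.Δ ≠ 0)
    (hW : W.IsSemistableModel) : W.c₄ ≠ 0 := by
  intro h0
  have hno : ∀ p : ℕ, p.Prime → ¬ (p : ℤ) ∣ W.Δ := fun p hp hpΔ =>
    hW p hp hpΔ (by rw [h0]; exact dvd_zero _)
  have h1 := natAbs_eq_one_of_no_prime_dvd W.Δ hno
  have hrel := W.c_relation
  rw [h0] at hrel
  rcases Int.natAbs_eq W.Δ with h | h <;> rw [h1] at h
  · -- Δ = 1 : c₆² = -1728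
    rw [h] at hrel
    have h2 : W.c₆ ^ 2 = -1728 := by push_cast at hrel; linarith
    nlinarith [sq_nonneg W.c₆]
  · -- Δ = -1 : c₆² = 1728
    rw [h] at hrel
    have h2 : W.c₆ ^ 2 = 1728 := by push_cast at hrel; linarith
    rcases le_or_gt W.c₆ 41 with h41 | h42
    · rcases le_or_gt (-41) W.c₆ with h41' | h42'
      · nlinarith [mul_nonneg (sub_nonneg.mpr h41) (by linarith : (0 : ℤ) ≤ 41 + W.c₆)]
      · have : W.c₆ ≤ -42 := by omega
        nlinarith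
    · have : 42 ≤ W.c₆ := by omega
      nlinarith

theorem c₆_ne_zero_of_semistable (W : WeierstrassCurve ℤ) (_hΔ : W.Δ ≠ 0)
    (hW : W.IsSemistableModel) : W.c₆ ≠ 0 := by
  intro h0
  have hrel := W.c_relation
  rw [h0] at hrel
  have hrel' : W.c₄ ^ 3 = 1728 * W.Δ := by linarith
  have hno : ∀ p : ℕ, p.Prime → ¬ (p : ℤ) ∣ W.Δ := fun p hp hpΔ => by
    have hpZ : Prime (p : ℤ) := Nat.prime_iff_prime_int.mp hp
    have : (p : ℤ) ∣ W.c₄ ^ 3 := by rw [hrel']; exact Dvd.dvd.mul_left hpΔ _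
    exact hW p hp hpΔ (hpZ.dvd_of_dvd_pow this)
  have h1 := natAbs_eq_one_of_no_prime_dvd W.Δ hno
  -- `b₂² ≡ 4 (mod 8)` is impossible for `b₂ = a₁² + 4 a₂`
  have hkey : ∀ a1 a2 : ZMod 8, (a1 ^ 2 + 4 * a2) ^ 2 ≠ 4 := by decide
  have hmono : StrictMono fun a : ℤ => a ^ 3 := Odd.strictMono_pow (by decide)
  have hc4 : W.c₄ = 12 ∨ W.c₄ = -12 := by
    rcases Int.natAbs_eq W.Δ with h | h <;> rw [h1] at h
    · left
      apply hmono.injective
      change W.c₄ ^ 3 = 12 ^ 3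
      rw [hrel', h]; norm_num
    · right
      apply hmono.injective
      change W.c₄ ^ 3 = (-12) ^ 3
      rw [hrel', h]; norm_num
  have hcast : ((W.c₄ : ℤ) : ZMod 8) = 4 := by
    rcases hc4 with h | h <;> rw [h] <;> decide
  apply hkey (W.a₁ : ZMod 8) (W.a₂ : ZMod 8)
  have : ((W.c₄ : ℤ) : ZMod 8) = ((W.a₁ : ZMod 8) ^ 2 + 4 * (W.a₂ : ZMod 8)) ^ 2 := by
    simp only [WeierstrassCurve.c₄, WeierstrassCurve.b₂, WeierstrassCurve.b₄]
    push_cast
    have h24 : (24 : ZMod 8) = 0 := by decide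
    rw [h24, zero_mul, sub_zero]
  rw [← this, hcast]

end Fermat.Agent.S52x
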