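import Mathlib
import Fermat.Prelude.Def_FLTPrelim_Modularity
import Fermat.Prelude.Def_FLTPrelim_ModularRep
import Fermat.Agent.S51.Three_helper4

/-!
# S52 [MODEL]/[IRR3] consumers (helper8)

* `perturb W e4 e6` : the integral model with `a₄, a₆` shifted; its `c₄, c₆` are affine in the shifts.
* `exists_model_of_close` : any `(c4', c6')` sufficiently close to `(c₄(W), c₆(W))` is realised by an
  integral Weierstrass model.
* `isSemistableModel_of_close` : semistability transfers to a close model, given coprimality of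
  `c₄', c₆'` away from `M`.
* `modRepIsIrreducible_three_of_prime` : if `c₆(W') ≡ 0`, `c₄(W') ≢ 0` modulo a prime `r ≥ 5` for which
  `3` is not a square, then the mod-3 representation of `W'` is irreducible.
-/

set_option autoImplicit false

namespace Fermat.Agent.S52x

open WeierstrassCurve

/-- Shift `a₄` and `a₆` of an integral model. -/
def perturb (W : WeierstrassCurve ℤ) (e4 e6 : ℤ) : WeierstrassCurve ℤ :=
  { a₁ := W.a₁, a₂ := W.a₂, a₃ := W.a₃, a₄ := W.a₄ + e4, a₆ := W.a₆ + e6 }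

theorem perturb_b₂ (W : WeierstrassCurve ℤ) (e4 e6 : ℤ) : (perturb W e4 e6).b₂ = W.b₂ := by
  simp only [perturb, WeierstrassCurve.b₂]

theorem perturb_c₄ (W : WeierstrassCurve ℤ) (e4 e6 : ℤ) :
    (perturb W e4 e6).c₄ = W.c₄ - 48 * e4 := by
  simp only [perturb, WeierstrassCurve.c₄, WeierstrassCurve.b₂, WeierstrassCurve.b₄]
  ring

theorem perturb_c₆ (W : WeierstrassCurve ℤ) (e4 e6 : ℤ) :
    (perturb W e4 e6).c₆ = W.c₆ + 72 * W.b₂ * e4 - 864 * e6 := by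
  simp only [perturb, WeierstrassCurve.c₆, WeierstrassCurve.b₂, WeierstrassCurve.b₄,
    WeierstrassCurve.b₆]
  ring

/-- Any pair `(c4', c6')` close enough to the invariants of `W` is the pair of invariants of an integral
model (with the same `a₁, a₂, a₃`). -/
theorem exists_model_of_close (W : WeierstrassCurve ℤ) (c4' c6' : ℤ)
    (h4 : (41472 : ℤ) ∣ c4' - W.c₄) (h6 : (864 : ℤ) ∣ c6' - W.c₆) :
    ∃ W' : WeierstrassCurve ℤ, W'.c₄ = c4' ∧ W'.c₆ = c6' ∧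
      W'.a₁ = W.a₁ ∧ W'.a₂ = W.a₂ ∧ W'.a₃ = W.a₃ := by
  obtain ⟨k, hk⟩ := h4
  obtain ⟨m, hm⟩ := h6
  refine ⟨perturb W (-864 * k) (-72 * W.b₂ * k - m), ?_, ?_, rfl, rfl, rfl⟩
  · rw [perturb_c₄]; linarith
  · rw [perturb_c₆]; linarith

theorem delta_ne_zero_iff (W : WeierstrassCurve ℤ) : W.Δ ≠ 0 ↔ W.c₄ ^ 3 ≠ W.c₆ ^ 2 := by
  have h := W.c_relation
  constructor
  · intro hΔ heq
    apply hΔ
    have : (1728 : ℤ) * W.Δ = 0 := by rw [h, heq, sub_self]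
    simpa using this
  · intro hne hΔ
    apply hne
    rw [hΔ, mul_zero] at h
    linarith

/-- Semistability transfers to a close model whose `c₄, c₆` are coprime away from `M`. -/
theorem isSemistableModel_of_close (W : WeierstrassCurve ℤ) (hW : W.IsSemistableModel)
    (W' : WeierstrassCurve ℤ) (M : ℤ)
    (h4 : 1728 * M ∣ W'.c₄ - W.c₄) (h6 : 1728 * M ∣ W'.c₆ - W.c₆)
    (hcop : ∀ p : ℕ, p.Prime → ¬ (p : ℤ) ∣ M → (p : ℤ) ∣ W'.c₄ → (p : ℤ) ∣ W'.c₆ → False) :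
    W'.IsSemistableModel := by
  intro p hp hpΔ' hpc4'
  have hpZ : Prime (p : ℤ) := Nat.prime_iff_prime_int.mp hp
  by_cases hpM : (p : ℤ) ∣ M
  · -- `p ∣ M`: everything is congruent mod `p`
    obtain ⟨k4, hk4⟩ := h4
    obtain ⟨k6, hk6⟩ := h6
    have hc4 : (p : ℤ) ∣ W.c₄ := by
      have : W.c₄ = W'.c₄ - 1728 * M * k4 := by linarith
      rw [this]
      exact dvd_sub hpc4' (Dvd.dvd.mul_right (Dvd.dvd.mul_left hpM _) _)
    have hΔ : (p : ℤ) ∣ W.Δ := by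
      have h1 := W.c_relation
      have h2 := W'.c_relation
      have hrel : W.Δ = W'.Δ - M * (k4 * (W'.c₄ ^ 2 + W'.c₄ * W.c₄ + W.c₄ ^ 2)
          - k6 * (W'.c₆ + W.c₆)) := by
        have h3 : (1728 : ℤ) * (W'.Δ - W.Δ) = 1728 * (M * (k4 * (W'.c₄ ^ 2 + W'.c₄ * W.c₄ + W.c₄ ^ 2)
          - k6 * (W'.c₆ + W.c₆))) := by
          have e4 : W'.c₄ = W.c₄ + 1728 * M * k4 := by linarith
          have e6 : W'.c₆ = W.c₆ + 1728 * M * k6 := by linarith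
          rw [mul_sub, h1, h2, e4, e6]
          ring
        have h4' := mul_left_cancel₀ (by norm_num : (1728 : ℤ) ≠ 0) h3
        linarith
      rw [hrel]
      exact dvd_sub hpΔ' (Dvd.dvd.mul_right hpM _)
    exact hW p hp hΔ hc4
  · -- `p ∤ M`: `p ∣ c₄'` and `p ∣ Δ'` force `p ∣ c₆'`
    have h2 := W'.c_relation
    have hc6sq : (p : ℤ) ∣ W'.c₆ ^ 2 := by
      have : W'.c₆ ^ 2 = W'.c₄ ^ 3 - 1728 * W'.Δ := by linarith
      rw [this]
      exact dvd_sub (dvd_pow hpc4' (by norm_num)) (Dvd.dvd.mul_left hpΔ' _)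
    exact hcop p hp hpM hpc4' (hpZ.dvd_of_dvd_pow hc6sq)

/-- The short-model form of the `3`-division polynomial: with `X = 36 x + 3 b₂`, `A = -27 c₄`,
`B = -54 c₆` one has `3X⁴ + 6AX² + 12BX - A² = 6⁸ ψ₃(x)`. -/
theorem psi3_short_identity {R : Type*} [CommRing R] (W : WeierstrassCurve R) (x : R) :
    3 * (36 * x + 3 * W.b₂) ^ 4 + 6 * (-27 * W.c₄) * (36 * x + 3 * W.b₂) ^ 2
        + 12 * (-54 * W.c₆) * (36 * x + 3 * W.b₂) - (-27 * W.c₄) ^ 2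
      = 6 ^ 8 * (3 * x ^ 4 + W.b₂ * x ^ 3 + 3 * W.b₄ * x ^ 2 + 3 * W.b₆ * x + W.b₈) := by
  simp only [WeierstrassCurve.c₄, WeierstrassCurve.c₆, WeierstrassCurve.b₂, WeierstrassCurve.b₄,
    WeierstrassCurve.b₆, WeierstrassCurve.b₈]
  ring

/-- A rational root of the `3`-division polynomial of an integral model has denominator dividing `3`. -/
theorem den_dvd_three_of_root (W' : WeierstrassCurve ℤ) (x0 : ℚ)
    (hx0 : ((W'.b₈ : ℤ) : ℚ) + 3 * x0 * (W'.b₆ : ℤ) + 3 * x0 ^ 2 * (W'.b₄ : ℤ) + x0 ^ 3 * (W'.b₂ : ℤ)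
      + 3 * x0 ^ 4 = 0) :
    (W'.b₈ * (x0.den : ℤ) ^ 4 + 3 * x0.num * W'.b₆ * (x0.den : ℤ) ^ 3
      + 3 * x0.num ^ 2 * W'.b₄ * (x0.den : ℤ) ^ 2 + x0.num ^ 3 * W'.b₂ * (x0.den : ℤ)
      + 3 * x0.num ^ 4 = 0) ∧ ((x0.den : ℤ) ∣ 3) := by
  have heq : (W'.b₈ * (x0.den : ℤ) ^ 4 + 3 * x0.num * W'.b₆ * (x0.den : ℤ) ^ 3
      + 3 * x0.num ^ 2 * W'.b₄ * (x0.den : ℤ) ^ 2 + x0.num ^ 3 * W'.b₂ * (x0.den : ℤ)
      + 3 * x0.num ^ 4 = 0) := by
    have hq : (((W'.b₈ * (x0.den : ℤ) ^ 4 + 3 * x0.num * W'.b₆ * (x0.den : ℤ) ^ 3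
      + 3 * x0.num ^ 2 * W'.b₄ * (x0.den : ℤ) ^ 2 + x0.num ^ 3 * W'.b₂ * (x0.den : ℤ)
      + 3 * x0.num ^ 4 : ℤ)) : ℚ) = 0 := by
      push_cast
      have hd : (x0.den : ℚ) ≠ 0 := by exact_mod_cast x0.den_ne_zero
      have hx : x0 = (x0.num : ℚ) / (x0.den : ℚ) := (Rat.num_div_den x0).symm
      rw [hx] at hx0
      field_simp at hx0
      linear_combination hx0
    exact_mod_cast hq
  refine ⟨heq, ?_⟩
  have hdvd : (x0.den : ℤ) ∣ 3 * x0.num ^ 4 :=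
    ⟨-(W'.b₈ * (x0.den : ℤ) ^ 3 + 3 * x0.num * W'.b₆ * (x0.den : ℤ) ^ 2
      + 3 * x0.num ^ 2 * W'.b₄ * (x0.den : ℤ) + x0.num ^ 3 * W'.b₂), by linear_combination heq⟩
  have hcop : IsCoprime (x0.den : ℤ) (x0.num ^ 4) := by
    apply IsCoprime.pow_right
    rw [Int.isCoprime_iff_gcd_eq_one, Int.gcd_comm]
    have := x0.reduced
    simpa [Int.gcd, Nat.Coprime] using this
  exact hcop.dvd_of_dvd_mul_right hdvd

/-- **[IRR3] consumer.** If `r ≥ 5` is a prime with `r ∣ c₆(W')`, `r ∤ c₄(W')` and `3` is not a square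
modulo `r`, then the mod-`3` representation of `W'` is irreducible: modulo `r` the curve is
`Y² = X³ + A X` whose `3`-division polynomial `3X⁴ + 6AX² - A²` has a root only if `3` is a square. -/
theorem modRepIsIrreducible_three_of_prime (W' : WeierstrassCurve ℤ) (hΔ : W'.Δ ≠ 0)
    (r : ℕ) (hr : r.Prime) (hr2 : r ≠ 2) (hr3 : r ≠ 3)
    (h6 : (r : ℤ) ∣ W'.c₆) (h4 : ¬ (r : ℤ) ∣ W'.c₄)
    (h3 : ∀ s : ZMod r, s ^ 2 ≠ 3) : W'.ModRepIsIrreducible 3 := by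
  by_contra hirr
  obtain ⟨x0, hx0⟩ := Fermat.Agent.S51.cond3_of_not_modRepIsIrreducible W' hΔ hirr
  have : Fact r.Prime := ⟨hr⟩
  have hx0' : ((W'.b₈ : ℤ) : ℚ) + 3 * x0 * (W'.b₆ : ℤ) + 3 * x0 ^ 2 * (W'.b₄ : ℤ)
      + x0 ^ 3 * (W'.b₂ : ℤ) + 3 * x0 ^ 4 = 0 := by
    simpa only [Fermat.Agent.S51.tb8, WeierstrassCurve.map_b₂, WeierstrassCurve.map_b₄,
      WeierstrassCurve.map_b₆, WeierstrassCurve.map_b₈, eq_intCast] using hx0
  obtain ⟨heq, hden⟩ := den_dvd_three_of_root W' x0 hx0'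
  -- the denominator is a unit modulo `r`
  have hnr : ((x0.den : ℕ) : ZMod r) ≠ 0 := by
    intro h0
    rw [ZMod.natCast_eq_zero_iff] at h0
    have h3' : (r : ℤ) ∣ 3 := (Int.natCast_dvd_natCast.mpr h0).trans hden
    have : r ∣ 3 := by exact_mod_cast h3'
    exact hr3 ((Nat.prime_dvd_prime_iff_eq hr Nat.prime_three).mp this)
  have h2F : (2 : ZMod r) ≠ 0 := by
    intro h0
    have : ((2 : ℕ) : ZMod r) = 0 := by exact_mod_cast h0
    rw [ZMod.natCast_eq_zero_iff] at this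
    exact hr2 ((Nat.prime_dvd_prime_iff_eq hr Nat.prime_two).mp this)
  have h3F : (3 : ZMod r) ≠ 0 := by
    intro h0
    have : ((3 : ℕ) : ZMod r) = 0 := by exact_mod_cast h0
    rw [ZMod.natCast_eq_zero_iff] at this
    exact hr3 ((Nat.prime_dvd_prime_iff_eq hr Nat.prime_three).mp this)
  have hc6 : ((W'.c₆ : ℤ) : ZMod r) = 0 := (ZMod.intCast_zmod_eq_zero_iff_dvd _ _).mpr h6
  have hc4 : ((W'.c₄ : ℤ) : ZMod r) ≠ 0 := fun h => h4 ((ZMod.intCast_zmod_eq_zero_iff_dvd _ _).mp h)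
  -- the reduced curve and the reduced root
  set WF : WeierstrassCurve (ZMod r) := W'.map (Int.castRingHom (ZMod r)) with hWF
  obtain ⟨d, hd⟩ : ∃ d : ZMod r, d = ((x0.den : ℕ) : ZMod r) := ⟨_, rfl⟩
  obtain ⟨m, hm⟩ : ∃ m : ZMod r, m = ((x0.num : ℤ) : ZMod r) := ⟨_, rfl⟩
  rw [← hd] at hnr
  have hroot : 3 * (m / d) ^ 4 + WF.b₂ * (m / d) ^ 3 + 3 * WF.b₄ * (m / d) ^ 2 + 3 * WF.b₆ * (m / d)
      + WF.b₈ = 0 := by
    have hcast := congrArg (Int.cast : ℤ → ZMod r) heq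
    push_cast at hcast
    rw [← hd, ← hm] at hcast
    simp only [hWF, WeierstrassCurve.map_b₂, WeierstrassCurve.map_b₄, WeierstrassCurve.map_b₆,
      WeierstrassCurve.map_b₈, eq_intCast]
    field_simp
    linear_combination hcast
  have hid := psi3_short_identity WF (m / d)
  rw [hroot, mul_zero] at hid
  have hWc6 : WF.c₆ = 0 := by
    simp only [hWF, WeierstrassCurve.map_c₆, eq_intCast]; exact hc6
  have hWc4 : WF.c₄ ≠ 0 := by
    simp only [hWF, WeierstrassCurve.map_c₄, eq_intCast]; exact hc4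
  set X : ZMod r := 36 * (m / d) + 3 * WF.b₂ with hX
  set A : ZMod r := -27 * WF.c₄ with hA
  have hA0 : A ≠ 0 := by
    rw [hA]
    have h27 : (27 : ZMod r) = 3 ^ 3 := by norm_num
    have : (-27 : ZMod r) ≠ 0 := by
      rw [neg_ne_zero, h27]; exact pow_ne_zero _ h3F
    exact mul_ne_zero this hWc4
  rw [hWc6] at hid
  have hsq : ((3 * X ^ 2 + 3 * A) / (2 * A)) ^ 2 = 3 := by
    have h2A : (2 * A) ≠ 0 := mul_ne_zero h2F hA0
    rw [div_pow, div_eq_iff (pow_ne_zero 2 h2A)]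
    linear_combination 3 * hid
  exact h3 _ hsq

end Fermat.Agent.S52x
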