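import Mathlib
import Fermat.Agent.S52x.MODEL_helper8_Perturb

/-!
# S52 [MODEL] producer (helper8)

Given a semistable integral model `W` and two coprime rational polynomials `P4, P6` with
`P4(0) = c₄(W)`, `P6(0) = c₆(W)` and `P4³ ≠ P6²`, there is a modulus `B` such that for every prime
`r ∤ B` and every residue `τ mod r` there are an integer `t ≡ τ (mod r)` and a semistable integral
model `W'` with nonzero discriminant and `c₄(W') = P4(t)`, `c₆(W') = P6(t)`.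
-/

set_option autoImplicit false

namespace Fermat.Agent.S52x

open Polynomial

/-- Values of a rational polynomial at integers divisible by a suitable `N` are `K`-adically close to the
constant term, as soon as the argument is divisible by `N * K`. -/
theorem exists_den_close (p : ℚ[X]) :
    ∃ N : ℕ, 0 < N ∧ ∀ K x : ℤ, ((N : ℤ) * K) ∣ x →
      ∃ z : ℤ, p.eval (x : ℚ) - p.eval 0 = ((K * z : ℤ) : ℚ) := by
  induction p using Polynomial.induction_on' with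
  | add p q hp hq =>
    obtain ⟨N1, hN1, h1⟩ := hp
    obtain ⟨N2, hN2, h2⟩ := hq
    refine ⟨N1 * N2, Nat.mul_pos hN1 hN2, fun K x hx => ?_⟩
    obtain ⟨z1, hz1⟩ := h1 K x (Dvd.dvd.trans ⟨N2, by push_cast; ring⟩ hx)
    obtain ⟨z2, hz2⟩ := h2 K x (Dvd.dvd.trans ⟨N1, by push_cast; ring⟩ hx)
    refine ⟨z1 + z2, ?_⟩
    simp only [eval_add]
    push_cast at hz1 hz2 ⊢
    linear_combination hz1 + hz2
  | monomial n a =>
    rcases n with _ | k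
    · refine ⟨1, one_pos, fun K x _ => ⟨0, ?_⟩⟩
      simp
    · obtain ⟨m, d, hd0, ha⟩ : ∃ (m : ℤ) (d : ℕ), 0 < d ∧ a = (m : ℚ) / (d : ℚ) :=
        ⟨a.num, a.den, a.den_pos, (Rat.num_div_den a).symm⟩
      refine ⟨d, hd0, fun K x hx => ?_⟩
      obtain ⟨y, rfl⟩ := hx
      refine ⟨m * (d : ℤ) ^ k * K ^ k * y ^ (k + 1), ?_⟩
      simp only [eval_monomial]
      have hd : (d : ℚ) ≠ 0 := by exact_mod_cast hd0.ne'
      push_cast
      rw [zero_pow (Nat.succ_ne_zero k), mul_zero, sub_zero, ha]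
      field_simp
      ring

/-- Integral Bezout: for coprime rational polynomials there are `N, R > 0` such that at integers `x`
divisible by `N`, every common prime divisor of (integral) values `P4(x), P6(x)` divides `R`. -/
theorem exists_bezout_const (P4 P6 : ℚ[X]) (hcop : IsCoprime P4 P6) :
    ∃ (N R : ℕ), 0 < N ∧ 0 < R ∧ ∀ x : ℤ, (N : ℤ) ∣ x → ∀ z4 z6 : ℤ,
      (z4 : ℚ) = P4.eval (x : ℚ) → (z6 : ℚ) = P6.eval (x : ℚ) →
      ∀ p : ℤ, p ∣ z4 → p ∣ z6 → p ∣ (R : ℤ) := by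
  obtain ⟨U, V, hUV⟩ := hcop
  obtain ⟨NU, hNU, hU⟩ := exists_den_close U
  obtain ⟨NV, hNV, hV⟩ := exists_den_close V
  obtain ⟨mu, du, hdu0, hu0⟩ : ∃ (m : ℤ) (d : ℕ), 0 < d ∧ U.eval 0 = (m : ℚ) / (d : ℚ) :=
    ⟨(U.eval 0).num, (U.eval 0).den, (U.eval 0).den_pos, (Rat.num_div_den _).symm⟩
  obtain ⟨mv, dv, hdv0, hv0⟩ : ∃ (m : ℤ) (d : ℕ), 0 < d ∧ V.eval 0 = (m : ℚ) / (d : ℚ) :=
    ⟨(V.eval 0).num, (V.eval 0).den, (V.eval 0).den_pos, (Rat.num_div_den _).symm⟩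
  refine ⟨NU * NV, du * dv, Nat.mul_pos hNU hNV, Nat.mul_pos hdu0 hdv0, ?_⟩
  intro x hx z4 z6 h4 h6 p hp4 hp6
  obtain ⟨zu, hzu⟩ := hU 1 x (by
    rw [mul_one]; exact Dvd.dvd.trans ⟨NV, by push_cast; ring⟩ hx)
  obtain ⟨zv, hzv⟩ := hV 1 x (by
    rw [mul_one]; exact Dvd.dvd.trans ⟨NU, by push_cast; ring⟩ hx)
  have hdu : (du : ℚ) ≠ 0 := by exact_mod_cast hdu0.ne'
  have hdv : (dv : ℚ) ≠ 0 := by exact_mod_cast hdv0.ne'
  have hUx : U.eval (x : ℚ) = ((mu + du * zu : ℤ) : ℚ) / (du : ℚ) := by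
    have : U.eval (x : ℚ) = U.eval 0 + ((1 * zu : ℤ) : ℚ) := by linarith
    rw [this, hu0]
    push_cast
    field_simp
  have hVx : V.eval (x : ℚ) = ((mv + dv * zv : ℤ) : ℚ) / (dv : ℚ) := by
    have : V.eval (x : ℚ) = V.eval 0 + ((1 * zv : ℤ) : ℚ) := by linarith
    rw [this, hv0]
    push_cast
    field_simp
  have hev := congrArg (Polynomial.eval (x : ℚ)) hUV
  simp only [eval_add, eval_mul, eval_one] at hev
  rw [← h4, ← h6, hUx, hVx] at hev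
  have hint : ((du * dv : ℕ) : ℤ) = (dv : ℤ) * (mu + du * zu) * z4 + (du : ℤ) * (mv + dv * zv) * z6 := by
    have hq : (((du * dv : ℕ) : ℤ) : ℚ)
        = (((dv : ℤ) * (mu + du * zu) * z4 + (du : ℤ) * (mv + dv * zv) * z6 : ℤ) : ℚ) := by
      field_simp at hev
      push_cast at hev ⊢
      linear_combination (-1 : ℚ) * hev
    exact_mod_cast hq
  rw [hint]
  exact dvd_add (Dvd.dvd.mul_left hp4 _) (Dvd.dvd.mul_left hp6 _)

/-- **[MODEL] producer.** -/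
theorem exists_semistable_model (W : WeierstrassCurve ℤ) (hW : W.IsSemistableModel)
    (P4 P6 : ℚ[X]) (h40 : P4.eval 0 = (W.c₄ : ℚ)) (h60 : P6.eval 0 = (W.c₆ : ℚ))
    (hcop : IsCoprime P4 P6) (hD : P4 ^ 3 - P6 ^ 2 ≠ 0) :
    ∃ B : ℕ, 0 < B ∧ ∀ r : ℕ, r.Prime → r.Coprime B → ∀ τ : ℤ,
      ∃ (t : ℤ) (W' : WeierstrassCurve ℤ), (r : ℤ) ∣ t - τ ∧
        (W'.c₄ : ℚ) = P4.eval (t : ℚ) ∧ (W'.c₆ : ℚ) = P6.eval (t : ℚ) ∧
        W'.Δ ≠ 0 ∧ W'.IsSemistableModel ∧ ¬ ((r : ℤ) ∣ W'.c₄ ∧ (r : ℤ) ∣ W'.c₆) := by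
  obtain ⟨N4, hN4, h4⟩ := exists_den_close P4
  obtain ⟨N6, hN6, h6⟩ := exists_den_close P6
  obtain ⟨NB, R, hNB, hR, hbez⟩ := exists_bezout_const P4 P6 hcop
  refine ⟨(N4 * N6 * NB) * (41472 * R), by positivity, ?_⟩
  intro r hr hrB τ
  obtain ⟨K, hK⟩ : ∃ K : ℤ, K = 41472 * (R : ℤ) := ⟨_, rfl⟩
  obtain ⟨N, hN⟩ : ∃ N : ℤ, N = (N4 : ℤ) * N6 * NB := ⟨_, rfl⟩
  have hNK0 : N * K ≠ 0 := by
    rw [hN, hK]
    have h1 : (N4 : ℤ) ≠ 0 := by exact_mod_cast hN4.ne'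
    have h2 : (N6 : ℤ) ≠ 0 := by exact_mod_cast hN6.ne'
    have h3 : (NB : ℤ) ≠ 0 := by exact_mod_cast hNB.ne'
    have h4 : (R : ℤ) ≠ 0 := by exact_mod_cast hR.ne'
    positivity
  have hr0 : (r : ℤ) ≠ 0 := by exact_mod_cast hr.ne_zero
  -- `r` is coprime to `N * K`
  have hcopZ : IsCoprime (N * K) (r : ℤ) := by
    have h1 : IsCoprime ((((N4 * N6 * NB) * (41472 * R) : ℕ)) : ℤ) (r : ℤ) :=
      (Nat.isCoprime_iff_coprime.mpr hrB).symm
    have h2 : ((((N4 * N6 * NB) * (41472 * R) : ℕ)) : ℤ) = N * K := by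
      rw [hN, hK]; push_cast; ring
    rwa [h2] at h1
  have hrR : ¬ (r : ℤ) ∣ (R : ℤ) := by
    intro h
    have h1 : (r : ℤ) ∣ N * K := by
      rw [hK]; exact Dvd.dvd.mul_left (Dvd.dvd.mul_left h _) _
    have hu : IsUnit (r : ℤ) := hcopZ.symm.isUnit_of_dvd' (dvd_refl _) h1
    have : (r : ℤ).natAbs = 1 := Int.isUnit_iff_natAbs_eq.mp hu
    rw [Int.natAbs_natCast] at this
    exact hr.one_lt.ne' this
  obtain ⟨a, b, hab⟩ := hcopZ
  -- `k0` solves the congruence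
  have hk0 : (r : ℤ) ∣ N * K * (a * τ) - τ := ⟨-(b * τ), by linear_combination τ * hab⟩
  -- choose `j` avoiding the roots of `P4 ^ 3 - P6 ^ 2`
  obtain ⟨j, hj⟩ : ∃ j : ℤ, (P4 ^ 3 - P6 ^ 2).eval (((N * K * (a * τ + r * j) : ℤ)) : ℚ) ≠ 0 := by
    by_contra hcon
    push Not at hcon
    apply hD
    apply Polynomial.eq_zero_of_infinite_isRoot
    apply Set.infinite_of_injective_forall_mem (f := fun j : ℤ => (((N * K * (a * τ + r * j) : ℤ)) : ℚ))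
    · intro j1 j2 h
      have h' : N * K * (a * τ + r * j1) = N * K * (a * τ + r * j2) := by
        simp only at h
        exact_mod_cast h
      have h'' := mul_left_cancel₀ hNK0 h'
      have h3 : (r : ℤ) * j1 = r * j2 := by linarith
      exact mul_left_cancel₀ hr0 h3
    · intro j
      exact hcon j
  obtain ⟨t, ht⟩ : ∃ t : ℤ, t = N * K * (a * τ + r * j) := ⟨_, rfl⟩
  rw [← ht] at hj
  have htτ : (r : ℤ) ∣ t - τ := by
    have : t - τ = (N * K * (a * τ) - τ) + r * (N * K * j) := by rw [ht]; ring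
    rw [this]
    exact dvd_add hk0 (dvd_mul_right _ _)
  -- the integral values
  obtain ⟨z4, hz4⟩ := h4 K t ⟨(N6 : ℤ) * NB * (a * τ + r * j), by rw [ht, hN]; ring⟩
  obtain ⟨z6, hz6⟩ := h6 K t ⟨(N4 : ℤ) * NB * (a * τ + r * j), by rw [ht, hN]; ring⟩
  have hc4' : ((W.c₄ + K * z4 : ℤ) : ℚ) = P4.eval (t : ℚ) := by
    push_cast at hz4 ⊢; rw [h40] at hz4; linarith
  have hc6' : ((W.c₆ + K * z6 : ℤ) : ℚ) = P6.eval (t : ℚ) := by
    push_cast at hz6 ⊢; rw [h60] at hz6; linarith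
  obtain ⟨W', hW4, hW6, -, -, -⟩ := exists_model_of_close W (W.c₄ + K * z4) (W.c₆ + K * z6)
    ⟨(R : ℤ) * z4, by rw [hK]; ring⟩ ⟨48 * (R : ℤ) * z6, by rw [hK]; ring⟩
  have hNBt : (NB : ℤ) ∣ t := ⟨(N4 : ℤ) * N6 * K * (a * τ + r * j), by rw [ht, hN]; ring⟩
  have hbez' : ∀ p : ℤ, p ∣ W'.c₄ → p ∣ W'.c₆ → p ∣ (R : ℤ) := by
    intro p hp4 hp6
    exact hbez t hNBt W'.c₄ W'.c₆ (by rw [hW4]; exact hc4') (by rw [hW6]; exact hc6') p hp4 hp6
  refine ⟨t, W', htτ, by rw [hW4]; exact hc4', by rw [hW6]; exact hc6', ?_, ?_, ?_⟩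
  · -- discriminant
    rw [delta_ne_zero_iff, hW4, hW6]
    intro heq
    apply hj
    rw [eval_sub, eval_pow, eval_pow, ← hc4', ← hc6']
    have : (((W.c₄ + K * z4 : ℤ) : ℚ)) ^ 3 = (((W.c₆ + K * z6 : ℤ) : ℚ)) ^ 2 := by exact_mod_cast heq
    rw [this, sub_self]
  · -- semistability
    apply isSemistableModel_of_close W hW W' (R : ℤ)
    · rw [hW4]; exact ⟨24 * z4, by rw [hK]; ring⟩
    · rw [hW6]; exact ⟨24 * z6, by rw [hK]; ring⟩
    · intro p _ hpR hp4 hp6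
      exact hpR (hbez' p hp4 hp6)
  · rintro ⟨hr4, hr6⟩
    exact hrR (hbez' r hr4 hr6)

end Fermat.Agent.S52x
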