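import Mathlib
import Fermat.Prelude.Def_FLTPrelim_Modularity
import Fermat.Prelude.Def_FLTPrelim_ModularRep
import Fermat.Agent.S52x.MODEL_helper8_Exists
import Fermat.Agent.S52x.MODEL_helper8_Corner
import Fermat.Agent.S52x.TOP_helper8_Cong

/-!
# S52 [TOP] (helper8): the 3–5 switch from three package hypotheses

* `TheoremAHyp` : the family `shortCurve (P4 t) (P6 t)` with constant mod-5 representation
  ([DESC], helper9), together with a root `t₁` of `P6` rational over `ℚ(E[5], i)`;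
* `Irr3Hyp` : the Chebotarev prime `r` of the CM-fibre trick ([IRR3], helper7);
* `TraceHyp` : congruence of `a_ℓ` from a Galois isomorphism of `5`-torsion ([TRACE], helper3).
-/

set_option autoImplicit false

namespace Fermat.Agent.S52x

open WeierstrassCurve WeierstrassCurve.Affine Polynomial
open scoped WeierstrassCurve.Affine

local notation "Ω" => AlgebraicClosure ℚ

/-- [DESC] Theorem A in the shape consumed by [TOP]. -/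
def TheoremAHyp : Prop :=
  ∀ c4 c6 : ℚ, c4 ≠ 0 → c6 ≠ 0 → c4 ^ 3 ≠ c6 ^ 2 →
    ∃ P4 P6 : ℚ[X], P4.eval 0 = c4 ∧ P6.eval 0 = c6 ∧ IsCoprime P4 P6 ∧
      (∀ t : ℚ, P4.eval t ^ 3 ≠ P6.eval t ^ 2 →
        TorsCong 5 (shortCurve (P4.eval t) (P6.eval t)) (shortCurve c4 c6)) ∧
      ∃ t₁ : Ω, aeval t₁ P6 = 0 ∧ ∀ σ : Ω ≃ₐ[ℚ] Ω,
        (∀ x : Submodule.torsionBy ℤ ((shortCurve c4 c6)⁄Ω).Point (5 : ℕ), σ • x = x) →
        (∀ I : Ω, I ^ 2 = -1 → σ I = I) → σ t₁ = t₁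

/-- [IRR3] the Chebotarev prime of the CM-fibre trick. -/
def Irr3Hyp : Prop :=
  ∀ W : WeierstrassCurve ℤ, W.Δ ≠ 0 → W.IsSemistableModel →
    ∀ (P6 : ℚ[X]) (t₁ : Ω), aeval t₁ P6 = 0 →
      (∀ σ : Ω ≃ₐ[ℚ] Ω,
        (∀ x : Submodule.torsionBy ℤ ((W.map (Int.castRingHom ℚ))⁄Ω).Point (5 : ℕ), σ • x = x) →
        (∀ I : Ω, I ^ 2 = -1 → σ I = I) → σ t₁ = t₁) →
      ∀ B : ℕ, 0 < B → ∃ (r : ℕ) (τ : ℤ), r.Prime ∧ r.Coprime B ∧ (∀ s : ZMod r, s ^ 2 ≠ 3) ∧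
        ∀ t : ℤ, (r : ℤ) ∣ t - τ → ∀ z : ℤ, (z : ℚ) = P6.eval (t : ℚ) → (r : ℤ) ∣ z

/-- [TRACE] congruence of the `a_ℓ` from a Galois isomorphism of the `5`-torsion. -/
def TraceHyp : Prop :=
  ∀ W W' : WeierstrassCurve ℤ, W.Δ ≠ 0 → W'.Δ ≠ 0 →
    TorsCong 5 (W'.map (Int.castRingHom ℚ)) (W.map (Int.castRingHom ℚ)) →
    ∀ ℓ : ℕ, ℓ.Prime → W.IsGoodPrimeFor ℓ → W'.IsGoodPrimeFor ℓ → ℓ ≠ 5 →
      (5 : ℤ) ∣ W'.apOfModel ℓ - W.apOfModel ℓ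

/-- **S52 from the three package hypotheses.** -/
theorem s52_of_hyps (hA : TheoremAHyp) (hI : Irr3Hyp) (hT : TraceHyp)
    (W : WeierstrassCurve ℤ) (hΔ : W.Δ ≠ 0) (hW : W.IsSemistableModel) :
    ∃ W' : WeierstrassCurve ℤ, W'.Δ ≠ 0 ∧ W'.IsSemistableModel ∧ W'.ModRepIsIrreducible 3 ∧
      ∀ ℓ : ℕ, ℓ.Prime → W.IsGoodPrimeFor ℓ → W'.IsGoodPrimeFor ℓ → ℓ ≠ 5 →
        (5 : ℤ) ∣ (W'.apOfModel ℓ - W.apOfModel ℓ) := by
  by_cases h3 : W.ModRepIsIrreducible 3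
  · exact ⟨W, hΔ, hW, h3, fun ℓ _ _ _ _ => by simp⟩
  -- the invariants of `W`
  have hc4 : ((W.c₄ : ℤ) : ℚ) ≠ 0 := by exact_mod_cast c₄_ne_zero_of_semistable W hΔ hW
  have hc6 : ((W.c₆ : ℤ) : ℚ) ≠ 0 := by exact_mod_cast c₆_ne_zero_of_semistable W hΔ hW
  have hne : ((W.c₄ : ℤ) : ℚ) ^ 3 ≠ ((W.c₆ : ℤ) : ℚ) ^ 2 := by
    have := (delta_ne_zero_iff W).mp hΔ
    exact_mod_cast this
  obtain ⟨P4, P6, h40, h60, hcop, hcong, t₁, ht₁, hfix⟩ := hA _ _ hc4 hc6 hne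
  have hD : P4 ^ 3 - P6 ^ 2 ≠ 0 := by
    intro h0
    have := congrArg (Polynomial.eval (0 : ℚ)) h0
    simp only [eval_sub, eval_pow, eval_zero, h40, h60] at this
    exact hne (sub_eq_zero.mp this)
  obtain ⟨B, hB, hmodel⟩ := exists_semistable_model W hW P4 P6 h40 h60 hcop hD
  -- `W` and its short form
  have hWshort : TorsCong 5 (W.map (Int.castRingHom ℚ)) (shortCurve ((W.c₄ : ℤ) : ℚ) ((W.c₆ : ℤ) : ℚ)) := by
    have := torsCong_shortCurve 5 (W.map (Int.castRingHom ℚ))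
    rwa [WeierstrassCurve.map_c₄, WeierstrassCurve.map_c₆, eq_intCast, eq_intCast] at this
  -- transfer the fixing property of `t₁` to `W`
  have hfix' : ∀ σ : Ω ≃ₐ[ℚ] Ω,
      (∀ x : Submodule.torsionBy ℤ ((W.map (Int.castRingHom ℚ))⁄Ω).Point (5 : ℕ), σ • x = x) →
      (∀ I : Ω, I ^ 2 = -1 → σ I = I) → σ t₁ = t₁ := by
    intro σ hσ hI
    apply hfix σ _ hI
    obtain ⟨φ, hφ⟩ := hWshort
    intro y
    obtain ⟨x, rfl⟩ := φ.surjective y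
    rw [← hφ, hσ]
  obtain ⟨r, τ, hr, hrB, h3r, hr6⟩ := hI W hΔ hW P6 t₁ ht₁ hfix' (6 * B) (by positivity)
  have hrB' : r.Coprime B := Nat.Coprime.coprime_mul_left_right hrB
  have hr6' : r.Coprime 6 := Nat.Coprime.coprime_mul_right_right hrB
  have hr2 : r ≠ 2 := by rintro rfl; revert hr6'; decide
  have hr3 : r ≠ 3 := by rintro rfl; revert hr6'; decide
  obtain ⟨t, W', htτ, hW4, hW6, hΔ', hWss, hnot⟩ := hmodel r hr hrB' τ
  have hrc6 : (r : ℤ) ∣ W'.c₆ := hr6 t htτ W'.c₆ hW6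
  have hrc4 : ¬ (r : ℤ) ∣ W'.c₄ := fun h => hnot ⟨h, hrc6⟩
  refine ⟨W', hΔ', hWss, modRepIsIrreducible_three_of_prime W' hΔ' r hr hr2 hr3 hrc6 hrc4 h3r, ?_⟩
  -- the congruence
  apply hT W W' hΔ hΔ'
  have hne' : P4.eval (t : ℚ) ^ 3 ≠ P6.eval (t : ℚ) ^ 2 := by
    rw [← hW4, ← hW6]
    have := (delta_ne_zero_iff W').mp hΔ'
    exact_mod_cast this
  have h1 : TorsCong 5 (W'.map (Int.castRingHom ℚ))
      (shortCurve (P4.eval (t : ℚ)) (P6.eval (t : ℚ))) := by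
    have := torsCong_shortCurve 5 (W'.map (Int.castRingHom ℚ))
    rwa [WeierstrassCurve.map_c₄, WeierstrassCurve.map_c₆, eq_intCast, eq_intCast, hW4, hW6] at this
  exact (h1.trans (hcong (t : ℚ) hne')).trans hWshort.symm

end Fermat.Agent.S52x
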