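/-
S52 / package [DESC] (helper9): `TheoremAHyp` from an instance of the abstract Klein interface.
-/
import Mathlib
import Fermat.Agent.S52x.DESC_helper9_AbsMain
import Fermat.Agent.S52x.TOP_helper8_Basis
import Fermat.Agent.S52x.TOP_helper8_Main
import Fermat.Agent.S52x.DET_helper7_Short

set_option autoImplicit false
set_option linter.style.haveILetI false

namespace Fermat.Agent.S52x

open WeierstrassCurve WeierstrassCurve.Affine Polynomial
open scoped WeierstrassCurve.Affine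

/-- `Ω = AlgebraicClosure ℚ`. -/
local notation "Ω" => AlgebraicClosure ℚ
/-- `GQ = Gal(Ω/ℚ)`. -/
local notation "GQ" => (AlgebraicClosure ℚ ≃ₐ[ℚ] AlgebraicClosure ℚ)

theorem shortCurve_Δ_ne_zero {c4 c6 : ℚ} (hne : c4 ^ 3 ≠ c6 ^ 2) : (shortCurve c4 c6).Δ ≠ 0 := by
  rw [shortCurve_Δ]
  exact mul_ne_zero (by norm_num) (sub_ne_zero.2 hne)

/-- **[DESC]**: `TheoremAHyp` holds as soon as Klein's family satisfies the abstract interface. -/
theorem theoremAHyp_of_kleinAbs (A : KleinAbs) : TheoremAHyp := by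
  intro c4 c6 h4 h6 hne
  haveI : Fact (Nat.Prime 5) := ⟨by norm_num⟩
  have hΔ := shortCurve_Δ_ne_zero hne
  have hΔ' : ((shortCurve c4 c6)⁄Ω).Δ ≠ 0 := by
    show ((shortCurve c4 c6).map (algebraMap ℚ Ω)).Δ ≠ 0
    rw [WeierstrassCurve.map_Δ]
    exact (map_ne_zero_iff _ (algebraMap ℚ Ω).injective).mpr hΔ
  have hcard : Nat.card {P : ((shortCurve c4 c6)⁄Ω).Point // (5 : ℕ) • P = 0} = 25 :=
    Fermat.Agent.EC.card_torsion_eq hΔ' (by norm_num) (by norm_num)
  have hdet : A.DetCyc (shortCurve c4 c6) := by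
    intro P Q hP hQ hind σ a b c d hσP hσQ e he
    exact det_cyclotomic_shortCurve c4 c6 hne P Q hP hQ hind σ a b c d hσP hσQ A.ζ A.hζ e he
  obtain ⟨P4, P6, h40, h60, hcop, ⟨P, Q, hP, hQ, hind, hfam⟩, t₁, ht₁, hfix⟩ :=
    A.theoremA_abs c4 c6 h4 h6 hne hcard hdet
  refine ⟨P4, P6, h40, h60, hcop, ?_, t₁, ht₁, ?_⟩
  · intro t ht
    obtain ⟨P', Q', hP', hQ', hind', hsame⟩ := hfam t ht
    have hb : TorsBasis ((shortCurve c4 c6)⁄Ω).Point 5 P Q :=
      torsBasis_of_indep_curve _ hΔ (by norm_num) P Q hP hQ hind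
    have hb' : TorsBasis ((shortCurve (P4.eval t) (P6.eval t))⁄Ω).Point 5 P' Q' :=
      torsBasis_of_indep_curve _ (shortCurve_Δ_ne_zero ht) (by norm_num) P' Q' hP' hQ' hind'
    exact torsCong_of_same_matrix 5 _ _ P' Q' hb' P Q hb hsame
  · intro σ htriv hI
    apply hfix σ _ hI
    intro R hR
    have hmem : R ∈ Submodule.torsionBy ℤ ((shortCurve c4 c6)⁄Ω).Point ((5 : ℕ) : ℤ) :=
      mem_torsionBy_nat.2 hR
    have := htriv ⟨R, hmem⟩
    exact congrArg Subtype.val this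

end Fermat.Agent.S52x
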