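/-
S52 (3–5 switch) — helper7 — [IRR3] part (a): Frobenius elements and square roots / fixed elements.
* `not_isSquare_three_of_frobenius`: a Frobenius `φ` at `r ≥ 5` with `φ √3 = -√3` ⇒ `3` is not a
  square mod `r` (no quadratic reciprocity).
* `exists_int_sub_mem_nonunits_of_frobenius_fixed`: an element of the valuation ring fixed by a
  Frobenius at `r` is congruent to a rational integer.
-/
import Mathlib
import Fermat.Agent.GR.DET_lead_Cyc

set_option autoImplicit false

namespace Fermat.Agent.S52x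

open Fermat.Agent.TW.Kill

/-- `Ω = AlgebraicClosure ℚ`. -/
local notation "Ω" => AlgebraicClosure ℚ
/-- `GQ = Gal(Ω/ℚ)`. -/
local notation "GQ" => (AlgebraicClosure ℚ ≃ₐ[ℚ] AlgebraicClosure ℚ)

variable {P : ValuationSubring Ω}

/-- the defining congruence of a Frobenius element, in valuation form. -/
theorem frobenius_valuation_sub_pow_lt_one {r : ℕ} {φ : GQ} (hφ : P.IsFrobeniusAt φ r) {x : Ω}
    (hx : x ∈ P) : P.valuation (φ x - x ^ r) < 1 := by
  obtain ⟨hφD, hfrob⟩ := hφ
  set z : P := ⟨x, hx⟩ with hz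
  have h1 := hfrob (IsLocalRing.residue P z)
  rw [← IsLocalRing.ResidueField.residue_smul, ← map_pow, ← sub_eq_zero, ← map_sub,
    IsLocalRing.residue_eq_zero_iff, P.valuation_lt_one_iff] at h1
  exact h1

/-- a rational integer of valuation `< 1` at a place over `r` is divisible by `r`. -/
theorem dvd_of_valuation_natCast_lt_one {r : ℕ} (hr : r.Prime) (hP : P.LiesOverPrime r) {n : ℕ}
    (h : P.valuation (n : Ω) < 1) : r ∣ n := by
  by_contra hn
  rw [valuation_natCast_eq_one hr hn hP] at h
  exact lt_irrefl _ h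

/-- **a Frobenius at `r` which moves `√3` witnesses that `3` is a non-residue mod `r`.** -/
theorem not_isSquare_three_of_frobenius {r : ℕ} (hr : r.Prime) (hr5 : 5 ≤ r)
    (hP : P.LiesOverPrime r) {φ : GQ} (hφ : P.IsFrobeniusAt φ r) {s : Ω} (hs : s ^ 2 = 3)
    (hφs : φ s = -s) : ¬ IsSquare (3 : ZMod r) := by
  have : Fact r.Prime := ⟨hr⟩
  have hsint : IsIntegral ℤ s := by
    refine ⟨Polynomial.X ^ 2 - Polynomial.C 3, Polynomial.monic_X_pow_sub_C 3 (by norm_num), ?_⟩
    simp [hs]
  have hsP : s ∈ P := mem_of_isIntegral_int P hsint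
  have h3r : ¬ r ∣ 3 := by
    intro h
    have := Nat.le_of_dvd (by norm_num) h
    omega
  have hv3 : P.valuation ((3 : ℕ) : Ω) = 1 := valuation_natCast_eq_one hr h3r hP
  have hvs : P.valuation s = 1 := by
    have h1 : P.valuation s ^ 2 = 1 := by
      rw [← map_pow, hs]
      exact_mod_cast hv3
    exact (pow_eq_one_iff_of_nonneg zero_le (by norm_num)).1 h1
  -- `r = 2 k + 1`
  obtain ⟨k, hk⟩ : ∃ k, r = 2 * k + 1 := by
    rcases Nat.Prime.eq_two_or_odd hr with h | h
    · omega
    · exact ⟨r / 2, by omega⟩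
  have h1 := frobenius_valuation_sub_pow_lt_one hφ hsP
  have h2 : φ s - s ^ r = -(s * (((1 + 3 ^ k : ℕ)) : Ω)) := by
    rw [hφs, hk, pow_succ, pow_mul, hs]
    push_cast
    ring
  rw [h2, Valuation.map_neg, map_mul, hvs, one_mul] at h1
  have h3 : r ∣ 1 + 3 ^ k := dvd_of_valuation_natCast_lt_one hr hP h1
  -- Euler's criterion
  intro hsq
  have h30 : (3 : ZMod r) ≠ 0 := by
    intro h
    have : ((3 : ℕ) : ZMod r) = 0 := by exact_mod_cast h
    rw [ZMod.natCast_eq_zero_iff] at this
    exact h3r this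
  have he := (ZMod.euler_criterion r h30).mp hsq
  have hk2 : r / 2 = k := by omega
  rw [hk2] at he
  have h4 : ((1 + 3 ^ k : ℕ) : ZMod r) = 0 := (ZMod.natCast_eq_zero_iff _ _).mpr h3
  push_cast at h4
  rw [he] at h4
  have h5 : ((2 : ℕ) : ZMod r) = 0 := by
    push_cast
    linear_combination h4
  rw [ZMod.natCast_eq_zero_iff] at h5
  have := Nat.le_of_dvd (by norm_num) h5
  omega

/-- the residue field of a place over `r` has characteristic `r`. -/
theorem charP_residueField_of_liesOver {r : ℕ} (hr : r.Prime) (hP : P.LiesOverPrime r) :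
    CharP (IsLocalRing.ResidueField P) r := by
  rw [CharP.charP_iff_prime_eq_zero hr]
  have hmem : ((r : ℕ) : Ω) ∈ P := P.nonunits_subset hP
  have h1 : (⟨((r : ℕ) : Ω), hmem⟩ : P) ∈ IsLocalRing.maximalIdeal P := by
    rw [← ValuationSubring.coe_mem_nonunits_iff]
    exact hP
  have h2 : (⟨((r : ℕ) : Ω), hmem⟩ : P) = ((r : ℕ) : P) := by
    apply Subtype.ext
    simp
  rw [h2] at h1
  have h3 := (IsLocalRing.residue_eq_zero_iff _).mpr h1
  rw [map_natCast] at h3
  exact h3

/-- **an element of the valuation ring fixed by a Frobenius at `r` is congruent to a rational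
integer** (its residue lies in the prime field). -/
theorem exists_int_valuation_sub_lt_one_of_frobenius_fixed {r : ℕ} (hr : r.Prime)
    (hP : P.LiesOverPrime r) {φ : GQ} (hφ : P.IsFrobeniusAt φ r) {x : Ω} (hx : x ∈ P)
    (hφx : φ x = x) : ∃ t : ℤ, P.valuation (x - (t : Ω)) < 1 := by
  have : Fact r.Prime := ⟨hr⟩
  have : CharP (IsLocalRing.ResidueField P) r := charP_residueField_of_liesOver hr hP
  have h1 := frobenius_valuation_sub_pow_lt_one hφ hx
  rw [hφx] at h1
  set z : P := ⟨x, hx⟩ with hz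
  have h2 : IsLocalRing.residue P z ^ r = IsLocalRing.residue P z := by
    have h3 : IsLocalRing.residue P (z - z ^ r) = 0 := by
      rw [IsLocalRing.residue_eq_zero_iff, P.valuation_lt_one_iff]
      exact h1
    rw [map_sub, map_pow, sub_eq_zero] at h3
    exact h3.symm
  have h3 : IsLocalRing.residue P z ∈ (⊥ : Subfield (IsLocalRing.ResidueField P)) :=
    (Subfield.mem_bot_iff_pow_eq_self _ r).mpr h2
  obtain ⟨n, hn⟩ := (mem_bot_iff_intCast r _).mp h3
  refine ⟨n, ?_⟩
  have h4 : IsLocalRing.residue P (z - (n : P)) = 0 := by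
    rw [map_sub, map_intCast, hn, sub_self]
  rw [IsLocalRing.residue_eq_zero_iff, P.valuation_lt_one_iff] at h4
  simpa [hz] using h4

end Fermat.Agent.S52x
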