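/-
S52 (3–5 switch) — helper7 — [IRR3] part (c): the Frobenius-density consumer of the CM-fibre
trick. If `σ ∈ G_ℚ` fixes a root `x` of `g ∈ ℤ[X]` and sends `√3` to `-√3`, then there are primes
`r` outside any finite set with: `3` a non-residue mod `r` and `g` has a root mod `r`.
-/
import Mathlib
import Fermat.Agent.S52x.IRR3_helper7_Frob
import Fermat.Agent.Density.Open_helper4

set_option autoImplicit false

namespace Fermat.Agent.S52x

open Fermat.Agent.TW.Kill Polynomial

/-- `Ω = AlgebraicClosure ℚ`. -/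
local notation "Ω" => AlgebraicClosure ℚ
/-- `GQ = Gal(Ω/ℚ)`. -/
local notation "GQ" => (AlgebraicClosure ℚ ≃ₐ[ℚ] AlgebraicClosure ℚ)

/-- an integer of valuation `< 1` at a place over `r` is divisible by `r`. -/
theorem dvd_of_valuation_intCast_lt_one {P : ValuationSubring Ω} {r : ℕ} (hr : r.Prime)
    (hP : P.LiesOverPrime r) {n : ℤ} (h : P.valuation (n : Ω) < 1) : (r : ℤ) ∣ n := by
  obtain ⟨m, rfl | rfl⟩ := Int.eq_nat_or_neg n
  · have h1 : P.valuation ((m : ℕ) : Ω) < 1 := by exact_mod_cast h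
    exact Int.natCast_dvd_natCast.mpr (dvd_of_valuation_natCast_lt_one hr hP h1)
  · have h1 : P.valuation ((m : ℕ) : Ω) < 1 := by
      have h2 : (((-(m : ℤ) : ℤ)) : Ω) = -((m : ℕ) : Ω) := by push_cast; rfl
      rw [h2, Valuation.map_neg] at h
      exact h
    exact (Int.natCast_dvd_natCast.mpr (dvd_of_valuation_natCast_lt_one hr hP h1)).neg_right

/-- a root of an integer polynomial whose leading coefficient is prime to `r` is integral at every
place over `r`. -/
theorem mem_of_aeval_eq_zero {P : ValuationSubring Ω} {r : ℕ} (hr : r.Prime)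
    (hP : P.LiesOverPrime r) {g : ℤ[X]} (hlc : ¬ (r : ℤ) ∣ g.leadingCoeff) {x : Ω}
    (hx : aeval x g = 0) : x ∈ P := by
  have h1 : IsIntegral ℤ (g.leadingCoeff • x) := isIntegral_leadingCoeff_smul g x hx
  have h2 : g.leadingCoeff • x ∈ P := mem_of_isIntegral_int P h1
  have h3 : P.valuation ((g.leadingCoeff : ℤ) : Ω) = 1 := by
    refine le_antisymm (valuation_intCast_le_one P _) ?_
    by_contra hlt
    rw [not_le] at hlt
    exact hlc (dvd_of_valuation_intCast_lt_one hr hP hlt)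
  rw [← P.valuation_le_one_iff] at h2 ⊢
  rw [zsmul_eq_mul, map_mul, h3, one_mul] at h2
  exact h2

/-- **Frobenius-density consumer of the CM-fibre trick.** -/
theorem exists_prime_nonsquare_three_root (σ : GQ) {x s : Ω} (hs : s ^ 2 = 3) (hσx : σ x = x)
    (hσs : σ s = -s) (g : ℤ[X]) (hg0 : g ≠ 0) (hgx : aeval x g = 0) (T : Finset ℕ) :
    ∃ r : ℕ, r.Prime ∧ 5 ≤ r ∧ r ∉ T ∧ ¬ IsSquare (3 : ZMod r) ∧ ∃ t : ℤ, (r : ℤ) ∣ g.eval t := by
  classical
  have hs0 : s ≠ 0 := by
    rintro rfl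
    norm_num at hs
  -- the finite level
  have hxint : IsIntegral ℚ x := Algebra.IsIntegral.isIntegral x
  have hsint : IsIntegral ℚ s := Algebra.IsIntegral.isIntegral s
  set K₁ : IntermediateField ℚ Ω := IntermediateField.adjoin ℚ ({x, s} : Set Ω) with hK₁
  have : FiniteDimensional ℚ K₁ := by
    apply IntermediateField.finiteDimensional_adjoin
    intro y hy
    exact Algebra.IsIntegral.isIntegral y
  set F : IntermediateField ℚ Ω := IntermediateField.normalClosure ℚ K₁ Ω with hF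
  have : FiniteDimensional ℚ F := normalClosure.is_finiteDimensional ℚ K₁ Ω
  have : IsGalois ℚ F := IsGalois.normalClosure ℚ K₁ Ω
  set N : Subgroup GQ := F.fixingSubgroup with hN
  have : N.Normal := (InfiniteGalois.normal_iff_isGalois F).mpr inferInstance
  have hNo : IsOpen (N : Set GQ) := F.fixingSubgroup_isOpen
  have hxF : x ∈ F := IntermediateField.le_normalClosure K₁
    (IntermediateField.subset_adjoin ℚ _ (by simp))
  have hsF : s ∈ F := IntermediateField.le_normalClosure K₁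
    (IntermediateField.subset_adjoin ℚ _ (by simp))
  have hNfix : ∀ n ∈ N, ∀ y ∈ F, n y = y := fun n hn y hy =>
    (IntermediateField.mem_fixingSubgroup_iff F n).mp hn y hy
  -- the excluded primes
  set T' : Finset ℕ := T ∪ {2, 3} ∪ g.leadingCoeff.natAbs.primeFactors with hT'
  obtain ⟨q, hq, hqT, hall⟩ :=
    Fermat.Agent.Density.exists_prime_frobenius_conj_algClosure N hNo σ T'
  have : Fact q.Prime := ⟨hq⟩
  have hP₀ : (padicPlace q).LiesOverPrime q := padicPlace_liesOverPrime q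
  obtain ⟨φ, hφ⟩ := exists_isFrobeniusAt (padicPlace q) hq hP₀
  obtain ⟨τ, hτ⟩ := (hall _ hP₀).2 φ hφ
  have hqT0 : q ∉ T := fun h => hqT (by rw [hT']; simp [h])
  have hq2 : q ≠ 2 := fun h => hqT (by rw [hT', h]; simp)
  have hq3 : q ≠ 3 := fun h => hqT (by rw [hT', h]; simp)
  have hq5 : 5 ≤ q := by
    have h2 := hq.two_le
    by_contra h
    have h4 : q = 4 := by omega
    rw [h4] at hq
    norm_num at hq
  have hlc0 : g.leadingCoeff ≠ 0 := leadingCoeff_ne_zero.mpr hg0
  have hqlc : ¬ (q : ℤ) ∣ g.leadingCoeff := by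
    intro h
    apply hqT
    rw [hT']
    apply Finset.mem_union_right
    rw [Nat.mem_primeFactors]
    exact ⟨hq, Int.natCast_dvd.mp h, Int.natAbs_ne_zero.mpr hlc0⟩
  -- the conjugates
  set γ : GQ := τ * σ * τ⁻¹ with hγ
  set x' : Ω := τ x with hx'
  set s' : Ω := τ s with hs'
  have hγx : γ x' = x' := by
    rw [hγ, hx', AlgEquiv.mul_apply, AlgEquiv.mul_apply]
    have : τ⁻¹ (τ x) = x := by
      rw [← AlgEquiv.mul_apply, inv_mul_cancel, AlgEquiv.one_apply]
    rw [this, hσx]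
  have hγs : γ s' = -s' := by
    rw [hγ, hs', AlgEquiv.mul_apply, AlgEquiv.mul_apply]
    have : τ⁻¹ (τ s) = s := by
      rw [← AlgEquiv.mul_apply, inv_mul_cancel, AlgEquiv.one_apply]
    rw [this, hσs, map_neg]
  have hNconj : ∀ n ∈ N, ∀ y ∈ F, n (τ y) = τ y := by
    intro n hn y hy
    have h1 : τ⁻¹ * n * τ ∈ N := by
      have := (inferInstance : N.Normal).conj_mem n hn τ⁻¹
      simpa using this
    have h2 := hNfix _ h1 y hy
    rw [AlgEquiv.mul_apply, AlgEquiv.mul_apply] at h2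
    have h3 := congrArg τ h2
    rw [← AlgEquiv.mul_apply, mul_inv_cancel, AlgEquiv.one_apply] at h3
    exact h3
  have hs'2 : s' ^ 2 = 3 := by
    rw [hs', ← map_pow, hs]
    exact map_ofNat τ 3
  have hs'0 : s' ≠ 0 := by
    rintro h
    rw [h] at hs'2
    norm_num at hs'2
  -- `φ ∈ γ^ℤ · N` and `γ ∈ φ^ℤ · N`
  have hmem1 : QuotientGroup.mk' N φ ∈ Subgroup.zpowers (QuotientGroup.mk' N γ) := by
    rw [← hτ]
    exact Subgroup.mem_zpowers _
  have hmem2 : QuotientGroup.mk' N γ ∈ Subgroup.zpowers (QuotientGroup.mk' N φ) := by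
    rw [hτ]
    exact Subgroup.mem_zpowers _
  obtain ⟨j, hj⟩ := Subgroup.mem_zpowers_iff.mp hmem1
  obtain ⟨i, hi⟩ := Subgroup.mem_zpowers_iff.mp hmem2
  rw [← map_zpow, QuotientGroup.mk'_apply, QuotientGroup.mk'_apply, QuotientGroup.eq] at hj hi
  -- stabilisers are subgroups
  have hzpow_fix : ∀ (δ : GQ) (y : Ω), δ y = y → ∀ k : ℤ, (δ ^ k) y = y := by
    intro δ y hy k
    have hmem : δ ∈ MulAction.stabilizer GQ y := hy
    exact (MulAction.stabilizer GQ y).zpow_mem hmem k
  -- `φ x' = x'`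
  have hφx : φ x' = x' := by
    have h1 : φ = γ ^ j * ((γ ^ j)⁻¹ * φ) := by group
    rw [h1, AlgEquiv.mul_apply, hNconj _ hj x hxF, hzpow_fix γ x' hγx j]
  -- `φ s' = - s'`
  have hφs : φ s' = -s' := by
    have h1 : (φ s') ^ 2 = 3 := by
      rw [← map_pow, hs'2]
      exact map_ofNat φ 3
    have h2 : (φ s' - s') * (φ s' + s') = 0 := by
      linear_combination h1 - hs'2
    rcases mul_eq_zero.mp h2 with h | h
    · exfalso
      have h3 : φ s' = s' := sub_eq_zero.mp h
      have h4 : γ = φ ^ i * ((φ ^ i)⁻¹ * γ) := by group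
      have h5 : γ s' = s' := by
        rw [h4, AlgEquiv.mul_apply, hNconj _ hi s hsF, hzpow_fix φ s' h3 i]
      rw [hγs] at h5
      have h6 : (2 : Ω) * s' = 0 := by linear_combination -h5
      rcases mul_eq_zero.mp h6 with h7 | h7
      · norm_num at h7
      · exact hs'0 h7
    · exact eq_neg_of_add_eq_zero_left h
  refine ⟨q, hq, hq5, hqT0, not_isSquare_three_of_frobenius hq hq5 hP₀ hφ hs'2 hφs, ?_⟩
  -- the root of `g` mod `q`
  have hgx' : aeval x' g = 0 := by
    have h1 : aeval x' g = τ (aeval x g) := by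
      rw [hx']
      exact (aeval_algHom_apply (τ : Ω →ₐ[ℚ] Ω).toRingHom.toIntAlgHom x g)
    rw [h1, hgx, map_zero]
  have hx'P : x' ∈ padicPlace q := mem_of_aeval_eq_zero hq hP₀ hqlc hgx'
  obtain ⟨t, ht⟩ := exists_int_valuation_sub_lt_one_of_frobenius_fixed hq hP₀ hφ hx'P hφx
  refine ⟨t, dvd_of_valuation_intCast_lt_one hq hP₀ ?_⟩
  -- `g(t) = g(t) - g(x') ∈ (t - x') · P`
  set P := padicPlace q with hPdef
  set xP : P := ⟨x', hx'P⟩ with hxP
  set G : (↥P)[X] := g.map (Int.castRingHom ↥P) with hG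
  obtain ⟨c, hc⟩ : (xP - ((t : ℤ) : ↥P)) ∣ G.eval xP - G.eval ((t : ℤ) : ↥P) :=
    sub_dvd_eval_sub xP _ _
  have h1 : ((G.eval xP : ↥P) : Ω) = 0 := by
    have h2 : G.eval xP = aeval xP g := by
      rw [hG, aeval_def, eval₂_eq_eval_map]
      rfl
    rw [h2]
    have h3 := aeval_algHom_apply (P.subtype.toIntAlgHom) xP g
    exact h3.symm.trans hgx'
  have h2 : ((G.eval ((t : ℤ) : ↥P) : ↥P) : Ω) = ((g.eval t : ℤ) : Ω) := by
    rw [hG, eval_intCast_map]
    simp
  have h3 : ((g.eval t : ℤ) : Ω) = -((x' - (t : Ω)) * (c : Ω)) := by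
    have h4 := congrArg (fun y : ↥P => (y : Ω)) hc
    push_cast at h4
    rw [h1, h2] at h4
    linear_combination -h4
  rw [h3, Valuation.map_neg, map_mul]
  calc P.valuation (x' - (t : Ω)) * P.valuation (c : Ω)
      ≤ P.valuation (x' - (t : Ω)) * 1 :=
        mul_le_mul_right ((P.valuation_le_one_iff _).2 c.2) _
    _ < 1 := by rw [mul_one]; exact ht

end Fermat.Agent.S52x
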