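/-
S52 (3–5 switch) — helper7 — [IRR3] part (iii): the CM-fibre criterion for mod-3 irreducibility.
If an integral Weierstrass model `W` has `c₆ ≡ 0`, `c₄ ≢ 0` modulo a prime `r ≥ 5` for which `3` is
not a square, then the 3-division polynomial of `W` has no rational root, hence (S51) the mod-3
representation of `W` is irreducible.
-/
import Mathlib
import Fermat.Agent.S51.Three_helper4

set_option autoImplicit false

namespace Fermat.Agent.S52x

open WeierstrassCurve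

/-- field core: over a field with `6 ≠ 0`, a root of the 3-division polynomial of a curve with
`c₆ = 0`, `c₄ ≠ 0` forces `3` to be a square. -/
theorem isSquare_three_of_psi3_root {F : Type*} [Field F] (h2 : (2 : F) ≠ 0) (h3 : (3 : F) ≠ 0)
    (b2 b4 b6 b8 x : F) (hrel : 4 * b8 = b2 * b6 - b4 ^ 2)
    (hroot : b8 + 3 * x * b6 + 3 * x ^ 2 * b4 + x ^ 3 * b2 + 3 * x ^ 4 = 0)
    (hc6 : -b2 ^ 3 + 36 * b2 * b4 - 216 * b6 = 0) (hc4 : b2 ^ 2 - 24 * b4 ≠ 0) :
    IsSquare (3 : F) := by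
  -- translated invariants
  set B2 := b2 + 12 * x with hB2
  set B4 := b4 + x * b2 + 6 * x ^ 2 with hB4
  set B6 := b6 + 2 * x * b4 + x ^ 2 * b2 + 4 * x ^ 3 with hB6
  have h1 : B2 * B6 = B4 ^ 2 := by
    rw [hB2, hB4, hB6]
    linear_combination (-1 : F) * hrel + 4 * hroot
  have h2' : -B2 ^ 3 + 36 * B2 * B4 - 216 * B6 = 0 := by
    rw [hB2, hB4, hB6]
    linear_combination hc6
  have h3' : B2 ^ 2 - 24 * B4 ≠ 0 := by
    have : B2 ^ 2 - 24 * B4 = b2 ^ 2 - 24 * b4 := by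
      rw [hB2, hB4]
      ring
    rw [this]
    exact hc4
  have h4 : (B2 ^ 2 - 18 * B4) ^ 2 = 3 * (6 * B4) ^ 2 := by
    linear_combination (-B2) * h2' + (-216 : F) * h1
  by_cases hv : B4 = 0
  · exfalso
    rw [hv] at h4 h3'
    have : B2 ^ 2 = 0 := by
      have h5 : (B2 ^ 2) ^ 2 = 0 := by linear_combination h4
      exact pow_eq_zero_iff (two_ne_zero) |>.mp h5
    apply h3'
    rw [this]
    ring
  · have h6 : (6 : F) ≠ 0 := by
      have : (6 : F) = 2 * 3 := by norm_num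
      rw [this]
      exact mul_ne_zero h2 h3
    have h6v : 6 * B4 ≠ 0 := mul_ne_zero h6 hv
    refine ⟨(B2 ^ 2 - 18 * B4) / (6 * B4), ?_⟩
    field_simp
    linear_combination (-1 : F) * h4

/-- **CM-fibre criterion, `ψ₃` form.** -/
theorem not_cond3_of_cm_fibre (W : WeierstrassCurve ℤ) {r : ℕ} (hr : r.Prime) (hr5 : 5 ≤ r)
    (h3 : ¬ IsSquare (3 : ZMod r)) (hc6 : (r : ℤ) ∣ W.c₆) (hc4 : ¬ (r : ℤ) ∣ W.c₄) :
    ¬ Fermat.Agent.S51.Cond3 (W.map (Int.castRingHom ℚ)) := by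
  have : Fact r.Prime := ⟨hr⟩
  rintro ⟨x0, hx0⟩
  unfold Fermat.Agent.S51.tb8 at hx0
  rw [map_b₂, map_b₄, map_b₆, map_b₈] at hx0
  simp only [eq_intCast] at hx0
  -- clear denominators
  set m : ℤ := x0.num with hm
  set n : ℕ := x0.den with hn
  have hn0 : (n : ℚ) ≠ 0 := by
    rw [hn]
    exact_mod_cast x0.den_ne_zero
  have hx : x0 = (m : ℚ) / (n : ℚ) := (Rat.num_div_den x0).symm
  have hZ : W.b₈ * (n : ℤ) ^ 4 + 3 * m * W.b₆ * (n : ℤ) ^ 3 + 3 * m ^ 2 * W.b₄ * (n : ℤ) ^ 2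
      + m ^ 3 * W.b₂ * (n : ℤ) + 3 * m ^ 4 = 0 := by
    have hQ : ((W.b₈ * (n : ℤ) ^ 4 + 3 * m * W.b₆ * (n : ℤ) ^ 3 + 3 * m ^ 2 * W.b₄ * (n : ℤ) ^ 2
        + m ^ 3 * W.b₂ * (n : ℤ) + 3 * m ^ 4 : ℤ) : ℚ) = 0 := by
      push_cast
      rw [hx] at hx0
      have h4 : ((n : ℚ)) ^ 4 ≠ 0 := pow_ne_zero _ hn0
      field_simp at hx0
      linear_combination hx0
    exact_mod_cast hQ
  have hF := congrArg (Int.cast : ℤ → ZMod r) hZ
  push_cast at hF
  have h2F : (2 : ZMod r) ≠ 0 := by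
    intro h
    have : ((2 : ℕ) : ZMod r) = 0 := by exact_mod_cast h
    rw [ZMod.natCast_eq_zero_iff] at this
    have := Nat.le_of_dvd (by norm_num) this
    omega
  have h3F : (3 : ZMod r) ≠ 0 := by
    intro h
    have : ((3 : ℕ) : ZMod r) = 0 := by exact_mod_cast h
    rw [ZMod.natCast_eq_zero_iff] at this
    have := Nat.le_of_dvd (by norm_num) this
    omega
  -- `n` is a unit mod `r`
  have hnF : ((n : ℕ) : ZMod r) ≠ 0 := by
    intro h
    rw [h] at hF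
    have hm0 : ((m : ℤ) : ZMod r) = 0 := by
      have h5 : (3 : ZMod r) * ((m : ℤ) : ZMod r) ^ 4 = 0 := by
        linear_combination hF
      rcases mul_eq_zero.mp h5 with h6 | h6
      · exact absurd h6 h3F
      · exact pow_eq_zero_iff (by norm_num) |>.mp h6
    have h7 : (r : ℤ) ∣ m := (ZMod.intCast_zmod_eq_zero_iff_dvd m r).mp hm0
    have h8 : r ∣ n := (ZMod.natCast_eq_zero_iff n r).mp h
    have hcop : Nat.Coprime m.natAbs n := x0.reduced
    have h9 : r ∣ m.natAbs := Int.natCast_dvd.mp h7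
    have h10 : r ∣ Nat.gcd m.natAbs n := Nat.dvd_gcd h9 h8
    rw [hcop] at h10
    have := Nat.le_of_dvd (by norm_num) h10
    omega
  apply h3
  refine isSquare_three_of_psi3_root h2F h3F (W.b₂ : ZMod r) (W.b₄ : ZMod r) (W.b₆ : ZMod r)
    (W.b₈ : ZMod r) (((m : ℤ) : ZMod r) / ((n : ℕ) : ZMod r)) ?_ ?_ ?_ ?_
  · have := congrArg (Int.cast : ℤ → ZMod r) W.b_relation
    push_cast at this
    exact this
  · field_simp
    linear_combination hF
  · have h := (ZMod.intCast_zmod_eq_zero_iff_dvd W.c₆ r).mpr hc6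
    rw [WeierstrassCurve.c₆] at h
    push_cast at h
    exact h
  · intro h
    apply hc4
    apply (ZMod.intCast_zmod_eq_zero_iff_dvd W.c₄ r).mp
    rw [WeierstrassCurve.c₄]
    push_cast
    exact h

/-- **CM-fibre criterion**: mod-3 irreducibility. -/
theorem modRepIsIrreducible_three_of_cm_fibre (W : WeierstrassCurve ℤ) (hΔ : W.Δ ≠ 0) {r : ℕ}
    (hr : r.Prime) (hr5 : 5 ≤ r) (h3 : ¬ IsSquare (3 : ZMod r)) (hc6 : (r : ℤ) ∣ W.c₆)
    (hc4 : ¬ (r : ℤ) ∣ W.c₄) : W.ModRepIsIrreducible 3 := by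
  by_contra h
  exact not_cond3_of_cm_fibre W hr hr5 h3 hc6 hc4
    (Fermat.Agent.S51.cond3_of_not_modRepIsIrreducible W hΔ h)

end Fermat.Agent.S52x
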