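/-
S52 (3–5 switch) — helper7 — [IRR3] part (b): for a semistable integral model `W` there is
`σ ∈ G_ℚ` acting trivially on `E[5](ℚ̄)`, fixing `i`, and with `σ √3 = -√3`
(`σ = τ⁵`, `τ` in an inertia group over `3` moving `√3`; `ℚ(√3)` is ramified at `3`, inertia at `3`
acts unipotently (or trivially) on `E[5]` and trivially on `ℚ(i)`).
-/
import Mathlib
import Fermat.Agent.EC.InertiaField_helper5
import Fermat.Agent.S58.ECTATE_helper7_UMult
import Fermat.Agent.S58.E2_helper2_Inertia
import Fermat.Agent.TW.Kill_helper1_Frob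
import Fermat.Agent.TW.Kill_helper1_Cyc

set_option autoImplicit false

namespace Fermat.Agent.S52x

open WeierstrassCurve WeierstrassCurve.Affine
open scoped WeierstrassCurve.Affine

/-- `Ω = AlgebraicClosure ℚ`. -/
local notation "Ω" => AlgebraicClosure ℚ
/-- `GQ = Gal(Ω/ℚ)`. -/
local notation "GQ" => (AlgebraicClosure ℚ ≃ₐ[ℚ] AlgebraicClosure ℚ)

/-- **`ℚ(√3)` is ramified at `3`**: some element of any inertia group over `3` sends `√3` to
`-√3`. -/
theorem exists_mem_inertia_sqrt_three {A : ValuationSubring Ω} (hA : A.LiesOverPrime 3) {s : Ω}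
    (hs : s ^ 2 = 3) : ∃ τ ∈ A.inertiaSubgroupIn ℚ, τ s = -s := by
  have h3 : Nat.Prime 3 := by norm_num
  have hs0 : s ≠ 0 := by
    rintro rfl
    norm_num at hs
  by_contra hcon
  push Not at hcon
  have hfix : ∀ σ ∈ A.inertiaSubgroupIn ℚ, σ s = s := by
    intro σ hσ
    have h1 : (σ s) ^ 2 = 3 := by
      rw [← map_pow, hs]
      exact map_ofNat σ 3
    have h2 : (σ s - s) * (σ s + s) = 0 := by
      linear_combination h1 - hs
    rcases mul_eq_zero.mp h2 with h | h
    · exact sub_eq_zero.mp h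
    · exact absurd (eq_neg_of_add_eq_zero_left h) (hcon σ hσ)
  obtain ⟨m, hm⟩ := Fermat.Agent.EC.exists_zpow_valuation_eq_of_fixed h3 hA s hs0 hfix
  have h1 : A.valuation s ^ 2 = A.valuation ((3 : ℕ) : Ω) := by
    rw [← map_pow, hs]
    norm_num
  rw [hm, ← zpow_natCast, ← zpow_mul] at h1
  have hvp0 : 0 < A.valuation ((3 : ℕ) : Ω) := Fermat.Agent.Tate.val_q_pos A h3
  have hvp1 : A.valuation ((3 : ℕ) : Ω) < 1 := Fermat.Agent.Tate.val_q_lt_one A h3 hA
  have h2 : m * ((2 : ℕ) : ℤ) = 1 := by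
    have h3' : A.valuation ((3 : ℕ) : Ω) ^ (m * ((2 : ℕ) : ℤ)) =
        A.valuation ((3 : ℕ) : Ω) ^ (1 : ℤ) := by
      rw [h1, zpow_one]
    exact (zpow_right_strictAnti₀ hvp0 hvp1).injective h3'
  omega

/-- inertia over `3` fixes the fourth roots of unity. -/
theorem inertia_three_map_sqrt_neg_one {A : ValuationSubring Ω} (hA : A.LiesOverPrime 3) {τ : GQ}
    (hτ : τ ∈ A.inertiaSubgroupIn ℚ) {ι : Ω} (hι : ι ^ 2 = -1) : τ ι = ι := by
  have h3 : Nat.Prime 3 := by norm_num
  have hιint : IsIntegral ℤ ι := by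
    refine ⟨Polynomial.X ^ 2 + Polynomial.C 1, Polynomial.monic_X_pow_add_C 1 (by norm_num), ?_⟩
    simp [hι]
  have hιA : ι ∈ A := Fermat.Agent.TW.Kill.mem_of_isIntegral_int A hιint
  have h1 : (τ ι) ^ 2 = -1 := by
    rw [← map_pow, hι, map_neg, map_one]
  have h2 : (τ ι - ι) * (τ ι + ι) = 0 := by
    linear_combination h1 - hι
  rcases mul_eq_zero.mp h2 with h | h
  · exact sub_eq_zero.mp h
  · exfalso
    have h4 := (Fermat.Agent.Tate.inertia_map_mem_and_sub_mem hτ hιA).2
    have h5 : τ ι - ι = -(((2 : ℕ) : Ω) * ι) := by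
      push_cast
      linear_combination h
    rw [h5, A.mem_nonunits_iff, Valuation.map_neg, map_mul] at h4
    have hv2 : A.valuation ((2 : ℕ) : Ω) = 1 :=
      Fermat.Agent.TW.Kill.valuation_natCast_eq_one h3 (by norm_num) hA
    have hvι : A.valuation ι = 1 := by
      have h6 : A.valuation ι ^ 4 = 1 := by
        rw [← map_pow]
        have : ι ^ 4 = 1 := by
          have : ι ^ 4 = (ι ^ 2) ^ 2 := by ring
          rw [this, hι]
          ring
        rw [this, map_one]
      exact (pow_eq_one_iff_of_nonneg zero_le (by norm_num)).1 h6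
    rw [hv2, hvι, one_mul] at h4
    exact lt_irrefl _ h4

/-- a unipotent (or trivial) automorphism of the `5`-torsion has trivial fifth power. -/
theorem pow_five_smul_eq_of_unipotent {G M : Type*} [Group G] [AddCommGroup M]
    [DistribMulAction G M] (τ : G) (hun : ∀ P : M, 5 • P = 0 → τ • (τ • P - P) = τ • P - P)
    (P : M) (hP : 5 • P = 0) : τ ^ 5 • P = P := by
  have hN5 : 5 • (τ • P - P) = 0 := by
    rw [smul_sub, smul_comm, hP, smul_zero, sub_zero]
  have key : ∀ k : ℕ, τ ^ k • P = P + k • (τ • P - P) := by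
    intro k
    induction k with
    | zero => simp
    | succ k ih =>
      rw [pow_succ', mul_smul, ih, smul_add, smul_comm τ k, hun P hP, succ_nsmul]
      abel
  rw [key 5, hN5, add_zero]

/-- **the element `σ`** of the CM-fibre trick. -/
theorem exists_sigma_five_trivial_sqrt_three (W : WeierstrassCurve ℤ) (hΔ : W.Δ ≠ 0)
    (hss : W.IsSemistableModel) {s : Ω} (hs : s ^ 2 = 3) :
    ∃ σ : GQ, (∀ P : (W⁄Ω).Point, 5 • P = 0 → σ • P = P) ∧
      (∀ ι : Ω, ι ^ 2 = -1 → σ ι = ι) ∧ σ s = -s := by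
  have h3 : Nat.Prime 3 := by norm_num
  have : Fact (Nat.Prime 3) := ⟨h3⟩
  have : Fact (Nat.Prime 5) := ⟨by norm_num⟩
  set A : ValuationSubring Ω := padicPlace 3 with hAdef
  have hA : A.LiesOverPrime 3 := Fermat.Agent.TW.Kill.padicPlace_liesOverPrime 3
  obtain ⟨τ, hτ, hτs⟩ := exists_mem_inertia_sqrt_three hA hs
  refine ⟨τ ^ 5, ?_, ?_, ?_⟩
  · -- trivial on `E[5]`
    intro P hP
    apply pow_five_smul_eq_of_unipotent τ _ P hP
    intro Q hQ
    by_cases hgood : (3 : ℤ) ∣ W.Δ
    · exact Fermat.Agent.S58.unipotent_of_multiplicative Fermat.Agent.S58.gNodeNormalForm_qbar W hΔ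
        h3 (by exact_mod_cast hgood) (by exact_mod_cast hss 3 h3 (by exact_mod_cast hgood))
        (by decide : Odd 5) (by norm_num) A hA τ hτ Q hQ
    · have hg : W.IsGoodPrimeFor 3 := by
        unfold WeierstrassCurve.IsGoodPrimeFor
        exact_mod_cast hgood
      have h1 : τ • Q = Q := Fermat.Agent.S58.e2_inertia_smul_eq_Qbar W h3 hg A hA hτ
        (by decide : Odd 5) (by norm_num) hQ
      rw [h1, sub_self, smul_zero]
  · intro ι hι
    have h1 : τ ι = ι := inertia_three_map_sqrt_neg_one hA hτ hι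
    have : ∀ k : ℕ, (τ ^ k) ι = ι := by
      intro k
      induction k with
      | zero => simp
      | succ k ih => rw [pow_succ, AlgEquiv.mul_apply, h1, ih]
    exact this 5
  · have key : ∀ k : ℕ, (τ ^ k) s = (-1) ^ k * s := by
      intro k
      induction k with
      | zero => simp
      | succ k ih =>
        rw [pow_succ, AlgEquiv.mul_apply, hτs, map_neg, ih]
        ring
    rw [key 5]
    ring

end Fermat.Agent.S52x
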