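/-
S52 (3–5 switch) — helper7 — [IRR3] generic core, assembled: for a semistable model `W`, an
algebraic number `x` fixed by every `σ ∈ G_ℚ` that is trivial on `E[5](ℚ̄)` and fixes `i`, and an
integer polynomial `g ≠ 0` with `g(x) = 0`, there are primes `r ≥ 5` outside any finite set such that
`3` is a non-residue mod `r` and `g` has a root mod `r`. Together with
`modRepIsIrreducible_three_of_cm_fibre` (`IRR3_helper7_Psi3`) this is the CM-fibre trick of
finding 393 with `g = (denominator) · C₆(1, X)`, `x = t₁`.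
-/
import Mathlib
import Fermat.Agent.S52x.IRR3_helper7_Sigma
import Fermat.Agent.S52x.IRR3_helper7_Cheb
import Fermat.Agent.S52x.IRR3_helper7_Psi3

set_option autoImplicit false

namespace Fermat.Agent.S52x

open WeierstrassCurve WeierstrassCurve.Affine Polynomial
open scoped WeierstrassCurve.Affine

/-- `Ω = AlgebraicClosure ℚ`. -/
local notation "Ω" => AlgebraicClosure ℚ
/-- `GQ = Gal(Ω/ℚ)`. -/
local notation "GQ" => (AlgebraicClosure ℚ ≃ₐ[ℚ] AlgebraicClosure ℚ)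

/-- **[IRR3] generic core.** -/
theorem exists_cm_prime (W : WeierstrassCurve ℤ) (hΔ : W.Δ ≠ 0) (hss : W.IsSemistableModel)
    {x : Ω}
    (hx : ∀ σ : GQ, (∀ P : (W⁄Ω).Point, 5 • P = 0 → σ • P = P) →
      (∀ ι : Ω, ι ^ 2 = -1 → σ ι = ι) → σ x = x)
    (g : ℤ[X]) (hg0 : g ≠ 0) (hgx : aeval x g = 0) (T : Finset ℕ) :
    ∃ r : ℕ, r.Prime ∧ 5 ≤ r ∧ r ∉ T ∧ ¬ IsSquare (3 : ZMod r) ∧
      ∃ t : ℤ, (r : ℤ) ∣ g.eval t := by
  obtain ⟨s, hs⟩ := IsAlgClosed.exists_pow_nat_eq (3 : Ω) (by norm_num : 0 < 2)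
  obtain ⟨σ, hσ5, hσi, hσs⟩ := exists_sigma_five_trivial_sqrt_three W hΔ hss hs
  exact exists_prime_nonsquare_three_root σ hs (hx σ hσ5 hσi) hσs g hg0 hgx T

end Fermat.Agent.S52x
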