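/-
S52 (3–5 switch) — helper7 — [IRR3]: proof of helper8's interface `Irr3Hyp`
(`S52x/TOP_helper8_Main`): the Chebotarev prime of the CM-fibre trick.
-/
import Mathlib
import Fermat.Agent.S52x.IRR3_helper7_Main
import Fermat.Agent.S52x.TOP_helper8_Main
import Fermat.Agent.LR.NONEIS_helper3_Main

set_option autoImplicit false

namespace Fermat.Agent.S52x

open WeierstrassCurve WeierstrassCurve.Affine Polynomial
open scoped WeierstrassCurve.Affine

/-- `Ω = AlgebraicClosure ℚ`. -/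
local notation "Ω" => AlgebraicClosure ℚ
/-- `GQ = Gal(Ω/ℚ)`. -/
local notation "GQ" => (AlgebraicClosure ℚ ≃ₐ[ℚ] AlgebraicClosure ℚ)

/-- triviality on the `5`-torsion: from the points of `W⁄Ω` to the torsion submodule of
`(W.map (Int.castRingHom ℚ))⁄Ω`. -/
theorem torsionBy_smul_eq_of_forall (W : WeierstrassCurve ℤ) (σ : GQ)
    (h : ∀ P : (W⁄Ω).Point, 5 • P = 0 → σ • P = P)
    (x : Submodule.torsionBy ℤ ((W.map (Int.castRingHom ℚ))⁄Ω).Point (5 : ℕ)) : σ • x = x := by
  apply Subtype.ext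
  show σ • (x : ((W.map (Int.castRingHom ℚ))⁄Ω).Point) = x
  set e := Fermat.Agent.LR.NonEis.pointCongr
    (Fermat.Agent.LR.NonEis.baseChange_map_castRingHom W) with he
  apply e.injective
  rw [Fermat.Agent.LR.NonEis.smul_pointCongr_castRingHom]
  apply h
  have hx : ((5 : ℕ) : ℤ) • (x : ((W.map (Int.castRingHom ℚ))⁄Ω).Point) = 0 :=
    (Submodule.mem_torsionBy_iff _ _).mp x.2
  have h5 : (5 : ℕ) • (x : ((W.map (Int.castRingHom ℚ))⁄Ω).Point) = 0 := by
    rw [← hx, natCast_zsmul]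
  rw [← map_nsmul, h5, map_zero]

/-- **[IRR3]**: helper8's `Irr3Hyp`. -/
theorem irr3Hyp : Irr3Hyp := by
  intro W hΔ hss P6 t₁ ht₁ hfix B hB
  classical
  have hx : ∀ σ : GQ, (∀ P : (W⁄Ω).Point, 5 • P = 0 → σ • P = P) →
      (∀ ι : Ω, ι ^ 2 = -1 → σ ι = ι) → σ t₁ = t₁ := fun σ h5 hi =>
    hfix σ (torsionBy_smul_eq_of_forall W σ h5) hi
  have hsq : ∀ r : ℕ, ¬ IsSquare (3 : ZMod r) → ∀ s : ZMod r, s ^ 2 ≠ 3 := by
    intro r h s hs
    exact h ⟨s, by rw [← hs]; ring⟩
  have hcop : ∀ r : ℕ, r.Prime → ∀ n : ℕ, n ≠ 0 → r ∉ n.primeFactors → r.Coprime n := by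
    intro r hr n hn h
    rw [Nat.Prime.coprime_iff_not_dvd hr]
    intro hd
    exact h (Nat.mem_primeFactors.mpr ⟨hr, hd, hn⟩)
  by_cases hP6 : P6 = 0
  · -- degenerate case: any Chebotarev prime will do
    obtain ⟨r, hr, -, hrT, h3, -⟩ := exists_cm_prime W hΔ hss (x := (0 : Ω))
      (fun σ _ _ => map_zero σ) (X : ℤ[X]) X_ne_zero (by simp) B.primeFactors
    refine ⟨r, 0, hr, hcop r hr B hB.ne' hrT, hsq r h3, ?_⟩
    intro t _ z hz
    rw [hP6, eval_zero] at hz
    have : z = 0 := by exact_mod_cast hz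
    rw [this]
    exact dvd_zero _
  · -- the integer normalisation of `P6`
    set g : ℤ[X] := IsLocalization.integerNormalization (nonZeroDivisors ℤ) P6 with hg
    obtain ⟨b, hbmem, hb⟩ :=
      IsLocalization.integerNormalization_spec (nonZeroDivisors ℤ) P6
    have hb0 : b ≠ 0 := nonZeroDivisors.ne_zero hbmem
    have hb' : g.map (algebraMap ℤ ℚ) = b • P6 := hb
    have hg0 : g ≠ 0 := by
      intro h0
      rw [h0, Polynomial.map_zero] at hb'
      have := hb'.symm
      rw [smul_eq_zero] at this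
      rcases this with h | h
      · exact hb0 h
      · exact hP6 h
    have hgx : aeval t₁ g = 0 :=
      IsLocalization.integerNormalization_aeval_eq_zero (nonZeroDivisors ℤ) P6 ht₁
    obtain ⟨r, hr, -, hrT, h3, τ, hτ⟩ := exists_cm_prime W hΔ hss (x := t₁) hx g hg0 hgx
      (B.primeFactors ∪ b.natAbs.primeFactors)
    have hrB : r ∉ B.primeFactors := fun h => hrT (Finset.mem_union_left _ h)
    have hrb : r ∉ b.natAbs.primeFactors := fun h => hrT (Finset.mem_union_right _ h)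
    refine ⟨r, τ, hr, hcop r hr B hB.ne' hrB, hsq r h3, ?_⟩
    intro t ht z hz
    -- `r ∣ g(t)`
    have h1 : (r : ℤ) ∣ g.eval t := by
      have h2 : (t - τ) ∣ g.eval t - g.eval τ := sub_dvd_eval_sub t τ g
      have h3' : (r : ℤ) ∣ g.eval t - g.eval τ := ht.trans h2
      have := dvd_add h3' hτ
      simpa using this
    -- `g(t) = b z`
    have h4 : g.eval t = b * z := by
      have h5 : ((g.eval t : ℤ) : ℚ) = (g.map (algebraMap ℤ ℚ)).eval (t : ℚ) := by
        rw [eval_map, eval₂_at_intCast]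
        rfl
      have h6 : ((g.eval t : ℤ) : ℚ) = ((b * z : ℤ) : ℚ) := by
        rw [h5, hb', eval_smul, ← hz]
        push_cast
        rw [zsmul_eq_mul]
      exact_mod_cast h6
    rw [h4] at h1
    have hrp : Prime (r : ℤ) := Nat.prime_iff_prime_int.mp hr
    rcases hrp.dvd_or_dvd h1 with h | h
    · exfalso
      apply hrb
      rw [Nat.mem_primeFactors]
      exact ⟨hr, Int.natCast_dvd.mp h, Int.natAbs_ne_zero.mpr hb0⟩
    · exact h

end Fermat.Agent.S52x
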