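import Mathlib
import Fermat.Agent.S52x.DET_helper3_Mod
import Fermat.Agent.S52x.TOP_helper8_Main
import Fermat.Agent.S58.TMOD_helper4_Basic
import Fermat.Agent.S58.ECTATE_helper7_Unip

/-!
# S52 [TOP] glue (helper8): `TraceHyp` from helper3's basis form of [TRACE]
-/

set_option autoImplicit false

namespace Fermat.Agent.S52x

open WeierstrassCurve WeierstrassCurve.Affine Fermat.Agent.S58
open scoped WeierstrassCurve.Affine

local notation "Ω" => AlgebraicClosure ℚ
local notation "GQ" => (AlgebraicClosure ℚ ≃ₐ[ℚ] AlgebraicClosure ℚ)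

/-- The two presentations of the base change of an integral model to `Ω` agree. -/
theorem curve_map_rat_baseChange (W : WeierstrassCurve ℤ) :
    ((W.map (Int.castRingHom ℚ))⁄Ω) = (W⁄Ω) := by
  show (W.map (Int.castRingHom ℚ)).map (algebraMap ℚ Ω) = W.map (algebraMap ℤ Ω)
  rw [WeierstrassCurve.map_map]
  congr 1

/-- The identification of the `n`-torsion of `(W.map ℚ)(Ω)` with that of `W(Ω)`. -/
noncomputable def torsRatInt (W : WeierstrassCurve ℤ) (n : ℕ) :
    Submodule.torsionBy ℤ ((W.map (Int.castRingHom ℚ))⁄Ω).Point n ≃+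
      Submodule.torsionBy ℤ (W⁄Ω).Point n :=
  torsionByCongr (ptCast (curve_map_rat_baseChange W)) n

theorem torsRatInt_smul (W : WeierstrassCurve ℤ) (n : ℕ) (σ : GQ)
    (x : Submodule.torsionBy ℤ ((W.map (Int.castRingHom ℚ))⁄Ω).Point n) :
    torsRatInt W n (σ • x) = σ • torsRatInt W n x := by
  apply Subtype.ext
  exact ptCast_smul (W.map (Int.castRingHom ℚ)) W (curve_map_rat_baseChange W) σ σ
    (fun _ => rfl) x.1

/-- **`TraceHyp` holds.** -/
theorem traceHyp : TraceHyp := by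
  intro W W' hΔ hΔ' hcong ℓ hℓ hgood hgood' hℓ5
  obtain ⟨φ, hφ⟩ := hcong
  have : Fact (Nat.Prime 5) := ⟨by norm_num⟩
  -- the composite equivariant isomorphism `W'(Ω)[5] ≃ W(Ω)[5]`
  let Ψ : Submodule.torsionBy ℤ (W'⁄Ω).Point (5 : ℕ) ≃+ Submodule.torsionBy ℤ (W⁄Ω).Point (5 : ℕ) :=
    ((torsRatInt W' 5).symm.trans φ).trans (torsRatInt W 5)
  have hΨ : ∀ (σ : GQ) x, Ψ (σ • x) = σ • Ψ x := by
    intro σ x
    have h1 : (torsRatInt W' 5).symm (σ • x) = σ • (torsRatInt W' 5).symm x := by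
      apply (torsRatInt W' 5).injective
      rw [torsRatInt_smul, AddEquiv.apply_symm_apply, AddEquiv.apply_symm_apply]
    simp only [Ψ, AddEquiv.trans_apply, h1, hφ, torsRatInt_smul]
  -- torsion membership
  have hmem : ∀ {J : Type} [AddCommGroup J] (P : J), (5 : ℕ) • P = 0 →
      P ∈ Submodule.torsionBy ℤ J ((5 : ℕ) : ℤ) := by
    intro J _ P hP
    rw [Submodule.mem_torsionBy_iff, natCast_zsmul]
    exact hP
  have hmem' : ∀ {J : Type} [AddCommGroup J] (x : Submodule.torsionBy ℤ J ((5 : ℕ) : ℤ)),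
      (5 : ℕ) • (x : J) = 0 := by
    intro J _ x
    have := x.2
    rw [Submodule.mem_torsionBy_iff, natCast_zsmul] at this
    exact this
  -- a basis of `W'(Ω)[5]`
  have hcard : Nat.card {P : (W'⁄Ω).Point // (5 : ℕ) • P = 0} = 5 ^ 2 :=
    Fermat.Agent.EC.card_torsion_eq (baseChange_Δ_ne_zero W' hΔ') (by norm_num) (by norm_num)
  obtain ⟨P', Q', hP', hQ', hind', hspan'⟩ := tmod_exists_basis_one (p := 5) hcard
  let xP : Submodule.torsionBy ℤ (W'⁄Ω).Point (5 : ℕ) := ⟨P', hmem P' hP'⟩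
  let xQ : Submodule.torsionBy ℤ (W'⁄Ω).Point (5 : ℕ) := ⟨Q', hmem Q' hQ'⟩
  have hcomb : ∀ (a c : ℤ) (x y : Submodule.torsionBy ℤ (W'⁄Ω).Point (5 : ℕ)),
      ((Ψ (a • x + c • y) : Submodule.torsionBy ℤ (W⁄Ω).Point (5 : ℕ)) : (W⁄Ω).Point)
        = a • (Ψ x).1 + c • (Ψ y).1 := by
    intro a c x y
    rw [map_add, map_zsmul, map_zsmul]
    rfl
  have happly := Fermat.Agent.S52x.apOfModel_congr_of_same_matrix (p := 5) W W' hΔ hΔ' (by norm_num)
    (Ψ xP).1 (Ψ xQ).1 (hmem' _) (hmem' _) ?_ P' Q' hP' hQ' hind' ?_ hℓ hℓ5 hgood hgood'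
  · exact_mod_cast happly
  · -- independence
    intro x y hxy
    have h0 : Ψ (x • xP + y • xQ) = 0 := by
      apply Subtype.ext
      rw [hcomb]
      exact hxy
    have h1 : x • xP + y • xQ = 0 := by
      rw [← map_zero Ψ] at h0
      exact Ψ.injective h0
    have h2 : x • P' + y • Q' = 0 := congrArg Subtype.val h1
    exact hind' x y h2
  · -- same matrices
    intro σ
    have hσP : (5 : ℕ) • (σ • P') = 0 := hmem' (σ • xP)
    have hσQ : (5 : ℕ) • (σ • Q') = 0 := hmem' (σ • xQ)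
    obtain ⟨a, c, hac⟩ := hspan' (σ • P') hσP
    obtain ⟨b, d, hbd⟩ := hspan' (σ • Q') hσQ
    refine ⟨a, b, c, d, ?_, ?_, hac, hbd⟩
    · have h1 : σ • xP = a • xP + c • xQ := Subtype.ext hac
      have h2 : (σ • Ψ xP : Submodule.torsionBy ℤ (W⁄Ω).Point (5 : ℕ)) = Ψ (a • xP + c • xQ) := by
        rw [← hΨ, h1]
      have h3 := congrArg Subtype.val h2
      rw [hcomb] at h3
      exact h3
    · have h1 : σ • xQ = b • xP + d • xQ := Subtype.ext hbd
      have h2 : (σ • Ψ xQ : Submodule.torsionBy ℤ (W⁄Ω).Point (5 : ℕ)) = Ψ (b • xP + d • xQ) := by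
        rw [← hΨ, h1]
      have h3 := congrArg Subtype.val h2
      rw [hcomb] at h3
      exact h3

end Fermat.Agent.S52x
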