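import Mathlib

set_option autoImplicit false

namespace Fermat.Agent.S52x

/-- independence of two `5`-torsion elements from "`t` is not a multiple of `s`" -/
theorem indep_of_ne_nsmul {M : Type*} [AddCommGroup M] (s t : M) (hs5 : 5 • s = 0)
    (ht5 : 5 • t = 0) (hs : s ≠ 0) (hts : ∀ k : ℕ, k < 5 → t ≠ k • s) (x y : ℤ)
    (h : x • s + y • t = 0) : (5 : ℤ) ∣ x ∧ (5 : ℤ) ∣ y := by
  have hp : Prime (5 : ℤ) := Int.prime_iff_natAbs_prime.mpr (by norm_num)
  have hs5' : (5 : ℤ) • s = 0 := by exact_mod_cast hs5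
  have ht5' : (5 : ℤ) • t = 0 := by exact_mod_cast ht5
  -- an element killed by `5` and by an integer prime to `5` is zero
  have key : ∀ (z : ℤ) (m : M), (5 : ℤ) • m = 0 → z • m = 0 → ¬ (5 : ℤ) ∣ z → m = 0 := by
    intro z m h5 hz hnd
    obtain ⟨a, b, hab⟩ := (hp.coprime_iff_not_dvd.mpr hnd)
    have : m = (a * 5 + b * z) • m := by rw [hab, one_smul]
    rw [this, add_smul, mul_smul, mul_smul, h5, hz, smul_zero, smul_zero, add_zero]
  have hy : (5 : ℤ) ∣ y := by
    by_contra hnd
    obtain ⟨a, b, hab⟩ := (hp.coprime_iff_not_dvd.mpr hnd)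
    -- `t = (b * y) • t = - (b * x) • s`
    have h1 : t = (-(b * x)) • s := by
      have h2 : y • t = -(x • s) := by
        rw [eq_neg_iff_add_eq_zero, add_comm]; exact h
      have : t = (a * 5 + b * y) • t := by rw [hab, one_smul]
      rw [this, add_smul, mul_smul, mul_smul, ht5', smul_zero, zero_add, h2, smul_neg, neg_smul,
        mul_smul]
    -- reduce the coefficient modulo `5`
    set c : ℤ := -(b * x) with hc
    have h3 : c • s = ((c % 5).toNat : ℕ) • s := by
      have hnn : 0 ≤ c % 5 := Int.emod_nonneg _ (by norm_num)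
      have : c = 5 * (c / 5) + c % 5 := (Int.mul_ediv_add_emod c 5).symm
      conv_lhs => rw [this, add_smul, mul_comm, mul_smul, hs5', smul_zero, zero_add]
      rw [← natCast_zsmul, Int.toNat_of_nonneg hnn]
    have hlt : (c % 5).toNat < 5 := by
      have : c % 5 < 5 := Int.emod_lt_of_pos _ (by norm_num)
      omega
    exact hts _ hlt (h1.trans h3)
  refine ⟨?_, hy⟩
  by_contra hnd
  obtain ⟨y', rfl⟩ := hy
  have hx : x • s = 0 := by
    rw [mul_comm, mul_smul, ht5', smul_zero, add_zero] at h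
    exact h
  exact hs (key x s hs5' hx hnd)

end Fermat.Agent.S52x
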