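/-
S52 / package [DESC] (helper9): Hilbert 90 for `GL_n` over a finite Galois extension, in the
"semilinear descent" form.  Mathlib only.

Convention: `B : Gal(L/K) → Mat_n(L)` is a 1-cocycle if `B (σ * τ) = σ(B τ) * B σ`; a vector `w` is
`B`-invariant if `σ(w) = B σ *ᵥ w` for all `σ` (so that `σ ∗ w := (B σ)⁻¹ σ(w)` is a semilinear
action and `w` is a fixed vector).  Main results:

* `poincare_invariant` : the Poincaré series `∑ τ, (B τ)⁻¹ *ᵥ τ(v)` is invariant;
* `span_invariant_eq_top` : the invariant vectors span `L^n` over `L`;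
* `exists_invariant_indep` : for `n = 2` and any `w₀ ≠ 0` there is an invariant `e` with
  `det (w₀ | e) ≠ 0`.
-/
import Mathlib

set_option autoImplicit false

namespace Fermat.Agent.S52x

open Matrix

section Finite

variable {K L : Type*} [Field K] [Field L] [Algebra K L]
variable {ι : Type*} [Fintype ι] [DecidableEq ι]

/-- `σ((B τ)⁻¹) = B σ * (B (σ τ))⁻¹` for a cocycle with invertible values. -/
theorem map_inv_of_cocycle (B : (L ≃ₐ[K] L) → Matrix ι ι L)
    (hunit : ∀ σ, IsUnit (B σ).det)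
    (hcoc : ∀ σ τ : L ≃ₐ[K] L, B (σ * τ) = (B τ).map σ * B σ) (σ τ : L ≃ₐ[K] L) :
    ((B τ)⁻¹).map σ = B σ * (B (σ * τ))⁻¹ := by
  have h1 : ((B τ)⁻¹).map σ * (B τ).map σ = 1 := by
    have := Matrix.map_mul (L := (B τ)⁻¹) (M := B τ) (f := (σ : L →+* L))
    have h2 : (B τ)⁻¹ * B τ = 1 := Matrix.nonsing_inv_mul _ (hunit τ)
    rw [h2] at this
    have h3 : (1 : Matrix ι ι L).map (σ : L →+* L) = 1 := by
      ext i j
      by_cases hij : i = j
      · subst hij; simp
      · simp [Matrix.one_apply_ne hij]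
    rw [h3] at this
    exact this.symm
  have h2 : ((B τ)⁻¹).map σ * B (σ * τ) = B σ := by
    rw [hcoc σ τ, ← Matrix.mul_assoc, h1, Matrix.one_mul]
  calc ((B τ)⁻¹).map σ = ((B τ)⁻¹).map σ * (B (σ * τ) * (B (σ * τ))⁻¹) := by
        rw [Matrix.mul_nonsing_inv _ (hunit _), Matrix.mul_one]
    _ = B σ * (B (σ * τ))⁻¹ := by rw [← Matrix.mul_assoc, h2]

variable [FiniteDimensional K L]

/-- The Poincaré series attached to a matrix-valued function on the Galois group. -/
noncomputable def poincare (B : (L ≃ₐ[K] L) → Matrix ι ι L) (v : ι → L) : ι → L :=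
  ∑ τ : L ≃ₐ[K] L, (B τ)⁻¹ *ᵥ (fun i => τ (v i))

/-- The Poincaré series is an invariant vector. -/
theorem poincare_invariant (B : (L ≃ₐ[K] L) → Matrix ι ι L)
    (hunit : ∀ σ, IsUnit (B σ).det)
    (hcoc : ∀ σ τ : L ≃ₐ[K] L, B (σ * τ) = (B τ).map σ * B σ) (v : ι → L)
    (σ : L ≃ₐ[K] L) :
    (fun i => σ (poincare B v i)) = B σ *ᵥ poincare B v := by
  have key : ∀ τ : L ≃ₐ[K] L,
      (fun i => σ (((B τ)⁻¹ *ᵥ (fun i => τ (v i))) i))
        = B σ *ᵥ ((B (σ * τ))⁻¹ *ᵥ (fun i => (σ * τ) (v i))) := by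
    intro τ
    funext i
    have := RingHom.map_mulVec (σ : L →+* L) ((B τ)⁻¹) (fun i => τ (v i)) i
    simp only [RingHom.coe_coe] at this
    rw [this, map_inv_of_cocycle B hunit hcoc σ τ, Matrix.mulVec_mulVec]
    rfl
  calc (fun i => σ (poincare B v i))
      = ∑ τ : L ≃ₐ[K] L, (fun i => σ (((B τ)⁻¹ *ᵥ (fun i => τ (v i))) i)) := by
        funext i
        simp only [poincare, Finset.sum_apply, map_sum]
    _ = ∑ τ : L ≃ₐ[K] L, B σ *ᵥ ((B (σ * τ))⁻¹ *ᵥ (fun i => (σ * τ) (v i))) := by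
        exact Finset.sum_congr rfl (fun τ _ => key τ)
    _ = B σ *ᵥ ∑ τ : L ≃ₐ[K] L, ((B (σ * τ))⁻¹ *ᵥ (fun i => (σ * τ) (v i))) := by
        rw [Matrix.mulVec_sum]
    _ = B σ *ᵥ poincare B v := by
        congr 1
        exact Fintype.sum_equiv (Equiv.mulLeft σ) _ _ (fun τ => rfl)

/-- Dedekind independence in the form needed below. -/
theorem coeff_eq_zero_of_sum_aut (a : (L ≃ₐ[K] L) → L)
    (h : ∀ c : L, ∑ τ : L ≃ₐ[K] L, τ c * a τ = 0) (τ : L ≃ₐ[K] L) : a τ = 0 := by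
  have hli : LinearIndependent L (fun (f : (L ≃ₐ[K] L)) => (f : L → L)) :=
    LinearIndependent.comp (ι' := (L ≃ₐ[K] L))
      (linearIndependent_monoidHom L L) (fun f => f)
      (fun x y h => by ext; exact DFunLike.ext_iff.1 h _)
  have h2 := Fintype.linearIndependent_iff.1 hli a
  apply h2
  funext c
  simp only [Finset.sum_apply, Pi.smul_apply, smul_eq_mul, Pi.zero_apply]
  rw [← h c]
  exact Finset.sum_congr rfl (fun τ _ => mul_comm _ _)

/-- **Hilbert 90 for `GL_n`, descent form**: the invariant vectors span. -/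
theorem span_invariant_eq_top (B : (L ≃ₐ[K] L) → Matrix ι ι L)
    (hunit : ∀ σ, IsUnit (B σ).det)
    (hcoc : ∀ σ τ : L ≃ₐ[K] L, B (σ * τ) = (B τ).map σ * B σ) :
    Submodule.span L {w : ι → L | ∀ σ : L ≃ₐ[K] L, (fun i => σ (w i)) = B σ *ᵥ w} = ⊤ := by
  by_contra hne
  obtain ⟨f, hf0, hfker⟩ := Submodule.exists_le_ker_of_lt_top _ (lt_top_iff_ne_top.2 hne)
  apply hf0
  have hP : ∀ v : ι → L, f (poincare B v) = 0 := by
    intro v
    have : poincare B v ∈ LinearMap.ker f :=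
      hfker (Submodule.subset_span (fun σ => poincare_invariant B hunit hcoc v σ))
    exact this
  have hterm : ∀ (v : ι → L) (τ : L ≃ₐ[K] L),
      f ((B τ)⁻¹ *ᵥ (fun i => τ (v i))) = 0 := by
    intro v
    apply coeff_eq_zero_of_sum_aut
    intro c
    have h1 := hP (c • v)
    have h2 : poincare B (c • v)
        = ∑ τ : L ≃ₐ[K] L, τ c • ((B τ)⁻¹ *ᵥ (fun i => τ (v i))) := by
      unfold poincare
      refine Finset.sum_congr rfl (fun τ _ => ?_)
      rw [← Matrix.mulVec_smul]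
      congr 1
      funext i
      simp
    rw [h2, map_sum] at h1
    rw [← h1]
    refine Finset.sum_congr rfl (fun τ _ => ?_)
    rw [map_smul, smul_eq_mul]
  apply LinearMap.ext
  intro u
  have h3 := hterm (B 1 *ᵥ u) 1
  have h4 : (B 1)⁻¹ *ᵥ (fun i => (1 : L ≃ₐ[K] L) ((B 1 *ᵥ u) i)) = u := by
    have : (fun i => (1 : L ≃ₐ[K] L) ((B 1 *ᵥ u) i)) = B 1 *ᵥ u := by
      funext i; rfl
    rw [this, Matrix.mulVec_mulVec, Matrix.nonsing_inv_mul _ (hunit 1), Matrix.one_mulVec]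
  rw [h4] at h3
  simpa using h3

/-- For `n = 2`: any nonzero vector can be completed to a basis by an invariant vector. -/
theorem exists_invariant_indep (B : (L ≃ₐ[K] L) → Matrix (Fin 2) (Fin 2) L)
    (hunit : ∀ σ, IsUnit (B σ).det)
    (hcoc : ∀ σ τ : L ≃ₐ[K] L, B (σ * τ) = (B τ).map σ * B σ)
    (w₀ : Fin 2 → L) (hw₀ : w₀ ≠ 0) :
    ∃ e : Fin 2 → L, (∀ σ : L ≃ₐ[K] L, (fun i => σ (e i)) = B σ *ᵥ e) ∧
      w₀ 0 * e 1 - w₀ 1 * e 0 ≠ 0 := by
  by_contra hcon
  have hall : ∀ e : Fin 2 → L, (∀ σ : L ≃ₐ[K] L, (fun i => σ (e i)) = B σ *ᵥ e) →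
      w₀ 0 * e 1 - w₀ 1 * e 0 = 0 := by
    intro e he
    by_contra h
    exact hcon ⟨e, he, h⟩
  -- the functional `e ↦ det (w₀ | e)`
  let φ : (Fin 2 → L) →ₗ[L] L :=
    { toFun := fun e => w₀ 0 * e 1 - w₀ 1 * e 0
      map_add' := fun x y => by simp only [Pi.add_apply]; ring
      map_smul' := fun c x => by simp only [Pi.smul_apply, smul_eq_mul, RingHom.id_apply]; ring }
  have hle : Submodule.span L {w : Fin 2 → L | ∀ σ : L ≃ₐ[K] L, (fun i => σ (w i)) = B σ *ᵥ w}
      ≤ LinearMap.ker φ := by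
    rw [Submodule.span_le]
    intro e he
    exact hall e he
  rw [span_invariant_eq_top B hunit hcoc] at hle
  have h0 : ∀ e : Fin 2 → L, w₀ 0 * e 1 - w₀ 1 * e 0 = 0 := fun e => hle (Submodule.mem_top)
  apply hw₀
  funext i
  fin_cases i
  · have := h0 ![0, 1]
    simpa using this
  · have := h0 ![1, 0]
    simpa using this

end Finite

section Infinite

variable {K Ω : Type*} [Field K] [Field Ω] [Algebra K Ω] [Normal K Ω]

/-- **Descent over an infinite normal extension with a finite level.**  A `GL₂(Ω)`-valued cocycle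
on `Aut(Ω/K)` which has entries in a finite normal subextension `L` and only depends on the
restriction to `L` admits an invariant vector (with entries in `L`) complementing any given
nonzero `w₀ ∈ L²`. -/
theorem exists_invariant_indep_of_finiteLevel
    (B : (Ω ≃ₐ[K] Ω) → Matrix (Fin 2) (Fin 2) Ω)
    (hunit : ∀ σ, IsUnit (B σ).det)
    (hcoc : ∀ σ τ : Ω ≃ₐ[K] Ω, B (σ * τ) = (B τ).map σ * B σ)
    (L : IntermediateField K Ω) [FiniteDimensional K L] [Normal K L]
    (hBL : ∀ σ i j, B σ i j ∈ L)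
    (hBres : ∀ σ σ' : Ω ≃ₐ[K] Ω, (∀ x ∈ L, σ x = σ' x) → B σ = B σ')
    (w₀ : Fin 2 → Ω) (hw₀L : ∀ i, w₀ i ∈ L) (hw₀ : w₀ ≠ 0) :
    ∃ e : Fin 2 → Ω, (∀ i, e i ∈ L) ∧
      (∀ σ : Ω ≃ₐ[K] Ω, (fun i => σ (e i)) = B σ *ᵥ e) ∧
      w₀ 0 * e 1 - w₀ 1 * e 0 ≠ 0 := by
  classical
  -- the finite-level cocycle
  let BL : (L ≃ₐ[K] L) → Matrix (Fin 2) (Fin 2) L :=
    fun s i j => ⟨B (s.liftNormal Ω) i j, hBL _ i j⟩
  have hlift : ∀ (s : L ≃ₐ[K] L) (x : L), (s.liftNormal Ω) (x : Ω) = ((s x : L) : Ω) :=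
    fun s x => AlgEquiv.liftNormal_commutes s Ω x
  have hBLcoe : ∀ s i j, ((BL s i j : L) : Ω) = B (s.liftNormal Ω) i j := fun s i j => rfl
  have hunitL : ∀ s, IsUnit (BL s).det := by
    intro s
    rw [isUnit_iff_ne_zero]
    intro h0
    have h1 : (algebraMap L Ω) (BL s).det = (B (s.liftNormal Ω)).det := by
      rw [RingHom.map_det]
      congr 1
    rw [h0, map_zero] at h1
    exact (isUnit_iff_ne_zero.1 (hunit (s.liftNormal Ω))) h1.symm
  have hcocL : ∀ s t : L ≃ₐ[K] L, BL (s * t) = (BL t).map s * BL s := by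
    intro s t
    have hB : B ((s * t).liftNormal Ω) = B (s.liftNormal Ω * t.liftNormal Ω) := by
      apply hBres
      intro x hx
      have h1 := hlift (s * t) ⟨x, hx⟩
      have h2 := hlift t ⟨x, hx⟩
      have h3 := hlift s (t ⟨x, hx⟩)
      simp only at h1 h2 h3
      rw [h1]
      have h4 : (s.liftNormal Ω * t.liftNormal Ω) x = (s.liftNormal Ω) ((t.liftNormal Ω) x) := rfl
      rw [h4, h2, h3]
      rfl
    ext i j
    rw [hBLcoe, hB, hcoc]
    simp only [Matrix.mul_apply, Matrix.map_apply]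
    push_cast
    refine Finset.sum_congr rfl (fun k _ => ?_)
    rw [hBLcoe, ← hlift s (BL t i k), hBLcoe]
  let w₀L : Fin 2 → L := fun i => ⟨w₀ i, hw₀L i⟩
  have hw₀L0 : w₀L ≠ 0 := by
    intro h
    apply hw₀
    funext i
    have := congrFun h i
    exact congrArg (fun x : L => (x : Ω)) this
  obtain ⟨eL, heL, hdet⟩ := exists_invariant_indep BL hunitL hcocL w₀L hw₀L0
  refine ⟨fun i => (eL i : Ω), fun i => (eL i).2, ?_, ?_⟩
  · intro σ
    have hres : ∀ x : L, σ (x : Ω) = ((σ.restrictNormal L x : L) : Ω) :=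
      fun x => (AlgEquiv.restrictNormal_commutes σ L x).symm
    have hB : B ((σ.restrictNormal L).liftNormal Ω) = B σ := by
      apply hBres
      intro x hx
      have h1 := hlift (σ.restrictNormal L) ⟨x, hx⟩
      have h2 := hres ⟨x, hx⟩
      simp only at h1 h2
      rw [h1, h2]
    funext i
    have h1 := congrFun (heL (σ.restrictNormal L)) i
    rw [hres, h1]
    simp only [Matrix.mulVec, dotProduct]
    push_cast
    refine Finset.sum_congr rfl (fun k _ => ?_)
    rw [hBLcoe, hB]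
  · intro h
    apply hdet
    apply Subtype.ext
    push_cast
    exact h

end Infinite

end Fermat.Agent.S52x
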